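import Fermat.Agent.LR.GaloisInputEll
import Fermat.Agent.EllRed.FrobeniusMain

/-! # `FrobTraceInput` holds (team LR) -/

set_option autoImplicit false

open WeierstrassCurve WeierstrassCurve.Affine WeierstrassCurve.Affine.Point
open scoped WeierstrassCurve.Affine

namespace Fermat.Agent.LR.GaloisInput

theorem frobTraceInput (W : WeierstrassCurve ℤ) {p : ℕ} (hp : p.Prime) : FrobTraceInput W p := by
  intro ℓ hℓ hgood hℓp A hA σ hσ
  have hn : ¬ ℓ ∣ p := fun h => hℓp ((Nat.prime_dvd_prime_iff_eq hℓ hp).mp h)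
  exact ⟨EllRed.galoisTrace_frob W hℓ hgood hn A hA hσ, EllRed.det_frob W hℓ hgood hn A hA hσ⟩

end Fermat.Agent.LR.GaloisInput
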