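import Mathlib

/-!
# Modular symbols for subgroups of `SL(2,ℤ)` : basic definitions (team LR)

* `Cusp = OnePoint ℚ = ℙ¹(ℚ)` with the Mathlib action of `GL (Fin 2) ℚ`.
* `Pairs R = Cusp → Cusp → R`, right action `slash g x = fun a b ↦ x (g • a) (g • b)`.
* `MS Γ R` = modular symbols : additive functions on pairs of cusps, invariant under `Γ`.
* `heckeT ℓ`, `heckeU ℓ`, `degen q` (`x ↦ x|diag(q,1)`).
-/

set_option autoImplicit false

open Matrix Matrix.SpecialLinearGroup CongruenceSubgroup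
open scoped MatrixGroups OnePoint

namespace Fermat.Agent.LR

/-- The cusps `ℙ¹(ℚ)`. -/
abbrev Cusp : Type := OnePoint ℚ

/-- Functions on pairs of cusps. -/
abbrev Pairs (R : Type*) : Type _ := Cusp → Cusp → R

variable {R : Type*} [CommRing R]

/-- `(x|g)(a,b) = x(g a, g b)`. -/
def slash (g : GL (Fin 2) ℚ) : Pairs R →ₗ[R] Pairs R where
  toFun x := fun a b => x (g • a) (g • b)
  map_add' _ _ := rfl
  map_smul' _ _ := rfl

theorem slash_apply (g : GL (Fin 2) ℚ) (x : Pairs R) (a b : Cusp) :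
    slash g x a b = x (g • a) (g • b) := rfl

@[simp] theorem slash_one (x : Pairs R) : slash 1 x = x := by
  funext a b; simp [slash_apply]

theorem slash_mul (g h : GL (Fin 2) ℚ) (x : Pairs R) : slash (g * h) x = slash h (slash g x) := by
  funext a b; simp [slash_apply, mul_smul]

/-- The image of an element of `SL(2,ℤ)` in `GL(2,ℚ)`. -/
noncomputable abbrev toQ (γ : SL(2, ℤ)) : GL (Fin 2) ℚ := mapGL ℚ γ

/-- Modular symbols for `Γ ≤ SL(2,ℤ)` with values in `R`. -/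
def MS (Γ : Subgroup SL(2, ℤ)) (R : Type*) [CommRing R] : Submodule R (Pairs R) where
  carrier := {x | (∀ a b c, x a b + x b c = x a c) ∧ ∀ γ ∈ Γ, slash (toQ γ) x = x}
  zero_mem' := ⟨by simp, by simp⟩
  add_mem' := by
    rintro x y ⟨hx, hx'⟩ ⟨hy, hy'⟩
    refine ⟨fun a b c => ?_, fun γ hγ => ?_⟩
    · have h1 := hx a b c
      have h2 := hy a b c
      simp only [Pi.add_apply]
      rw [← h1, ← h2]; ring
    · rw [map_add, hx' γ hγ, hy' γ hγ]
  smul_mem' := by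
    rintro r x ⟨hx, hx'⟩
    refine ⟨fun a b c => ?_, fun γ hγ => ?_⟩
    · simp only [Pi.smul_apply, smul_eq_mul]
      rw [← hx a b c]; ring
    · rw [map_smul, hx' γ hγ]

theorem mem_MS {Γ : Subgroup SL(2, ℤ)} {x : Pairs R} :
    x ∈ MS Γ R ↔ (∀ a b c, x a b + x b c = x a c) ∧ ∀ γ ∈ Γ, slash (toQ γ) x = x := Iff.rfl

theorem MS_mono {Γ Γ' : Subgroup SL(2, ℤ)} (h : Γ ≤ Γ') : MS Γ' R ≤ MS Γ R :=
  fun _ hx => ⟨hx.1, fun γ hγ => hx.2 γ (h hγ)⟩

theorem add_self_eq_zero {x : Pairs R} (hx : ∀ a b c, x a b + x b c = x a c) (a : Cusp) :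
    x a a = 0 := by
  have := hx a a a
  simpa using this

theorem neg_swap {x : Pairs R} (hx : ∀ a b c, x a b + x b c = x a c) (a b : Cusp) :
    x b a = - x a b := by
  have := hx a b a
  rw [add_self_eq_zero hx] at this
  linear_combination this

/-- change of coefficients -/
def mapCoeff {R S : Type*} [CommRing R] [CommRing S] (f : R →+* S) : Pairs R →+ Pairs S where
  toFun x := fun a b => f (x a b)
  map_zero' := by funext a b; simp
  map_add' x y := by funext a b; simp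

theorem mapCoeff_apply {R S : Type*} [CommRing R] [CommRing S] (f : R →+* S) (x : Pairs R)
    (a b : Cusp) : mapCoeff f x a b = f (x a b) := rfl

theorem mapCoeff_slash {R S : Type*} [CommRing R] [CommRing S] (f : R →+* S) (g : GL (Fin 2) ℚ)
    (x : Pairs R) : mapCoeff f (slash g x) = slash g (mapCoeff f x) := rfl

theorem mapCoeff_mem {R S : Type*} [CommRing R] [CommRing S] (f : R →+* S)
    {Γ : Subgroup SL(2, ℤ)} {x : Pairs R} (hx : x ∈ MS Γ R) : mapCoeff f x ∈ MS Γ S := by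
  refine ⟨fun a b c => ?_, fun γ hγ => ?_⟩
  · simp only [mapCoeff_apply]; rw [← map_add, hx.1]
  · rw [← mapCoeff_slash, hx.2 γ hγ]

/-! ### Hecke matrices -/

/-- `!![a, b; 0, d]` in `GL(2,ℚ)` (`1` if `a * d = 0`). -/
noncomputable def triMat (a b d : ℤ) : GL (Fin 2) ℚ :=
  if h : a * d = 0 then 1 else
    GeneralLinearGroup.mkOfDetNeZero !![(a : ℚ), (b : ℚ); 0, (d : ℚ)]
      (by rw [det_fin_two_of, mul_zero, sub_zero]; exact_mod_cast h)

theorem val_triMat {a d : ℤ} (b : ℤ) (h : a * d ≠ 0) :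
    (triMat a b d : Matrix (Fin 2) (Fin 2) ℚ) = !![(a : ℚ), (b : ℚ); 0, (d : ℚ)] := by
  rw [triMat, dif_neg h]; rfl

/-- `[1 j; 0 ℓ]`. -/
noncomputable abbrev heckeMat (ℓ : ℕ) (j : ℤ) : GL (Fin 2) ℚ := triMat 1 j ℓ

/-- `[ℓ 0; 0 1]`. -/
noncomputable abbrev diagMat (ℓ : ℕ) : GL (Fin 2) ℚ := triMat ℓ 0 1

/-- `U_ℓ` : sum over `[1 j; 0 ℓ]`, `0 ≤ j < ℓ`. -/
noncomputable def heckeU (ℓ : ℕ) : Pairs R →ₗ[R] Pairs R :=
  ∑ j ∈ Finset.range ℓ, slash (heckeMat ℓ j)

/-- degeneracy map `x ↦ x | diag(q,1)`. -/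
noncomputable def degen (q : ℕ) : Pairs R →ₗ[R] Pairs R := slash (diagMat q)

/-- `T_ℓ`. -/
noncomputable def heckeT (ℓ : ℕ) : Pairs R →ₗ[R] Pairs R := heckeU ℓ + degen ℓ

theorem heckeU_apply (ℓ : ℕ) (x : Pairs R) :
    heckeU ℓ x = ∑ j ∈ Finset.range ℓ, slash (heckeMat ℓ j) x := by
  simp [heckeU]

theorem degen_apply (q : ℕ) (x : Pairs R) : degen q x = slash (diagMat q) x := rfl

theorem heckeT_apply (ℓ : ℕ) (x : Pairs R) :
    heckeT ℓ x = heckeU ℓ x + degen ℓ x := rfl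

theorem mapCoeff_heckeU {R S : Type*} [CommRing R] [CommRing S] (f : R →+* S) (ℓ : ℕ)
    (x : Pairs R) : mapCoeff f (heckeU ℓ x) = heckeU ℓ (mapCoeff f x) := by
  simp only [heckeU_apply, map_sum, mapCoeff_slash]

theorem mapCoeff_heckeT {R S : Type*} [CommRing R] [CommRing S] (f : R →+* S) (ℓ : ℕ)
    (x : Pairs R) : mapCoeff f (heckeT ℓ x) = heckeT ℓ (mapCoeff f x) := by
  simp only [heckeT_apply, map_add, mapCoeff_heckeU, degen_apply, mapCoeff_slash]

end Fermat.Agent.LR
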