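import Mathlib
import Fermat.Agent.LR.Basic
import Fermat.Prelude.Thm_ModularForm_heckeT_slash_eq_self_of_mem_Gamma0
import Fermat.Prelude.Thm_ModularForm_heckeU_slash_eq_self_of_mem_Gamma0

/-!
# Hecke operators preserve `Γ₀(N)`-invariance (team LR)
-/

set_option autoImplicit false
set_option linter.unusedSectionVars false

noncomputable section

open CongruenceSubgroup Matrix Matrix.SpecialLinearGroup
open scoped MatrixGroups OnePoint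

namespace Fermat.Agent.LR.PS

/-- The image of `GL(2,ℚ)` in `GL(2,ℝ)`. -/
abbrev toR (α : GL (Fin 2) ℚ) : GL (Fin 2) ℝ := GeneralLinearGroup.map (algebraMap ℚ ℝ) α

theorem toR_toQ (δ : SL(2, ℤ)) : toR (toQ δ) = (δ : GL (Fin 2) ℝ) := by
  ext i j
  simp [toR, toQ]

theorem toR_injective : Function.Injective toR := by
  intro α β h
  apply Units.ext
  ext i j
  have h1 : (toR α) i j = (toR β) i j := by rw [h]
  exact (algebraMap ℚ ℝ).injective h1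

theorem toR_heckeMat {ℓ : ℕ} (hℓ : ℓ ≠ 0) (j : ℕ) :
    toR (heckeMat ℓ (j : ℤ)) = ModularForm.heckeMatrix ℓ j := by
  have h : (1 : ℤ) * (ℓ : ℤ) ≠ 0 := by simpa using hℓ
  apply Units.ext
  rw [ModularForm.val_heckeMatrix hℓ]
  have h1 : (toR (heckeMat ℓ (j : ℤ)) : Matrix (Fin 2) (Fin 2) ℝ) =
    (heckeMat ℓ (j : ℤ) : Matrix (Fin 2) (Fin 2) ℚ).map (algebraMap ℚ ℝ) := rfl
  rw [h1, val_triMat _ h]
  ext i k
  fin_cases i <;> fin_cases k <;> simp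

theorem toR_diagMat {ℓ : ℕ} (hℓ : ℓ ≠ 0) :
    toR (diagMat ℓ) = ModularForm.heckeDiagMatrix ℓ := by
  have h : (ℓ : ℤ) * (1 : ℤ) ≠ 0 := by simpa using hℓ
  apply Units.ext
  rw [ModularForm.val_heckeDiagMatrix hℓ]
  have h1 : (toR (diagMat ℓ) : Matrix (Fin 2) (Fin 2) ℝ) =
    (diagMat ℓ : Matrix (Fin 2) (Fin 2) ℚ).map (algebraMap ℚ ℝ) := rfl
  rw [h1, val_triMat _ h]
  ext i k
  fin_cases i <;> fin_cases k <;> simp

section general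

variable {X A : Type*} [MulAction (GL (Fin 2) ℚ) X] [AddCommMonoid A]

/-- The `T_ℓ`-sum of a function on a `GL(2,ℚ)`-set. -/
def sumT (ℓ : ℕ) (ψ : X → A) (x : X) : A :=
  (∑ j ∈ Finset.range ℓ, ψ (heckeMat ℓ (j : ℤ) • x)) + ψ (diagMat ℓ • x)

/-- The `U_ℓ`-sum of a function on a `GL(2,ℚ)`-set. -/
def sumU (ℓ : ℕ) (ψ : X → A) (x : X) : A :=
  ∑ j ∈ Finset.range ℓ, ψ (heckeMat ℓ (j : ℤ) • x)

/-- representatives over `ℚ` -/
def repQ (ℓ : ℕ) (x : OnePoint (ZMod ℓ)) : GL (Fin 2) ℚ :=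
  x.elim (diagMat ℓ) (fun j => heckeMat ℓ (j.val : ℤ))

open P2MW.S_ModularForm_heckeT_slash_eq_self_of_mem_Gamma0.ModularForm.HeckeSlashInvariance in
theorem toR_repQ {ℓ : ℕ} (hℓ : ℓ ≠ 0) (x : OnePoint (ZMod ℓ)) : toR (repQ ℓ x) = heckeRep ℓ x := by
  induction x using OnePoint.rec with
  | infty => exact toR_diagMat hℓ
  | coe j => exact toR_heckeMat hℓ j.val

open P2MW.S_ModularForm_heckeT_slash_eq_self_of_mem_Gamma0.ModularForm.HeckeSlashInvariance in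
/-- Coset permutation for `T_ℓ`. -/
theorem exists_perm_heckeT {N ℓ : ℕ} [hF : Fact ℓ.Prime] (hℓ : ¬ ℓ ∣ N) {γ : SL(2, ℤ)}
    (hγ : γ ∈ Gamma0 N) (x : OnePoint (ZMod ℓ)) :
    ∃ γ' ∈ Gamma0 N, repQ ℓ x * toQ γ = toQ γ' * repQ ℓ (redMatrix ℓ γ • x) := by
  have hcN : (N : ℤ) ∣ γ 1 0 := (ZMod.intCast_zmod_eq_zero_iff_dvd _ _).mp (Gamma0_mem.mp hγ)
  obtain ⟨g', hg', h⟩ := heckeRep_mul hℓ γ hcN x
  refine ⟨g', Gamma0_mem.mpr ((ZMod.intCast_zmod_eq_zero_iff_dvd _ _).mpr hg'), ?_⟩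
  apply toR_injective
  rw [toR, toR, map_mul, map_mul, ← toR, ← toR, ← toR, ← toR, toR_repQ hF.out.ne_zero,
    toR_repQ hF.out.ne_zero, toR_toQ, toR_toQ]
  exact h

theorem sumT_eq {ℓ : ℕ} [NeZero ℓ] (ψ : X → A) (x : X) :
    sumT ℓ ψ x = ∑ i : OnePoint (ZMod ℓ), ψ (repQ ℓ i • x) := by
  rw [sumT, add_comm]
  have h1 := P2MW.S_ModularForm_heckeT_slash_eq_self_of_mem_Gamma0.ModularForm.HeckeSlashInvariance.sum_range_eq_sum_zmod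
    (p := ℓ) (fun j => ψ (heckeMat ℓ (j : ℤ) • x))
  rw [h1]
  exact (Fintype.sum_option (fun i : OnePoint (ZMod ℓ) ↦ ψ (repQ ℓ i • x))).symm

open P2MW.S_ModularForm_heckeT_slash_eq_self_of_mem_Gamma0.ModularForm.HeckeSlashInvariance in
/-- `T_ℓ` preserves `Γ₀(N)`-invariance. -/
theorem sumT_invariant {N ℓ : ℕ} (hp : ℓ.Prime) (hℓ : ¬ ℓ ∣ N) {ψ : X → A}
    (hψ : ∀ γ ∈ Gamma0 N, ∀ x, ψ (toQ γ • x) = ψ x) {γ : SL(2, ℤ)} (hγ : γ ∈ Gamma0 N) (x : X) :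
    sumT ℓ ψ (toQ γ • x) = sumT ℓ ψ x := by
  have : Fact ℓ.Prime := ⟨hp⟩
  have : NeZero ℓ := ⟨hp.ne_zero⟩
  rw [sumT_eq, sumT_eq, ← Equiv.sum_comp (MulAction.toPerm (redMatrix ℓ γ))
    (fun i => ψ (repQ ℓ i • x))]
  refine Finset.sum_congr rfl fun i _ => ?_
  obtain ⟨γ', hγ', h⟩ := exists_perm_heckeT hℓ hγ i
  rw [← mul_smul, h, mul_smul, hψ γ' hγ']
  rfl

open P2MW.S_ModularForm_heckeU_slash_eq_self_of_mem_Gamma0.ModularForm.HeckeSlashInvariance in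
/-- Coset permutation for `U_ℓ`. -/
theorem exists_perm_heckeU {N ℓ : ℕ} [NeZero ℓ] {γ : SL(2, ℤ)}
    (hγ : γ ∈ Gamma0 N) (hc : ((γ 1 0 : ℤ) : ZMod ℓ) = 0) (x : ZMod ℓ) :
    ∃ γ' ∈ Gamma0 N, heckeMat ℓ (x.val : ℤ) * toQ γ =
      toQ γ' * heckeMat ℓ ((affinePerm γ hc x).val : ℤ) := by
  have hc' : (ℓ : ℤ) ∣ γ 1 0 := (ZMod.intCast_zmod_eq_zero_iff_dvd _ _).mp hc
  obtain ⟨g', hg', h⟩ := heckeMatrix_mul_of_dvd γ hc' x
  refine ⟨g', ?_, ?_⟩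
  · rw [Gamma0_mem, hg']
    push_cast
    rw [Gamma0_mem.mp hγ, mul_zero]
  · apply toR_injective
    rw [toR, toR, map_mul, map_mul, ← toR, ← toR, ← toR, ← toR, toR_heckeMat (NeZero.ne ℓ),
      toR_heckeMat (NeZero.ne ℓ), toR_toQ, toR_toQ]
    exact h

open P2MW.S_ModularForm_heckeU_slash_eq_self_of_mem_Gamma0.ModularForm.HeckeSlashInvariance in
/-- `U_ℓ` preserves `Γ₀(N)`-invariance. -/
theorem sumU_invariant {N ℓ : ℕ} (hℓ0 : ℓ ≠ 0) (hℓ : ℓ ∣ N) {ψ : X → A}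
    (hψ : ∀ γ ∈ Gamma0 N, ∀ x, ψ (toQ γ • x) = ψ x) {γ : SL(2, ℤ)} (hγ : γ ∈ Gamma0 N) (x : X) :
    sumU ℓ ψ (toQ γ • x) = sumU ℓ ψ x := by
  have : NeZero ℓ := ⟨hℓ0⟩
  have hcN : (N : ℤ) ∣ γ 1 0 := (ZMod.intCast_zmod_eq_zero_iff_dvd _ _).mp (Gamma0_mem.mp hγ)
  have hc : ((γ 1 0 : ℤ) : ZMod ℓ) = 0 := (ZMod.intCast_zmod_eq_zero_iff_dvd _ _).mpr
    ((Int.natCast_dvd_natCast.mpr hℓ).trans hcN)
  rw [sumU, sumU, sum_range_eq_sum_zmod, sum_range_eq_sum_zmod,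
    ← Equiv.sum_comp (affinePerm γ hc) (fun i => ψ (heckeMat ℓ (i.val : ℤ) • x))]
  refine Finset.sum_congr rfl fun i _ => ?_
  obtain ⟨γ', hγ', h⟩ := exists_perm_heckeU hγ hc i
  rw [← mul_smul, h, mul_smul, hψ γ' hγ']

end general

variable {R : Type*} [CommRing R]

theorem heckeU_apply_apply (ℓ : ℕ) (x : Pairs R) (a b : Cusp) :
    heckeU ℓ x a b = sumU ℓ (fun c : Cusp × Cusp => x c.1 c.2) (a, b) := by
  rw [heckeU_apply, sumU]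
  simp only [Finset.sum_apply]
  rfl

theorem heckeT_apply_apply (ℓ : ℕ) (x : Pairs R) (a b : Cusp) :
    heckeT ℓ x a b = sumT ℓ (fun c : Cusp × Cusp => x c.1 c.2) (a, b) := by
  rw [heckeT_apply, sumT]
  simp only [Pi.add_apply]
  rw [heckeU_apply_apply]
  rfl

theorem slash_add_trans {x : Pairs R} (h : ∀ a b c, x a b + x b c = x a c) (g : GL (Fin 2) ℚ)
    (a b c : Cusp) : slash g x a b + slash g x b c = slash g x a c := h _ _ _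

theorem heckeU_add_trans {x : Pairs R} (h : ∀ a b c, x a b + x b c = x a c) (ℓ : ℕ)
    (a b c : Cusp) : heckeU ℓ x a b + heckeU ℓ x b c = heckeU ℓ x a c := by
  simp only [heckeU_apply, Finset.sum_apply, ← Finset.sum_add_distrib, slash_add_trans h]

theorem heckeT_add_trans {x : Pairs R} (h : ∀ a b c, x a b + x b c = x a c) (ℓ : ℕ)
    (a b c : Cusp) : heckeT ℓ x a b + heckeT ℓ x b c = heckeT ℓ x a c := by
  simp only [heckeT_apply, Pi.add_apply, degen_apply]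
  rw [← heckeU_add_trans h ℓ a b c, ← slash_add_trans h (diagMat ℓ) a b c]
  ring

theorem heckeT_mem {N ℓ : ℕ} (hp : ℓ.Prime) (hℓ : ¬ ℓ ∣ N) {x : Pairs R}
    (hx : x ∈ MS (Gamma0 N) R) : heckeT ℓ x ∈ MS (Gamma0 N) R := by
  refine ⟨heckeT_add_trans hx.1 ℓ, fun γ hγ => ?_⟩
  funext a b
  rw [slash_apply, heckeT_apply_apply, heckeT_apply_apply]
  exact sumT_invariant (X := Cusp × Cusp) hp hℓ
    (fun γ hγ c => congrFun (congrFun (hx.2 γ hγ) c.1) c.2) hγ (a, b)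

theorem heckeU_mem {N ℓ : ℕ} (hℓ0 : ℓ ≠ 0) (hℓ : ℓ ∣ N) {x : Pairs R}
    (hx : x ∈ MS (Gamma0 N) R) : heckeU ℓ x ∈ MS (Gamma0 N) R := by
  refine ⟨heckeU_add_trans hx.1 ℓ, fun γ hγ => ?_⟩
  funext a b
  rw [slash_apply, heckeU_apply_apply, heckeU_apply_apply]
  exact sumU_invariant (X := Cusp × Cusp) hℓ0 hℓ
    (fun γ hγ c => congrFun (congrFun (hx.2 γ hγ) c.1) c.2) hγ (a, b)

end Fermat.Agent.LR.PS
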