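import Mathlib
import Fermat.Agent.ES.Injective
import Fermat.Agent.LR.Basic
import Fermat.Agent.LR.HeckeInv
import Fermat.Agent.HeckeDualityC
import Fermat.Agent.Lib.EigenCharacter

/-!
# Period symbols of cusp forms of weight two (team LR, piece P9)
-/

set_option autoImplicit false
set_option linter.unusedSectionVars false

noncomputable section

open UpperHalfPlane Filter Topology CongruenceSubgroup Matrix Matrix.SpecialLinearGroup
open scoped MatrixGroups ModularForm OnePoint

namespace Fermat.Agent.LR.PS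

open Fermat.Agent.ES

/-! ### values at cusps -/

/-- `v` gives the values of `F` at all cusps. -/
def HasCuspValues (F : ℍ → ℂ) (v : Cusp → ℂ) : Prop :=
  ∀ δ : SL(2, ℤ), Tendsto (fun w : ℍ => F (δ • w)) atImInfty (𝓝 (v (toQ δ • (∞ : Cusp))))

theorem exists_toQ_smul_infty (c : Cusp) : ∃ δ : SL(2, ℤ), toQ δ • (∞ : Cusp) = c :=
  OnePoint.exists_mem_SL2 ℤ c

theorem HasCuspValues.unique {F : ℍ → ℂ} {v v' : Cusp → ℂ} (h : HasCuspValues F v)
    (h' : HasCuspValues F v') : v = v' := by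
  funext c
  obtain ⟨δ, rfl⟩ := exists_toQ_smul_infty c
  exact tendsto_nhds_unique (h δ) (h' δ)

theorem toQ_apply (δ : SL(2, ℤ)) (i j : Fin 2) : (toQ δ : Matrix (Fin 2) (Fin 2) ℚ) i j = δ i j := by
  simp [toQ]

theorem toQ_smul_infty_eq_iff (δ δ' : SL(2, ℤ)) :
    toQ δ • (∞ : Cusp) = toQ δ' • (∞ : Cusp) ↔ (δ⁻¹ * δ') 1 0 = 0 := by
  rw [eq_comm, ← inv_smul_eq_iff, ← mul_smul, ← map_inv, ← map_mul, OnePoint.smul_infty_eq_self_iff,
    toQ_apply]
  exact_mod_cast Iff.rfl

theorem exists_hasCuspValues {F : ℍ → ℂ}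
    (h : ∀ δ : SL(2, ℤ), ∃ L : ℂ, Tendsto (fun w : ℍ => F (δ • w)) atImInfty (𝓝 L)) :
    ∃ v : Cusp → ℂ, HasCuspValues F v := by
  choose L hL using h
  choose d hd using exists_toQ_smul_infty
  refine ⟨fun c => L (d c), fun δ => ?_⟩
  have h1 := hd (toQ δ • ∞)
  rw [toQ_smul_infty_eq_iff] at h1
  obtain ⟨n, hn⟩ := ModularGroup.exists_eq_T_zpow_of_c_eq_zero h1
  have h2 := (hL (d (toQ δ • ∞))).comp (T_zpow_smul_tendsto n)
  refine h2.congr fun w => ?_
  simp only [Function.comp_apply]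
  rw [← hn w, ← mul_smul]
  congr 2
  group

theorem HasCuspValues.add {F G : ℍ → ℂ} {v w : Cusp → ℂ} (hF : HasCuspValues F v)
    (hG : HasCuspValues G w) : HasCuspValues (F + G) (v + w) := fun δ => (hF δ).add (hG δ)

theorem HasCuspValues.smul {F : ℍ → ℂ} {v : Cusp → ℂ} (c : ℂ) (hF : HasCuspValues F v) :
    HasCuspValues (c • F) (c • v) := fun δ => (hF δ).const_smul c

theorem HasCuspValues.const (c : ℂ) : HasCuspValues (fun _ => c) (fun _ => c) :=
  fun _ => tendsto_const_nhds

theorem HasCuspValues.sum {ι : Type*} (s : Finset ι) {F : ι → ℍ → ℂ} {v : ι → Cusp → ℂ}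
    (h : ∀ i ∈ s, HasCuspValues (F i) (v i)) : HasCuspValues (∑ i ∈ s, F i) (∑ i ∈ s, v i) := by
  intro δ
  simp only [Finset.sum_apply]
  exact tendsto_finsetSum s fun i hi => h i hi δ

theorem HasCuspValues.congr {F G : ℍ → ℂ} {v : Cusp → ℂ} (h : HasCuspValues F v)
    (hFG : ∀ τ, F τ = G τ) : HasCuspValues G v := fun δ => (h δ).congr fun _ => hFG _

theorem tendsto_smul_atImInfty (g : GL (Fin 2) ℝ) (h0 : g 1 0 = 0) :
    Tendsto (fun w : ℍ => g • w) atImInfty atImInfty := by
  have hd : g.det.val ≠ 0 := g.det.ne_zero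
  have hdet : g.val.det ≠ 0 := by simpa using hd
  rw [det_fin_two, h0, mul_zero, sub_zero] at hdet
  have hg11 : g 1 1 ≠ 0 := right_ne_zero_of_mul hdet
  rw [atImInfty, tendsto_comap_iff]
  have h1 : ∀ w : ℍ, (|g.det.val| / (g 1 1) ^ 2) * w.im = (g • w).im := by
    intro w
    rw [UpperHalfPlane.im_smul_eq_div_normSq]
    simp only [UpperHalfPlane.denom, h0]
    simp [Complex.normSq_ofReal, sq]
    ring
  have h2 : 0 < |g.det.val| / (g 1 1) ^ 2 := by positivity
  exact (Tendsto.const_mul_atTop h2 tendsto_comap).congr h1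

theorem HasCuspValues.comp_smul {F : ℍ → ℂ} {v : Cusp → ℂ} (h : HasCuspValues F v)
    (α : GL (Fin 2) ℚ) : HasCuspValues (fun τ => F (toR α • τ)) (fun c => v (α • c)) := by
  intro δ
  obtain ⟨δ', hδ'⟩ := exists_toQ_smul_infty (α • toQ δ • (∞ : Cusp))
  set β : GL (Fin 2) ℚ := (toQ δ')⁻¹ * (α * toQ δ) with hβ
  have h1 : β • (∞ : Cusp) = ∞ := by
    rw [hβ, mul_smul, mul_smul, ← hδ', inv_smul_smul]
  rw [OnePoint.smul_infty_eq_self_iff] at h1
  have h2 : (toR β) 1 0 = 0 := by
    have : (toR β) 1 0 = algebraMap ℚ ℝ (β 1 0) := rfl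
    rw [this, h1, map_zero]
  have h3 := (h δ').comp (tendsto_smul_atImInfty (toR β) h2)
  rw [hδ'] at h3
  refine h3.congr fun w => ?_
  simp only [Function.comp_apply]
  have h4 : toQ δ' * β = α * toQ δ := by rw [hβ]; group
  have h5 : δ' • (toR β • w) = toR α • (δ • w) := by
    have e1 : δ' • (toR β • w) = (toR (toQ δ') * toR β) • w := by rw [mul_smul, toR_toQ]; rfl
    have e2 : toR α • (δ • w) = (toR α * toR (toQ δ)) • w := by rw [mul_smul, toR_toQ]; rfl
    rw [e1, e2, ← map_mul, ← map_mul, h4]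
  rw [h5]

/-! ### primitives and the slash action -/

theorem IsPrim_comp_smul_of_det_pos {F f : ℍ → ℂ} (hF : IsPrim F f) (g : GL (Fin 2) ℝ)
    (hdet : 0 < g.det.val) : IsPrim (fun τ => F (g • τ)) (f ∣[(2 : ℤ)] g) := by
  intro τ
  have hdet' : (0 : ℝ) < g.val.det := by simpa using hdet
  have h1 := (hasStrictDerivAt_smul hdet' τ).hasDerivAt
  have h2 : HasDerivAt (F ∘ ofComplex) (f (g • τ)) ((g • ofComplex (τ : ℂ) : ℍ) : ℂ) := by
    rw [ofComplex_apply]; exact hF (g • τ)
  have h3 := h2.comp (τ : ℂ) h1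
  have h4 : ((F ∘ ofComplex) ∘ fun w : ℂ => ((g • ofComplex w : ℍ) : ℂ))
      = (fun τ => F (g • τ)) ∘ ofComplex := by
    ext w
    simp only [Function.comp_apply, ofComplex_apply]
  rw [h4] at h3
  refine h3.congr_deriv ?_
  rw [ModularForm.slash_apply]
  have h5 : UpperHalfPlane.σ g = .refl ℝ ℂ := by
    rw [UpperHalfPlane.σ, if_pos hdet]
  rw [h5, abs_of_pos hdet]
  simp only [ContinuousAlgEquiv.refl_apply]
  norm_num
  ring

/-! ### The period symbol -/

section PerSym

variable {N : ℕ} [NeZero N]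

variable (N) in
/-- the values at the cusps of the primitive of `f`. -/
def cuspVal (f : CuspForm (Gamma0 N) 2) : Cusp → ℂ :=
  (exists_hasCuspValues (prim_spec f).2.2.2).choose

theorem cuspVal_spec (f : CuspForm (Gamma0 N) 2) : HasCuspValues (prim N f) (cuspVal N f) :=
  (exists_hasCuspValues (prim_spec f).2.2.2).choose_spec

variable (N) in
/-- The period symbol of `f`: `(a, b) ↦ ∫_a^b f`. -/
def perSym : CuspForm (Gamma0 N) 2 →ₗ[ℂ] Pairs ℂ where
  toFun f := fun a b => cuspVal N f b - cuspVal N f a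
  map_add' f g := by
    have h : cuspVal N (f + g) = cuspVal N f + cuspVal N g := by
      refine (cuspVal_spec (f + g)).unique ?_
      rw [prim_add]
      exact (cuspVal_spec f).add (cuspVal_spec g)
    funext a b
    simp only [h, Pi.add_apply]
    ring
  map_smul' c f := by
    have h : cuspVal N (c • f) = c • cuspVal N f := by
      refine (cuspVal_spec (c • f)).unique ?_
      rw [prim_smul]
      exact (cuspVal_spec f).smul c
    funext a b
    simp only [h, Pi.smul_apply, smul_eq_mul, RingHom.id_apply]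
    ring

theorem perSym_apply (f : CuspForm (Gamma0 N) 2) (a b : Cusp) :
    perSym N f a b = cuspVal N f b - cuspVal N f a := rfl

/-- Criterion to compute the period symbol from any primitive. -/
theorem perSym_eq_of_isPrim (f : CuspForm (Gamma0 N) 2) {F : ℍ → ℂ} (hF : IsPrim F f)
    {v : Cusp → ℂ} (hv : HasCuspValues F v) (a b : Cusp) : perSym N f a b = v b - v a := by
  obtain ⟨c, hc⟩ := (prim_isPrim f).eq_add_const hF
  have h1 : HasCuspValues (prim N f) (v + fun _ => c) :=
    (hv.add (HasCuspValues.const c)).congr fun τ => by simp [hc]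
  have h2 := (cuspVal_spec f).unique h1
  rw [perSym_apply, h2]
  simp

theorem cuspVal_smul (f : CuspForm (Gamma0 N) 2) (γ : Gamma0 N) (a : Cusp) :
    cuspVal N f (toQ (γ : SL(2, ℤ)) • a) =
      cuspVal N f a + periodLin N f (Additive.ofMul γ) := by
  have h1 : HasCuspValues (fun τ => prim N f ((γ : SL(2, ℤ)) • τ))
      (fun c => cuspVal N f (toQ (γ : SL(2, ℤ)) • c)) := by
    refine ((cuspVal_spec f).comp_smul (toQ γ)).congr fun τ => ?_
    rw [toR_toQ]; rfl
  have h2 : HasCuspValues (fun τ => prim N f ((γ : SL(2, ℤ)) • τ))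
      (cuspVal N f + fun _ => periodLin N f (Additive.ofMul γ)) := by
    refine ((cuspVal_spec f).add (HasCuspValues.const _)).congr fun τ => ?_
    have h3 := prim_smul_sub f γ τ
    have h4 : ModularCurve.periodMap N f = periodLin N f := rfl
    rw [h4] at h3
    simp only [Pi.add_apply]
    linear_combination -h3
  exact congrFun (h1.unique h2) a

theorem perSym_mem (f : CuspForm (Gamma0 N) 2) : perSym N f ∈ MS (Gamma0 N) ℂ := by
  refine ⟨fun a b c => ?_, fun γ hγ => ?_⟩
  · simp only [perSym_apply]; ring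
  · funext a b
    rw [slash_apply, perSym_apply, perSym_apply]
    have h1 := cuspVal_smul f ⟨γ, hγ⟩ a
    have h2 := cuspVal_smul f ⟨γ, hγ⟩ b
    simp only at h1 h2
    rw [h1, h2]; ring

theorem perSym_infty_smul (f : CuspForm (Gamma0 N) 2) (γ : Gamma0 N) (a : Cusp) :
    perSym N f a (toQ (γ : SL(2, ℤ)) • a) = periodLin N f (Additive.ofMul γ) := by
  rw [perSym_apply, cuspVal_smul]; ring

theorem perSym_heckeU {ℓ : ℕ} (hℓ : ℓ ∣ N) (f : CuspForm (Gamma0 N) 2) :
    perSym N (CuspForm.heckeULin 2 hℓ f) = heckeU ℓ (perSym N f) := by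
  have hℓ0 : ℓ ≠ 0 := fun h => NeZero.ne N (by rw [h] at hℓ; exact zero_dvd_iff.mp hℓ)
  have h1 : IsPrim (∑ j ∈ Finset.range ℓ, fun τ => prim N f (ModularForm.heckeMatrix ℓ j • τ))
      (CuspForm.heckeULin 2 hℓ f) := by
    rw [CuspForm.coe_heckeULin_apply, ModularForm.heckeU_def]
    intro τ
    have h2 : ((∑ j ∈ Finset.range ℓ, fun τ => prim N f (ModularForm.heckeMatrix ℓ j • τ)) ∘
        ofComplex) = fun z : ℂ => ∑ j ∈ Finset.range ℓ,
          ((fun τ => prim N f (ModularForm.heckeMatrix ℓ j • τ)) ∘ ofComplex) z := by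
      ext z; simp
    rw [h2, Finset.sum_apply]
    refine HasDerivAt.fun_sum fun j _ => ?_
    exact IsPrim_comp_smul_of_det_pos (prim_isPrim f) _ (ModularForm.det_heckeMatrix_pos ℓ j) τ
  have h2 : HasCuspValues (∑ j ∈ Finset.range ℓ, fun τ => prim N f (ModularForm.heckeMatrix ℓ j • τ))
      (∑ j ∈ Finset.range ℓ, fun c => cuspVal N f (heckeMat ℓ (j : ℤ) • c)) := by
    refine HasCuspValues.sum _ fun j _ => ?_
    have := (cuspVal_spec f).comp_smul (heckeMat ℓ (j : ℤ))
    rwa [toR_heckeMat hℓ0] at this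
  funext a b
  rw [perSym_eq_of_isPrim _ h1 h2, heckeU_apply]
  simp only [Finset.sum_apply, slash_apply, perSym_apply, Finset.sum_sub_distrib]

theorem perSym_heckeT {ℓ : ℕ} (hp : ℓ.Prime) (hℓ : ¬ ℓ ∣ N) (f : CuspForm (Gamma0 N) 2) :
    perSym N (CuspForm.heckeTLin 2 hp hℓ f) = heckeT ℓ (perSym N f) := by
  have hℓ0 : ℓ ≠ 0 := hp.ne_zero
  have h1 : IsPrim ((∑ j ∈ Finset.range ℓ, fun τ => prim N f (ModularForm.heckeMatrix ℓ j • τ)) +
      fun τ => prim N f (ModularForm.heckeDiagMatrix ℓ • τ))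
      (CuspForm.heckeTLin 2 hp hℓ f) := by
    rw [CuspForm.coe_heckeTLin_apply, ModularForm.heckeT_def]
    refine IsPrim.add ?_ (IsPrim_comp_smul_of_det_pos (prim_isPrim f) _
      (ModularForm.det_heckeDiagMatrix_pos ℓ))
    intro τ
    have h2 : ((∑ j ∈ Finset.range ℓ, fun τ => prim N f (ModularForm.heckeMatrix ℓ j • τ)) ∘
        ofComplex) = fun z : ℂ => ∑ j ∈ Finset.range ℓ,
          ((fun τ => prim N f (ModularForm.heckeMatrix ℓ j • τ)) ∘ ofComplex) z := by
      ext z; simp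
    rw [h2, Finset.sum_apply]
    refine HasDerivAt.fun_sum fun j _ => ?_
    exact IsPrim_comp_smul_of_det_pos (prim_isPrim f) _ (ModularForm.det_heckeMatrix_pos ℓ j) τ
  have h2 : HasCuspValues ((∑ j ∈ Finset.range ℓ, fun τ => prim N f (ModularForm.heckeMatrix ℓ j • τ))
      + fun τ => prim N f (ModularForm.heckeDiagMatrix ℓ • τ))
      ((∑ j ∈ Finset.range ℓ, fun c => cuspVal N f (heckeMat ℓ (j : ℤ) • c)) +
        fun c => cuspVal N f (diagMat ℓ • c)) := by
    refine HasCuspValues.add (HasCuspValues.sum _ fun j _ => ?_) ?_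
    · have := (cuspVal_spec f).comp_smul (heckeMat ℓ (j : ℤ))
      rwa [toR_heckeMat hℓ0] at this
    · have := (cuspVal_spec f).comp_smul (diagMat ℓ)
      rwa [toR_diagMat hℓ0] at this
  funext a b
  rw [perSym_eq_of_isPrim _ h1 h2, heckeT_apply, heckeU_apply, degen_apply]
  simp only [Pi.add_apply, Finset.sum_apply, slash_apply, perSym_apply, Finset.sum_sub_distrib]
  ring

theorem perSym_injective : Function.Injective (perSym N) := by
  rw [injective_iff_map_eq_zero]
  intro f hf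
  have h1 : periodLin N f = 0 := by
    refine AddMonoidHom.ext fun γ => ?_
    have := perSym_infty_smul f (Additive.toMul γ) ∞
    rw [hf] at this
    exact this.symm
  have h2 : ModularCurve.periodHomPair N (f, 0) = 0 := by
    rw [periodHomPair_apply, h1]
    simp
  have h3 : ModularCurve.periodHomPair N (f, 0) = ModularCurve.periodHomPair N 0 := by
    rw [h2, _root_.map_zero]
  exact congrArg Prod.fst (injective_periodHomPair h3)

end PerSym

end Fermat.Agent.LR.PS
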