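import Mathlib
import Fermat.Agent.ES.Parabolic
import Fermat.Agent.LR.Periods

/-!
# Eigensymbols and eigenforms (team LR, piece P9)

Using the Eichler-Shimura isomorphism (S21, as a hypothesis), every Hecke eigensymbol for
`Γ₀(N)` over `ℂ` which is not a boundary symbol comes from a normalised eigenform.
-/

set_option autoImplicit false
set_option linter.unusedSectionVars false

noncomputable section

open UpperHalfPlane Filter Topology CongruenceSubgroup Matrix Matrix.SpecialLinearGroup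
open scoped MatrixGroups ModularForm OnePoint

namespace Fermat.Agent.LR.PS

open Fermat.Agent.ES ModularCurve.Period

variable {R : Type*} [CommRing R]

/-- Boundary symbols `ψ(b) - ψ(a)`. -/
def IsBoundary (Γ : Subgroup SL(2, ℤ)) (x : Pairs R) : Prop :=
  ∃ ψ : Cusp → R, (∀ γ ∈ Γ, ∀ c, ψ (toQ γ • c) = ψ c) ∧ ∀ a b, x a b = ψ b - ψ a

theorem IsBoundary.mem {Γ : Subgroup SL(2, ℤ)} {x : Pairs R} (h : IsBoundary Γ x) : x ∈ MS Γ R := by
  obtain ⟨ψ, hψ, hx⟩ := h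
  refine ⟨fun a b c => by rw [hx, hx, hx]; ring, fun γ hγ => ?_⟩
  funext a b
  rw [slash_apply, hx, hx, hψ γ hγ, hψ γ hγ]

theorem sumU_sub {X A : Type*} [MulAction (GL (Fin 2) ℚ) X] [AddCommGroup A] (ℓ : ℕ)
    (ψ : X → A) (a b : X) :
    ∑ j ∈ Finset.range ℓ, (ψ (heckeMat ℓ (j : ℤ) • b) - ψ (heckeMat ℓ (j : ℤ) • a)) =
      sumU ℓ ψ b - sumU ℓ ψ a := by
  rw [sumU, sumU, Finset.sum_sub_distrib]

theorem IsBoundary.heckeU {N ℓ : ℕ} (hℓ0 : ℓ ≠ 0) (hℓ : ℓ ∣ N) {x : Pairs R}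
    (h : IsBoundary (Gamma0 N) x) : IsBoundary (Gamma0 N) (heckeU ℓ x) := by
  obtain ⟨ψ, hψ, hx⟩ := h
  refine ⟨sumU ℓ ψ, fun γ hγ c => sumU_invariant hℓ0 hℓ hψ hγ c, fun a b => ?_⟩
  rw [heckeU_apply, ← sumU_sub]
  simp only [Finset.sum_apply, slash_apply, hx]

theorem IsBoundary.heckeT {N ℓ : ℕ} (hp : ℓ.Prime) (hℓ : ¬ ℓ ∣ N) {x : Pairs R}
    (h : IsBoundary (Gamma0 N) x) : IsBoundary (Gamma0 N) (heckeT ℓ x) := by
  obtain ⟨ψ, hψ, hx⟩ := h
  refine ⟨sumT ℓ ψ, fun γ hγ c => sumT_invariant hp hℓ hψ hγ c, fun a b => ?_⟩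
  rw [heckeT_apply, heckeU_apply, degen_apply]
  simp only [Pi.add_apply, Finset.sum_apply, slash_apply, hx, sumT, Finset.sum_sub_distrib]
  ring

theorem IsBoundary.sub {Γ : Subgroup SL(2, ℤ)} {x y : Pairs R} (hx : IsBoundary Γ x)
    (hy : IsBoundary Γ y) : IsBoundary Γ (x - y) := by
  obtain ⟨ψ, hψ, hx⟩ := hx
  obtain ⟨φ, hφ, hy⟩ := hy
  refine ⟨ψ - φ, fun γ hγ c => ?_, fun a b => ?_⟩
  · rw [Pi.sub_apply, Pi.sub_apply, hψ γ hγ, hφ γ hγ]
  · rw [Pi.sub_apply, Pi.sub_apply, hx, hy, Pi.sub_apply, Pi.sub_apply]; ring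

theorem IsBoundary.smul {Γ : Subgroup SL(2, ℤ)} {x : Pairs R} (c : R) (hx : IsBoundary Γ x) :
    IsBoundary Γ (c • x) := by
  obtain ⟨ψ, hψ, hx⟩ := hx
  refine ⟨c • ψ, fun γ hγ a => ?_, fun a b => ?_⟩
  · rw [Pi.smul_apply, Pi.smul_apply, hψ γ hγ]
  · simp only [Pi.smul_apply, hx, smul_eq_mul]; ring

/-! ### the homomorphism attached to a symbol -/

section symHom

variable {N : ℕ}

theorem symbol_base {Γ : Subgroup SL(2, ℤ)} {x : Pairs R} (hx : x ∈ MS Γ R) {γ : SL(2, ℤ)}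
    (hγ : γ ∈ Γ) (a b : Cusp) : x a (toQ γ • a) = x b (toQ γ • b) := by
  have h1 := hx.1 a b (toQ γ • a)
  have h2 := hx.1 b (toQ γ • b) (toQ γ • a)
  have h3 : x (toQ γ • b) (toQ γ • a) = x b a := congrFun (congrFun (hx.2 γ hγ) b) a
  have h4 := neg_swap hx.1 a b
  rw [← h1, ← h2, h3, h4]; ring

variable (N) in
/-- `x ↦ (γ ↦ x(∞, γ∞))`. -/
def symHom : MS (Gamma0 N) ℂ →ₗ[ℂ] (Additive (Gamma0 N) →+ ℂ) where
  toFun x :=
    { toFun := fun γ => x.1 ∞ (toQ ((Additive.toMul γ : Gamma0 N) : SL(2, ℤ)) • ∞)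
      map_zero' := by
        simp only [toMul_zero, OneMemClass.coe_one, map_one, one_smul]
        exact add_self_eq_zero x.2.1 _
      map_add' := by
        intro γ δ
        simp only [toMul_add, Subgroup.coe_mul, map_mul, mul_smul]
        rw [← x.2.1 ∞ (toQ ((Additive.toMul γ : Gamma0 N) : SL(2, ℤ)) • ∞)]
        congr 1
        exact congrFun (congrFun (x.2.2 _ (Additive.toMul γ).2) ∞) _ }
  map_add' x y := rfl
  map_smul' c x := rfl

theorem symHom_apply (x : MS (Gamma0 N) ℂ) (γ : Gamma0 N) (a : Cusp) :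
    symHom N x (Additive.ofMul γ) = x.1 a (toQ (γ : SL(2, ℤ)) • a) :=
  symbol_base x.2 γ.2 ∞ a

theorem symHom_mem_parabolicHoms (x : MS (Gamma0 N) ℂ) :
    symHom N x ∈ parabolicHoms ℂ (Gamma0 N) ℂ := by
  rw [mem_parabolicHoms_iff]
  intro γ hγ
  obtain ⟨δ, hδ⟩ := exists_conj_upper (γ : SL(2, ℤ)) hγ
  rw [symHom_apply x γ (toQ δ • ∞)]
  have h1 : toQ (γ : SL(2, ℤ)) • toQ δ • (∞ : Cusp) = toQ δ • ∞ := by
    rw [← mul_smul, ← map_mul, eq_comm, toQ_smul_infty_eq_iff, ← mul_assoc]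
    exact hδ
  rw [h1]
  exact add_self_eq_zero x.2.1 _

theorem isBoundary_of_symHom_eq_zero {x : MS (Gamma0 N) ℂ} (h : symHom N x = 0) :
    IsBoundary (Gamma0 N) x.1 := by
  refine ⟨fun c => x.1 ∞ c, fun γ hγ c => ?_, fun a b => ?_⟩
  · have h1 := symHom_apply x ⟨γ, hγ⟩ ∞
    rw [h] at h1
    have h2 := x.2.1 ∞ (toQ γ • ∞) (toQ γ • c)
    have h3 : x.1 (toQ γ • ∞) (toQ γ • c) = x.1 ∞ c := congrFun (congrFun (x.2.2 γ hγ) ∞) c
    have h4 : x.1 ∞ (toQ γ • ∞) = 0 := h1.symm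
    rw [h3, h4, zero_add] at h2
    exact h2.symm
  · have h1 := x.2.1 ∞ a b
    show x.1 a b = x.1 ∞ b - x.1 ∞ a
    rw [← h1]; ring

theorem symHom_eq_zero_of_isBoundary {x : MS (Gamma0 N) ℂ} (h : IsBoundary (Gamma0 N) x.1) :
    symHom N x = 0 := by
  obtain ⟨ψ, hψ, hx⟩ := h
  refine AddMonoidHom.ext fun γ => ?_
  have h1 := symHom_apply x (Additive.toMul γ) ∞
  rw [hx, hψ _ (Additive.toMul γ).2, sub_self] at h1
  exact h1

theorem symHom_perSym [NeZero N] (f : CuspForm (Gamma0 N) 2) :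
    symHom N ⟨perSym N f, perSym_mem f⟩ = periodLin N f :=
  AddMonoidHom.ext fun γ => perSym_infty_smul f (Additive.toMul γ) ∞

end symHom

/-! ### the involution -/

/-- `diag(-1, 1)` -/
def jMat : GL (Fin 2) ℚ := triMat (-1) 0 1

theorem val_jMat : (jMat : Matrix (Fin 2) (Fin 2) ℚ) = !![-1, 0; 0, 1] := by
  rw [jMat, val_triMat _ (by norm_num)]; simp

theorem jMat_mul_toQ (γ : SL(2, ℤ)) : jMat * toQ γ = toQ (jConjSL γ) * jMat := by
  apply Units.ext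
  have h1 : ((toQ γ : GL (Fin 2) ℚ) : Matrix (Fin 2) (Fin 2) ℚ) = !![(γ 0 0 : ℚ), γ 0 1; γ 1 0, γ 1 1] := by
    ext i j; fin_cases i <;> fin_cases j <;> simp [toQ_apply]
  have h2 : ((toQ (jConjSL γ) : GL (Fin 2) ℚ) : Matrix (Fin 2) (Fin 2) ℚ) =
      !![(γ 0 0 : ℚ), -γ 0 1; -γ 1 0, γ 1 1] := by
    ext i j; fin_cases i <;> fin_cases j <;> simp [toQ_apply]
  rw [Units.val_mul, Units.val_mul, val_jMat, h1, h2]
  ext i j; fin_cases i <;> fin_cases j <;> simp [Matrix.mul_apply, Fin.sum_univ_two]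

theorem jMat_smul_infty : jMat • (∞ : Cusp) = ∞ := by
  rw [OnePoint.smul_infty_eq_self_iff]
  have : (jMat : Matrix (Fin 2) (Fin 2) ℚ) 1 0 = 0 := by rw [val_jMat]; simp
  exact this

theorem jMat_mul_heckeMat {ℓ : ℕ} (hℓ : ℓ ≠ 0) (j : ℤ) :
    jMat * heckeMat ℓ j = heckeMat ℓ (-j) * jMat := by
  have h : (1 : ℤ) * (ℓ : ℤ) ≠ 0 := by simpa using hℓ
  apply Units.ext
  rw [Units.val_mul, Units.val_mul, val_jMat, val_triMat _ h, val_triMat _ h]
  ext i k; fin_cases i <;> fin_cases k <;> simp [Matrix.mul_apply, Fin.sum_univ_two]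

theorem jMat_mul_diagMat {ℓ : ℕ} (hℓ : ℓ ≠ 0) : jMat * diagMat ℓ = diagMat ℓ * jMat := by
  have h : (ℓ : ℤ) * (1 : ℤ) ≠ 0 := by simpa using hℓ
  apply Units.ext
  rw [Units.val_mul, Units.val_mul, val_jMat, val_triMat _ h]
  ext i k; fin_cases i <;> fin_cases k <;> simp [Matrix.mul_apply, Fin.sum_univ_two]

theorem T_mul_heckeMat {ℓ : ℕ} (hℓ : ℓ ≠ 0) (j : ℤ) :
    toQ ModularGroup.T * heckeMat ℓ j = heckeMat ℓ (j + ℓ) := by
  have h : (1 : ℤ) * (ℓ : ℤ) ≠ 0 := by simpa using hℓ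
  apply Units.ext
  have h1 : ((toQ ModularGroup.T : GL (Fin 2) ℚ) : Matrix (Fin 2) (Fin 2) ℚ) = !![1, 1; 0, 1] := by
    ext i j; rw [toQ_apply]; fin_cases i <;> fin_cases j <;> simp [ModularGroup.T]
  rw [Units.val_mul, h1, val_triMat _ h, val_triMat _ h]
  ext i k; fin_cases i <;> fin_cases k <;> simp [Matrix.mul_apply, Fin.sum_univ_two]

theorem slash_jMat_mem {N : ℕ} {x : Pairs R} (hx : x ∈ MS (Gamma0 N) R) :
    slash jMat x ∈ MS (Gamma0 N) R := by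
  refine ⟨fun a b c => hx.1 _ _ _, fun γ hγ => ?_⟩
  rw [← slash_mul, jMat_mul_toQ, slash_mul, hx.2 _ (jConjSL_mem_Gamma0 hγ)]

theorem T_mem_Gamma0 (N : ℕ) : ModularGroup.T ∈ Gamma0 N := by
  rw [Gamma0_mem]; simp [ModularGroup.T]

theorem slash_heckeMat_add {N : ℕ} {x : Pairs R} (hx : x ∈ MS (Gamma0 N) R) {ℓ : ℕ} (hℓ : ℓ ≠ 0)
    (j : ℤ) : slash (heckeMat ℓ (j + ℓ)) x = slash (heckeMat ℓ j) x := by
  rw [← T_mul_heckeMat hℓ, slash_mul, hx.2 _ (T_mem_Gamma0 N)]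

theorem sum_range_neg_of_periodic {A : Type*} [AddCommGroup A] (ℓ : ℕ) (f : ℤ → A)
    (hf : ∀ j, f (j + ℓ) = f j) :
    ∑ j ∈ Finset.range ℓ, f (-(j : ℤ)) = ∑ j ∈ Finset.range ℓ, f (j : ℤ) := by
  rcases ℓ with _ | n
  · simp
  · rw [Finset.sum_range_succ', ← Finset.sum_range_reflect (fun j : ℕ => f (j : ℤ)),
      Finset.sum_range_succ]
    congr 1
    · refine Finset.sum_congr rfl fun j hj => ?_
      rw [← hf]
      congr 1
      have := Finset.mem_range.mp hj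
      have h1 : n + 1 - 1 - j = n - j := by omega
      rw [h1, Nat.cast_sub this.le]
      push_cast; ring
    · simp

theorem heckeU_slash_jMat {N : ℕ} {x : Pairs R} (hx : x ∈ MS (Gamma0 N) R) {ℓ : ℕ} (hℓ : ℓ ≠ 0) :
    heckeU ℓ (slash jMat x) = slash jMat (heckeU ℓ x) := by
  rw [heckeU_apply, heckeU_apply, map_sum]
  simp only [← slash_mul, jMat_mul_heckeMat hℓ]
  simp only [slash_mul]
  exact sum_range_neg_of_periodic ℓ (fun j => slash jMat (slash (heckeMat ℓ j) x))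
    (fun j => by simp only [slash_heckeMat_add hx hℓ])

theorem heckeT_slash_jMat {N : ℕ} {x : Pairs R} (hx : x ∈ MS (Gamma0 N) R) {ℓ : ℕ} (hℓ : ℓ ≠ 0) :
    heckeT ℓ (slash jMat x) = slash jMat (heckeT ℓ x) := by
  rw [heckeT_apply, heckeT_apply, map_add, heckeU_slash_jMat hx hℓ, degen_apply, degen_apply,
    ← slash_mul, jMat_mul_diagMat hℓ, slash_mul]

theorem symHom_slash_jMat {N : ℕ} (x : MS (Gamma0 N) ℂ) :
    symHom N ⟨slash jMat x.1, slash_jMat_mem x.2⟩ = charInvolution N ℂ ℂ (symHom N x) := by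
  refine AddMonoidHom.ext fun γ => ?_
  rw [charInvolution_apply]
  have h1 := symHom_apply ⟨slash jMat x.1, slash_jMat_mem x.2⟩ (Additive.toMul γ) ∞
  have h2 := symHom_apply x (jConjGamma0 N (Additive.toMul γ)) ∞
  rw [h2]
  refine h1.trans ?_
  simp only [slash_apply]
  rw [← mul_smul, jMat_mul_toQ, mul_smul, jMat_smul_infty]
  rfl

/-! ### Eigensymbols come from eigenforms -/

section main

variable {N : ℕ} [NeZero N]

/-- `T_ℓ - c` or `U_ℓ - c` on cusp forms. -/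
def frmOp (N : ℕ) [NeZero N] {ℓ : ℕ} (hp : ℓ.Prime) : Module.End ℂ (CuspForm (Gamma0 N) 2) :=
  open Classical in
  if h : ℓ ∣ N then CuspForm.heckeULin 2 h else CuspForm.heckeTLin 2 hp h

/-- `T_ℓ` or `U_ℓ` on symbols. -/
def symOp (N ℓ : ℕ) : Pairs ℂ →ₗ[ℂ] Pairs ℂ :=
  open Classical in
  if ℓ ∣ N then heckeU ℓ else heckeT ℓ

theorem perSym_frmOp {ℓ : ℕ} (hp : ℓ.Prime) (f : CuspForm (Gamma0 N) 2) :
    perSym N (frmOp N hp f) = symOp N ℓ (perSym N f) := by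
  by_cases h : ℓ ∣ N
  · rw [frmOp, dif_pos h, symOp, if_pos h, perSym_heckeU]
  · rw [frmOp, dif_neg h, symOp, if_neg h, perSym_heckeT]

theorem symOp_slash_jMat {ℓ : ℕ} (hp : ℓ.Prime) {x : Pairs ℂ} (hx : x ∈ MS (Gamma0 N) ℂ) :
    symOp N ℓ (slash jMat x) = slash jMat (symOp N ℓ x) := by
  by_cases h : ℓ ∣ N
  · rw [symOp, if_pos h, heckeU_slash_jMat hx hp.ne_zero]
  · rw [symOp, if_neg h, heckeT_slash_jMat hx hp.ne_zero]

theorem IsBoundary.symOp {ℓ : ℕ} (hp : ℓ.Prime) {x : Pairs ℂ} (hx : IsBoundary (Gamma0 N) x) :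
    IsBoundary (Gamma0 N) (symOp N ℓ x) := by
  by_cases h : ℓ ∣ N
  · rw [PS.symOp, if_pos h]; exact hx.heckeU hp.ne_zero h
  · rw [PS.symOp, if_neg h]; exact hx.heckeT hp h

/-- If `perSym u + ι (perSym v)` is a boundary symbol then `u = v = 0`. -/
theorem eq_zero_of_isBoundary (u v : CuspForm (Gamma0 N) 2)
    (h : IsBoundary (Gamma0 N) (perSym N u + slash jMat (perSym N v))) : u = 0 ∧ v = 0 := by
  have h1 : symHom N (⟨perSym N u, perSym_mem u⟩ +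
      ⟨slash jMat (perSym N v), slash_jMat_mem (perSym_mem v)⟩) = 0 :=
    symHom_eq_zero_of_isBoundary h
  rw [map_add, symHom_perSym, symHom_slash_jMat ⟨perSym N v, perSym_mem v⟩, symHom_perSym] at h1
  have h2 : ModularCurve.periodHomPair N (u + v, u - v) = 0 := by
    rw [periodHomPair_apply]
    simp only [map_add, map_sub]
    have : (2 : ℂ) • (periodLin N u + charInvolution N ℂ ℂ (periodLin N v)) = 0 := by
      rw [h1, smul_zero]
    rw [← this, two_smul]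
    abel
  have h3 : ModularCurve.periodHomPair N (u + v, u - v) = ModularCurve.periodHomPair N 0 := by
    rw [h2, _root_.map_zero]
  have h4 := injective_periodHomPair h3
  have h5 : u + v = 0 := congrArg Prod.fst h4
  have h6 : u - v = 0 := congrArg Prod.snd h4
  have h7 : u = v := sub_eq_zero.mp h6
  subst h7
  have h8 : (2 : ℂ) • u = 0 := by rw [two_smul]; exact h5
  have h9 : u = 0 := (smul_eq_zero.mp h8).resolve_left (by norm_num)
  exact ⟨h9, h9⟩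

/-- Eichler-Shimura for symbols: every symbol is a sum of period symbols and a boundary symbol. -/
theorem exists_decomp
    (hES : LinearMap.range (ModularCurve.periodHomPair N) = parabolicHoms ℂ (Gamma0 N) ℂ)
    {x : Pairs ℂ} (hx : x ∈ MS (Gamma0 N) ℂ) :
    ∃ u v : CuspForm (Gamma0 N) 2,
      IsBoundary (Gamma0 N) (x - (perSym N u + slash jMat (perSym N v))) := by
  have h1 := symHom_mem_parabolicHoms ⟨x, hx⟩
  rw [← hES] at h1
  obtain ⟨⟨f, g⟩, hfg⟩ := h1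
  refine ⟨f + g, f - g, ?_⟩
  have h2 : symHom N (⟨x, hx⟩ - (⟨perSym N (f + g), perSym_mem (f + g)⟩ +
      ⟨slash jMat (perSym N (f - g)), slash_jMat_mem (perSym_mem (f - g))⟩)) = 0 := by
    rw [map_sub, map_add, symHom_perSym, symHom_slash_jMat ⟨perSym N (f - g), perSym_mem (f - g)⟩,
      symHom_perSym, ← hfg, periodHomPair_apply]
    simp only [map_add, map_sub]
    abel
  exact isBoundary_of_symHom_eq_zero h2

/-- The eigenvalue system of a non-boundary eigensymbol occurs in the space of cusp forms. -/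
theorem exists_eigenvector_of_eigensymbol
    (hES : LinearMap.range (ModularCurve.periodHomPair N) = parabolicHoms ℂ (Gamma0 N) ℂ)
    {x : Pairs ℂ} (hx : x ∈ MS (Gamma0 N) ℂ) (hnb : ¬ IsBoundary (Gamma0 N) x) (S : Set ℕ)
    (lam : ℕ → ℂ) (hS : ∀ ℓ ∈ S, ℓ.Prime → symOp N ℓ x = lam ℓ • x) :
    ∃ u : CuspForm (Gamma0 N) 2, u ≠ 0 ∧ ∀ ℓ ∈ S, ∀ hp : ℓ.Prime, frmOp N hp u = lam ℓ • u := by
  obtain ⟨u, v, huv⟩ := exists_decomp hES hx
  have key : ∀ ℓ ∈ S, ∀ hp : ℓ.Prime, frmOp N hp u = lam ℓ • u ∧ frmOp N hp v = lam ℓ • v := by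
    intro ℓ hℓ hp
    have h1 := (huv.symOp hp).sub (huv.smul (lam ℓ))
    rw [map_sub, hS ℓ hℓ hp, map_add, symOp_slash_jMat hp (perSym_mem v), ← perSym_frmOp hp,
      ← perSym_frmOp hp] at h1
    have h2 := (IsBoundary.smul (-1 : ℂ) h1)
    have h3 := eq_zero_of_isBoundary (frmOp N hp u - lam ℓ • u) (frmOp N hp v - lam ℓ • v) (by
      refine (congrArg (IsBoundary (Gamma0 N)) ?_).mpr h2
      simp only [map_sub, map_smul]
      module)
    exact ⟨sub_eq_zero.mp h3.1, sub_eq_zero.mp h3.2⟩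
  by_cases hu : u = 0
  · by_cases hv : v = 0
    · exfalso
      rw [hu, hv, map_zero, map_zero, zero_add, sub_zero] at huv
      exact hnb huv
    · exact ⟨v, hv, fun ℓ hℓ hp => (key ℓ hℓ hp).2⟩
  · exact ⟨u, hu, fun ℓ hℓ hp => (key ℓ hℓ hp).1⟩

open Fermat.Agent.HeckeDuality in
theorem coe_gen_eq_frmOp {ℓ : ℕ} (hp : ℓ.Prime) :
    (gen N 2 hp : Module.End ℂ (CuspForm (Gamma0 N) 2)) = frmOp N hp := by
  by_cases h : ℓ ∣ N
  · rw [gen, dif_pos h, CuspForm.heckeAlgebra.coe_U, frmOp, dif_pos h]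
  · rw [gen, dif_neg h, CuspForm.heckeAlgebra.coe_T, frmOp, dif_neg h]

open Fermat.Agent.HeckeDuality ModularFormClass in
/-- A nonzero eigenvector of all `T_ℓ`, `U_ℓ` is a multiple of a normalised eigenform. -/
theorem exists_eigenform_of_eigenvector {u : CuspForm (Gamma0 N) 2} (hu : u ≠ 0) (lam : ℕ → ℂ)
    (h : ∀ ℓ, ∀ hp : ℓ.Prime, frmOp N hp u = lam ℓ • u) :
    ∃ g : CuspForm (Gamma0 N) 2, g.IsNormalizedEigenform ∧ (∃ c : ℂ, g = c • u) ∧
      ∀ ℓ, ℓ.Prime → qCoeff ⇑g ℓ = lam ℓ := by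
  have key : ∀ t : CuspForm.heckeAlgebra N 2 ∅,
      ∃ c : ℂ, (t : Module.End ℂ (CuspForm (Gamma0 N) 2)) u = c • u := by
    rintro ⟨t, ht⟩
    show ∃ c : ℂ, t u = c • u
    induction ht using Algebra.adjoin_induction with
    | mem t ht =>
      rcases ht with ⟨ℓ, hℓ, hℓN, -, rfl⟩ | ⟨q, hqN, hq, -, rfl⟩
      · have := h ℓ hℓ
        rw [frmOp, dif_neg hℓN] at this
        exact ⟨_, this⟩
      · have := h q hq
        rw [frmOp, dif_pos hqN] at this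
        exact ⟨_, this⟩
    | algebraMap r =>
      refine ⟨(r : ℂ), ?_⟩
      rw [Module.algebraMap_end_apply, Int.cast_smul_eq_zsmul]
    | add s t _ _ hs ht =>
      obtain ⟨a, ha⟩ := hs
      obtain ⟨b, hb⟩ := ht
      exact ⟨a + b, by rw [LinearMap.add_apply, ha, hb, add_smul]⟩
    | mul s t _ _ hs ht =>
      obtain ⟨a, ha⟩ := hs
      obtain ⟨b, hb⟩ := ht
      exact ⟨a * b, by rw [Module.End.mul_apply, hb, map_smul, ha, smul_smul, mul_comm]⟩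
  have h1 : qCoeff ⇑u 1 ≠ 0 := by
    intro h0
    apply hu
    refine eq_zero_of_forall_heckeAlgebra (by norm_num) u fun t => ?_
    obtain ⟨c, hc⟩ := key t
    rw [hc, qc_smul, h0, mul_zero]
  set g := (qCoeff ⇑u 1)⁻¹ • u with hg
  have hg1 : qCoeff ⇑g 1 = 1 := by rw [hg, qc_smul, inv_mul_cancel₀ h1]
  have hgen : ∀ (ℓ : ℕ) (hℓ : ℓ.Prime),
      ((gen N 2 hℓ : Module.End ℂ (CuspForm (Gamma0 N) 2)) g) = lam ℓ • g := by
    intro ℓ hℓ
    rw [coe_gen_eq_frmOp, hg, map_smul, h ℓ hℓ, smul_comm]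
  obtain ⟨h2, h3⟩ := isNormalizedEigenform_of_gen g hg1 fun ℓ hℓ => ⟨_, hgen ℓ hℓ⟩
  refine ⟨g, h2, ⟨_, hg⟩, fun ℓ hℓ => ?_⟩
  clear_value g
  have h4 := (h3 ℓ hℓ).symm.trans (hgen ℓ hℓ)
  have h5 : qCoeff ⇑(qCoeff ⇑g ℓ • g) 1 = qCoeff ⇑(lam ℓ • g) 1 :=
    congrArg (fun g : CuspForm (Gamma0 N) 2 => qCoeff ⇑g 1) h4
  rwa [qc_smul, qc_smul, hg1, mul_one, mul_one] at h5

open ModularFormClass in
/-- **P9**: a Hecke eigensymbol over `ℂ` which is not a boundary symbol comes from a normalised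
eigenform (assuming the Eichler-Shimura isomorphism S21). -/
theorem exists_eigenform_of_eigensymbol
    (hES : LinearMap.range (ModularCurve.periodHomPair N) = parabolicHoms ℂ (Gamma0 N) ℂ)
    {x : Pairs ℂ} (hx : x ∈ MS (Gamma0 N) ℂ) (hnb : ¬ IsBoundary (Gamma0 N) x)
    (lam : ℕ → ℂ) (hT : ∀ ℓ, ℓ.Prime → ¬ ℓ ∣ N → heckeT ℓ x = lam ℓ • x)
    (hU : ∀ ℓ, ℓ.Prime → ℓ ∣ N → heckeU ℓ x = lam ℓ • x) :
    ∃ g : CuspForm (Gamma0 N) 2, g.IsNormalizedEigenform ∧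
      ∀ ℓ, ℓ.Prime → qCoeff ⇑g ℓ = lam ℓ := by
  obtain ⟨u, hu, h⟩ := exists_eigenvector_of_eigensymbol hES hx hnb Set.univ lam
    (fun ℓ _ hp => by
      by_cases h : ℓ ∣ N
      · rw [symOp, if_pos h, hU ℓ hp h]
      · rw [symOp, if_neg h, hT ℓ hp h])
  obtain ⟨g, hg, -, h2⟩ := exists_eigenform_of_eigenvector hu lam (fun ℓ hp => h ℓ trivial hp)
  exact ⟨g, hg, h2⟩

open ModularFormClass in
/-- The period symbol of a normalised eigenform is an eigensymbol. -/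
theorem symOp_perSym_eigenform {f : CuspForm (Gamma0 N) 2} (hf : f.IsNormalizedEigenform) {ℓ : ℕ}
    (hp : ℓ.Prime) : symOp N ℓ (perSym N f) = qCoeff ⇑f ℓ • perSym N f := by
  rw [← perSym_frmOp hp, ← coe_gen_eq_frmOp, EigenCharacter.gen_apply hf hp, map_smul]

open ModularFormClass in
theorem heckeT_perSym_eigenform {f : CuspForm (Gamma0 N) 2} (hf : f.IsNormalizedEigenform) {ℓ : ℕ}
    (hp : ℓ.Prime) (h : ¬ ℓ ∣ N) : heckeT ℓ (perSym N f) = qCoeff ⇑f ℓ • perSym N f := by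
  have := symOp_perSym_eigenform hf hp
  rwa [symOp, if_neg h] at this

open ModularFormClass in
theorem heckeU_perSym_eigenform {f : CuspForm (Gamma0 N) 2} (hf : f.IsNormalizedEigenform) {ℓ : ℕ}
    (hp : ℓ.Prime) (h : ℓ ∣ N) : heckeU ℓ (perSym N f) = qCoeff ⇑f ℓ • perSym N f := by
  have := symOp_perSym_eigenform hf hp
  rwa [symOp, if_pos h] at this

theorem not_isBoundary_perSym {f : CuspForm (Gamma0 N) 2} (hf : f ≠ 0) :
    ¬ IsBoundary (Gamma0 N) (perSym N f) := by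
  intro h
  have := eq_zero_of_isBoundary f 0 (by rwa [map_zero, map_zero, add_zero])
  exact hf this.1

end main

end Fermat.Agent.LR.PS
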