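import Fermat.Agent.LR.Hecke

/-!
# Changing the level: degeneracy maps, Atkin–Lehner, traces, commutation (team LR)
-/

set_option autoImplicit false

open Matrix Matrix.SpecialLinearGroup CongruenceSubgroup
open scoped MatrixGroups OnePoint

namespace Fermat.Agent.LR

variable {R : Type*} [CommRing R]

/-- constructor for `SL(2,ℤ)`. -/
def mkSL (a b c d : ℤ) (h : a * d - b * c = 1) : SL(2, ℤ) :=
  ⟨!![a, b; c, d], by rw [det_fin_two_of]; exact h⟩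

@[simp] theorem mkSL_val (a b c d : ℤ) (h : a * d - b * c = 1) :
    (mkSL a b c d h : Matrix (Fin 2) (Fin 2) ℤ) = !![a, b; c, d] := rfl

theorem val_toQ_mkSL (a b c d : ℤ) (h : a * d - b * c = 1) :
    (toQ (mkSL a b c d h) : Matrix (Fin 2) (Fin 2) ℚ) = !![(a : ℚ), (b : ℚ); (c : ℚ), (d : ℚ)] := by
  ext i j
  rw [toQ_entry]
  fin_cases i <;> fin_cases j <;> simp [mkSL]

theorem det_eq' (g : SL(2, ℤ)) : g 0 0 * g 1 1 - g 0 1 * g 1 0 = 1 := by
  have h := g.det_coe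
  rwa [Matrix.det_fin_two] at h

theorem val_toQ (g : SL(2, ℤ)) : (toQ g : Matrix (Fin 2) (Fin 2) ℚ) =
    !![((g 0 0 : ℤ) : ℚ), ((g 0 1 : ℤ) : ℚ); ((g 1 0 : ℤ) : ℚ), ((g 1 1 : ℤ) : ℚ)] := by
  ext i j
  rw [toQ_entry]
  fin_cases i <;> fin_cases j <;> simp

theorem val_toQ_T_zpow (k : ℤ) : (toQ (ModularGroup.T ^ k) : Matrix (Fin 2) (Fin 2) ℚ) =
    !![1, (k : ℚ); 0, 1] := by
  ext i j
  rw [toQ_entry, ModularGroup.coe_T_zpow]
  fin_cases i <;> fin_cases j <;> simp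

theorem toQ_mul (g h : SL(2, ℤ)) : toQ (g * h) = toQ g * toQ h := map_mul _ _ _

theorem val_mul' (g h : GL (Fin 2) ℚ) : ((g * h : GL (Fin 2) ℚ) : Matrix (Fin 2) (Fin 2) ℚ) =
    (g : Matrix (Fin 2) (Fin 2) ℚ) * (h : Matrix (Fin 2) (Fin 2) ℚ) := rfl

/-- translation invariance -/
def TInv (x : Pairs R) : Prop := ∀ k : ℤ, slash (toQ (ModularGroup.T ^ k)) x = x

theorem T_zpow_mem_Gamma0 (N : ℕ) (k : ℤ) : ModularGroup.T ^ k ∈ Gamma0 N := by
  rw [mem_Gamma0_iff, ModularGroup.coe_T_zpow]; simp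

theorem TInv_of_mem {N : ℕ} {x : Pairs R} (hx : x ∈ MS (Gamma0 N) R) : TInv x :=
  fun k => hx.2 _ (T_zpow_mem_Gamma0 N k)

/-- for a `T`-invariant `x`, `x|[a b; 0 d]` depends only on `b` mod `d`. -/
theorem slash_triMat_congr {x : Pairs R} (hx : TInv x) {a d : ℤ} (had : a * d ≠ 0) {b b' : ℤ}
    (h : b ≡ b' [ZMOD d]) : slash (triMat a b d) x = slash (triMat a b' d) x := by
  obtain ⟨k, hk⟩ := h.symm.dvd
  have : slash (triMat a b d) x = slash (toQ (ModularGroup.T ^ k) * triMat a b' d) x := by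
    refine slash_congr (c := 1) one_ne_zero ?_ x
    rw [one_smul, val_mul', val_toQ_T_zpow, val_triMat _ had, val_triMat _ had]
    have hk' : (b : ℚ) = b' + d * k := by
      have : b = b' + d * k := by linarith
      exact_mod_cast this
    ext i j
    fin_cases i <;> fin_cases j <;> simp [Matrix.mul_apply, Fin.sum_univ_two]
    rw [hk']; ring
  rw [this, slash_mul, hx k]

theorem val_triMat_mul {a d a' d' : ℤ} (b b' : ℤ) (h : a * d ≠ 0) (h' : a' * d' ≠ 0) :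
    ((triMat a b d * triMat a' b' d' : GL (Fin 2) ℚ) : Matrix (Fin 2) (Fin 2) ℚ) =
      (triMat (a * a') (a * b' + b * d') (d * d') : Matrix (Fin 2) (Fin 2) ℚ) := by
  have h'' : a * a' * (d * d') ≠ 0 := by
    have : a * a' * (d * d') = (a * d) * (a' * d') := by ring
    rw [this]; exact mul_ne_zero h h'
  rw [val_mul', val_triMat _ h, val_triMat _ h', val_triMat _ h'']
  ext i j
  fin_cases i <;> fin_cases j <;> simp [Matrix.mul_apply, Fin.sum_univ_two]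

theorem triMat_mul {a d a' d' : ℤ} (b b' : ℤ) (h : a * d ≠ 0) (h' : a' * d' ≠ 0) :
    triMat a b d * triMat a' b' d' = triMat (a * a') (a * b' + b * d') (d * d') :=
  Units.ext (val_triMat_mul b b' h h')

/-! ### commutation of upper triangular operators -/

theorem heckeU_eq_sum_natCast (ℓ : ℕ) [NeZero ℓ] {x : Pairs R} (hx : TInv x) (f : ZMod ℓ → ℤ)
    (hf : ∀ j, ((f j : ℤ) : ZMod ℓ) = j) :
    heckeU ℓ x = ∑ j : ZMod ℓ, slash (heckeMat ℓ (f j)) x := by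
  rw [heckeU_eq_sum_zmod]
  refine Finset.sum_congr rfl fun j _ => ?_
  refine slash_triMat_congr hx (by simpa using NeZero.ne ℓ) ?_
  have : ((j.val : ℤ) : ZMod ℓ) = ((f j : ℤ) : ZMod ℓ) := by rw [hf]; simp
  exact (ZMod.intCast_eq_intCast_iff _ _ _).mp this

theorem heckeU_degen {ℓ r : ℕ} (hℓ : ℓ ≠ 0) (hr : r ≠ 0) (hℓr : Nat.Coprime r ℓ) {x : Pairs R}
    (hx : TInv x) : heckeU ℓ (degen r x) = degen r (heckeU ℓ x) := by
  have : NeZero ℓ := ⟨hℓ⟩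
  have hu : IsUnit ((r : ℕ) : ZMod ℓ) := (ZMod.isUnit_iff_coprime r ℓ).mpr hℓr
  obtain ⟨u, hu⟩ := hu
  rw [heckeU_eq_sum_zmod, heckeU_eq_sum_zmod, degen_apply, degen_apply, map_sum]
  rw [← Equiv.sum_comp (Units.mulLeft u)
    (fun j : ZMod ℓ => slash (diagMat r) (slash (heckeMat ℓ (j.val : ℤ)) x))]
  refine Finset.sum_congr rfl fun j _ => ?_
  have hr' : (r : ℤ) * 1 ≠ 0 := by simpa using hr
  have hℓ' : (1 : ℤ) * ℓ ≠ 0 := by simpa using hℓ
  have hrl : (r : ℤ) * ℓ ≠ 0 := mul_ne_zero (by exact_mod_cast hr) (by exact_mod_cast hℓ)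
  rw [← slash_mul, ← slash_mul, triMat_mul _ _ hr' hℓ', triMat_mul _ _ hℓ' hr']
  simp only [mul_one, one_mul, zero_mul, add_zero, mul_zero, zero_add]
  refine slash_triMat_congr hx hrl ?_
  rw [← ZMod.intCast_eq_intCast_iff]
  push_cast
  rw [Units.mulLeft_apply, hu]
  simp

theorem sum_range_mul' {A : Type*} [AddCommMonoid A] (ℓ r : ℕ) (F : ℕ → A) :
    ∑ k ∈ Finset.range (ℓ * r), F k = ∑ j ∈ Finset.range r, ∑ i ∈ Finset.range ℓ, F (ℓ * j + i) := by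
  induction r with
  | zero => simp
  | succ r ih => rw [Nat.mul_succ, Finset.sum_range_add, ih, Finset.sum_range_succ]

theorem heckeU_heckeU (ℓ r : ℕ) (hℓ : ℓ ≠ 0) (hr : r ≠ 0) (x : Pairs R) :
    heckeU ℓ (heckeU r x) = heckeU (ℓ * r) x := by
  have hℓ' : (1 : ℤ) * ℓ ≠ 0 := by simpa using hℓ
  have hr' : (1 : ℤ) * r ≠ 0 := by simpa using hr
  rw [heckeU_apply, heckeU_apply, heckeU_apply]
  simp only [map_sum, ← slash_mul]
  rw [sum_range_mul', Finset.sum_comm]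
  refine Finset.sum_congr rfl fun j _ => Finset.sum_congr rfl fun i _ => ?_
  rw [triMat_mul _ _ hr' hℓ']
  have e1 : (1 : ℤ) * (i : ℤ) + (j : ℤ) * (ℓ : ℤ) = ((ℓ * j + i : ℕ) : ℤ) := by push_cast; ring
  have e2 : (r : ℤ) * (ℓ : ℤ) = ((ℓ * r : ℕ) : ℤ) := by push_cast; ring
  rw [e1, e2, one_mul]

theorem heckeU_comm (ℓ r : ℕ) (hℓ : ℓ ≠ 0) (hr : r ≠ 0) (x : Pairs R) :
    heckeU ℓ (heckeU r x) = heckeU r (heckeU ℓ x) := by
  rw [heckeU_heckeU ℓ r hℓ hr, heckeU_heckeU r ℓ hr hℓ, mul_comm]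

theorem degen_comm (ℓ r : ℕ) (hℓ : ℓ ≠ 0) (hr : r ≠ 0) (x : Pairs R) :
    degen ℓ (degen r x) = degen r (degen ℓ x) := by
  have hℓ' : (ℓ : ℤ) * 1 ≠ 0 := by simpa using hℓ
  have hr' : (r : ℤ) * 1 ≠ 0 := by simpa using hr
  rw [degen_apply, degen_apply, degen_apply, degen_apply, ← slash_mul, ← slash_mul,
    triMat_mul _ _ hr' hℓ', triMat_mul _ _ hℓ' hr', mul_comm (r : ℤ) (ℓ : ℤ)]
  simp

theorem heckeT_degen {ℓ r : ℕ} (hℓ : ℓ ≠ 0) (hr : r ≠ 0) (hℓr : Nat.Coprime r ℓ) {x : Pairs R}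
    (hx : TInv x) : heckeT ℓ (degen r x) = degen r (heckeT ℓ x) := by
  rw [heckeT_apply, heckeT_apply, map_add, heckeU_degen hℓ hr hℓr hx, degen_comm ℓ r hℓ hr]

theorem heckeT_heckeU {ℓ r : ℕ} (hℓ : ℓ ≠ 0) (hr : r ≠ 0) (hℓr : Nat.Coprime ℓ r) {x : Pairs R}
    (hx : TInv x) : heckeT ℓ (heckeU r x) = heckeU r (heckeT ℓ x) := by
  rw [heckeT_apply, heckeT_apply, map_add, heckeU_comm ℓ r hℓ hr, heckeU_degen hr hℓ hℓr hx]

theorem heckeT_comm {ℓ r : ℕ} (hℓ : ℓ ≠ 0) (hr : r ≠ 0) (hℓr : Nat.Coprime ℓ r) {x : Pairs R}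
    (hx : TInv x) : heckeT ℓ (heckeT r x) = heckeT r (heckeT ℓ x) := by
  rw [heckeT_apply r x, map_add, heckeT_heckeU hℓ hr hℓr hx,
    heckeT_degen hℓ hr hℓr.symm hx, ← heckeT_apply]

/-! ### degeneracy -/

theorem slash_degen_toQ {q : ℕ} (hq : q ≠ 0) {N : ℕ} {γ : SL(2, ℤ)} (hγ : ((N * q : ℕ) : ℤ) ∣ γ 1 0) :
    ∃ γ' : SL(2, ℤ), γ' ∈ Gamma0 N ∧ diagMat q * toQ γ = toQ γ' * diagMat q := by
  obtain ⟨e, he⟩ := hγ
  have hdet := det_eq' γ
  refine ⟨mkSL (γ 0 0) (q * γ 0 1) (N * e) (γ 1 1) ?_, ?_, ?_⟩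
  · rw [he] at hdet; push_cast at hdet; linear_combination hdet
  · rw [mem_Gamma0_iff]; simp [mkSL]
  · apply Units.ext
    rw [val_mul', val_mul', val_toQ, val_toQ_mkSL, val_diagMat hq]
    have he' : ((γ 1 0 : ℤ) : ℚ) = N * q * e := by rw [he]; push_cast; ring
    ext i j
    fin_cases i <;> fin_cases j <;> simp [Matrix.mul_apply, Fin.sum_univ_two, he'] <;> ring

/-- `x ↦ x|diag(q,1)` maps level `N` to level `N q`. -/
theorem degen_mem {N q : ℕ} (hq : q ≠ 0) {x : Pairs R} (hx : x ∈ MS (Gamma0 N) R) :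
    degen q x ∈ MS (Gamma0 (N * q)) R := by
  refine ⟨slash_add_of_add hx.1 _, fun γ hγ => ?_⟩
  obtain ⟨γ', h1, h2⟩ := slash_degen_toQ hq (mem_Gamma0_iff.mp hγ)
  rw [degen_apply, ← slash_mul, h2, slash_toQ_mul_of_mem hx h1]

theorem Gamma0_mono {N M : ℕ} (h : N ∣ M) : Gamma0 M ≤ Gamma0 N := fun γ hγ => by
  rw [mem_Gamma0_iff] at hγ ⊢
  exact (Int.natCast_dvd_natCast.mpr h).trans hγ

/-! ### Atkin–Lehner -/

/-- `γ_w = [a 1; N c q] ∈ Γ₀(N)` with `a q - N c = 1`. -/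
def alGamma (N q : ℕ) : SL(2, ℤ) :=
  if h : Nat.Coprime q N then
    mkSL (Int.gcdA q N) 1 (N * (-Int.gcdB q N)) q (by
      have := Int.gcd_eq_gcd_ab q N
      rw [Int.gcd_natCast_natCast, h.gcd_eq_one] at this
      push_cast at this
      linear_combination -this)
  else 1

/-- the Atkin–Lehner matrix `w = γ_w diag(q,1)`. -/
noncomputable def wMat (N q : ℕ) : GL (Fin 2) ℚ := toQ (alGamma N q) * diagMat q

theorem alGamma_mem (N q : ℕ) : alGamma N q ∈ Gamma0 N := by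
  rw [alGamma]
  split_ifs with h
  · rw [mem_Gamma0_iff]; simp [mkSL]
  · exact one_mem _

theorem exists_alGamma {N q : ℕ} (h : Nat.Coprime q N) : ∃ a c : ℤ, ∃ hac : a * q - 1 * (N * c) = 1,
    alGamma N q = mkSL a 1 (N * c) q hac := by
  refine ⟨Int.gcdA q N, -Int.gcdB q N, ?_, ?_⟩
  · have := Int.gcd_eq_gcd_ab q N
    rw [Int.gcd_natCast_natCast, h.gcd_eq_one] at this
    push_cast at this
    linear_combination -this
  · rw [alGamma, dif_pos h]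

theorem val_wMat {N q : ℕ} (hq : q ≠ 0) (h : Nat.Coprime q N) : ∃ a c : ℤ, a * q - N * c = 1 ∧
    (wMat N q : Matrix (Fin 2) (Fin 2) ℚ) =
      !![(a : ℚ) * q, 1; (N : ℚ) * c * q, (q : ℚ)] := by
  obtain ⟨a, c, hac, h1⟩ := exists_alGamma h
  refine ⟨a, c, by linear_combination hac, ?_⟩
  rw [wMat, val_mul', h1, val_toQ_mkSL, val_diagMat hq]
  ext i j
  fin_cases i <;> fin_cases j <;> simp [Matrix.mul_apply, Fin.sum_univ_two]

/-- Atkin–Lehner operator `x ↦ x|w_q`. -/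
noncomputable def wOp (N q : ℕ) : Pairs R →ₗ[R] Pairs R := slash (wMat N q)

theorem wOp_apply (N q : ℕ) (x : Pairs R) : wOp N q x = slash (wMat N q) x := rfl

/-- on level `N`, `x|w_q = x|diag(q,1)`. -/
theorem wOp_eq_degen {N q : ℕ} {x : Pairs R} (hx : x ∈ MS (Gamma0 N) R) :
    wOp N q x = degen q x := by
  rw [wOp_apply, wMat, slash_toQ_mul_of_mem hx (alGamma_mem N q), degen_apply]

/-- `w` normalises `Γ₀(Nq)`. -/
theorem wMat_mul {N q : ℕ} (hq : q ≠ 0) (h : Nat.Coprime q N) {γ : SL(2, ℤ)}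
    (hγ : γ ∈ Gamma0 (N * q)) :
    ∃ γ' ∈ Gamma0 (N * q), wMat N q * toQ γ = toQ γ' * wMat N q := by
  obtain ⟨a, c, hac, hw⟩ := val_wMat hq h
  obtain ⟨e, he⟩ := mem_Gamma0_iff.mp hγ
  have hdet := det_eq' γ
  push_cast at he
  rw [he] at hdet
  refine ⟨mkSL (a * q * γ 0 0 + N * q * e - (a * q * γ 0 1 + γ 1 1) * (N * c))
    (-(a * γ 0 0 + N * e) + (a * q * γ 0 1 + γ 1 1) * a)
    (N * q * (c * γ 0 0 + q * e - (N * c * γ 0 1 + γ 1 1) * c))
    (-(N * c * γ 0 0 + N * q * e) + (N * c * γ 0 1 + γ 1 1) * (a * q)) ?_, ?_, ?_⟩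
  · linear_combination (a * q - N * c) ^ 2 * hdet + (a * q - N * c + 1) * hac
  · rw [mem_Gamma0_iff]; simp [mkSL]
  · apply Units.ext
    rw [val_mul', val_mul', val_toQ, val_toQ_mkSL, hw]
    have he' : ((γ 1 0 : ℤ) : ℚ) = N * q * e := by rw [he]; push_cast; ring
    have hac' : (a : ℚ) * q - N * c = 1 := by exact_mod_cast hac
    ext i j
    fin_cases i <;> fin_cases j <;> simp [Matrix.mul_apply, Fin.sum_univ_two, he']
    · linear_combination (-(q * (a * (γ 0 0 : ℚ) + N * e))) * hac'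
    · linear_combination (-(a * q * (γ 0 1 : ℚ) + γ 1 1)) * hac'
    · linear_combination (-(q * N * (c * (γ 0 0 : ℚ) + q * e))) * hac'
    · linear_combination (-(q * (N * c * (γ 0 1 : ℚ) + γ 1 1))) * hac'

theorem wOp_mem {N q : ℕ} (hq : q ≠ 0) (h : Nat.Coprime q N) {y : Pairs R}
    (hy : y ∈ MS (Gamma0 (N * q)) R) : wOp N q y ∈ MS (Gamma0 (N * q)) R := by
  refine ⟨slash_add_of_add hy.1 _, fun γ hγ => ?_⟩
  obtain ⟨γ', h1, h2⟩ := wMat_mul hq h hγ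
  rw [wOp_apply, ← slash_mul, h2, slash_toQ_mul_of_mem hy h1]

theorem wMat_sq {N q : ℕ} (hq : q ≠ 0) (h : Nat.Coprime q N) : ∃ γ ∈ Gamma0 (N * q),
    ((wMat N q * wMat N q : GL (Fin 2) ℚ) : Matrix (Fin 2) (Fin 2) ℚ) =
      (q : ℚ) • (toQ γ : Matrix (Fin 2) (Fin 2) ℚ) := by
  obtain ⟨a, c, hac, hw⟩ := val_wMat hq h
  refine ⟨mkSL (a ^ 2 * q + N * c) (a + 1) (N * q * (c * (a + 1))) (N * c + q) ?_, ?_, ?_⟩
  · linear_combination (a * q - N * c + 1) * hac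
  · rw [mem_Gamma0_iff]; simp [mkSL]
  · rw [val_mul', val_toQ_mkSL, hw]
    ext i j
    fin_cases i <;> fin_cases j <;> simp [Matrix.mul_apply, Fin.sum_univ_two] <;> ring

theorem wOp_wOp {N q : ℕ} (hq : q ≠ 0) (h : Nat.Coprime q N) {y : Pairs R}
    (hy : y ∈ MS (Gamma0 (N * q)) R) : wOp N q (wOp N q y) = y := by
  obtain ⟨γ, h1, h2⟩ := wMat_sq hq h
  rw [wOp_apply, wOp_apply, ← slash_mul, slash_congr (by exact_mod_cast hq) h2, hy.2 γ h1]

/-! ### traces -/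

/-- representatives of `Γ₀(Nq) \ Γ₀(N)`. -/
def repSL (N q : ℕ) (s : OnePoint (ZMod q)) : SL(2, ℤ) :=
  s.elim 1 (fun j => alGamma N q * ModularGroup.T ^ (j.val : ℤ))

@[simp] theorem repSL_infty (N q : ℕ) : repSL N q ∞ = 1 := rfl

@[simp] theorem repSL_coe (N q : ℕ) (j : ZMod q) :
    repSL N q (j : OnePoint (ZMod q)) = alGamma N q * ModularGroup.T ^ (j.val : ℤ) := rfl

theorem repSL_mem (N q : ℕ) (s : OnePoint (ZMod q)) : repSL N q s ∈ Gamma0 N := by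
  induction s using OnePoint.rec with
  | infty => exact one_mem _
  | coe j => exact mul_mem (alGamma_mem N q) (T_zpow_mem_Gamma0 N _)

/-- trace from level `Nq` to level `N`. -/
noncomputable def tr1 (N q : ℕ) : Pairs R →ₗ[R] Pairs R := LinearMap.id + heckeU q ∘ₗ wOp N q

/-- twisted trace from level `Nq` to level `N`. -/
noncomputable def tr2 (N q : ℕ) : Pairs R →ₗ[R] Pairs R := wOp N q + heckeU q

theorem tr1_apply (N q : ℕ) (y : Pairs R) : tr1 N q y = y + heckeU q (wOp N q y) := rfl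

theorem tr2_apply (N q : ℕ) (y : Pairs R) : tr2 N q y = wOp N q y + heckeU q y := rfl

theorem tr2_eq {N q : ℕ} (hq : q ≠ 0) (h : Nat.Coprime q N) {y : Pairs R}
    (hy : y ∈ MS (Gamma0 (N * q)) R) : tr2 N q y = tr1 N q (wOp N q y) := by
  rw [tr1_apply, tr2_apply, wOp_wOp hq h hy]

theorem val_wMat_mul_heckeMat {N q : ℕ} (hq : q ≠ 0) (j : ℤ) :
    ((wMat N q * heckeMat q j : GL (Fin 2) ℚ) : Matrix (Fin 2) (Fin 2) ℚ) =
      (q : ℚ) • (toQ (alGamma N q * ModularGroup.T ^ j) : Matrix (Fin 2) (Fin 2) ℚ) := by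
  rw [wMat, toQ_mul, val_mul', val_mul', val_mul', Matrix.mul_assoc, ← Matrix.mul_smul]
  congr 1
  rw [val_diagMat hq, val_heckeMat hq, val_toQ_T_zpow]
  ext i k
  fin_cases i <;> fin_cases k <;> simp [Matrix.mul_apply, Fin.sum_univ_two]

theorem tr1_eq_sum {N q : ℕ} [NeZero q] (y : Pairs R) :
    tr1 N q y = ∑ s : OnePoint (ZMod q), slash (toQ (repSL N q s)) y := by
  have hq : q ≠ 0 := NeZero.ne q
  have h1 : heckeU q (wOp N q y) =
      ∑ j : ZMod q, slash (toQ (repSL N q (j : OnePoint (ZMod q)))) y := by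
    rw [heckeU_eq_sum_zmod]
    refine Finset.sum_congr rfl fun j _ => ?_
    rw [wOp_apply, ← slash_mul, slash_congr (by exact_mod_cast hq) (val_wMat_mul_heckeMat hq _)]
    rfl
  rw [tr1_apply, h1]
  have h2 : y = slash (toQ (repSL N q ∞)) y := by simp
  have h3 := (Fintype.sum_option (fun s : OnePoint (ZMod q) => slash (toQ (repSL N q s)) y)).symm
  calc y + ∑ j : ZMod q, slash (toQ (repSL N q (j : OnePoint (ZMod q)))) y
      = slash (toQ (repSL N q ∞)) y +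
        ∑ j : ZMod q, slash (toQ (repSL N q (j : OnePoint (ZMod q)))) y := by
          rw [← h2]
    _ = _ := h3

/-- `diag(q,1) ρ_s = γ_{2,s} r_s`. -/
theorem diagMat_mul_repSL {N q : ℕ} (hq : q ≠ 0) (h : Nat.Coprime q N) (s : OnePoint (ZMod q)) :
    ∃ k ∈ Gamma0 N, diagMat q * toQ (repSL N q s) = toQ k * heckeRepQ q s := by
  induction s using OnePoint.rec with
  | infty => exact ⟨1, one_mem _, by simp⟩
  | coe j =>
    obtain ⟨a, c, hac, h1⟩ := exists_alGamma h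
    refine ⟨mkSL (q * a) 1 (N * c) 1 (by linear_combination hac), ?_, ?_⟩
    · rw [mem_Gamma0_iff]; simp [mkSL]
    · apply Units.ext
      rw [repSL_coe, heckeRepQ_coe, toQ_mul, val_mul', val_mul', val_mul', h1, val_toQ_mkSL,
        val_toQ_mkSL, val_toQ_T_zpow, val_diagMat hq, val_heckeMat hq]
      ext i k
      fin_cases i <;> fin_cases k <;> simp [Matrix.mul_apply, Fin.sum_univ_two] <;> ring

theorem mem_of_diag_conj {N q : ℕ} (hq : q ≠ 0) {k k' : SL(2, ℤ)} (hk : k ∈ Gamma0 N)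
    (h : diagMat q * toQ k' = toQ k * diagMat q) : k' ∈ Gamma0 (N * q) := by
  have h1 := congrArg (fun m : GL (Fin 2) ℚ => (m : Matrix (Fin 2) (Fin 2) ℚ) 1 0) h
  simp only [val_mul', val_toQ, val_diagMat hq] at h1
  simp [Matrix.mul_apply, Fin.sum_univ_two] at h1
  have h2 : k' 1 0 = k 1 0 * q := by exact_mod_cast h1
  obtain ⟨e, he⟩ := mem_Gamma0_iff.mp hk
  rw [mem_Gamma0_iff, h2, he]
  exact ⟨e, by push_cast; ring⟩

theorem repSL_mul {N q : ℕ} [Fact q.Prime] (hqN : ¬ q ∣ N) {γ : SL(2, ℤ)} (hγ : γ ∈ Gamma0 N)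
    (s : OnePoint (ZMod q)) :
    ∃ γ' ∈ Gamma0 (N * q), repSL N q s * γ = γ' * repSL N q (redMat q γ • s) := by
  have hp : q.Prime := Fact.out
  have hq : q ≠ 0 := hp.ne_zero
  have hcop : Nat.Coprime q N := (Nat.Prime.coprime_iff_not_dvd hp).mpr hqN
  obtain ⟨g', hg', h1⟩ := heckeRepQ_mul hqN γ (mem_Gamma0_iff.mp hγ) s
  obtain ⟨k1, hk1, e1⟩ := diagMat_mul_repSL hq hcop s
  obtain ⟨k2, hk2, e2⟩ := diagMat_mul_repSL hq hcop (redMat q γ • s)
  refine ⟨repSL N q s * γ * (repSL N q (redMat q γ • s))⁻¹, ?_, by group⟩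
  refine mem_of_diag_conj hq (k := k1 * g' * k2⁻¹)
    (mul_mem (mul_mem hk1 (mem_Gamma0_iff.mpr hg')) (inv_mem hk2)) ?_
  have e2' : heckeRepQ q (redMat q γ • s) =
      (toQ k2)⁻¹ * (diagMat q * toQ (repSL N q (redMat q γ • s))) := by
    rw [e2]; group
  simp only [map_mul, map_inv]
  calc diagMat q * (toQ (repSL N q s) * toQ γ * (toQ (repSL N q (redMat q γ • s)))⁻¹)
      = (diagMat q * toQ (repSL N q s)) * toQ γ * (toQ (repSL N q (redMat q γ • s)))⁻¹ := by group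
    _ = toQ k1 * (heckeRepQ q s * toQ γ) * (toQ (repSL N q (redMat q γ • s)))⁻¹ := by
        rw [e1]; group
    _ = toQ k1 * toQ g' * (toQ k2)⁻¹ * diagMat q := by
        rw [h1, e2']; group

theorem sum_apply_add {ι : Type*} [Fintype ι] (f : ι → Pairs R)
    (hf : ∀ i, ∀ a b c, f i a b + f i b c = f i a c) :
    ∀ a b c, (∑ i, f i) a b + (∑ i, f i) b c = (∑ i, f i) a c := by
  intro a b c
  simp only [Finset.sum_apply]
  rw [← Finset.sum_add_distrib]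
  exact Finset.sum_congr rfl fun s _ => hf s _ _ _

theorem tr1_mem {N q : ℕ} (hq : q.Prime) (hqN : ¬ q ∣ N) {y : Pairs R}
    (hy : y ∈ MS (Gamma0 (N * q)) R) : tr1 N q y ∈ MS (Gamma0 N) R := by
  have : Fact q.Prime := ⟨hq⟩
  rw [tr1_eq_sum]
  refine ⟨sum_apply_add _ fun s => slash_add_of_add hy.1 _, fun γ hγ => ?_⟩
  rw [map_sum, ← Equiv.sum_comp (MulAction.toPerm (redMat q γ))
    (fun s => slash (toQ (repSL N q s)) y)]
  refine Finset.sum_congr rfl fun s _ => ?_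
  obtain ⟨γ', h1, h2⟩ := repSL_mul hqN hγ s
  rw [← slash_mul, ← map_mul, h2, map_mul, slash_toQ_mul_of_mem hy h1]
  rfl

theorem tr2_mem {N q : ℕ} (hq : q.Prime) (hqN : ¬ q ∣ N) {y : Pairs R}
    (hy : y ∈ MS (Gamma0 (N * q)) R) : tr2 N q y ∈ MS (Gamma0 N) R := by
  have hcop : Nat.Coprime q N := (Nat.Prime.coprime_iff_not_dvd hq).mpr hqN
  rw [tr2_eq hq.ne_zero hcop hy]
  exact tr1_mem hq hqN (wOp_mem hq.ne_zero hcop hy)

theorem tr1_of_mem {N q : ℕ} [NeZero q] {x : Pairs R} (hx : x ∈ MS (Gamma0 N) R) :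
    tr1 N q x = ((q : R) + 1) • x := by
  rw [tr1_eq_sum]
  have : ∀ s : OnePoint (ZMod q), slash (toQ (repSL N q s)) x = x := fun s => hx.2 _ (repSL_mem N q s)
  simp only [this, Finset.sum_const, Finset.card_univ]
  have hc : Fintype.card (OnePoint (ZMod q)) = q + 1 := by
    have := Fintype.card_option (α := ZMod q)
    rw [ZMod.card] at this
    exact this
  rw [hc, ← Nat.cast_smul_eq_nsmul R]; push_cast; rfl

theorem tr1_degen {N q : ℕ} [NeZero q] (h : Nat.Coprime q N) {x : Pairs R}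
    (hx : x ∈ MS (Gamma0 N) R) : tr1 N q (degen q x) = heckeT q x := by
  rw [tr1_eq_sum, heckeT_eq_sum]
  refine Finset.sum_congr rfl fun s _ => ?_
  obtain ⟨k, hk, e⟩ := diagMat_mul_repSL (NeZero.ne q) h s
  rw [degen_apply, ← slash_mul, e, slash_toQ_mul_of_mem hx hk]

theorem tr2_of_mem {N q : ℕ} [NeZero q] (h : Nat.Coprime q N) {x : Pairs R}
    (hx : x ∈ MS (Gamma0 N) R) : tr2 N q x = heckeT q x := by
  rw [tr2_eq (NeZero.ne q) h (MS_mono (Gamma0_mono (Dvd.intro q rfl)) hx), wOp_eq_degen hx,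
    tr1_degen h hx]

theorem tr2_degen {N q : ℕ} [NeZero q] (h : Nat.Coprime q N) {x : Pairs R}
    (hx : x ∈ MS (Gamma0 N) R) : tr2 N q (degen q x) = ((q : R) + 1) • x := by
  have hq := NeZero.ne q
  have hx' : x ∈ MS (Gamma0 (N * q)) R := MS_mono (Gamma0_mono (Dvd.intro q rfl)) hx
  rw [tr2_eq hq h (degen_mem hq hx), ← wOp_eq_degen hx, wOp_wOp hq h hx', tr1_of_mem hx]

/-! ### Hecke operators commute with `w` and the traces -/

/-- key computation: `y|A w = y|w B'` for suitable upper triangular `A, B, B'`. -/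
theorem slash_triMat_wMat {N q : ℕ} (hq : q.Prime) (hqN : ¬ q ∣ N) {y : Pairs R}
    (hy : y ∈ MS (Gamma0 (N * q)) R) {a b d a' b' b'' d' : ℤ} (had : a * d ≠ 0)
    (had' : a' * d' ≠ 0) (hqd : ¬ (q : ℤ) ∣ d') {g' : SL(2, ℤ)} (hg' : g' ∈ Gamma0 N)
    (h1 : triMat a b d * toQ (alGamma N q) = toQ g' * triMat a' b' d')
    (hb : b' ≡ q * b'' [ZMOD d']) :
    slash (triMat a b d * wMat N q) y = slash (wMat N q * triMat a' b'' d') y := by
  have hq0 : q ≠ 0 := hq.ne_zero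
  have hcop : Nat.Coprime q N := (Nat.Prime.coprime_iff_not_dvd hq).mpr hqN
  obtain ⟨k, hk⟩ := hb.symm.dvd
  -- `B δ = T^k δ B'`
  have e1 : triMat a' b' d' * diagMat q =
      toQ (ModularGroup.T ^ k) * diagMat q * triMat a' b'' d' := by
    apply Units.ext
    rw [val_mul', val_mul', val_mul', val_toQ_T_zpow, val_diagMat hq0, val_triMat _ had',
      val_triMat _ had']
    have hk' : (b' : ℚ) = q * b'' + d' * k := by
      have : b' = q * b'' + d' * k := by linarith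
      exact_mod_cast this
    ext i j
    fin_cases i <;> fin_cases j <;> simp [Matrix.mul_apply, Fin.sum_univ_two]
    · ring
    · rw [hk']; ring
  set g : SL(2, ℤ) := g' * ModularGroup.T ^ k * (alGamma N q)⁻¹ with hg
  have e2 : triMat a b d * wMat N q = toQ g * (wMat N q * triMat a' b'' d') := by
    calc triMat a b d * wMat N q = (triMat a b d * toQ (alGamma N q)) * diagMat q := by
          rw [wMat]; group
      _ = toQ g' * (triMat a' b' d' * diagMat q) := by rw [h1]; group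
      _ = toQ g' * (toQ (ModularGroup.T ^ k) * diagMat q * triMat a' b'' d') := by rw [e1]
      _ = toQ g * (wMat N q * triMat a' b'' d') := by
          have e3 : toQ (alGamma N q)⁻¹ = (toQ (alGamma N q))⁻¹ := map_inv _ _
          rw [hg, wMat, toQ_mul, toQ_mul, e3]; group
  have hgN : g ∈ Gamma0 N :=
    mul_mem (mul_mem hg' (T_zpow_mem_Gamma0 N k)) (inv_mem (alGamma_mem N q))
  have hgq : (q : ℤ) ∣ g 1 0 := by
    obtain ⟨u, c, -, hw⟩ := val_wMat hq0 hcop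
    have h2 := congrArg (fun m : GL (Fin 2) ℚ => (m : Matrix (Fin 2) (Fin 2) ℚ) 1 1) e2
    simp only [val_mul', val_toQ, hw, val_triMat _ had, val_triMat _ had'] at h2
    simp [Matrix.mul_apply, Fin.sum_univ_two] at h2
    have h3 : d * q = (g 1 0 * (u * q) + g 1 1 * (N * c * q)) * b'' +
        (g 1 0 + g 1 1 * q) * d' := by
      have h2' : ((d * q : ℤ) : ℚ) = (((g 1 0 * (u * q) + g 1 1 * (N * c * q)) * b'' +
        (g 1 0 + g 1 1 * q) * d' : ℤ) : ℚ) := by push_cast; linear_combination h2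
      exact_mod_cast h2'
    have h4 : (q : ℤ) ∣ g 1 0 * d' := by
      refine ⟨d - (g 1 0 * u + g 1 1 * (N * c)) * b'' - g 1 1 * d', ?_⟩
      linear_combination -h3
    exact (Int.Prime.dvd_mul' hq h4).resolve_right hqd
  have hgNq : g ∈ Gamma0 (N * q) := by
    rw [mem_Gamma0_iff]
    push_cast
    exact IsCoprime.mul_dvd (Nat.isCoprime_iff_coprime.mpr hcop.symm) (mem_Gamma0_iff.mp hgN) hgq
  rw [e2, slash_toQ_mul_of_mem hy hgNq]

/-- a permutation of `α` extended to `OnePoint α`. -/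
def onePointPerm {α : Type*} (e : Equiv.Perm α) : Equiv.Perm (OnePoint α) := Equiv.optionCongr e

@[simp] theorem onePointPerm_infty {α : Type*} (e : Equiv.Perm α) : onePointPerm e ∞ = ∞ := rfl

@[simp] theorem onePointPerm_coe {α : Type*} (e : Equiv.Perm α) (a : α) :
    onePointPerm e (a : OnePoint α) = ((e a : α) : OnePoint α) := rfl

theorem heckeT_wOp {N q ℓ : ℕ} (hq : q.Prime) (hqN : ¬ q ∣ N) (hℓ : ℓ.Prime) (hℓN : ¬ ℓ ∣ N)
    (hℓq : ℓ ≠ q) {y : Pairs R} (hy : y ∈ MS (Gamma0 (N * q)) R) :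
    heckeT ℓ (wOp N q y) = wOp N q (heckeT ℓ y) := by
  have : Fact ℓ.Prime := ⟨hℓ⟩
  have hℓ0 : (ℓ : ℤ) ≠ 0 := by exact_mod_cast hℓ.ne_zero
  have hcop : Nat.Coprime q ℓ := (Nat.coprime_primes hq hℓ).mpr (Ne.symm hℓq)
  obtain ⟨u, hu⟩ := (ZMod.isUnit_iff_coprime q ℓ).mpr hcop
  have hqℓ : ¬ (q : ℤ) ∣ ℓ := by
    rw [Int.natCast_dvd_natCast, Nat.prime_dvd_prime_iff_eq hq hℓ]; exact Ne.symm hℓq
  have hq1 : ¬ (q : ℤ) ∣ 1 := by
    intro h
    exact hq.one_lt.ne' (by exact_mod_cast Int.eq_one_of_dvd_one (by positivity) h)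
  rw [wOp_apply, wOp_apply, heckeT_eq_sum, heckeT_eq_sum, map_sum]
  rw [← Equiv.sum_comp ((MulAction.toPerm (redMat ℓ (alGamma N q))).trans
    (onePointPerm (Units.mulLeft u⁻¹)))
    (fun s => slash (heckeRepQ ℓ s) (slash (wMat N q) y))]
  refine Finset.sum_congr rfl fun s _ => ?_
  rw [← slash_mul, ← slash_mul]
  obtain ⟨g', hg', h1⟩ := heckeRepQ_mul hℓN (alGamma N q) (mem_Gamma0_iff.mp (alGamma_mem N q)) s
  have hg'' := mem_Gamma0_iff.mpr hg'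
  symm
  simp only [Equiv.trans_apply, MulAction.toPerm_apply]
  generalize redMat ℓ (alGamma N q) • s = t at h1 ⊢
  have key : ∀ (t : OnePoint (ZMod ℓ)), heckeRepQ ℓ s * toQ (alGamma N q) = toQ g' * heckeRepQ ℓ t →
      slash (heckeRepQ ℓ s * wMat N q) y =
        slash (wMat N q * heckeRepQ ℓ (onePointPerm (Units.mulLeft u⁻¹) t)) y := by
    intro t ht
    have hs : ∃ a b d : ℤ, a * d ≠ 0 ∧ heckeRepQ ℓ s = triMat a b d := by
      induction s using OnePoint.rec with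
      | infty => exact ⟨ℓ, 0, 1, by simpa using hℓ0, rfl⟩
      | coe j => exact ⟨1, j.val, ℓ, by simpa using hℓ0, rfl⟩
    obtain ⟨a, b, d, had, hs⟩ := hs
    rw [hs] at ht ⊢
    induction t using OnePoint.rec with
    | infty =>
      exact slash_triMat_wMat hq hqN hy had (by simpa using hℓ0) hq1 hg'' ht
        (by simp [Int.modEq_one])
    | coe j =>
      refine slash_triMat_wMat hq hqN hy had (by simpa using hℓ0) hqℓ hg'' ht ?_
      rw [← ZMod.intCast_eq_intCast_iff, Int.cast_mul, Int.cast_natCast, Int.cast_natCast,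
        Int.cast_natCast, ZMod.natCast_zmod_val, ZMod.natCast_zmod_val, Units.mulLeft_apply, ← hu,
        Units.mul_inv_cancel_left]
  exact key t h1

theorem heckeU_wOp {N q r : ℕ} (hq : q.Prime) (hqN : ¬ q ∣ N) (hr : r.Prime) (hrN : r ∣ N)
    {y : Pairs R} (hy : y ∈ MS (Gamma0 (N * q)) R) :
    heckeU r (wOp N q y) = wOp N q (heckeU r y) := by
  have : NeZero r := ⟨hr.ne_zero⟩
  have hr0 : (r : ℤ) ≠ 0 := by exact_mod_cast hr.ne_zero
  have hrq : q ≠ r := fun h => hqN (h ▸ hrN)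
  have hcop : Nat.Coprime q r := (Nat.coprime_primes hq hr).mpr hrq
  obtain ⟨u, hu⟩ := (ZMod.isUnit_iff_coprime q r).mpr hcop
  have hqr : ¬ (q : ℤ) ∣ r := by
    rw [Int.natCast_dvd_natCast, Nat.prime_dvd_prime_iff_eq hq hr]; exact hrq
  have hα := mem_Gamma0_iff.mp (alGamma_mem N q)
  obtain ⟨π, hπ⟩ := heckeMat_mul_of_dvd (q := r) (alGamma N q)
    ((Int.natCast_dvd_natCast.mpr hrN).trans hα)
  rw [wOp_apply, wOp_apply, heckeU_eq_sum_zmod, heckeU_eq_sum_zmod, map_sum]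
  rw [← Equiv.sum_comp (π.trans (Units.mulLeft u⁻¹))
    (fun s : ZMod r => slash (heckeMat r (s.val : ℤ)) (slash (wMat N q) y))]
  refine Finset.sum_congr rfl fun s _ => ?_
  rw [← slash_mul, ← slash_mul]
  obtain ⟨g', hg', h1⟩ := hπ s
  have hg'' : g' ∈ Gamma0 N := by
    rw [mem_Gamma0_iff, hg']; exact Dvd.dvd.mul_left hα _
  symm
  refine slash_triMat_wMat hq hqN hy (by simpa using hr0) (by simpa using hr0) hqr hg'' h1 ?_
  rw [← ZMod.intCast_eq_intCast_iff, Int.cast_mul, Int.cast_natCast, Int.cast_natCast,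
    Int.cast_natCast, ZMod.natCast_zmod_val, ZMod.natCast_zmod_val, Equiv.trans_apply,
    Units.mulLeft_apply, ← hu, Units.mul_inv_cancel_left]

theorem heckeT_tr1 {N q ℓ : ℕ} (hq : q.Prime) (hqN : ¬ q ∣ N) (hℓ : ℓ.Prime) (hℓN : ¬ ℓ ∣ N)
    (hℓq : ℓ ≠ q) {y : Pairs R} (hy : y ∈ MS (Gamma0 (N * q)) R) :
    heckeT ℓ (tr1 N q y) = tr1 N q (heckeT ℓ y) := by
  have hcop : Nat.Coprime q N := (Nat.Prime.coprime_iff_not_dvd hq).mpr hqN
  rw [tr1_apply, tr1_apply, map_add, heckeT_heckeU hℓ.ne_zero hq.ne_zero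
    ((Nat.coprime_primes hℓ hq).mpr hℓq) (TInv_of_mem (wOp_mem hq.ne_zero hcop hy)),
    heckeT_wOp hq hqN hℓ hℓN hℓq hy]

theorem heckeT_tr2 {N q ℓ : ℕ} (hq : q.Prime) (hqN : ¬ q ∣ N) (hℓ : ℓ.Prime) (hℓN : ¬ ℓ ∣ N)
    (hℓq : ℓ ≠ q) {y : Pairs R} (hy : y ∈ MS (Gamma0 (N * q)) R) :
    heckeT ℓ (tr2 N q y) = tr2 N q (heckeT ℓ y) := by
  rw [tr2_apply, tr2_apply, map_add, heckeT_heckeU hℓ.ne_zero hq.ne_zero
    ((Nat.coprime_primes hℓ hq).mpr hℓq) (TInv_of_mem hy), heckeT_wOp hq hqN hℓ hℓN hℓq hy]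

theorem heckeU_tr1 {N q r : ℕ} (hq : q.Prime) (hqN : ¬ q ∣ N) (hr : r.Prime) (hrN : r ∣ N)
    {y : Pairs R} (hy : y ∈ MS (Gamma0 (N * q)) R) :
    heckeU r (tr1 N q y) = tr1 N q (heckeU r y) := by
  rw [tr1_apply, tr1_apply, map_add, heckeU_comm r q hr.ne_zero hq.ne_zero,
    heckeU_wOp hq hqN hr hrN hy]

theorem heckeU_tr2 {N q r : ℕ} (hq : q.Prime) (hqN : ¬ q ∣ N) (hr : r.Prime) (hrN : r ∣ N)
    {y : Pairs R} (hy : y ∈ MS (Gamma0 (N * q)) R) :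
    heckeU r (tr2 N q y) = tr2 N q (heckeU r y) := by
  rw [tr2_apply, tr2_apply, map_add, heckeU_comm r q hr.ne_zero hq.ne_zero,
    heckeU_wOp hq hqN hr hrN hy]

/-! ### the `q`-new part -/

/-- the `q`-new modular symbols of level `Nq`. -/
noncomputable def newMS (N q : ℕ) (R : Type*) [CommRing R] : Submodule R (Pairs R) :=
  MS (Gamma0 (N * q)) R ⊓ LinearMap.ker (tr1 N q) ⊓ LinearMap.ker (tr2 N q)

theorem mem_newMS {N q : ℕ} {y : Pairs R} : y ∈ newMS N q R ↔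
    y ∈ MS (Gamma0 (N * q)) R ∧ tr1 N q y = 0 ∧ tr2 N q y = 0 := by
  simp [newMS, and_assoc]

theorem heckeU_of_new {N q : ℕ} {y : Pairs R} (hy : y ∈ newMS N q R) :
    heckeU q y = - wOp N q y := by
  have := (mem_newMS.mp hy).2.2
  rw [tr2_apply] at this
  exact (neg_eq_of_add_eq_zero_right this).symm

theorem wOp_mem_new {N q : ℕ} (hq : q.Prime) (hqN : ¬ q ∣ N) {y : Pairs R}
    (hy : y ∈ newMS N q R) : wOp N q y ∈ newMS N q R := by
  have hcop : Nat.Coprime q N := (Nat.Prime.coprime_iff_not_dvd hq).mpr hqN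
  obtain ⟨h1, h2, h3⟩ := mem_newMS.mp hy
  have h4 := wOp_mem hq.ne_zero hcop h1
  refine mem_newMS.mpr ⟨h4, ?_, ?_⟩
  · rw [← tr2_eq hq.ne_zero hcop h1, h3]
  · rw [tr2_eq hq.ne_zero hcop h4, wOp_wOp hq.ne_zero hcop h1, h2]

theorem heckeU_mem_new {N q : ℕ} (hq : q.Prime) (hqN : ¬ q ∣ N) {y : Pairs R}
    (hy : y ∈ newMS N q R) : heckeU q y ∈ newMS N q R := by
  rw [heckeU_of_new hy]
  exact neg_mem (wOp_mem_new hq hqN hy)

/-- `U_q² = 1` on the `q`-new part. -/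
theorem heckeU_heckeU_of_new {N q : ℕ} (hq : q.Prime) (hqN : ¬ q ∣ N) {y : Pairs R}
    (hy : y ∈ newMS N q R) : heckeU q (heckeU q y) = y := by
  have hcop : Nat.Coprime q N := (Nat.Prime.coprime_iff_not_dvd hq).mpr hqN
  rw [heckeU_of_new hy, map_neg, heckeU_of_new (wOp_mem_new hq hqN hy), neg_neg,
    wOp_wOp hq.ne_zero hcop (mem_newMS.mp hy).1]

theorem heckeT_mem_new {N q ℓ : ℕ} (hq : q.Prime) (hqN : ¬ q ∣ N) (hℓ : ℓ.Prime) (hℓN : ¬ ℓ ∣ N)
    (hℓq : ℓ ≠ q) {y : Pairs R} (hy : y ∈ newMS N q R) : heckeT ℓ y ∈ newMS N q R := by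
  obtain ⟨h1, h2, h3⟩ := mem_newMS.mp hy
  refine mem_newMS.mpr ⟨heckeT_mem_MS hℓ ?_ h1, ?_, ?_⟩
  · intro h
    rcases (Nat.Prime.dvd_mul hℓ).mp h with h | h
    · exact hℓN h
    · exact hℓq ((Nat.prime_dvd_prime_iff_eq hℓ hq).mp h)
  · rw [← heckeT_tr1 hq hqN hℓ hℓN hℓq h1, h2, map_zero]
  · rw [← heckeT_tr2 hq hqN hℓ hℓN hℓq h1, h3, map_zero]

theorem heckeU_mem_new' {N q r : ℕ} (hq : q.Prime) (hqN : ¬ q ∣ N) (hr : r.Prime) (hrN : r ∣ N)
    {y : Pairs R} (hy : y ∈ newMS N q R) : heckeU r y ∈ newMS N q R := by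
  have : NeZero r := ⟨hr.ne_zero⟩
  obtain ⟨h1, h2, h3⟩ := mem_newMS.mp hy
  refine mem_newMS.mpr ⟨heckeU_mem_MS (Dvd.dvd.mul_right hrN q) h1, ?_, ?_⟩
  · rw [← heckeU_tr1 hq hqN hr hrN h1, h2, map_zero]
  · rw [← heckeU_tr2 hq hqN hr hrN h1, h3, map_zero]

end Fermat.Agent.LR
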