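import Fermat.Agent.LR.FreeProd

/-!
# Manin symbols (team LR, piece P3)

* `values_mem`, `ext_manin`: a modular symbol is determined by its Manin values `x(g∞, g0)`;
* `exists_of_manin`: every function satisfying the Manin relations comes from a modular symbol;
* `manin Γ x : SL(2,ℤ) ⧸ Γ → R` and the linear map `maninL`;
* `MS Γ ℤ` is finite free, `MS Γ ℤ ⊗ K = MS Γ K` (`span_intMS`, `linearIndependent_mapCoeff`,
  `basisMap`).
-/

set_option autoImplicit false

open Matrix Matrix.SpecialLinearGroup CongruenceSubgroup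
open scoped MatrixGroups OnePoint

namespace Fermat.Agent.LR

local notation "S" => ModularGroup.S
local notation "T" => ModularGroup.T

variable {R : Type*} [CommRing R]

/-- The Manin values `g ↦ x(g∞, g0)`. -/
noncomputable def maninFun (x : Pairs R) (g : SL(2, ℤ)) : R :=
  x (toQ g • ∞) (toQ g • ((0 : ℚ) : Cusp))

theorem toQ_mul_smul (g h : SL(2, ℤ)) (c : Cusp) : toQ (g * h) • c = toQ g • (toQ h • c) := by
  rw [toQ, map_mul, mul_smul]

theorem exists_toQ (c : Cusp) : ∃ g : SL(2, ℤ), toQ g • (∞ : Cusp) = c :=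
  OnePoint.exists_mem_SL2 ℤ c

/-- All values of an additive `x` lie in any subgroup containing its Manin values. -/
theorem values_mem (A : AddSubgroup R) {x : Pairs R} (hx : ∀ a b c, x a b + x b c = x a c)
    (h : ∀ g, maninFun x g ∈ A) (a b : Cusp) : x a b ∈ A := by
  have key : ∀ k : SL(2, ℤ), ∀ g : SL(2, ℤ), x (toQ g • ∞) (toQ (g * k) • ∞) ∈ A := by
    intro k
    have hk : k ∈ Subgroup.closure {S, U} := closure_S_U ▸ Subgroup.mem_top k
    induction hk using Subgroup.closure_induction with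
    | mem y hy =>
      rcases hy with rfl | rfl
      · intro g
        rw [toQ_mul_smul, toQ_S_infty]
        exact h g
      · intro g
        rw [toQ_mul_smul, toQ_U_infty]
        exact h g
    | one =>
      intro g
      rw [mul_one, add_self_eq_zero hx]
      exact A.zero_mem
    | mul y z _ _ hy hz =>
      intro g
      rw [← hx _ (toQ (g * y) • ∞), ← mul_assoc]
      exact A.add_mem (hy g) (hz (g * y))
    | inv y _ hy =>
      intro g
      rw [neg_swap hx]
      have := hy (g * y⁻¹)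
      rw [inv_mul_cancel_right] at this
      exact A.neg_mem this
  obtain ⟨g, rfl⟩ := exists_toQ a
  obtain ⟨g', rfl⟩ := exists_toQ b
  have := key (g⁻¹ * g') g
  rwa [mul_inv_cancel_left] at this

/-- Additive functions with the same Manin values coincide. -/
theorem ext_manin {x y : Pairs R} (hx : ∀ a b c, x a b + x b c = x a c)
    (hy : ∀ a b c, y a b + y b c = y a c)
    (h : ∀ g, maninFun x g = maninFun y g) : x = y := by
  funext a b
  have hz : ∀ a b c, (x - y) a b + (x - y) b c = (x - y) a c := by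
    intro a b c
    simp only [Pi.sub_apply]
    rw [← hx a b c, ← hy a b c]; ring
  have := values_mem (R := R) ⊥ hz (fun g => by
    rw [AddSubgroup.mem_bot]
    change x _ _ - y _ _ = 0
    rw [sub_eq_zero]; exact h g) a b
  rw [AddSubgroup.mem_bot] at this
  exact sub_eq_zero.mp this

/-- An element of `SL(2,ℤ)` fixing `∞` is `± T^n`. -/
theorem eq_T_zpow_of_fix {g : SL(2, ℤ)} (h : toQ g • (∞ : Cusp) = ∞) :
    ∃ n : ℤ, g = T ^ n ∨ g = -T ^ n := by
  have h10 : (g : Matrix (Fin 2) (Fin 2) ℤ) 1 0 = 0 := by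
    rw [toQ_smul_infty] at h
    by_contra hne
    rw [if_neg hne] at h
    exact OnePoint.coe_ne_infty _ h
  have hdet := g.det_coe
  rw [Matrix.det_fin_two, h10, mul_zero, sub_zero] at hdet
  have had := Int.eq_one_or_neg_one_of_mul_eq_one' hdet
  rcases had with ⟨ha, hd⟩ | ⟨ha, hd⟩
  · refine ⟨(g : Matrix (Fin 2) (Fin 2) ℤ) 0 1, Or.inl ?_⟩
    apply Subtype.ext
    rw [ModularGroup.coe_T_zpow]
    ext i j
    fin_cases i <;> fin_cases j <;> simp [ha, hd, h10]
  · refine ⟨-(g : Matrix (Fin 2) (Fin 2) ℤ) 0 1, Or.inr ?_⟩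
    apply Subtype.ext
    rw [Matrix.SpecialLinearGroup.coe_neg, ModularGroup.coe_T_zpow]
    ext i j
    fin_cases i <;> fin_cases j <;> simp [ha, hd, h10]

section Existence

/-- Functions with a primitive: the value only depends on `g∞`. -/
theorem eq_of_smul_infty_eq {A : Type*} [AddCommGroup A] {m k : SL(2, ℤ) → A}
    (hS : ∀ g, m g + m (g * S) = 0) (hkS : ∀ g, k (g * S) = k g + m g)
    (hkU : ∀ g, k (g * U) = k g + m g) {g g' : SL(2, ℤ)}
    (h : toQ g • (∞ : Cusp) = toQ g' • ∞) : k g = k g' := by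
  have hneg : ∀ g, k (-g) = k g := by
    intro g
    have : -g = g * S * S := by rw [mul_assoc, ← pow_two, S_sq]; simp
    rw [this, hkS, hkS, add_assoc, hS, add_zero]
  have hT : ∀ g, k (g * T) = k g := by
    intro g
    have h1 : ∀ g, k (g * T⁻¹) = k g := by
      intro g
      rw [← S_mul_U, ← mul_assoc, hkU, hkS, add_assoc, hS, add_zero]
    rw [← h1 (g * T), mul_inv_cancel_right]
  have hTz : ∀ n : ℤ, ∀ g, k (g * T ^ n) = k g := by
    intro n
    induction n using Int.induction_on with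
    | zero => intro g; simp
    | succ n ih => intro g; rw [_root_.zpow_add_one, ← mul_assoc, hT, ih]
    | pred n ih =>
      intro g
      rw [_root_.zpow_sub_one, ← mul_assoc, ← hT (g * T ^ (-(n : ℤ)) * T⁻¹), inv_mul_cancel_right, ih]
  have h2 : toQ (g⁻¹ * g') • (∞ : Cusp) = ∞ := by
    rw [toQ_mul_smul, ← h, ← toQ_mul_smul, inv_mul_cancel]
    simp
  obtain ⟨n, hn | hn⟩ := eq_T_zpow_of_fix h2
  · have : g' = g * T ^ n := by rw [← hn, mul_inv_cancel_left]
    rw [this, hTz]
  · have : g' = -(g * T ^ n) := by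
      rw [← mul_neg, ← hn, mul_inv_cancel_left]
    rw [this, hneg, hTz]

/-- Every function satisfying the Manin relations is the Manin function of a modular symbol. -/
theorem exists_of_manin (Γ : Subgroup SL(2, ℤ)) (m : SL(2, ℤ) → R)
    (hΓ : ∀ γ ∈ Γ, ∀ g, m (γ * g) = m g) (hneg : ∀ g, m (-g) = m g)
    (hS : ∀ g, m g + m (g * S) = 0) (hU : ∀ g, m g + m (g * U) + m (g * U ^ 2) = 0) :
    ∃ x ∈ MS Γ R, ∀ g, maninFun x g = m g := by
  obtain ⟨k, hkS, hkU⟩ := exists_primitive m m hneg hneg hS hU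
  choose rep hrep using exists_toQ
  have hk : ∀ g, k (rep (toQ g • ∞)) = k g := fun g =>
    eq_of_smul_infty_eq hS hkS hkU (hrep _)
  refine ⟨fun a b => k (rep b) - k (rep a), ⟨fun a b c => by ring, fun γ hγ => ?_⟩, fun g => ?_⟩
  · funext a b
    rw [slash_apply]
    obtain ⟨g, rfl⟩ := exists_toQ a
    obtain ⟨g', rfl⟩ := exists_toQ b
    rw [← toQ_mul_smul, ← toQ_mul_smul, hk, hk, hk, hk]
    have hconst : ∀ g, k (γ * g) - k g = k (γ * 1) - k 1 := by
      intro g
      refine const_of_S_U (f := fun g => k (γ * g) - k g) ?_ ?_ g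
      · intro g
        rw [← mul_assoc, hkS, hkS, hΓ γ hγ]; ring
      · intro g
        rw [← mul_assoc, hkU, hkU, hΓ γ hγ]; ring
    linear_combination hconst g' - hconst g
  · change k (rep (toQ g • ((0 : ℚ) : Cusp))) - k (rep (toQ g • ∞)) = m g
    rw [hk, ← toQ_S_infty, ← toQ_mul_smul, hk, hkS]; ring

end Existence

section ManinMap

variable (Γ : Subgroup SL(2, ℤ))

theorem maninFun_of_mem {x : Pairs R} {Γ : Subgroup SL(2, ℤ)} (hx : x ∈ MS Γ R) {γ : SL(2, ℤ)}
    (hγ : γ ∈ Γ) (g : SL(2, ℤ)) : maninFun x (γ * g) = maninFun x g := by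
  have := hx.2 γ hγ
  conv_rhs => rw [← this]
  rw [maninFun, maninFun, slash_apply, toQ_mul_smul, toQ_mul_smul]

omit [CommRing R] in
theorem maninFun_neg (x : Pairs R) (g : SL(2, ℤ)) : maninFun x (-g) = maninFun x g := by
  rw [maninFun, maninFun, toQ_neg_smul, toQ_neg_smul]

theorem maninFun_S {x : Pairs R} (hx : ∀ a b c, x a b + x b c = x a c) (g : SL(2, ℤ)) :
    maninFun x g + maninFun x (g * S) = 0 := by
  rw [maninFun, maninFun, toQ_mul_smul, toQ_mul_smul, toQ_S_infty, toQ_S_zero, hx,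
    add_self_eq_zero hx]

omit [CommRing R] in
theorem maninFun_mul_U {x : Pairs R} (g : SL(2, ℤ)) :
    maninFun x (g * U) = x (toQ g • ((0 : ℚ) : Cusp)) (toQ g • ((1 : ℚ) : Cusp)) := by
  rw [maninFun, toQ_mul_smul, toQ_mul_smul, toQ_U_infty, toQ_U_zero]

omit [CommRing R] in
theorem maninFun_mul_U_sq {x : Pairs R} (g : SL(2, ℤ)) :
    maninFun x (g * U ^ 2) = x (toQ g • ((1 : ℚ) : Cusp)) (toQ g • ∞) := by
  rw [pow_two, ← mul_assoc, maninFun_mul_U, toQ_mul_smul, toQ_mul_smul, toQ_U_zero, toQ_U_one]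

theorem maninFun_U {x : Pairs R} (hx : ∀ a b c, x a b + x b c = x a c) (g : SL(2, ℤ)) :
    maninFun x g + maninFun x (g * U) + maninFun x (g * U ^ 2) = 0 := by
  rw [maninFun_mul_U, maninFun_mul_U_sq, maninFun, hx, hx, add_self_eq_zero hx]

/-- The Manin map: `manin Γ x (g Γ) = x(g⁻¹∞, g⁻¹0)`. -/
noncomputable def manin (x : Pairs R) (c : SL(2, ℤ) ⧸ Γ) : R := maninFun x c.out⁻¹

variable {Γ}

theorem manin_mk {x : Pairs R} (hx : x ∈ MS Γ R) (g : SL(2, ℤ)) :
    manin Γ x (g : SL(2, ℤ) ⧸ Γ) = maninFun x g⁻¹ := by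
  obtain ⟨γ, hγ⟩ := QuotientGroup.mk_out_eq_mul Γ g
  rw [manin, hγ, _root_.mul_inv_rev, maninFun_of_mem hx (inv_mem γ.2)]

theorem manin_smul_mk {x : Pairs R} (hx : x ∈ MS Γ R) (k g : SL(2, ℤ)) :
    manin Γ x (k • (g : SL(2, ℤ) ⧸ Γ)) = maninFun x (g⁻¹ * k⁻¹) := by
  rw [MulAction.Quotient.smul_coe, smul_eq_mul, manin_mk hx, _root_.mul_inv_rev]

/-- The Manin relations for a function on `SL(2,ℤ) ⧸ Γ`. -/
structure IsManin (F : SL(2, ℤ) ⧸ Γ → R) : Prop where
  neg : ∀ c, F ((-1 : SL(2, ℤ)) • c) = F c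
  rS : ∀ c, F c + F (S⁻¹ • c) = 0
  rU : ∀ c, F c + F (U⁻¹ • c) + F (U⁻¹ • U⁻¹ • c) = 0

theorem isManin_manin {x : Pairs R} (hx : x ∈ MS Γ R) : IsManin (manin Γ x) where
  neg c := by
    induction c using QuotientGroup.induction_on with
    | H g =>
      rw [manin_smul_mk hx, manin_mk hx]
      have : g⁻¹ * (-1 : SL(2, ℤ))⁻¹ = -g⁻¹ := by
        rw [show (-1 : SL(2, ℤ))⁻¹ = -1 by rw [inv_eq_iff_mul_eq_one]; simp]
        simp
      rw [this, maninFun_neg]
  rS c := by
    induction c using QuotientGroup.induction_on with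
    | H g =>
      rw [manin_smul_mk hx, manin_mk hx, inv_inv, maninFun_S hx.1]
  rU c := by
    induction c using QuotientGroup.induction_on with
    | H g =>
      rw [← mul_smul, ← _root_.mul_inv_rev, ← pow_two, manin_smul_mk hx, manin_smul_mk hx,
        manin_mk hx, inv_inv, inv_inv, maninFun_U hx.1]

theorem exists_of_isManin {F : SL(2, ℤ) ⧸ Γ → R} (hF : IsManin F) :
    ∃ x ∈ MS Γ R, manin Γ x = F := by
  obtain ⟨x, hx, hxF⟩ := exists_of_manin Γ (fun g => F ((g⁻¹ : SL(2, ℤ)) : SL(2, ℤ) ⧸ Γ))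
    (fun γ hγ g => by
      rw [_root_.mul_inv_rev, QuotientGroup.mk_mul_of_mem _ (inv_mem hγ)])
    (fun g => by
      have : (-g)⁻¹ = (-1 : SL(2, ℤ)) * g⁻¹ := by
        rw [inv_eq_iff_mul_eq_one]; simp
      rw [this, ← smul_eq_mul, ← MulAction.Quotient.smul_coe, hF.neg])
    (fun g => by
      rw [_root_.mul_inv_rev, ← smul_eq_mul, ← MulAction.Quotient.smul_coe, hF.rS])
    (fun g => by
      rw [_root_.mul_inv_rev, _root_.mul_inv_rev, ← smul_eq_mul, ← smul_eq_mul,
        ← MulAction.Quotient.smul_coe, ← MulAction.Quotient.smul_coe, pow_two,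
        _root_.mul_inv_rev, mul_smul, hF.rU])
  refine ⟨x, hx, ?_⟩
  funext c
  induction c using QuotientGroup.induction_on with
  | H g => rw [manin_mk hx, hxF, inv_inv]

variable (Γ R)

/-- The linear Manin map. -/
noncomputable def maninL : MS Γ R →ₗ[R] (SL(2, ℤ) ⧸ Γ → R) where
  toFun x := manin Γ x.1
  map_add' _ _ := rfl
  map_smul' _ _ := rfl

theorem maninL_apply (x : MS Γ R) : maninL R Γ x = manin Γ x.1 := rfl

theorem maninL_injective : Function.Injective (maninL R Γ) := by
  intro x y h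
  apply Subtype.ext
  refine ext_manin x.2.1 y.2.1 fun g => ?_
  have := congrFun h ((g⁻¹ : SL(2, ℤ)) : SL(2, ℤ) ⧸ Γ)
  rw [maninL_apply, maninL_apply, manin_mk x.2, manin_mk y.2, inv_inv] at this
  exact this

variable {Γ}

theorem finite_quotient_of_index [hΓ : Γ.FiniteIndex] : Finite (SL(2, ℤ) ⧸ Γ) :=
  Γ.finite_quotient_of_finiteIndex

variable (Γ) in
theorem finite_MS [Γ.FiniteIndex] [IsNoetherianRing R] : Module.Finite R (MS Γ R) := by
  have := finite_quotient_of_index (Γ := Γ)
  exact Module.Finite.of_injective (maninL R Γ) (maninL_injective R Γ)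

end ManinMap

instance instFiniteMSInt (Γ : Subgroup SL(2, ℤ)) [Γ.FiniteIndex] : Module.Finite ℤ (MS Γ ℤ) :=
  finite_MS ℤ Γ

instance instTorsionFreeMSInt (Γ : Subgroup SL(2, ℤ)) : Module.IsTorsionFree ℤ (MS Γ ℤ) := by
  infer_instance

instance instFreeMSInt (Γ : Subgroup SL(2, ℤ)) [Γ.FiniteIndex] : Module.Free ℤ (MS Γ ℤ) :=
  Module.free_of_finite_type_torsion_free'

section BaseChange

variable {Γ : Subgroup SL(2, ℤ)} [Γ.FiniteIndex] {K : Type*} [CommRing K] [IsDomain K] [CharZero K]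

omit [Γ.FiniteIndex] [IsDomain K] [CharZero K] in
theorem mem_span_manin {x : Pairs K} (hx : x ∈ MS Γ K) (a b : Cusp) :
    x a b ∈ Submodule.span ℤ (Set.range (manin Γ x)) := by
  refine values_mem (Submodule.span ℤ (Set.range (manin Γ x))).toAddSubgroup hx.1 (fun g => ?_) a b
  refine Submodule.subset_span ⟨((g⁻¹ : SL(2, ℤ)) : SL(2, ℤ) ⧸ Γ), ?_⟩
  rw [manin_mk hx, inv_inv]

/-- Every modular symbol over a domain of characteristic zero is a combination of integral modular
symbols with `ℤ`-linearly independent coefficients. -/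
theorem exists_int_decomp {x : Pairs K} (hx : x ∈ MS Γ K) :
    ∃ (n : ℕ) (w : Fin n → K) (y : Fin n → Pairs ℤ), LinearIndependent ℤ w ∧
      (∀ i, y i ∈ MS Γ ℤ) ∧ x = ∑ i, w i • mapCoeff (Int.castRingHom K) (y i) := by
  have := finite_quotient_of_index (Γ := Γ)
  set L : Submodule ℤ K := Submodule.span ℤ (Set.range (manin Γ x)) with hL
  have hfin : Module.Finite ℤ L := Module.Finite.span_of_finite ℤ (Set.finite_range _)
  have hfree : Module.Free ℤ L := Module.free_of_finite_type_torsion_free'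
  let b := Module.finBasis ℤ L
  have hrepr : ∀ a c, x a c = ∑ i, (b.repr ⟨x a c, mem_span_manin hx a c⟩ i : K) * (b i : K) := by
    intro a c
    have h1 := b.sum_repr ⟨x a c, mem_span_manin hx a c⟩
    have h2 := congrArg (Submodule.subtype L) h1
    rw [map_sum] at h2
    simp only [Submodule.subtype_apply, Submodule.coe_smul, zsmul_eq_mul] at h2
    exact h2.symm
  refine ⟨Module.finrank ℤ L, fun i => (b i : K),
    fun i a c => b.repr ⟨x a c, mem_span_manin hx a c⟩ i, ?_, fun i => ⟨fun a c d => ?_, ?_⟩, ?_⟩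
  · exact b.linearIndependent.map' L.subtype (Submodule.ker_subtype L)
  · rw [← Finsupp.add_apply, ← map_add]
    congr 3
    apply Subtype.ext
    exact hx.1 a c d
  · intro γ hγ
    funext a c
    rw [slash_apply]
    have := congrFun (congrFun (hx.2 γ hγ) a) c
    exact congrArg (fun z : L => b.repr z i) (Subtype.ext this)
  · funext a c
    rw [hrepr a c]
    simp only [Finset.sum_apply, Pi.smul_apply, mapCoeff_apply, smul_eq_mul, eq_intCast]
    exact Finset.sum_congr rfl fun i _ => mul_comm _ _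

/-- `ℤ`-independent integral modular symbols are `K`-independent. -/
theorem linearIndependent_mapCoeff {ι : Type*} {y : ι → MS Γ ℤ} (hy : LinearIndependent ℤ y) :
    LinearIndependent K (fun i => mapCoeff (Int.castRingHom K) (y i).1) := by
  have hfin := finite_quotient_of_index (Γ := Γ)
  have h1 : LinearIndependent ℤ (fun i => manin Γ (y i).1) :=
    hy.map' (maninL ℤ Γ) (LinearMap.ker_eq_bot.mpr (maninL_injective ℤ Γ))
  have h2 : LinearIndependent K (fun i => algebraMap ℤ K ∘ manin Γ (y i).1) :=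
    linearIndependent_algebraMap_comp_iff.mpr h1
  let f : Pairs K →ₗ[K] (SL(2, ℤ) ⧸ Γ → K) :=
    { toFun := fun x => manin Γ x
      map_add' := fun _ _ => rfl
      map_smul' := fun _ _ => rfl }
  exact LinearIndependent.of_comp f h2

/-- The `K`-basis of `MS Γ K` attached to a `ℤ`-basis of `MS Γ ℤ`. -/
noncomputable def basisMap {ι : Type*} (b : Module.Basis ι ℤ (MS Γ ℤ)) (K : Type*) [CommRing K]
    [IsDomain K] [CharZero K] : Module.Basis ι K (MS Γ K) :=
  Module.Basis.mk (v := fun i => (⟨mapCoeff (Int.castRingHom K) (b i).1,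
      mapCoeff_mem _ (b i).2⟩ : MS Γ K))
    (LinearIndependent.of_comp (MS Γ K).subtype
      (linearIndependent_mapCoeff b.linearIndependent)) (by
    rintro ⟨x, hx⟩ -
    obtain ⟨n, w, y, -, hy, hxy⟩ := exists_int_decomp hx
    have hmem : ∀ z : MS Γ ℤ, (⟨mapCoeff (Int.castRingHom K) z.1, mapCoeff_mem _ z.2⟩ : MS Γ K) ∈
        Submodule.span K (Set.range fun i => (⟨mapCoeff (Int.castRingHom K) (b i).1,
          mapCoeff_mem _ (b i).2⟩ : MS Γ K)) := by
      intro z
      have hz : z ∈ Submodule.span ℤ (Set.range b) := by rw [b.span_eq]; trivial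
      induction hz using Submodule.span_induction with
      | mem z hz =>
        obtain ⟨i, rfl⟩ := hz
        exact Submodule.subset_span ⟨i, rfl⟩
      | zero =>
        have : (⟨mapCoeff (Int.castRingHom K) (0 : MS Γ ℤ).1,
            mapCoeff_mem _ (0 : MS Γ ℤ).2⟩ : MS Γ K) = 0 := by
          apply Subtype.ext
          change mapCoeff (Int.castRingHom K) 0 = 0
          rw [map_zero]
        rw [this]
        exact Submodule.zero_mem _
      | add z z' _ _ hz hz' =>
        convert Submodule.add_mem _ hz hz' using 1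
        apply Subtype.ext
        change mapCoeff (Int.castRingHom K) (z.1 + z'.1) = mapCoeff (Int.castRingHom K) z.1 +
          mapCoeff (Int.castRingHom K) z'.1
        rw [map_add]
      | smul n z _ hz =>
        convert Submodule.smul_mem _ (n : K) hz using 1
        apply Subtype.ext
        funext a c
        change ((n • z.1 a c : ℤ) : K) = (n : K) * ((z.1 a c : ℤ) : K)
        simp
    have : (⟨x, hx⟩ : MS Γ K) = ∑ i, w i •
        (⟨mapCoeff (Int.castRingHom K) (y i), mapCoeff_mem _ (hy i)⟩ : MS Γ K) := by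
      apply Subtype.ext
      rw [AddSubmonoidClass.coe_finsetSum]
      exact hxy
    rw [this]
    exact Submodule.sum_mem _ fun i _ => Submodule.smul_mem _ _ (hmem ⟨y i, hy i⟩))

theorem basisMap_apply {ι : Type*} (b : Module.Basis ι ℤ (MS Γ ℤ)) (i : ι) :
    ((basisMap b K i : MS Γ K) : Pairs K) = mapCoeff (Int.castRingHom K) (b i).1 := by
  rw [basisMap, Module.Basis.mk_apply]

end BaseChange

end Fermat.Agent.LR
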