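import Mathlib
import Fermat.Agent.LR.Level
import Fermat.Agent.LR.Manin
import Fermat.Agent.LR.EigenSymbol

/-!
# The family of Hecke operators on symbols of level `M`, base change (team LR)
-/

set_option autoImplicit false
set_option linter.unusedSectionVars false

noncomputable section

open CongruenceSubgroup Matrix Matrix.SpecialLinearGroup TensorProduct
open scoped MatrixGroups OnePoint

namespace Fermat.Agent.LR.PS

variable {R : Type*} [CommRing R]

/-- `T_ℓ` if `ℓ ∤ M`, `U_ℓ` if `ℓ ∣ M`. -/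
def hop (R : Type*) [CommRing R] (M ℓ : ℕ) : Pairs R →ₗ[R] Pairs R :=
  open Classical in
  if ℓ ∣ M then heckeU ℓ else heckeT ℓ

theorem hop_of_dvd {M ℓ : ℕ} (h : ℓ ∣ M) : hop R M ℓ = heckeU ℓ := by rw [hop, if_pos h]

theorem hop_of_not_dvd {M ℓ : ℕ} (h : ¬ ℓ ∣ M) : hop R M ℓ = heckeT ℓ := by rw [hop, if_neg h]

theorem hop_complex (M ℓ : ℕ) : hop ℂ M ℓ = symOp M ℓ := rfl

theorem mapCoeff_hop {R S : Type*} [CommRing R] [CommRing S] (f : R →+* S) (M ℓ : ℕ)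
    (x : Pairs R) : mapCoeff f (hop R M ℓ x) = hop S M ℓ (mapCoeff f x) := by
  by_cases h : ℓ ∣ M
  · rw [hop_of_dvd h, hop_of_dvd h, mapCoeff_heckeU]
  · rw [hop_of_not_dvd h, hop_of_not_dvd h, mapCoeff_heckeT]

theorem hop_mem {M ℓ : ℕ} (hℓ : ℓ.Prime) {x : Pairs R} (hx : x ∈ MS (Gamma0 M) R) :
    hop R M ℓ x ∈ MS (Gamma0 M) R := by
  by_cases h : ℓ ∣ M
  · rw [hop_of_dvd h]; exact PS.heckeU_mem hℓ.ne_zero h hx
  · rw [hop_of_not_dvd h]; exact PS.heckeT_mem hℓ h hx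

theorem hop_comm {M ℓ r : ℕ} (hℓ : ℓ.Prime) (hr : r.Prime) {x : Pairs R}
    (hx : x ∈ MS (Gamma0 M) R) :
    hop R M ℓ (hop R M r x) = hop R M r (hop R M ℓ x) := by
  by_cases hlr : ℓ = r
  · rw [hlr]
  have hcop : Nat.Coprime ℓ r := (Nat.coprime_primes hℓ hr).mpr hlr
  have hT := TInv_of_mem hx
  by_cases h : ℓ ∣ M
  · by_cases h' : r ∣ M
    · rw [hop_of_dvd h, hop_of_dvd h', heckeU_comm ℓ r hℓ.ne_zero hr.ne_zero]
    · rw [hop_of_dvd h, hop_of_not_dvd h', heckeT_heckeU hr.ne_zero hℓ.ne_zero hcop.symm hT]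
  · by_cases h' : r ∣ M
    · rw [hop_of_not_dvd h, hop_of_dvd h', heckeT_heckeU hℓ.ne_zero hr.ne_zero hcop hT]
    · rw [hop_of_not_dvd h, hop_of_not_dvd h', heckeT_comm hℓ.ne_zero hr.ne_zero hcop hT]

/-- stability of the `q`-new part under the operators of level `N q`. -/
theorem hop_mem_new {N q ℓ : ℕ} (hq : q.Prime) (hqN : ¬ q ∣ N) (hℓ : ℓ.Prime) {y : Pairs R}
    (hy : y ∈ newMS N q R) : hop R (N * q) ℓ y ∈ newMS N q R := by
  by_cases h : ℓ ∣ N * q
  · rw [hop_of_dvd h]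
    rcases (Nat.Prime.dvd_mul hℓ).mp h with h1 | h1
    · exact heckeU_mem_new' hq hqN hℓ h1 hy
    · obtain rfl := (Nat.prime_dvd_prime_iff_eq hℓ hq).mp h1
      exact heckeU_mem_new hq hqN hy
  · rw [hop_of_not_dvd h]
    refine heckeT_mem_new hq hqN hℓ (fun h1 => h (Dvd.dvd.mul_right h1 q)) ?_ hy
    rintro rfl
    exact h (dvd_mul_left ℓ N)

/-! ### Base change -/

section BaseChange

/-- the comparison map `ℂ ⊗ H → Pairs ℂ`. -/
def toPairs (H : Submodule ℤ (Pairs ℤ)) : ℂ ⊗[ℤ] H →ₗ[ℂ] Pairs ℂ :=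
  LinearMap.liftBaseChange ℂ
    ((mapCoeff (Int.castRingHom ℂ)).toIntLinearMap.comp H.subtype)

theorem toPairs_tmul (H : Submodule ℤ (Pairs ℤ)) (c : ℂ) (y : H) :
    toPairs H (c ⊗ₜ y) = c • mapCoeff (Int.castRingHom ℂ) y.1 := rfl

theorem toPairs_mem {H : Submodule ℤ (Pairs ℤ)} (V : Submodule ℂ (Pairs ℂ))
    (h : ∀ y ∈ H, mapCoeff (Int.castRingHom ℂ) y ∈ V) (u : ℂ ⊗[ℤ] H) : toPairs H u ∈ V := by
  induction u using TensorProduct.induction_on with
  | zero => rw [map_zero]; exact V.zero_mem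
  | tmul c y => rw [toPairs_tmul]; exact V.smul_mem c (h y.1 y.2)
  | add u v hu hv => rw [map_add]; exact V.add_mem hu hv

theorem toPairs_baseChange {H : Submodule ℤ (Pairs ℤ)} (t : Module.End ℤ H)
    (T : Pairs ℂ →ₗ[ℂ] Pairs ℂ)
    (h : ∀ y : H, mapCoeff (Int.castRingHom ℂ) (t y).1 = T (mapCoeff (Int.castRingHom ℂ) y.1))
    (u : ℂ ⊗[ℤ] H) : toPairs H (t.baseChange ℂ u) = T (toPairs H u) := by
  induction u using TensorProduct.induction_on with
  | zero => simp only [map_zero]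
  | tmul c y => rw [LinearMap.baseChange_tmul, toPairs_tmul, toPairs_tmul, map_smul, h]
  | add u v hu hv => simp only [map_add, hu, hv]

variable {Γ : Subgroup SL(2, ℤ)} [Γ.FiniteIndex]

theorem finite_of_le {H : Submodule ℤ (Pairs ℤ)} (hH : H ≤ MS Γ ℤ) : Module.Finite ℤ H :=
  Module.Finite.of_injective (Submodule.inclusion hH) (Submodule.inclusion_injective hH)

theorem free_of_le {H : Submodule ℤ (Pairs ℤ)} (hH : H ≤ MS Γ ℤ) : Module.Free ℤ H := by
  have := finite_of_le hH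
  exact Module.free_of_finite_type_torsion_free'

theorem toPairs_injective {H : Submodule ℤ (Pairs ℤ)} (hH : H ≤ MS Γ ℤ) :
    Function.Injective (toPairs H) := by
  have := finite_of_le hH
  have := free_of_le hH
  let b := Module.Free.chooseBasis ℤ H
  have h1 : LinearIndependent ℤ (fun i => Submodule.inclusion hH (b i)) :=
    b.linearIndependent.map' (Submodule.inclusion hH)
      (LinearMap.ker_eq_bot.mpr (Submodule.inclusion_injective hH))
  have h2 := linearIndependent_mapCoeff (K := ℂ) h1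
  let b' := b.baseChange ℂ
  rw [injective_iff_map_eq_zero]
  intro u hu
  have h3 : ∑ i, b'.repr u i • mapCoeff (Int.castRingHom ℂ) (b i).1 = 0 := by
    rw [← hu]
    conv_rhs => rw [← b'.sum_repr u]
    rw [map_sum]
    refine Finset.sum_congr rfl fun i _ => ?_
    rw [map_smul]
    congr 1
    rw [Module.Basis.baseChange_apply, toPairs_tmul, one_smul]
  have h4 := Fintype.linearIndependent_iff.mp h2 (fun i => b'.repr u i) h3
  refine b'.ext_elem fun i => ?_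
  rw [h4 i, map_zero]
  rfl

theorem exists_toPairs_eq {x : Pairs ℂ} (hx : x ∈ MS Γ ℂ) :
    ∃ u : ℂ ⊗[ℤ] (MS Γ ℤ), toPairs (MS Γ ℤ) u = x := by
  obtain ⟨n, w, y, -, hy, hxy⟩ := exists_int_decomp hx
  refine ⟨∑ i, w i ⊗ₜ (⟨y i, hy i⟩ : MS Γ ℤ), ?_⟩
  rw [map_sum, hxy]
  rfl

end BaseChange

end Fermat.Agent.LR.PS
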