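import Mathlib
import Fermat.Agent.LR.Ops

/-!
# The Hecke operators act on boundary symbols through the Eisenstein system (team LR)
-/

set_option autoImplicit false
set_option linter.unusedSectionVars false

noncomputable section

open CongruenceSubgroup Matrix Matrix.SpecialLinearGroup
open scoped MatrixGroups OnePoint

namespace Fermat.Agent.LR.PS

theorem exists_sign_of_mul_eq_prime {M ℓ : ℕ} (hℓ : ℓ.Prime) (h1 : (ℓ : ZMod M) = 1) {a d : ℤ}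
    (had : a * d = ℓ) : ∃ ε : ℤ, ε * ε = 1 ∧ (a : ZMod M) = ε ∧ (d : ZMod M) = ε := by
  have h2 : a.natAbs * d.natAbs = ℓ := by
    rw [← Int.natAbs_mul, had, Int.natAbs_natCast]
  rcases hℓ.eq_one_or_self_of_dvd a.natAbs ⟨_, h2.symm⟩ with h | h
  · -- a = ±1
    have h3 : a * a = 1 := by
      rcases Int.natAbs_eq_iff.mp h with h | h <;> rw [h] <;> simp
    refine ⟨a, h3, rfl, ?_⟩
    have h4 : d = a * ℓ := by rw [← had, ← mul_assoc, h3, one_mul]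
    rw [h4]; push_cast; rw [h1, mul_one]
  · -- d = ±1
    have h5 : d.natAbs = 1 := by
      rw [h] at h2
      exact Nat.eq_of_mul_eq_mul_left hℓ.pos (by rw [h2, mul_one])
    have h3 : d * d = 1 := by
      rcases Int.natAbs_eq_iff.mp h5 with h | h <;> rw [h] <;> simp
    refine ⟨d, h3, ?_, rfl⟩
    have h4 : a = d * ℓ := by rw [← had, mul_comm a d, ← mul_assoc, h3, one_mul]
    rw [h4]; push_cast; rw [h1, mul_one]

variable {A : Type*}

theorem invariant_smul_eq {M ℓ : ℕ} (hℓ : ℓ.Prime) (h1 : (ℓ : ZMod M) = 1) {ψ : Cusp → A}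
    (hψ : ∀ γ ∈ Gamma0 M, ∀ c, ψ (toQ γ • c) = ψ c) (m : Matrix (Fin 2) (Fin 2) ℤ)
    (hdet : m.det = ℓ) (hm : ((m 1 0 : ℤ) : ZMod M) = 0) (α : GL (Fin 2) ℚ)
    (hα : (α : Matrix (Fin 2) (Fin 2) ℚ) = (Int.castRingHom ℚ).mapMatrix m) (c : Cusp) :
    ψ (α • c) = ψ c := by
  obtain ⟨δ, rfl⟩ := exists_toQ_smul_infty c
  obtain ⟨δ', hδ'⟩ := exists_toQ_smul_infty (α • toQ δ • (∞ : Cusp))
  set B : Matrix (Fin 2) (Fin 2) ℤ := ((δ'⁻¹ : SL(2, ℤ)) : Matrix (Fin 2) (Fin 2) ℤ) * m *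
    (δ : Matrix (Fin 2) (Fin 2) ℤ) with hB
  have hfix : (toQ δ'⁻¹ * α * toQ δ) • (∞ : Cusp) = ∞ := by
    rw [mul_smul, mul_smul, ← hδ', ← mul_smul, ← map_mul, inv_mul_cancel, map_one, one_smul]
  rw [OnePoint.smul_infty_eq_self_iff] at hfix
  have hB10 : B 1 0 = 0 := by
    have h2 : (toQ δ'⁻¹ * α * toQ δ : GL (Fin 2) ℚ).val = (Int.castRingHom ℚ).mapMatrix B := by
      rw [hB, map_mul, map_mul, ← hα]
      rfl
    have h3 : ((toQ δ'⁻¹ * α * toQ δ : GL (Fin 2) ℚ) : Matrix (Fin 2) (Fin 2) ℚ) 1 0 =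
        ((B 1 0 : ℤ) : ℚ) := by rw [h2]; rfl
    rw [h3] at hfix
    exact_mod_cast hfix
  have hBdet : B.det = ℓ := by
    rw [hB, Matrix.det_mul, Matrix.det_mul, hdet, Matrix.SpecialLinearGroup.det_coe,
      Matrix.SpecialLinearGroup.det_coe]
    ring
  rw [Matrix.det_fin_two, hB10, mul_zero, sub_zero] at hBdet
  obtain ⟨ε, hε, ha, hd⟩ := exists_sign_of_mul_eq_prime hℓ h1 hBdet
  set n : ℤ := ε * B 0 1 with hn
  set κ : SL(2, ℤ) := δ' * ModularGroup.T ^ n * δ⁻¹ with hκ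
  have hT : (Int.castRingHom (ZMod M)).mapMatrix
      ((ModularGroup.T ^ n : SL(2, ℤ)) : Matrix (Fin 2) (Fin 2) ℤ) =
      (ε : ZMod M) • (Int.castRingHom (ZMod M)).mapMatrix B := by
    rw [ModularGroup.coe_T_zpow]
    have hε' : (ε : ZMod M) * ε = 1 := by exact_mod_cast congrArg (Int.cast : ℤ → ZMod M) hε
    ext i j
    fin_cases i <;> fin_cases j
    · simp [ha, hε']
    · simp [hn]
    · simp [hB10]
    · simp [hd, hε']
  have hκm : (Int.castRingHom (ZMod M)).mapMatrix (κ : Matrix (Fin 2) (Fin 2) ℤ) =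
      (ε : ZMod M) • (Int.castRingHom (ZMod M)).mapMatrix m := by
    rw [hκ, Matrix.SpecialLinearGroup.coe_mul, Matrix.SpecialLinearGroup.coe_mul, map_mul, map_mul, hT, hB,
      map_mul, map_mul]
    have e1 : (Int.castRingHom (ZMod M)).mapMatrix (δ' : Matrix (Fin 2) (Fin 2) ℤ) *
        (Int.castRingHom (ZMod M)).mapMatrix ((δ'⁻¹ : SL(2, ℤ)) : Matrix (Fin 2) (Fin 2) ℤ) = 1 := by
      rw [← map_mul, ← Matrix.SpecialLinearGroup.coe_mul, mul_inv_cancel, Matrix.SpecialLinearGroup.coe_one,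
        map_one]
    have e2 : (Int.castRingHom (ZMod M)).mapMatrix (δ : Matrix (Fin 2) (Fin 2) ℤ) *
        (Int.castRingHom (ZMod M)).mapMatrix ((δ⁻¹ : SL(2, ℤ)) : Matrix (Fin 2) (Fin 2) ℤ) = 1 := by
      rw [← map_mul, ← Matrix.SpecialLinearGroup.coe_mul, mul_inv_cancel, Matrix.SpecialLinearGroup.coe_one,
        map_one]
    rw [mul_smul_comm, smul_mul_assoc]
    congr 1
    calc _ = ((Int.castRingHom (ZMod M)).mapMatrix (δ' : Matrix (Fin 2) (Fin 2) ℤ) *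
        (Int.castRingHom (ZMod M)).mapMatrix ((δ'⁻¹ : SL(2, ℤ)) : Matrix (Fin 2) (Fin 2) ℤ)) *
        (Int.castRingHom (ZMod M)).mapMatrix m *
        ((Int.castRingHom (ZMod M)).mapMatrix (δ : Matrix (Fin 2) (Fin 2) ℤ) *
        (Int.castRingHom (ZMod M)).mapMatrix ((δ⁻¹ : SL(2, ℤ)) : Matrix (Fin 2) (Fin 2) ℤ)) := by
          simp only [mul_assoc]
      _ = _ := by rw [e1, e2, one_mul, mul_one]
  have hκmem : κ ∈ Gamma0 M := by
    rw [Gamma0_mem]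
    have h3 := congrFun (congrFun hκm 1) 0
    have h4 : (Int.castRingHom (ZMod M)).mapMatrix (κ : Matrix (Fin 2) (Fin 2) ℤ) 1 0 =
      ((κ 1 0 : ℤ) : ZMod M) := rfl
    have h5 : ((ε : ZMod M) • (Int.castRingHom (ZMod M)).mapMatrix m) 1 0 =
      (ε : ZMod M) * ((m 1 0 : ℤ) : ZMod M) := rfl
    rw [h4, h5, hm, mul_zero] at h3
    exact h3
  have hTinf : toQ (ModularGroup.T ^ n) • (∞ : Cusp) = ∞ := by
    rw [OnePoint.smul_infty_eq_self_iff, PS.toQ_apply]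
    simp [ModularGroup.coe_T_zpow]
  have h6 : toQ κ • toQ δ • (∞ : Cusp) = toQ δ' • ∞ := by
    rw [← mul_smul, ← map_mul, hκ, inv_mul_cancel_right, map_mul, mul_smul, hTinf]
  rw [← hδ', ← h6, hψ κ hκmem]

theorem heckeMat_smul_eq {M ℓ : ℕ} (hℓ : ℓ.Prime) (h1 : (ℓ : ZMod M) = 1) {ψ : Cusp → A}
    (hψ : ∀ γ ∈ Gamma0 M, ∀ c, ψ (toQ γ • c) = ψ c) (j : ℤ) (c : Cusp) :
    ψ (heckeMat ℓ j • c) = ψ c := by
  have h : (1 : ℤ) * (ℓ : ℤ) ≠ 0 := by simpa using hℓ.ne_zero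
  refine invariant_smul_eq hℓ h1 hψ !![1, j; 0, ℓ] ?_ ?_ _ ?_ c
  · rw [Matrix.det_fin_two_of]; ring
  · simp
  · rw [val_triMat _ h]
    ext i k; fin_cases i <;> fin_cases k <;> simp

theorem diagMat_smul_eq {M ℓ : ℕ} (hℓ : ℓ.Prime) (h1 : (ℓ : ZMod M) = 1) {ψ : Cusp → A}
    (hψ : ∀ γ ∈ Gamma0 M, ∀ c, ψ (toQ γ • c) = ψ c) (c : Cusp) :
    ψ (diagMat ℓ • c) = ψ c := by
  have h : (ℓ : ℤ) * (1 : ℤ) ≠ 0 := by simpa using hℓ.ne_zero
  refine invariant_smul_eq hℓ h1 hψ !![(ℓ : ℤ), 0; 0, 1] ?_ ?_ _ ?_ c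
  · rw [Matrix.det_fin_two_of]; ring
  · simp
  · rw [val_triMat _ h]
    ext i k; fin_cases i <;> fin_cases k <;> simp

variable {R : Type*} [CommRing R]

/-- `T_ℓ = ℓ + 1` on boundary symbols of level `M` for primes `ℓ ≡ 1 mod M`. -/
theorem heckeT_of_isBoundary {M ℓ : ℕ} (hℓ : ℓ.Prime) (h1 : (ℓ : ZMod M) = 1) {x : Pairs R}
    (hx : IsBoundary (Gamma0 M) x) : heckeT ℓ x = ((ℓ : R) + 1) • x := by
  obtain ⟨ψ, hψ, hx⟩ := hx
  funext a b
  rw [heckeT_apply, heckeU_apply, degen_apply]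
  simp only [Pi.add_apply, Finset.sum_apply, slash_apply, hx, heckeMat_smul_eq hℓ h1 hψ,
    diagMat_smul_eq hℓ h1 hψ, Finset.sum_const, Finset.card_range, nsmul_eq_mul, Pi.smul_apply,
    smul_eq_mul]
  ring

/-- An eigensymbol with a non-Eisenstein eigenvalue is not a boundary symbol. -/
theorem not_isBoundary_of_eigenvalue {K : Type*} [Field K] {M ℓ : ℕ} (hℓ : ℓ.Prime)
    (h1 : (ℓ : ZMod M) = 1) {x : Pairs K} (hx0 : x ≠ 0) {c : K} (hx : heckeT ℓ x = c • x)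
    (hc : c ≠ (ℓ : K) + 1) : ¬ IsBoundary (Gamma0 M) x := by
  intro h
  rw [heckeT_of_isBoundary hℓ h1 h] at hx
  have h2 : ((ℓ : K) + 1 - c) • x = 0 := by rw [sub_smul, hx, sub_self]
  rcases smul_eq_zero.mp h2 with h3 | h3
  · exact hc (sub_eq_zero.mp h3).symm
  · exact hx0 h3

end Fermat.Agent.LR.PS
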