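import Fermat.Agent.FrobeniusDensity
import Fermat.Agent.FrobCompareDet
import Fermat.Agent.FrobExists
import Fermat.Prelude.Def_GaloisRep_ComplexConjugation

/-!
# Galois input for level raising (S41)

For an irreducible two-dimensional mod `p` representation (`p` odd) with cyclotomic determinant and
prescribed Frobenius traces `a_ℓ`, an integer `D > 0` and a rational number `a` which is not a
`p`-th power, there are primes `ℓ ≡ 1 mod D` for which `a` is not a `p`-th power modulo `ℓ` and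
`a_ℓ ≠ 2`.
-/

set_option autoImplicit false

namespace Fermat.Agent.LR.GaloisInput

open Fermat.Agent Fermat.Agent.Cyclotomic

local notation "Qbar" => AlgebraicClosure ℚ
local notation "Γℚ" => (AlgebraicClosure ℚ ≃ₐ[ℚ] AlgebraicClosure ℚ)

section LinearAlgebra

variable {k V : Type*} [Field k] [AddCommGroup V] [Module k V] [FiniteDimensional k V]

theorem sq_eq_of_trace_det (h : Module.finrank k V = 2) {u : Module.End k V}
    (ht : LinearMap.trace k V u = 2) (hd : LinearMap.det u = 1) :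
    u ^ 2 = (2 : k) • u - 1 := by
  rw [FrobCompare.cayleyHamilton_two h, ht, hd, one_smul]

theorem sub_one_sq_eq_zero (h : Module.finrank k V = 2) {u : Module.End k V}
    (ht : LinearMap.trace k V u = 2) (hd : LinearMap.det u = 1) :
    (u - 1) ^ 2 = 0 := by
  have h1 := sq_eq_of_trace_det h ht hd
  have h2 : (u - 1) ^ 2 = u ^ 2 - (2 : k) • u + 1 := by
    rw [sq, sq, two_smul]; noncomm_ring
  rw [h2, h1]; abel

/-- If `u` is unipotent and `tr (g u) = tr (g u²) = 2`, then `tr g = 2`. -/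
theorem trace_eq_two (h : Module.finrank k V = 2) {g u : Module.End k V}
    (ht : LinearMap.trace k V u = 2) (hd : LinearMap.det u = 1)
    (h1 : LinearMap.trace k V (g * u) = 2) (h2 : LinearMap.trace k V (g * u ^ 2) = 2) :
    LinearMap.trace k V g = 2 := by
  rw [sq_eq_of_trace_det h ht hd, mul_sub, mul_one, mul_smul_comm, map_sub, map_smul, h1,
    smul_eq_mul] at h2
  linear_combination -h2

theorem powTrace_two_one (n : ℕ) : FrobCompare.powTrace (2 : k) 1 n = 2 := by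
  induction n using Nat.twoStepInduction with
  | zero => rfl
  | one => rfl
  | more n ih1 ih2 => rw [FrobCompare.powTrace, ih1, ih2]; ring

theorem trace_pow_eq_two (h : Module.finrank k V = 2) {u : Module.End k V}
    (ht : LinearMap.trace k V u = 2) (hd : LinearMap.det u = 1) (n : ℕ) :
    LinearMap.trace k V (u ^ n) = 2 := by
  rw [FrobCompare.trace_pow_eq h, ht, hd, powTrace_two_one]

theorem pow_eq_of_sub_one_sq {R : Type*} [Ring R] {x : R} (hx : (x - 1) ^ 2 = 0) (n : ℕ) :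
    x ^ n = 1 + n • (x - 1) := by
  induction n with
  | zero => simp
  | succ n ih =>
    have e : (x - 1) * (x - 1) = 0 := by rw [← sq]; exact hx
    have e2 : (x - 1) * x = x - 1 := by
      have : (x - 1) * x = (x - 1) * (x - 1) + (x - 1) := by noncomm_ring
      rw [this, e, zero_add]
    rw [pow_succ, ih, add_mul, one_mul, smul_mul_assoc, e2, succ_nsmul]
    abel

end LinearAlgebra

section PGroup

variable {p : ℕ} [Fact p.Prime] {G : Type*} [Group G] {V : Type*} [AddCommGroup V]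
  [Module (ZMod p) V] [Module.Finite (ZMod p) V] [Nontrivial V]

/-- A group of unipotent automorphisms of an `𝔽_p`-vector space has a nonzero fixed vector. -/
theorem exists_fixed (H : Subgroup G) (ρ : G →* Module.End (ZMod p) V)
    (hH : ∀ h ∈ H, (ρ h - 1) ^ 2 = 0) : ∃ v : V, v ≠ 0 ∧ ∀ h ∈ H, ρ h v = v := by
  have hp : p.Prime := Fact.out
  let Q : Subgroup (Module.End (ZMod p) V)ˣ := (ρ.toHomUnits.comp H.subtype).range
  have hQ : IsPGroup p Q := by
    rintro ⟨q, ⟨h, rfl⟩⟩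
    refine ⟨1, Subtype.ext (Units.ext ?_)⟩
    rw [pow_one]
    change (ρ h) ^ p = 1
    rw [pow_eq_of_sub_one_sq (hH h h.2), ← Nat.cast_smul_eq_nsmul (ZMod p), ZMod.natCast_self,
      zero_smul, add_zero]
  have hfin : Finite V := Module.finite_of_finite (ZMod p)
  have hcard : p ∣ Nat.card V := by
    rw [Module.natCard_eq_pow_finrank (K := ZMod p), Nat.card_zmod]
    exact dvd_pow_self p Module.finrank_pos.ne'
  have h0 : (0 : V) ∈ MulAction.fixedPoints Q V := fun q => by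
    change ((q : (Module.End (ZMod p) V)ˣ) : Module.End (ZMod p) V) 0 = 0
    exact map_zero _
  obtain ⟨v, hv, hv0⟩ := hQ.exists_fixed_point_of_prime_dvd_card_of_fixed_point V hcard h0
  refine ⟨v, hv0.symm, fun h hh => ?_⟩
  exact hv ⟨ρ.toHomUnits h, ⟨⟨h, hh⟩, rfl⟩⟩

end PGroup

section Cyc

theorem cyc_fixes (D : ℕ) [NeZero D] {σ : Γℚ} (h : cyc D σ = 1) {ζ : Qbar} (hζ : ζ ^ D = 1) :
    σ ζ = ζ := by
  rw [cyc_spec D σ hζ, h, Units.val_one]
  have := pow_val_natCast D hζ 1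
  rwa [Nat.cast_one, pow_one] at this

theorem cyc_eq_one_of_dvd (D p : ℕ) [NeZero D] [NeZero p] (hpD : p ∣ D) {σ : Γℚ}
    (h : cyc D σ = 1) : cyc p σ = 1 := by
  refine Units.ext ?_
  have h1 := cyc_unique_nat p σ (m := 1) (fun ζ hζ => by
    rw [pow_one]
    refine cyc_fixes D h ?_
    obtain ⟨m, rfl⟩ := hpD
    rw [pow_mul, hζ, one_pow])
  simpa using h1

theorem complexConjugation_ne_one : complexConjugation ≠ 1 := by
  intro h
  obtain ⟨i, hi⟩ := IsAlgClosed.exists_pow_nat_eq (-1 : Qbar) (n := 2) (by norm_num)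
  have h1 := complexEmbedding_complexConjugation i
  rw [h, AlgEquiv.one_apply] at h1
  obtain ⟨r, hr⟩ := Complex.conj_eq_iff_real.mp h1.symm
  have h2 : (complexEmbedding i) ^ 2 = -1 := by
    rw [← map_pow, hi, map_neg, map_one]
  rw [hr, ← Complex.ofReal_pow] at h2
  have h3 : r ^ 2 = -1 := by exact_mod_cast h2
  nlinarith [sq_nonneg r]

/-- Transitivity on the roots of `X ^ p - a`. -/
theorem exists_conj_root {p : ℕ} (hp : p.Prime) (a : ℚ) (ha : ∀ b : ℚ, b ^ p ≠ a) {r s : Qbar}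
    (hr : r ^ p = algebraMap ℚ Qbar a) (hs : s ^ p = algebraMap ℚ Qbar a) :
    ∃ τ : Γℚ, τ r = s := by
  have hirr := X_pow_sub_C_irreducible_of_prime hp ha
  have hmonic : (Polynomial.X ^ p - Polynomial.C a : Polynomial ℚ).Monic :=
    Polynomial.monic_X_pow_sub_C a hp.ne_zero
  have e1 : minpoly ℚ r = Polynomial.X ^ p - Polynomial.C a :=
    (minpoly.eq_of_irreducible_of_monic hirr (by simp [hr]) hmonic).symm
  have e2 : minpoly ℚ s = Polynomial.X ^ p - Polynomial.C a :=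
    (minpoly.eq_of_irreducible_of_monic hirr (by simp [hs]) hmonic).symm
  have h : IsConjRoot ℚ s r := by rw [isConjRoot_def, e1, e2]
  exact h.exists_algEquiv

/-- There is an element acting trivially on `D`-th roots of unity and moving the `p`-th roots
of `a`. -/
theorem exists_moving {p : ℕ} (hp : p.Prime) (hp2 : p ≠ 2) (a : ℚ) (ha : ∀ b : ℚ, b ^ p ≠ a)
    (D : ℕ) [NeZero D] (hpD : p ∣ D) {r : Qbar} (hr : r ^ p = algebraMap ℚ Qbar a) :
    ∃ σ : Γℚ, cyc D σ = 1 ∧ σ r ≠ r := by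
  have : NeZero p := ⟨hp.ne_zero⟩
  have ha0 : a ≠ 0 := fun h => ha 0 (by rw [h, zero_pow hp.ne_zero])
  have hr0 : r ≠ 0 := by
    rintro rfl
    rw [zero_pow hp.ne_zero] at hr
    exact ha0 ((map_eq_zero _).mp hr.symm)
  obtain ⟨ζ, hζ⟩ := exists_primitiveRoot p
  have hζp : ζ ^ p = 1 := hζ.pow_eq_one
  have hζD : ζ ^ D = 1 := by
    obtain ⟨m, rfl⟩ := hpD
    rw [pow_mul, hζp, one_pow]
  set c : Γℚ := complexConjugation with hcdef
  have hc2 : c * c = 1 := complexConjugation_mul_self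
  have hc1 : c ≠ 1 := complexConjugation_ne_one
  have hcζ : c ζ = ζ⁻¹ := InvolutionCyc.involution_rootOfUnity c hc2 hc1 hp.ne_zero hζp
  have hζ0 : ζ ≠ 0 := hζ.ne_zero hp.ne_zero
  -- a root fixed by `c`
  obtain ⟨i, hi⟩ : ∃ i : ℕ, c (ζ ^ i * r) = ζ ^ i * r := by
    have h1 : (c r / r) ^ p = 1 := by
      rw [div_pow, ← map_pow, hr, AlgEquiv.commutes, div_self]
      rw [← hr]; exact pow_ne_zero _ hr0
    obtain ⟨j, -, hj⟩ := hζ.eq_pow_of_pow_eq_one h1
    have hcr : c r = ζ ^ j * r := by rw [hj, div_mul_cancel₀ _ hr0]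
    obtain ⟨m, hm⟩ := hp.odd_of_ne_two hp2
    refine ⟨j * (m + 1), ?_⟩
    rw [map_mul, map_pow, hcζ, hcr, inv_pow, ← mul_assoc]
    congr 1
    rw [inv_mul_eq_iff_eq_mul₀ (pow_ne_zero _ hζ0), ← pow_add]
    have : j * (m + 1) + j * (m + 1) = j + p * j := by rw [hm]; ring
    rw [this, pow_add, pow_mul, hζp, one_pow, mul_one]
  set r₀ := ζ ^ i * r with hr₀
  have hr₀0 : r₀ ≠ 0 := mul_ne_zero (pow_ne_zero _ hζ0) hr0
  have hr₀p : r₀ ^ p = algebraMap ℚ Qbar a := by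
    rw [hr₀, mul_pow, ← pow_mul, mul_comm i p, pow_mul, hζp, one_pow, one_mul, hr]
  obtain ⟨τ, hτ⟩ := exists_conj_root hp a ha (r := r₀) (s := ζ * r₀) hr₀p
    (by rw [mul_pow, hζp, one_mul, hr₀p])
  refine ⟨(τ * c)⁻¹ * (c * τ), ?_, ?_⟩
  · rw [map_mul, map_inv, map_mul, map_mul, mul_comm (cyc D c) (cyc D τ), inv_mul_cancel]
  · intro hfix
    have hcyc : cyc D ((τ * c)⁻¹ * (c * τ)) = 1 := by
      rw [map_mul, map_inv, map_mul, map_mul, mul_comm (cyc D c) (cyc D τ), inv_mul_cancel]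
    have h1 : ((τ * c)⁻¹ * (c * τ)) r₀ = r₀ := by
      rw [hr₀, map_mul, map_pow, cyc_fixes D hcyc hζD, hfix]
    have h2 : c (τ r₀) = τ (c r₀) := by
      have h3 := congrArg (τ * c) h1
      rw [← AlgEquiv.mul_apply, mul_inv_cancel_left] at h3
      exact h3
    rw [hτ, hi, hτ, map_mul, hcζ, hi] at h2
    have h4 : ζ⁻¹ = ζ := mul_right_cancel₀ hr₀0 h2
    have h5 : ζ ^ 2 = 1 := by
      rw [sq]; nth_rewrite 1 [← h4]; exact inv_mul_cancel₀ hζ0
    have h6 : p ∣ 2 := hζ.dvd_of_pow_eq_one 2 h5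
    exact hp2 ((Nat.prime_dvd_prime_iff_eq hp Nat.prime_two).1 h6)

end Cyc

section Main

variable {p : ℕ} [Fact p.Prime] {V : Type*} [AddCommGroup V]
  [Module (ZMod p) V] [Module.Finite (ZMod p) V]

/-- The group-theoretic core. -/
theorem exists_trace_ne_two (hp2 : p ≠ 2) (h2 : Module.finrank (ZMod p) V = 2)
    (ρ : Γℚ →* Module.End (ZMod p) V)
    (hirr : ∀ N : Submodule (ZMod p) V, (∀ σ : Γℚ, ∀ x ∈ N, ρ σ x ∈ N) → N = ⊥ ∨ N = ⊤)
    (hdet : ∀ σ : Γℚ, LinearMap.det (ρ σ) = (cyc p σ : ZMod p))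
    (D : ℕ) [NeZero D] (hpD : p ∣ D) (a : ℚ) (ha : ∀ b : ℚ, b ^ p ≠ a)
    {r : Qbar} (hr : r ^ p = algebraMap ℚ Qbar a) :
    ∃ σ : Γℚ, cyc D σ = 1 ∧ σ r ≠ r ∧ LinearMap.trace (ZMod p) V (ρ σ) ≠ 2 := by
  by_contra hcon
  push Not at hcon
  have hp : p.Prime := Fact.out
  have ha0 : a ≠ 0 := fun h => ha 0 (by rw [h, zero_pow hp.ne_zero])
  have hr0 : r ≠ 0 := by
    rintro rfl
    rw [zero_pow hp.ne_zero] at hr
    exact ha0 ((map_eq_zero _).mp hr.symm)
  have hnt : Nontrivial V := Module.nontrivial_of_finrank_pos (R := ZMod p) (by rw [h2]; norm_num)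
  have hdet1 : ∀ σ : Γℚ, cyc D σ = 1 → LinearMap.det (ρ σ) = 1 := fun σ hσ => by
    rw [hdet, cyc_eq_one_of_dvd D p hpD hσ, Units.val_one]
  obtain ⟨h₀, hh₀, hh₀r⟩ := exists_moving hp hp2 a ha D hpD hr
  -- `h₀ r = μ r`
  obtain ⟨μ, hμp, hμ⟩ : ∃ μ : Qbar, μ ^ p = 1 ∧ h₀ r = μ * r := by
    refine ⟨h₀ r / r, ?_, by rw [div_mul_cancel₀ _ hr0]⟩
    rw [div_pow, ← map_pow, hr, AlgEquiv.commutes, div_self]
    rw [← hr]; exact pow_ne_zero _ hr0
  have hμD : μ ^ D = 1 := by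
    obtain ⟨m, rfl⟩ := hpD
    rw [pow_mul, hμp, one_pow]
  have hμ1 : μ ≠ 1 := by
    rintro rfl
    rw [one_mul] at hμ
    exact hh₀r hμ
  have hμ2 : μ * μ ≠ 1 := by
    intro h
    obtain ⟨m, hm⟩ := hp.odd_of_ne_two hp2
    rw [hm, pow_succ, pow_mul, sq, h, one_pow, one_mul] at hμp
    exact hμ1 hμp
  have htr : ∀ g : Γℚ, cyc D g = 1 → LinearMap.trace (ZMod p) V (ρ g) = 2 := by
    intro g hg
    by_cases hgr : g r = r
    · refine trace_eq_two h2 (hcon h₀ hh₀ hh₀r) (hdet1 h₀ hh₀) ?_ ?_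
      · rw [← map_mul]
        refine hcon _ (by rw [map_mul, hg, hh₀, one_mul]) ?_
        rw [AlgEquiv.mul_apply, hμ, map_mul, cyc_fixes D hg hμD, hgr]
        intro h
        exact hμ1 (mul_right_cancel₀ hr0 (h.trans (one_mul r).symm))
      · rw [← map_pow, ← map_mul]
        refine hcon _ (by rw [map_mul, map_pow, hg, hh₀, one_mul, one_pow]) ?_
        rw [sq, AlgEquiv.mul_apply, AlgEquiv.mul_apply, hμ, map_mul, cyc_fixes D hh₀ hμD, hμ,
          ← mul_assoc, map_mul, map_mul, cyc_fixes D hg hμD, hgr]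
        intro h
        exact hμ2 (mul_right_cancel₀ hr0 (h.trans (one_mul r).symm))
    · exact hcon g hg hgr
  -- fixed vectors
  obtain ⟨v, hv0, hv⟩ := exists_fixed (cyc D).ker ρ
    (fun h hh => sub_one_sq_eq_zero h2 (htr h hh) (hdet1 h hh))
  let N : Submodule (ZMod p) V :=
    { carrier := {x | ∀ h : Γℚ, cyc D h = 1 → ρ h x = x}
      add_mem' := fun {x y} hx hy h hh => by rw [map_add, hx h hh, hy h hh]
      zero_mem' := fun h _ => map_zero _
      smul_mem' := fun c x hx h hh => by rw [map_smul, hx h hh] }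
  have hN : N = ⊤ := by
    refine (hirr N ?_).resolve_left ?_
    · intro σ x hx h hh
      have h1 := hx (σ⁻¹ * h * σ) (by
        rw [map_mul, map_mul, hh, mul_one, map_inv, inv_mul_cancel])
      have h3 : ρ h (ρ σ x) = ρ σ (ρ (σ⁻¹ * h * σ) x) := by
        rw [← Module.End.mul_apply, ← Module.End.mul_apply, ← map_mul, ← map_mul]
        congr 2
        group
      rw [h3, h1]
    · intro hbot
      have : v ∈ N := fun h hh => hv h hh
      rw [hbot, Submodule.mem_bot] at this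
      exact hv0 this
  have htriv : ∀ h : Γℚ, cyc D h = 1 → ρ h = 1 := fun h hh => by
    ext x
    have : x ∈ N := by rw [hN]; trivial
    exact this h hh
  have hcomm : ∀ σ τ : Γℚ, ρ σ * ρ τ = ρ τ * ρ σ := fun σ τ => by
    have h1 := htriv (σ * τ * (τ * σ)⁻¹) (by
      rw [map_mul, map_inv, map_mul, map_mul, mul_comm (cyc D σ), mul_inv_cancel])
    rw [← map_mul, ← map_mul]
    have h3 : σ * τ = (σ * τ * (τ * σ)⁻¹) * (τ * σ) := by group
    rw [h3, map_mul, h1, one_mul]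
  -- complex conjugation
  set c : Γℚ := complexConjugation with hcdef
  have hc2 : c * c = 1 := complexConjugation_mul_self
  have hc1 : c ≠ 1 := complexConjugation_ne_one
  have hdetc : LinearMap.det (ρ c) = -1 := by
    rw [hdet, InvolutionCyc.cyc_involution p c hc2 hc1]; simp
  have hρc2 : ρ c * ρ c = 1 := by rw [← map_mul, hc2, map_one]
  have h11 : (1 : ZMod p) ≠ -1 := by
    intro h
    have h2' : ((2 : ℕ) : ZMod p) = 0 := by
      push_cast
      linear_combination h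
    rw [ZMod.natCast_eq_zero_iff] at h2'
    exact hp2 ((Nat.prime_dvd_prime_iff_eq hp Nat.prime_two).1 h2')
  have hK := hirr (LinearMap.ker (ρ c - 1)) (fun σ x hx => by
    rw [LinearMap.mem_ker, LinearMap.sub_apply, Module.End.one_apply, sub_eq_zero] at hx ⊢
    rw [← Module.End.mul_apply, hcomm, Module.End.mul_apply, hx])
  rcases hK with hK | hK
  · have hneg : ρ c = -1 := by
      ext x
      have h1 : (ρ c - 1) (ρ c x + x) = 0 := by
        rw [LinearMap.sub_apply, Module.End.one_apply, map_add, ← Module.End.mul_apply, hρc2,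
          Module.End.one_apply]
        abel
      have h3 : ρ c x + x ∈ LinearMap.ker (ρ c - 1) := h1
      rw [hK, Submodule.mem_bot] at h3
      rw [LinearMap.neg_apply, Module.End.one_apply]
      exact eq_neg_of_add_eq_zero_left h3
    apply h11
    rw [← hdetc, hneg]
    have h3 : (-1 : Module.End (ZMod p) V) = (-1 : ZMod p) • (1 : Module.End (ZMod p) V) := by
      simp
    rw [h3, LinearMap.det_smul, h2, map_one]
    norm_num
  · have hone : ρ c = 1 := by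
      ext x
      have : x ∈ LinearMap.ker (ρ c - 1) := by rw [hK]; trivial
      rw [LinearMap.mem_ker, LinearMap.sub_apply, sub_eq_zero] at this
      exact this
    rw [hone, map_one] at hdetc
    exact h11 hdetc

end Main

section Primes

theorem mem_nonunits_iff_residue {L : Type*} [Field L] (A : ValuationSubring L) {x : L}
    (hx : x ∈ A) : x ∈ A.nonunits ↔ IsLocalRing.residue A ⟨x, hx⟩ = 0 := by
  rw [IsLocalRing.residue_eq_zero_iff, ValuationSubring.mem_nonunits_iff_exists_mem_maximalIdeal]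
  exact ⟨fun ⟨_, h⟩ => h, fun h => ⟨hx, h⟩⟩

/-- If `q'` is a `p`-th power modulo `ℓ ≡ 1 mod p`, then a Frobenius at `ℓ` fixes the `p`-th roots
of `q'`. -/
theorem frob_fixes_root {ℓ : ℕ} (hℓ : ℓ.Prime) {A : ValuationSubring Qbar}
    (hA : A.LiesOverPrime ℓ) {φ : Γℚ} (hφ : A.IsFrobeniusAt φ ℓ) {p : ℕ} (hp : p.Prime)
    (hℓp : ℓ ≠ p) (h1 : p ∣ ℓ - 1) {q' : ℕ} (hq : ¬ ℓ ∣ q') {x : ZMod ℓ}
    (hx : x ^ p = (q' : ZMod ℓ)) {r : Qbar} (hr : r ^ p = (q' : Qbar)) : φ r = r := by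
  have : Fact ℓ.Prime := ⟨hℓ⟩
  have hint : IsIntegral ℤ r := by
    refine IsIntegral.of_pow hp.pos ?_
    rw [hr]
    exact isIntegral_natCast q'
  have hrA : r ∈ A := FrobExists.mem_of_isIntegral A hint
  set κ := IsLocalRing.ResidueField A
  have hℓκ : ((ℓ : ℕ) : κ) = 0 := by
    have h2 := (mem_nonunits_iff_residue A (natCast_mem A ℓ)).mp hA
    have h3 : IsLocalRing.residue A (ℓ : A) = 0 := h2
    rwa [map_natCast] at h3
  have hchar : CharP κ ℓ := by
    refine ⟨fun m => ⟨fun hm => ?_, fun ⟨d, hd⟩ => by rw [hd, Nat.cast_mul, hℓκ, zero_mul]⟩⟩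
    by_contra hcon
    apply natCast_notMem_nonunits hℓ hA hcon
    rw [mem_nonunits_iff_residue A (natCast_mem A m)]
    change IsLocalRing.residue A (m : A) = 0
    rw [map_natCast, hm]
  let f : ZMod ℓ →+* κ := ZMod.castHom (dvd_refl ℓ) κ
  set ρr : κ := IsLocalRing.residue A ⟨r, hrA⟩ with hρr
  have hrp : ρr ^ p = f x ^ p := by
    rw [← map_pow f, hx, map_natCast f, hρr, ← map_pow]
    have : (⟨r, hrA⟩ : A) ^ p = (q' : A) := Subtype.ext (by simpa using hr)
    rw [this, map_natCast]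
  have hx0 : x ≠ 0 := by
    rintro rfl
    rw [zero_pow hp.ne_zero] at hx
    exact hq ((ZMod.natCast_eq_zero_iff q' ℓ).mp hx.symm)
  obtain ⟨m, hm⟩ := h1
  have hr1 : ρr ^ (ℓ - 1) = 1 := by
    rw [hm, pow_mul, hrp, ← pow_mul, ← hm, ← map_pow, ZMod.pow_card_sub_one_eq_one hx0, map_one]
  have hrℓ : ρr ^ ℓ = ρr := by
    have : ℓ = (ℓ - 1) + 1 := (Nat.sub_add_cancel hℓ.one_le).symm
    rw [this, pow_succ, hr1, one_mul]
  have hρ0 : ρr ≠ 0 := by
    intro h0
    rw [h0, zero_pow (Nat.sub_ne_zero_of_lt hℓ.one_lt)] at hr1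
    exact zero_ne_one hr1
  have hφA : φ r ∈ A := FrobExists.mem_of_isIntegral A (hint.map φ.toAlgHom.toIntAlgHom)
  have hφr : IsLocalRing.residue A ⟨φ r, hφA⟩ = ρr := by
    have h2 := sub_pow_mem_nonunits_of_isFrobeniusAt A hφ hrA
    rw [mem_nonunits_iff_residue A (sub_mem hφA (pow_mem hrA ℓ))] at h2
    have h3 : (⟨φ r - r ^ ℓ, sub_mem hφA (pow_mem hrA ℓ)⟩ : A) = ⟨φ r, hφA⟩ - ⟨r, hrA⟩ ^ ℓ := rfl
    rw [h3, map_sub, map_pow, sub_eq_zero, ← hρr, hrℓ] at h2
    exact h2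
  have hr0 : r ≠ 0 := by
    rintro rfl
    exact hρ0 (map_zero (IsLocalRing.residue A))
  have hrinv : r⁻¹ ∈ A := by
    have hu : IsUnit (⟨r, hrA⟩ : A) := by
      by_contra hnu
      exact hρ0 ((IsLocalRing.residue_eq_zero_iff _).mpr hnu)
    obtain ⟨u, hu⟩ := hu
    have h4 : ((u⁻¹ : Aˣ) : A).1 * r = 1 := by
      have := u.inv_mul
      rw [hu] at this
      exact congrArg Subtype.val this
    rw [inv_eq_of_mul_eq_one_left h4]
    exact ((u⁻¹ : Aˣ) : A).2
  have hμp : (φ r * r⁻¹) ^ p = 1 := by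
    rw [mul_pow, ← map_pow, hr, map_natCast, inv_pow, hr, mul_inv_cancel₀]
    rw [← hr]; exact pow_ne_zero _ hr0
  have hne : NeZero p := ⟨hp.ne_zero⟩
  have hμ := eq_of_residue_eq (n := p) A (natCast_notMem_nonunits hℓ hA
    (fun h => hℓp ((Nat.prime_dvd_prime_iff_eq hℓ hp).mp h))) hμp (one_pow p) (by
      rw [mem_nonunits_iff_residue A (sub_mem (mul_mem hφA hrinv) (one_mem A))]
      have h5 : (⟨φ r * r⁻¹ - 1, sub_mem (mul_mem hφA hrinv) (one_mem A)⟩ : A) =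
          (⟨φ r, hφA⟩ - ⟨r, hrA⟩) * ⟨r⁻¹, hrinv⟩ := Subtype.ext (by
            change φ r * r⁻¹ - 1 = (φ r - r) * r⁻¹
            rw [sub_mul, mul_inv_cancel₀ hr0])
      rw [h5, map_mul, map_sub, hφr, sub_self, zero_mul])
  rwa [mul_inv_eq_one₀ hr0] at hμ

end Primes

section Density

variable {p : ℕ} [Fact p.Prime] {V : Type*} [AddCommGroup V]
  [Module (ZMod p) V] [Module.Finite (ZMod p) V]

theorem frobDensity : FrobCompare.FrobDensity := fun L _ g S => by
  obtain ⟨ℓ, hℓ, hℓS, A, σ, hA, hσ, ⟨k, hk⟩, -⟩ := FrobDensity.frobenius_density L S g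
  exact ⟨ℓ, hℓ, hℓS, A, hA, σ, hσ, k, hk⟩

/-- Abstract form of the Galois input. -/
theorem exists_prime_of_rep (hp2 : p ≠ 2) (h2 : Module.finrank (ZMod p) V = 2)
    (ρ : Γℚ →* Module.End (ZMod p) V)
    (hirr : ∀ N : Submodule (ZMod p) V, (∀ σ : Γℚ, ∀ x ∈ N, ρ σ x ∈ N) → N = ⊥ ∨ N = ⊤)
    (L : IntermediateField ℚ Qbar) [FiniteDimensional ℚ L]
    (hL : ∀ σ : Γℚ, (∀ x ∈ L, σ x = x) → ρ σ = 1)
    (S : Finset ℕ) (t : ℕ → ZMod p)
    (hF : ∀ ℓ : ℕ, ℓ.Prime → ℓ ∉ S → ∀ A : ValuationSubring Qbar, A.LiesOverPrime ℓ →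
      ∀ σ : Γℚ, A.IsFrobeniusAt σ ℓ →
        LinearMap.trace (ZMod p) V (ρ σ) = t ℓ ∧ LinearMap.det (ρ σ) = (ℓ : ZMod p))
    {q' : ℕ} (hq' : q'.Prime) (D : ℕ) (hD : 0 < D) (S' : Finset ℕ) :
    ∃ ℓ : ℕ, ℓ.Prime ∧ ℓ ∉ S' ∧ ℓ ≡ 1 [MOD D] ∧ (∀ x : ZMod ℓ, x ^ p ≠ (q' : ZMod ℓ)) ∧
      t ℓ ≠ 2 := by
  have hp : p.Prime := Fact.out
  have hNp : NeZero p := ⟨hp.ne_zero⟩
  have hND : NeZero (D * p) := ⟨(Nat.mul_pos hD hp.pos).ne'⟩
  have hdet : ∀ σ : Γℚ, LinearMap.det (ρ σ) = (cyc p σ : ZMod p) := by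
    intro σ
    have h := FrobCompare.monoidHom_eq_cyc (B := ZMod p) frobDensity p (ZMod.natCast_self p)
      (LinearMap.det.comp ρ) L (fun g g' hgg' => by
        have h1 : ρ (g'⁻¹ * g) = 1 := hL _ fun x hx => by
          rw [AlgEquiv.mul_apply, hgg' x hx]
          change g'.symm (g' x) = x
          exact g'.symm_apply_apply x
        have h3 : ρ g = ρ g' := by
          have : g = g' * (g'⁻¹ * g) := by group
          rw [this, map_mul, h1, mul_one]
        change LinearMap.det (ρ g) = LinearMap.det (ρ g')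
        rw [h3]) S (fun ℓ hℓ hℓS A hA σ hσ => (hF ℓ hℓ hℓS A hA σ hσ).2) σ
      (a := (cyc p σ : ZMod p).val) (by rw [ZMod.natCast_zmod_val])
    rw [ZMod.natCast_zmod_val] at h
    exact h
  have hnotpow : ∀ b : ℚ, b ^ p ≠ (q' : ℚ) := by
    intro b hb
    have : Fact q'.Prime := ⟨hq'⟩
    have hb0 : b ≠ 0 := by
      rintro rfl
      rw [zero_pow hp.ne_zero] at hb
      exact hq'.ne_zero (by exact_mod_cast hb.symm)
    have h1 := congrArg (padicValRat q') hb
    rw [padicValRat.pow, padicValRat.self hq'.one_lt] at h1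
    have h3 : (p : ℤ) ∣ 1 := ⟨_, h1.symm⟩
    have h4 : p ∣ 1 := by exact_mod_cast h3
    exact hp.one_lt.ne' (Nat.dvd_one.mp h4)
  obtain ⟨r, hr⟩ := IsAlgClosed.exists_pow_nat_eq ((q' : ℕ) : Qbar) (n := p) hp.pos
  obtain ⟨σ, hσ1, hσr, hσt⟩ := exists_trace_ne_two hp2 h2 ρ hirr hdet (D * p)
    (Dvd.intro_left D rfl) (q' : ℚ) hnotpow (r := r) (by rw [hr, map_natCast])
  obtain ⟨ζ, hζ⟩ := exists_primitiveRoot (D * p)
  let L' : IntermediateField ℚ Qbar := L ⊔ IntermediateField.adjoin ℚ {ζ, r}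
  have hfin' : FiniteDimensional ℚ (IntermediateField.adjoin ℚ ({ζ, r} : Set Qbar)) := by
    have : Finite ({ζ, r} : Set Qbar) := Set.toFinite _
    exact IntermediateField.finiteDimensional_adjoin fun x _ => Algebra.IsIntegral.isIntegral x
  have hfinL' : FiniteDimensional ℚ L' := IntermediateField.finiteDimensional_sup _ _
  obtain ⟨ℓ, hℓ, hℓS, A, φ, hA, hφ, ⟨k, hk⟩, ⟨m, hm⟩⟩ := FrobDensity.frobenius_density L'
    (S ∪ S' ∪ {p, q'} ∪ (D * p).primeFactors) σ
  simp only [Finset.mem_union, not_or, Finset.mem_insert, Finset.mem_singleton] at hℓS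
  obtain ⟨⟨⟨hℓS, hℓS'⟩, hℓp, hℓq⟩, hℓD⟩ := hℓS
  have hζL : ζ ∈ L' := (le_sup_right : _ ≤ L')
    (IntermediateField.subset_adjoin ℚ _ (Set.mem_insert ζ {r}))
  have hrL : r ∈ L' := (le_sup_right : _ ≤ L')
    (IntermediateField.subset_adjoin ℚ _ (Set.mem_insert_of_mem ζ rfl))
  have hLL : L ≤ L' := le_sup_left
  -- representations agree
  have hρeq : ∀ g g' : Γℚ, (∀ x ∈ L', g x = g' x) → ρ g = ρ g' := by
    intro g g' hgg'
    have h1 : ρ (g'⁻¹ * g) = 1 := hL _ fun x hx => by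
      rw [AlgEquiv.mul_apply, hgg' x (hLL hx)]
      change g'.symm (g' x) = x
      exact g'.symm_apply_apply x
    have : g = g' * (g'⁻¹ * g) := by group
    rw [this, map_mul, h1, mul_one]
  have hcycφ : cyc (D * p) φ = 1 := by
    refine cyc_eq_one_of_fixes (D * p) φ hζ ?_
    rw [hm ζ hζL]
    exact cyc_fixes (D * p) (by rw [map_pow, hσ1, one_pow]) hζ.pow_eq_one
  have hℓDp : ¬ ℓ ∣ D * p := fun h => hℓD (Nat.mem_primeFactors.mpr ⟨hℓ, h, NeZero.ne _⟩)
  have hmod : ℓ ≡ 1 [MOD D * p] := by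
    have h1 := cyc_frobenius (n := D * p) hℓ hℓDp A hA hφ
    rw [hcycφ, Units.val_one] at h1
    rw [← ZMod.natCast_eq_natCast_iff, ← h1, Nat.cast_one]
  have hmodp : ℓ ≡ 1 [MOD p] := hmod.of_mul_left D
  have hφr : φ r ≠ r := by
    intro h
    apply hσr
    rw [hk r hrL]
    clear hk
    induction k with
    | zero => rfl
    | succ k ih => rw [pow_succ, AlgEquiv.mul_apply, h, ih]
  refine ⟨ℓ, hℓ, hℓS', hmod.of_mul_right p, fun x hx => hφr ?_, fun ht => hσt ?_⟩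
  · refine frob_fixes_root hℓ hA hφ hp hℓp ((Nat.modEq_iff_dvd' hℓ.one_le).mp hmodp.symm)
      (fun h => hℓq ((Nat.prime_dvd_prime_iff_eq hℓ hq').mp h)) hx hr
  · obtain ⟨htr, hdt⟩ := hF ℓ hℓ hℓS A hA φ hφ
    have hℓ1 : (ℓ : ZMod p) = 1 := by
      have := (ZMod.natCast_eq_natCast_iff ℓ 1 p).mpr hmodp
      simpa using this
    rw [hρeq σ (φ ^ k) hk, map_pow]
    exact trace_pow_eq_two h2 (htr.trans ht) (hdt.trans hℓ1) k

end Density

end Fermat.Agent.LR.GaloisInput
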