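import Mathlib
import Fermat.Agent.HeckeDualityC

/-!
# Lifting mod `p` eigenvectors to characteristic zero and back (pure algebra)
-/

set_option autoImplicit false

open scoped TensorProduct IsMulCommutative

namespace Fermat.Agent.LR.EigenLift

/-- A prime minimal over the annihilator of a finite module over a noetherian ring is the exact
annihilator of some element. -/
theorem exists_smul_eq_zero_iff {R M : Type*} [CommRing R] [IsNoetherianRing R] [AddCommGroup M]
    [Module R M] [Module.Finite R M] {P : Ideal R}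
    (hP : P ∈ (Module.annihilator R M).minimalPrimes) :
    ∃ m : M, m ≠ 0 ∧ ∀ r : R, r • m = 0 ↔ r ∈ P := by
  have h := Module.associatedPrimes.minimalPrimes_annihilator_subset_associatedPrimes R M hP
  obtain ⟨hprime, m, hm⟩ := (Submodule.isAssociatedPrime_iff (N := (⊥ : Submodule R M))).mp h
  have key : ∀ r : R, r • m = 0 ↔ r ∈ P := fun r => by
    rw [hm, Submodule.mem_colon_singleton, Submodule.mem_bot]
  refine ⟨m, ?_, key⟩
  rintro rfl
  exact hprime.ne_top ((Ideal.eq_top_iff_one P).mpr ((key 1).mp (smul_zero _)))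

section CharZero

/-- The action of `T` on `H` as a ring homomorphism to `ℤ`-linear endomorphisms. -/
noncomputable def actHom (T H : Type*) [CommRing T] [AddCommGroup H] [Module T H] :
    T →ₐ[ℤ] Module.End ℤ H :=
  (Module.toModuleEnd ℤ (S := T) H : T →+* Module.End ℤ H).toIntAlgHom

@[simp] theorem actHom_apply {T H : Type*} [CommRing T] [AddCommGroup H] [Module T H]
    (t : T) (h : H) : actHom T H t h = t • h := rfl

/-- The `ℂ`-linear extension of the action. -/
noncomputable def actC (T H : Type*) [CommRing T] [AddCommGroup H] [Module T H] :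
    ℂ ⊗[ℤ] T →ₐ[ℂ] Module.End ℂ (ℂ ⊗[ℤ] H) :=
  Algebra.TensorProduct.lift (Algebra.ofId ℂ _)
    ((Module.End.baseChangeHom ℤ ℂ H).comp (actHom T H))
    (fun z _ => show Commute _ _ from Algebra.commutes z _)

theorem actC_tmul {T H : Type*} [CommRing T] [AddCommGroup H] [Module T H] (z : ℂ) (t : T)
    (w : ℂ) (h : H) : actC T H (z ⊗ₜ t) (w ⊗ₜ h) = (z * w) ⊗ₜ (t • h) := by
  have h1 : actC T H (z ⊗ₜ t) = algebraMap ℂ (Module.End ℂ (ℂ ⊗[ℤ] H)) z *
      ((actHom T H t).baseChange ℂ) := Algebra.TensorProduct.lift_tmul _ _ _ z t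
  rw [h1, Module.End.mul_apply, LinearMap.baseChange_tmul, actHom_apply, Module.algebraMap_end_apply,
    TensorProduct.smul_tmul', smul_eq_mul]

theorem actC_one_tmul {T H : Type*} [CommRing T] [AddCommGroup H] [Module T H] (t : T) :
    actC T H (1 ⊗ₜ t) = (actHom T H t).baseChange ℂ := by
  refine TensorProduct.AlgebraTensorModule.ext fun w h => ?_
  rw [actC_tmul, one_mul]
  rfl

theorem actC_injective {T H : Type*} [CommRing T] [AddCommGroup H] [Module T H]
    [Module.Finite ℤ H] [FaithfulSMul T H] : Function.Injective (actC T H) := by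
  obtain ⟨n, b, hb⟩ := Module.Finite.exists_fin (R := ℤ) (M := H)
  let g : T →ₗ[ℤ] (Fin n → H) :=
    { toFun := fun t j => t • b j
      map_add' := fun s t => by ext j; exact add_smul s t (b j)
      map_smul' := fun m t => by ext j; exact smul_assoc m t (b j) }
  have hg : Function.Injective g := by
    intro s t hst
    refine FaithfulSMul.eq_of_smul_eq_smul (M := T) (α := H) fun h => ?_
    have h1 : actHom T H s = actHom T H t := by
      refine LinearMap.ext_on_range hb fun j => ?_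
      exact congrFun hst j
    exact LinearMap.congr_fun h1 h
  have hflat : Module.Flat ℤ ℂ := inferInstance
  have hgC := Module.Flat.lTensor_preserves_injective_linearMap (M := ℂ) g hg
  refine (injective_iff_map_eq_zero (actC T H)).mpr fun x hx => ?_
  apply hgC
  rw [map_zero]
  apply (TensorProduct.piRight ℤ ℤ ℂ (fun _ : Fin n => H)).injective
  rw [map_zero]
  ext j
  have key : ∀ y : ℂ ⊗[ℤ] T, TensorProduct.piRight ℤ ℤ ℂ (fun _ : Fin n => H)
      (g.lTensor ℂ y) j = actC T H y (1 ⊗ₜ b j) := by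
    intro y
    induction y with
    | zero => simp
    | tmul z t =>
      rw [actC_tmul, mul_one, LinearMap.lTensor_tmul, TensorProduct.piRight_apply,
        TensorProduct.piRightHom_tmul]
      rfl
    | add y z hy hz => rw [map_add, map_add, Pi.add_apply, hy, hz, map_add, LinearMap.add_apply]
  rw [key, hx]
  rfl

/-- **Characteristic zero eigenvectors.** If `T` is a commutative ring, finite over `ℤ`, acting
faithfully on a finite free `ℤ`-module `H`, every ring homomorphism `ψ : T → ℂ` is the system of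
eigenvalues of a vector of `ℂ ⊗ H`. -/
theorem exists_eigenvector {T H : Type*} [CommRing T] [Module.Finite ℤ T] [AddCommGroup H]
    [Module T H] [Module.Finite ℤ H] [FaithfulSMul T H] (ψ : T →+* ℂ) :
    ∃ u : ℂ ⊗[ℤ] H, u ≠ 0 ∧ ∀ t : T, (actHom T H t).baseChange ℂ u = ψ t • u := by
  let A := ℂ ⊗[ℤ] T
  let _ : Module A (ℂ ⊗[ℤ] H) := Module.compHom _ (actC T H).toRingHom
  have hsmul : ∀ (a : A) (v : ℂ ⊗[ℤ] H), a • v = actC T H a v := fun a v => rfl
  have hfinA : Module.Finite ℂ A := inferInstance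
  have hart : IsArtinianRing A := IsArtinianRing.of_finite ℂ A
  have htower : IsScalarTower ℂ A (ℂ ⊗[ℤ] H) := ⟨fun z a v => by
    rw [hsmul, hsmul, map_smul]; rfl⟩
  have hfinH : Module.Finite A (ℂ ⊗[ℤ] H) := Module.Finite.of_restrictScalars_finite ℂ A _
  let Ψ : A →ₐ[ℂ] ℂ := Algebra.TensorProduct.lift (Algebra.ofId ℂ ℂ) ψ.toIntAlgHom
    (fun z t => mul_comm _ _)
  have hΨ : ∀ (z : ℂ) (t : T), Ψ (z ⊗ₜ t) = z * ψ t := fun z t =>
    Algebra.TensorProduct.lift_tmul _ _ _ z t
  have hann : Module.annihilator A (ℂ ⊗[ℤ] H) = ⊥ := by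
    rw [eq_bot_iff]
    intro a ha
    rw [Module.mem_annihilator] at ha
    rw [Ideal.mem_bot]
    apply actC_injective (T := T) (H := H)
    rw [map_zero]
    exact LinearMap.ext fun v => ha v
  have hprime : (RingHom.ker Ψ).IsPrime := RingHom.ker_isPrime Ψ
  have hmin : RingHom.ker Ψ ∈ (Module.annihilator A (ℂ ⊗[ℤ] H)).minimalPrimes := by
    rw [hann]
    exact Ideal.mem_minimalPrimes_of_krullDimLE_zero (RingHom.ker Ψ)
  obtain ⟨u, hu0, hu⟩ := exists_smul_eq_zero_iff hmin
  refine ⟨u, hu0, fun t => ?_⟩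
  have h1 := (hu ((1 : ℂ) ⊗ₜ[ℤ] t - (ψ t) ⊗ₜ[ℤ] (1 : T))).mpr (by
    rw [RingHom.mem_ker, map_sub, hΨ, hΨ, map_one, one_mul, mul_one, sub_self])
  rw [sub_smul, sub_eq_zero, hsmul, actC_one_tmul, hsmul] at h1
  rw [h1]
  have h2 : (ψ t) ⊗ₜ[ℤ] (1 : T) = (ψ t) • (1 : A) := by
    rw [Algebra.TensorProduct.one_def, TensorProduct.smul_tmul', smul_eq_mul, mul_one]
  rw [h2, map_smul, map_one]
  rfl

end CharZero

section Family

variable {H : Type*} [AddCommGroup H] [Module.Finite ℤ H] [Module.Free ℤ H] {I : Type*}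

/-- The commutative ring generated by a commuting family of endomorphisms. -/
abbrev Alg (t : I → Module.End ℤ H) : Subalgebra ℤ (Module.End ℤ H) :=
  Algebra.adjoin ℤ (Set.range t)

omit [Module.Finite ℤ H] [Module.Free ℤ H] in
theorem isMulCommutative_alg {t : I → Module.End ℤ H} (hcomm : ∀ i j, Commute (t i) (t j)) :
    IsMulCommutative (Alg t) := by
  refine Algebra.isMulCommutative_adjoin ℤ ?_
  rintro _ ⟨i, rfl⟩ _ ⟨j, rfl⟩
  exact hcomm i j

instance finite_alg (t : I → Module.End ℤ H) : Module.Finite ℤ (Alg t) := by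
  have : Module.Finite ℤ (Module.End ℤ H) := Module.Finite.linearMap ℤ ℤ H H
  exact Module.Finite.of_fg (IsNoetherian.noetherian (Subalgebra.toSubmodule (Alg t)))

/-- The generator `t i`, as an element of the algebra. -/
def gen (t : I → Module.End ℤ H) (i : I) : Alg t :=
  ⟨t i, Algebra.subset_adjoin (Set.mem_range_self i)⟩

/-- **(P8)** A vector which is, modulo `p`, an eigenvector for part of a commuting family lifts to
an eigenvector of the whole family in characteristic zero, with congruent eigenvalues. -/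
theorem exists_char_zero_eigenvector (t : I → Module.End ℤ H)
    (hcomm : ∀ i j, Commute (t i) (t j)) {p : ℕ} (I₀ : Set I) (a : I → ℤ)
    (v : H) (hv : ¬ ∃ w, v = (p : ℤ) • w)
    (hev : ∀ i ∈ I₀, ∃ w, t i v - a i • v = (p : ℤ) • w) :
    ∃ (lam : I → integralClosure ℤ ℂ) (𝔪 : Ideal (integralClosure ℤ ℂ)) (u : ℂ ⊗[ℤ] H),
      𝔪.IsMaximal ∧ (p : integralClosure ℤ ℂ) ∈ 𝔪 ∧ u ≠ 0 ∧
      (∀ i, (t i).baseChange ℂ u = (lam i : ℂ) • u) ∧
      ∀ i ∈ I₀, lam i - ((a i : ℤ) : integralClosure ℤ ℂ) ∈ 𝔪 := by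
  let T := Alg t
  have hTcomm : IsMulCommutative T := isMulCommutative_alg hcomm
  have hfin : Module.Finite ℤ T := finite_alg t
  have hsmul : ∀ (x : T) (h : H), x • h = (x : Module.End ℤ H) h := fun x h => rfl
  have hfaith : FaithfulSMul T H := ⟨fun {x y} hxy => Subtype.ext (LinearMap.ext hxy)⟩
  have htf : IsAddTorsionFree T := by
    have : Module.IsTorsionFree ℤ (Module.End ℤ H) := inferInstance
    have h1 := Module.isTorsionFree_int_iff_isAddTorsionFree.mp this
    exact ⟨fun n hn x y hxy => Subtype.ext (h1.nsmul_right_injective hn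
      (congrArg Subtype.val hxy))⟩
  let J : Ideal T :=
    { carrier := {x | ∃ w, x • v = (p : ℤ) • w}
      add_mem' := by
        rintro x y ⟨w, hw⟩ ⟨w', hw'⟩
        exact ⟨w + w', by rw [add_smul, hw, hw', smul_add]⟩
      zero_mem' := ⟨0, by rw [zero_smul, smul_zero]⟩
      smul_mem' := by
        rintro x y ⟨w, hw⟩
        exact ⟨x • w, by rw [smul_assoc, hw, smul_comm]⟩ }
  have hJ : J ≠ ⊤ := by
    intro htop
    have h1 : (1 : T) ∈ J := by rw [htop]; trivial
    obtain ⟨w, hw⟩ := h1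
    exact hv ⟨w, by rw [← hw, one_smul]⟩
  obtain ⟨𝔫, h𝔫, hJ𝔫⟩ := Ideal.exists_le_maximal J hJ
  obtain ⟨ψ, 𝔪, h𝔪, hcomap⟩ := HeckeDuality.exists_ringHom_of_isMaximal 𝔫
  obtain ⟨u, hu0, hu⟩ := exists_eigenvector (T := T) (H := H)
    ((integralClosure ℤ ℂ).val.toRingHom.comp ψ)
  have hmem : ∀ x ∈ J, ψ x ∈ 𝔪 := by
    intro x hx
    have : x ∈ 𝔪.comap ψ := by rw [hcomap]; exact hJ𝔫 hx
    exact this
  refine ⟨fun i => ψ (gen t i), 𝔪, u, h𝔪, ?_, hu0, fun i => ?_, fun i hi => ?_⟩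
  · have h1 : ((p : ℕ) : T) ∈ J := ⟨v, by rw [Nat.cast_smul_eq_nsmul, natCast_zsmul]⟩
    have h2 := hmem _ h1
    rwa [map_natCast] at h2
  · have h1 := hu (gen t i)
    exact h1
  · obtain ⟨w, hw⟩ := hev i hi
    have h1 : (gen t i : T) - ((a i : ℤ) : T) ∈ J :=
      ⟨w, by rw [sub_smul, Int.cast_smul_eq_zsmul, ← hw]; rfl⟩
    have h2 := hmem _ h1
    rwa [map_sub, map_intCast] at h2

open Polynomial in
theorem aeval_int_apply_of_eq {W : Type*} [AddCommGroup W] [Module ℂ W] (S : Module.End ℂ W)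
    {u : W} {z : ℂ} (hu : S u = z • u) (f : ℤ[X]) : (aeval S f) u = (aeval z f) • u := by
  induction f using Polynomial.induction_on with
  | C a =>
    rw [aeval_C, aeval_C, eq_intCast, eq_intCast, Module.End.intCast_apply,
      Int.cast_smul_eq_zsmul]
  | add f g hf hg =>
    rw [map_add, map_add, LinearMap.add_apply, hf, hg, add_smul]
  | monomial n a h =>
    have e : (C a * X ^ (n + 1) : ℤ[X]) = X * (C a * X ^ n) := by ring
    rw [e, map_mul, aeval_X, Module.End.mul_apply, h, map_smul, hu, smul_smul,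
      map_mul (aeval z) X, aeval_X,
      mul_comm]

open Polynomial in
/-- An eigenvalue (in `ℂ`) of an integral endomorphism is an algebraic integer. -/
theorem isIntegral_of_baseChange_eq (s : Module.End ℤ H) {u : ℂ ⊗[ℤ] H} (hu0 : u ≠ 0) {z : ℂ}
    (hu : s.baseChange ℂ u = z • u) : IsIntegral ℤ z := by
  refine ⟨s.charpoly, LinearMap.charpoly_monic s, ?_⟩
  have h1 : (aeval s s.charpoly).baseChange ℂ = aeval (s.baseChange ℂ) s.charpoly :=
    (aeval_algHom_apply (Module.End.baseChangeHom ℤ ℂ H) s s.charpoly).symm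
  have h3 := aeval_int_apply_of_eq (s.baseChange ℂ) hu s.charpoly
  rw [← h1, LinearMap.aeval_self_charpoly] at h3
  have h2 : (0 : Module.End ℤ H).baseChange ℂ = 0 := LinearMap.baseChange_zero
  rw [h2, LinearMap.zero_apply] at h3
  exact (smul_eq_zero.mp h3.symm).resolve_right hu0

/-- **From characteristic zero to mod `p`.** Given an eigenvector `u ∈ ℂ ⊗ H` of a commuting family
and a maximal ideal `𝔪 ∋ p` of `ℤ̄`, there is `v ∈ H`, nonzero mod `p`, killed mod `p` by
every element of the algebra whose eigenvalue on `u` is in `𝔪`. -/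
theorem exists_mod_p_vector (t : I → Module.End ℤ H)
    (hcomm : ∀ i j, Commute (t i) (t j)) {p : ℕ} (hp : p.Prime) {u : ℂ ⊗[ℤ] H} (hu0 : u ≠ 0)
    (hu : ∀ i, ∃ z : ℂ, (t i).baseChange ℂ u = z • u)
    (𝔪 : Ideal (integralClosure ℤ ℂ)) (h𝔪 : 𝔪.IsMaximal) (hp𝔪 : (p : integralClosure ℤ ℂ) ∈ 𝔪) :
    ∃ v : H, (¬ ∃ w, v = (p : ℤ) • w) ∧ ∀ x ∈ Alg t, ∀ z : integralClosure ℤ ℂ,
      (x.baseChange ℂ u = (z : ℂ) • u) → z ∈ 𝔪 → ∃ w, x v = (p : ℤ) • w := by
  let T := Alg t
  have hTcomm : IsMulCommutative T := isMulCommutative_alg hcomm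
  have hfin : Module.Finite ℤ T := finite_alg t
  have hnoeth : IsNoetherianRing T := IsNoetherianRing.of_finite ℤ T
  have hsmul : ∀ (x : T) (h : H), x • h = (x : Module.End ℤ H) h := fun x h => rfl
  have huniq : ∀ z z' : ℂ, z • u = z' • u → z = z' := fun z z' h => by
    rw [← sub_eq_zero, ← sub_smul] at h
    exact sub_eq_zero.mp ((smul_eq_zero.mp h).resolve_right hu0)
  have hex : ∀ x : T, ∃ z : ℂ, (x : Module.End ℤ H).baseChange ℂ u = z • u := by
    rintro ⟨x, hx⟩
    change ∃ z : ℂ, x.baseChange ℂ u = z • u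
    induction hx using Algebra.adjoin_induction with
    | mem x hx => obtain ⟨i, rfl⟩ := hx; exact hu i
    | algebraMap r =>
      refine ⟨(r : ℂ), ?_⟩
      have h1 : (algebraMap ℤ (Module.End ℤ H) r).baseChange ℂ =
          algebraMap ℤ (Module.End ℂ (ℂ ⊗[ℤ] H)) r :=
        (Module.End.baseChangeHom ℤ ℂ H).commutes r
      rw [h1, eq_intCast, Module.End.intCast_apply, Int.cast_smul_eq_zsmul]
    | add x y _ _ hx hy =>
      obtain ⟨z, hz⟩ := hx
      obtain ⟨z', hz'⟩ := hy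
      exact ⟨z + z', by rw [LinearMap.baseChange_add, LinearMap.add_apply, hz, hz', add_smul]⟩
    | mul x y _ _ hx hy =>
      obtain ⟨z, hz⟩ := hx
      obtain ⟨z', hz'⟩ := hy
      exact ⟨z * z', by
        rw [Module.End.mul_eq_comp, LinearMap.baseChange_comp, LinearMap.comp_apply, hz',
          map_smul, hz, smul_smul, mul_comm]⟩
  choose χ₀ hχ₀ using hex
  have hχint : ∀ x : T, IsIntegral ℤ (χ₀ x) := fun x => isIntegral_of_baseChange_eq _ hu0 (hχ₀ x)
  let χ : T →+* integralClosure ℤ ℂ :=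
    { toFun := fun x => ⟨χ₀ x, hχint x⟩
      map_one' := Subtype.ext (huniq _ _ (by
        rw [← hχ₀]
        change (1 : Module.End ℤ H).baseChange ℂ u = (1 : ℂ) • u
        rw [LinearMap.baseChange_one, Module.End.one_apply, one_smul]))
      map_mul' := fun x y => Subtype.ext (huniq _ _ (by
        change χ₀ (x * y) • u = (χ₀ x * χ₀ y) • u
        rw [← hχ₀]
        change ((x : Module.End ℤ H) * (y : Module.End ℤ H)).baseChange ℂ u = _
        rw [Module.End.mul_eq_comp, LinearMap.baseChange_comp, LinearMap.comp_apply, hχ₀,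
          map_smul, hχ₀, smul_smul, mul_comm]))
      map_zero' := Subtype.ext (huniq _ _ (by
        rw [← hχ₀]
        change (0 : Module.End ℤ H).baseChange ℂ u = (0 : ℂ) • u
        rw [LinearMap.baseChange_zero, LinearMap.zero_apply, zero_smul]))
      map_add' := fun x y => Subtype.ext (huniq _ _ (by
        change χ₀ (x + y) • u = (χ₀ x + χ₀ y) • u
        rw [← hχ₀]
        change ((x : Module.End ℤ H) + (y : Module.End ℤ H)).baseChange ℂ u = _
        rw [LinearMap.baseChange_add, LinearMap.add_apply, hχ₀, hχ₀, add_smul])) }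
  have hχ : ∀ x : T, (x : Module.End ℤ H).baseChange ℂ u = ((χ x : integralClosure ℤ ℂ) : ℂ) • u :=
    hχ₀
  let 𝔫 : Ideal T := 𝔪.comap χ
  have h𝔫 : 𝔫.IsPrime := Ideal.comap_isPrime χ 𝔪
  let N : Submodule T H :=
    { carrier := {h | ∃ w, h = (p : ℤ) • w}
      add_mem' := by
        rintro _ _ ⟨w, rfl⟩ ⟨w', rfl⟩
        exact ⟨w + w', (smul_add _ _ _).symm⟩
      zero_mem' := ⟨0, (smul_zero _).symm⟩
      smul_mem' := by
        rintro x _ ⟨w, rfl⟩
        exact ⟨x • w, smul_comm x (p : ℤ) w⟩ }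
  have hpH : Function.Injective (fun h : H => (p : ℤ) • h) := by
    have htf : Module.IsTorsionFree ℤ H := inferInstance
    have := Module.isTorsionFree_int_iff_isAddTorsionFree.mp htf
    intro x y hxy
    exact zsmul_right_injective (by exact_mod_cast hp.ne_zero) hxy
  have hann : Module.annihilator T (H ⧸ N) ≤ 𝔫 := by
    intro x hx
    rw [Module.mem_annihilator] at hx
    have h1 : ∀ h : H, ∃ w, (x : Module.End ℤ H) h = (p : ℤ) • w := fun h => by
      have h2 := hx (Submodule.Quotient.mk h)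
      rw [← Submodule.Quotient.mk_smul, Submodule.Quotient.mk_eq_zero] at h2
      exact h2
    choose s hs using h1
    let s' : Module.End ℤ H :=
      { toFun := s
        map_add' := fun a b => hpH (by
          change (p : ℤ) • s (a + b) = (p : ℤ) • (s a + s b)
          rw [← hs, map_add, hs, hs, smul_add])
        map_smul' := fun m a => hpH (by
          change (p : ℤ) • s (m • a) = (p : ℤ) • (m • s a)
          rw [← hs, map_smul, hs, smul_comm]) }
    have hxs : (x : Module.End ℤ H) = (p : ℤ) • s' := LinearMap.ext fun h => hs h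
    have hp0 : (p : ℂ) ≠ 0 := by exact_mod_cast hp.ne_zero
    have h3 : s'.baseChange ℂ u = ((p : ℂ)⁻¹ * (χ x : ℂ)) • u := by
      have h4 := hχ x
      rw [hxs, LinearMap.baseChange_smul, LinearMap.smul_apply] at h4
      rw [mul_smul, ← h4, ← Int.cast_smul_eq_zsmul ℂ (p : ℤ), Int.cast_natCast, smul_smul,
        inv_mul_cancel₀ hp0, one_smul]
    have h5 := isIntegral_of_baseChange_eq s' hu0 h3
    have h6 : χ x = (p : integralClosure ℤ ℂ) * ⟨(p : ℂ)⁻¹ * (χ x : ℂ), h5⟩ := by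
      apply Subtype.ext
      push_cast
      rw [mul_inv_cancel_left₀ hp0]
    rw [Ideal.mem_comap, h6]
    exact 𝔪.mul_mem_right _ hp𝔪
  have hmin : 𝔫 ∈ (Module.annihilator T (H ⧸ N)).minimalPrimes := by
    refine ⟨⟨h𝔫, hann⟩, ?_⟩
    rintro Q ⟨hQ, hQle⟩ hQ𝔫
    have hpQ : ((p : ℕ) : T) ∈ Q := by
      apply hQle
      rw [Module.mem_annihilator]
      intro m
      obtain ⟨h, rfl⟩ := Submodule.Quotient.mk_surjective N m
      rw [← Submodule.Quotient.mk_smul, Submodule.Quotient.mk_eq_zero]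
      exact ⟨h, by rw [Nat.cast_smul_eq_nsmul, natCast_zsmul]⟩
    have hdom : IsDomain (T ⧸ Q) := Ideal.Quotient.isDomain Q
    have hfinQ : Finite (T ⧸ Q) := by
      refine Module.finite_of_fg_torsion (T ⧸ Q) ?_
      intro x
      refine ⟨⟨(p : ℤ), mem_nonZeroDivisors_of_ne_zero (by exact_mod_cast hp.ne_zero)⟩, ?_⟩
      change (p : ℤ) • x = 0
      rw [natCast_zsmul, nsmul_eq_mul, ← map_natCast (Ideal.Quotient.mk Q),
        Ideal.Quotient.eq_zero_iff_mem.mpr hpQ, zero_mul]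
    have hQmax : Q.IsMaximal :=
      Ideal.Quotient.maximal_of_isField Q (Finite.isField_of_domain (T ⧸ Q))
    exact (hQmax.eq_of_le h𝔫.ne_top hQ𝔫).ge
  have htower : IsScalarTower ℤ T H := inferInstance
  have hTfin : Module.Finite T H := Module.Finite.of_restrictScalars_finite ℤ T H
  obtain ⟨m, hm0, hm⟩ := exists_smul_eq_zero_iff hmin
  obtain ⟨v, rfl⟩ := Submodule.Quotient.mk_surjective N m
  refine ⟨v, fun h => hm0 ((Submodule.Quotient.mk_eq_zero N).mpr h), ?_⟩
  intro x hx z hz hz𝔪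
  have h1 : (⟨x, hx⟩ : T) ∈ 𝔫 := by
    rw [Ideal.mem_comap]
    have : χ ⟨x, hx⟩ = z := Subtype.ext (huniq _ _ (by rw [← hχ, ← hz]))
    rwa [this]
  have h2 := (hm ⟨x, hx⟩).mpr h1
  rw [← Submodule.Quotient.mk_smul, Submodule.Quotient.mk_eq_zero] at h2
  exact h2

/-- **(P11)** -/
theorem exists_mod_p_eigenvector (t : I → Module.End ℤ H)
    (hcomm : ∀ i j, Commute (t i) (t j)) {p : ℕ} (hp : p.Prime) (I₀ : Set I) (a : I → ℤ)
    (lam : I → integralClosure ℤ ℂ) (𝔪 : Ideal (integralClosure ℤ ℂ)) (h𝔪 : 𝔪.IsMaximal)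
    (hp𝔪 : (p : integralClosure ℤ ℂ) ∈ 𝔪) (u : ℂ ⊗[ℤ] H) (hu0 : u ≠ 0)
    (hu : ∀ i, (t i).baseChange ℂ u = (lam i : ℂ) • u)
    (ha : ∀ i ∈ I₀, lam i - ((a i : ℤ) : integralClosure ℤ ℂ) ∈ 𝔪)
    (j : I) (c : ℤ) (hj : lam j ^ 2 - ((c : ℤ) : integralClosure ℤ ℂ) ^ 2 ∈ 𝔪) :
    ∃ ε : ℤ, (ε = 1 ∨ ε = -1) ∧ ∃ v : H, (¬ ∃ w, v = (p : ℤ) • w) ∧
      (∀ i ∈ I₀, ∃ w, t i v - a i • v = (p : ℤ) • w) ∧
      ∃ w, t j v - (ε * c) • v = (p : ℤ) • w := by
  obtain ⟨v, hv, key⟩ := exists_mod_p_vector t hcomm hp hu0 (fun i => ⟨_, hu i⟩) 𝔪 h𝔪 hp𝔪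
  have key2 : ∀ (i : I) (b : ℤ), lam i - ((b : ℤ) : integralClosure ℤ ℂ) ∈ 𝔪 →
      ∃ w, t i v - b • v = (p : ℤ) • w := by
    intro i b hb
    have h1 := key (t i - algebraMap ℤ (Module.End ℤ H) b)
      (sub_mem (Algebra.subset_adjoin (Set.mem_range_self i)) (Subalgebra.algebraMap_mem _ b))
      _ (by
        have h2 : (algebraMap ℤ (Module.End ℤ H) b).baseChange ℂ =
            algebraMap ℤ (Module.End ℂ (ℂ ⊗[ℤ] H)) b :=
          (Module.End.baseChangeHom ℤ ℂ H).commutes b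
        rw [LinearMap.baseChange_sub, LinearMap.sub_apply, h2, hu, eq_intCast,
          Module.End.intCast_apply]
        change _ = ((lam i : ℂ) - (((b : ℤ) : integralClosure ℤ ℂ) : ℂ)) • u
        push_cast
        rw [sub_smul, Int.cast_smul_eq_zsmul]) hb
    exact h1
  have h3 : (lam j - ((c : ℤ) : integralClosure ℤ ℂ)) * (lam j + ((c : ℤ) : integralClosure ℤ ℂ))
      ∈ 𝔪 := by
    have : (lam j - ((c : ℤ) : integralClosure ℤ ℂ)) * (lam j + ((c : ℤ) : integralClosure ℤ ℂ)) =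
      lam j ^ 2 - ((c : ℤ) : integralClosure ℤ ℂ) ^ 2 := by ring
    rwa [this]
  rcases h𝔪.isPrime.mem_or_mem h3 with h | h
  · exact ⟨1, Or.inl rfl, v, hv, fun i hi => key2 i _ (ha i hi), key2 j _ (by rwa [one_mul])⟩
  · refine ⟨-1, Or.inr rfl, v, hv, fun i hi => key2 i _ (ha i hi), key2 j _ ?_⟩
    rw [neg_one_mul, Int.cast_neg, sub_neg_eq_add]
    exact h

end Family

end Fermat.Agent.LR.EigenLift
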