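import Fermat.Agent.LR.FrobInput
import Fermat.Agent.LR.BoundaryEis
import Fermat.Agent.LR.EigenLift
import Fermat.Prelude.Def_FreyPackage_LevelRaising

/-!
# S41 (Ribet's level raising): assembly (team LR, piece P12)
-/

set_option autoImplicit false
set_option linter.unusedSectionVars false

noncomputable section

open CongruenceSubgroup TensorProduct
open scoped MatrixGroups OnePoint

namespace Fermat.Agent.LR.Asm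

open Fermat.Agent.LR Fermat.Agent.LR.PS Fermat.Agent.LR.EigenLift

/-- The core level-raising statement over `ℤ` (P7). -/
def CoreStatement (p N q : ℕ) : Prop :=
  ∃ D : ℕ, 0 < D ∧ ∀ (L : Set ℕ) (a : ℕ → ℤ) (ε : ℤ), (ε = 1 ∨ ε = -1) →
    (∀ ℓ ∈ L, ℓ.Prime ∧ ¬ ℓ ∣ N * q * p) →
    (∃ ℓ₀ ∈ L, ℓ₀ ≡ 1 [MOD D] ∧ (∀ x : ZMod ℓ₀, x ^ p ≠ (q : ZMod ℓ₀)) ∧ ¬ (p : ℤ) ∣ a ℓ₀ - 2) →
    ∀ v ∈ MS (Gamma0 N) ℤ, (¬ ∃ w ∈ MS (Gamma0 N) ℤ, v = (p : ℤ) • w) →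
      (∀ ℓ ∈ L, ∃ w ∈ MS (Gamma0 N) ℤ, heckeT ℓ v - a ℓ • v = (p : ℤ) • w) →
      (∃ w ∈ MS (Gamma0 N) ℤ, heckeT q v - (ε * (q + 1)) • v = (p : ℤ) • w) →
      ∃ y ∈ newMS N q ℤ, (¬ ∃ w ∈ newMS N q ℤ, y = (p : ℤ) • w) ∧
        ∀ ℓ ∈ L, ∃ w ∈ newMS N q ℤ, heckeT ℓ y - a ℓ • y = (p : ℤ) • w

/-- The index set of the Hecke operators. -/
abbrev PrimeIdx : Type := {ℓ : ℕ // ℓ.Prime}

/-- the operators on a stable submodule -/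
def opFam (M : ℕ) (H : Submodule ℤ (Pairs ℤ)) (hH : ∀ ℓ : PrimeIdx, ∀ x ∈ H, hop ℤ M ℓ.1 x ∈ H)
    (ℓ : PrimeIdx) : Module.End ℤ H :=
  (hop ℤ M ℓ.1).restrict (hH ℓ)

theorem coe_opFam (M : ℕ) (H : Submodule ℤ (Pairs ℤ))
    (hH : ∀ ℓ : PrimeIdx, ∀ x ∈ H, hop ℤ M ℓ.1 x ∈ H) (ℓ : PrimeIdx) (x : H) :
    ((opFam M H hH ℓ x : H) : Pairs ℤ) = hop ℤ M ℓ.1 x.1 := rfl

theorem opFam_commute {M : ℕ} {H : Submodule ℤ (Pairs ℤ)}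
    (hH : ∀ ℓ : PrimeIdx, ∀ x ∈ H, hop ℤ M ℓ.1 x ∈ H) (hle : H ≤ MS (Gamma0 M) ℤ)
    (i j : PrimeIdx) : Commute (opFam M H hH i) (opFam M H hH j) := by
  refine LinearMap.ext fun x => Subtype.ext ?_
  exact hop_comm i.2 j.2 (hle x.2)

theorem toPairs_opFam {M : ℕ} {H : Submodule ℤ (Pairs ℤ)}
    (hH : ∀ ℓ : PrimeIdx, ∀ x ∈ H, hop ℤ M ℓ.1 x ∈ H) (ℓ : PrimeIdx) (u : ℂ ⊗[ℤ] H) :
    toPairs H ((opFam M H hH ℓ).baseChange ℂ u) = hop ℂ M ℓ.1 (toPairs H u) :=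
  toPairs_baseChange _ _ (fun _ => mapCoeff_hop _ _ _ _) u

theorem mapCoeff_mem_newMS {N q : ℕ} {y : Pairs ℤ} (hy : y ∈ newMS N q ℤ) :
    mapCoeff (Int.castRingHom ℂ) y ∈ newMS N q ℂ := by
  obtain ⟨h1, h2, h3⟩ := mem_newMS.mp hy
  refine mem_newMS.mpr ⟨mapCoeff_mem _ h1, ?_, ?_⟩
  · have h4 : tr1 N q (mapCoeff (Int.castRingHom ℂ) y) = mapCoeff (Int.castRingHom ℂ) (tr1 N q y) := by
      rw [tr1_apply, tr1_apply, map_add, mapCoeff_heckeU]; rfl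
    rw [h4, h2, map_zero]
  · have h4 : tr2 N q (mapCoeff (Int.castRingHom ℂ) y) = mapCoeff (Int.castRingHom ℂ) (tr2 N q y) := by
      rw [tr2_apply, tr2_apply, map_add, mapCoeff_heckeU]; rfl
    rw [h4, h3, map_zero]

/-- **Level raising for modular symbols** implies **level raising for eigenforms**. -/
theorem levelRaising_of_core {p N q : ℕ} (hp : p.Prime) (hN : 0 < N) (hq : q.Prime)
    (hqN : ¬ q ∣ N)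
    (hES : LinearMap.range (ModularCurve.periodHomPair (N * q)) =
      ModularCurve.Period.parabolicHoms ℂ (Gamma0 (N * q)) ℂ)
    (hcore : CoreStatement p N q)
    (f : CuspForm (Gamma0 N) 2) (𝔪 : Ideal (integralClosure ℤ ℂ))
    (hf : f.IsNormalizedEigenform) (hmax : 𝔪.IsMaximal) (hpm : (p : integralClosure ℤ ℂ) ∈ 𝔪)
    (G : Set ℕ) (a : ℕ → ℤ)
    (hG : ∀ D : ℕ, 0 < D → ∃ ℓ : ℕ, ℓ.Prime ∧ ¬ ℓ ∣ N * q * p ∧ ℓ ∈ G ∧ ℓ ≡ 1 [MOD D] ∧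
      (∀ x : ZMod ℓ, x ^ p ≠ (q : ZMod ℓ)) ∧ ¬ (p : ℤ) ∣ a ℓ - 2)
    (hcong : ∀ ℓ : ℕ, ℓ.Prime → ℓ ∈ G → ¬ ℓ ∣ N → ℓ ≠ p →
      ∃ b : integralClosure ℤ ℂ, (b : ℂ) = ModularFormClass.qCoeff f ℓ ∧
        b - ((a ℓ : ℤ) : integralClosure ℤ ℂ) ∈ 𝔪)
    (hLR : ∃ b : integralClosure ℤ ℂ, (b : ℂ) = ModularFormClass.qCoeff f q ∧
      b ^ 2 - ((q : integralClosure ℤ ℂ) + 1) ^ 2 ∈ 𝔪) :
    ∃ (g : CuspForm (Gamma0 (N * q)) 2) (𝔪' : Ideal (integralClosure ℤ ℂ)),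
      g.IsNormalizedEigenform ∧ 𝔪'.IsMaximal ∧ (p : integralClosure ℤ ℂ) ∈ 𝔪' ∧
      (∀ ℓ : ℕ, ℓ.Prime → ℓ ∈ G → ¬ ℓ ∣ N * q → ℓ ≠ p →
        ∃ b : integralClosure ℤ ℂ, (b : ℂ) = ModularFormClass.qCoeff g ℓ ∧
          b - ((a ℓ : ℤ) : integralClosure ℤ ℂ) ∈ 𝔪') ∧
      g.IsNewAt q := by
  have hN0 : NeZero N := ⟨hN.ne'⟩
  have hNq0 : NeZero (N * q) := ⟨mul_ne_zero hN.ne' hq.ne_zero⟩
  have hfi : (Gamma0 N).FiniteIndex := (Gamma0_is_congruence N).finiteIndex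
  have hfi' : (Gamma0 (N * q)).FiniteIndex := (Gamma0_is_congruence (N * q)).finiteIndex
  obtain ⟨D, hD, hcore⟩ := hcore
  -- Step B: an integral mod `p` eigenvector of level `N`
  set H := MS (Gamma0 N) ℤ with hHdef
  have hH : ∀ ℓ : PrimeIdx, ∀ x ∈ H, hop ℤ N ℓ.1 x ∈ H := fun ℓ x hx => hop_mem ℓ.2 hx
  set t := opFam N H hH with ht
  have hcomm := opFam_commute hH le_rfl
  obtain ⟨u, hu⟩ := exists_toPairs_eq (perSym_mem f)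
  have hu0 : u ≠ 0 := by
    intro h
    rw [h, map_zero] at hu
    have h1 := perSym_injective (N := N) (hu.symm.trans (map_zero (perSym N)).symm)
    exact hf.ne_zero h1
  let lam : PrimeIdx → integralClosure ℤ ℂ := fun ℓ =>
    ⟨ModularFormClass.qCoeff f ℓ.1, EigenCharacter.isIntegral_qCoeff hf ℓ.2⟩
  have heig : ∀ ℓ : PrimeIdx, (t ℓ).baseChange ℂ u = (lam ℓ : ℂ) • u := by
    intro ℓ
    apply toPairs_injective (Γ := Gamma0 N) (le_refl (MS (Gamma0 N) ℤ))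
    rw [ht, toPairs_opFam, map_smul, hu, hop_complex, symOp_perSym_eigenform hf ℓ.2]
  have hlam : ∀ (ℓ : PrimeIdx) (b : integralClosure ℤ ℂ),
      (b : ℂ) = ModularFormClass.qCoeff f ℓ.1 → lam ℓ = b := fun ℓ b hb => Subtype.ext hb.symm
  set I₀ : Set PrimeIdx := {ℓ | ℓ.1 ∈ G ∧ ¬ ℓ.1 ∣ N * q * p} with hI₀
  have hI₀' : ∀ ℓ ∈ I₀, ¬ ℓ.1 ∣ N ∧ ¬ ℓ.1 ∣ N * q ∧ ℓ.1 ≠ p := by
    rintro ℓ ⟨-, h⟩
    refine ⟨fun h1 => h ((h1.mul_right q).mul_right p), fun h1 => h (h1.mul_right p), ?_⟩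
    intro h1
    exact h (h1 ▸ dvd_mul_left ℓ.1 (N * q))
  obtain ⟨ε, hε, v, hv, hvI, w, hw⟩ := exists_mod_p_eigenvector t hcomm hp I₀ (fun ℓ => a ℓ.1) lam 𝔪
    hmax hpm u hu0 heig (by
      intro ℓ hℓ
      obtain ⟨b, hb, hb'⟩ := hcong ℓ.1 ℓ.2 hℓ.1 (hI₀' ℓ hℓ).1 (hI₀' ℓ hℓ).2.2
      rw [hlam ℓ b hb]
      exact hb') ⟨q, hq⟩ (q + 1) (by
      obtain ⟨b, hb, hb'⟩ := hLR
      rw [hlam ⟨q, hq⟩ b hb]
      push_cast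
      exact hb')
  -- Step C, D: core
  set L : Set ℕ := {ℓ | ℓ.Prime ∧ ℓ ∈ G ∧ ¬ ℓ ∣ N * q * p} with hL
  obtain ⟨ℓ₀, hℓ₀, hℓ₀N, hℓ₀G, hℓ₀D, hℓ₀q, hℓ₀a⟩ := hG (D * (N * q * p))
    (Nat.mul_pos hD (Nat.mul_pos (Nat.mul_pos hN hq.pos) hp.pos))
  have hℓ₀L : ℓ₀ ∈ L := ⟨hℓ₀, hℓ₀G, hℓ₀N⟩
  obtain ⟨y, hy, hynot, hyL⟩ := hcore L a ε hε (fun ℓ hℓ => ⟨hℓ.1, hℓ.2.2⟩)
    ⟨ℓ₀, hℓ₀L, Nat.ModEq.of_mul_right _ hℓ₀D, hℓ₀q, hℓ₀a⟩ v.1 v.2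
    (by
      rintro ⟨w, hw, hvw⟩
      exact hv ⟨⟨w, hw⟩, Subtype.ext hvw⟩)
    (by
      intro ℓ hℓ
      obtain ⟨w, hw⟩ := hvI ⟨ℓ, hℓ.1⟩ ⟨hℓ.2.1, hℓ.2.2⟩
      refine ⟨w.1, w.2, ?_⟩
      have h1 : ¬ ℓ ∣ N := (hI₀' ⟨ℓ, hℓ.1⟩ ⟨hℓ.2.1, hℓ.2.2⟩).1
      have h2 := congrArg Subtype.val hw
      have h3 : ((t ⟨ℓ, hℓ.1⟩ v - a ℓ • v : H) : Pairs ℤ) = hop ℤ N ℓ v.1 - a ℓ • v.1 := rfl
      rw [hop_of_not_dvd h1] at h3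
      rw [← h3]
      exact h2)
    (by
      refine ⟨w.1, w.2, ?_⟩
      have h2 := congrArg Subtype.val hw
      have h3 : ((t ⟨q, hq⟩ v - (ε * ((q : ℤ) + 1)) • v : H) : Pairs ℤ) =
        hop ℤ N q v.1 - (ε * ((q : ℤ) + 1)) • v.1 := rfl
      rw [hop_of_not_dvd hqN] at h3
      rw [← h3]
      exact h2)
  -- Step E: a characteristic zero eigenvector in the new part
  set H' := newMS N q ℤ with hH'def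
  have hH' : ∀ ℓ : PrimeIdx, ∀ x ∈ H', hop ℤ (N * q) ℓ.1 x ∈ H' :=
    fun ℓ x hx => hop_mem_new hq hqN ℓ.2 hx
  have hle : H' ≤ MS (Gamma0 (N * q)) ℤ := fun x hx => (mem_newMS.mp hx).1
  set t' := opFam (N * q) H' hH' with ht'
  have hcomm' := opFam_commute hH' hle
  have hfin' : Module.Finite ℤ H' := finite_of_le hle
  have hfree' : Module.Free ℤ H' := free_of_le hle
  obtain ⟨mu, 𝔪', u', h𝔪', hp𝔪', hu'0, hu', hmu⟩ := exists_char_zero_eigenvector t' hcomm'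
    (p := p) I₀ (fun ℓ => a ℓ.1) ⟨y, hy⟩
    (by
      rintro ⟨w, hw⟩
      exact hynot ⟨w.1, w.2, congrArg Subtype.val hw⟩)
    (by
      intro ℓ hℓ
      obtain ⟨w, hw, hyw⟩ := hyL ℓ.1 ⟨ℓ.2, hℓ.1, hℓ.2⟩
      refine ⟨⟨w, hw⟩, Subtype.ext ?_⟩
      have h3 : ((t' ℓ ⟨y, hy⟩ - a ℓ.1 • (⟨y, hy⟩ : H') : H') : Pairs ℤ) =
        hop ℤ (N * q) ℓ.1 y - a ℓ.1 • y := rfl
      rw [h3, hop_of_not_dvd (hI₀' ℓ hℓ).2.1, hyw]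
      rfl)
  -- Step F: the complex symbol
  set x := toPairs H' u' with hx
  have hx0 : x ≠ 0 := by
    intro h
    apply hu'0
    apply toPairs_injective (Γ := Gamma0 (N * q)) hle
    rw [← hx, h, map_zero]
  have hxnew : x ∈ newMS N q ℂ := toPairs_mem (newMS N q ℂ) (fun y hy => mapCoeff_mem_newMS hy) u'
  have hxmem : x ∈ MS (Gamma0 (N * q)) ℂ := (mem_newMS.mp hxnew).1
  have hxeig : ∀ ℓ : PrimeIdx, hop ℂ (N * q) ℓ.1 x = (mu ℓ : ℂ) • x := by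
    intro ℓ
    rw [hx, ← toPairs_opFam hH' ℓ u', ← ht', hu' ℓ, map_smul]
  have hnb : ¬ IsBoundary (Gamma0 (N * q)) x := by
    have hℓ₀Nq : ¬ ℓ₀ ∣ N * q := fun h => hℓ₀N (h.mul_right p)
    have h1 : (ℓ₀ : ZMod (N * q)) = 1 := by
      have h2 : ℓ₀ ≡ 1 [MOD N * q] :=
        (Nat.ModEq.of_mul_left D hℓ₀D).of_mul_right p
      have h3 := (ZMod.natCast_eq_natCast_iff _ _ _).mpr h2
      rw [h3, Nat.cast_one]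
    have h1p : (ℓ₀ : ZMod p) = 1 := by
      have h2 : ℓ₀ ≡ 1 [MOD p] :=
        (Nat.ModEq.of_mul_left D hℓ₀D).of_mul_left (N * q)
      have h3 := (ZMod.natCast_eq_natCast_iff _ _ _).mpr h2
      rw [h3, Nat.cast_one]
    have h4 := hxeig ⟨ℓ₀, hℓ₀⟩
    rw [hop_of_not_dvd hℓ₀Nq] at h4
    refine not_isBoundary_of_eigenvalue hℓ₀ h1 hx0 h4 ?_
    intro h5
    apply hℓ₀a
    -- `a ℓ₀ ≡ 2 mod p`
    have h6 := hmu ⟨ℓ₀, hℓ₀⟩ ⟨hℓ₀G, hℓ₀N⟩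
    have h7 : mu ⟨ℓ₀, hℓ₀⟩ = ((ℓ₀ + 1 : ℤ) : integralClosure ℤ ℂ) := by
      apply Subtype.ext
      rw [h5]
      push_cast
      rfl
    rw [h7, ← Int.cast_sub] at h6
    have h8 : (p : ℤ) ∣ ((ℓ₀ : ℤ) + 1 - a ℓ₀) := by
      by_contra hnd
      have hcop : IsCoprime (p : ℤ) ((ℓ₀ : ℤ) + 1 - a ℓ₀) :=
        (Nat.prime_iff_prime_int.mp hp).irreducible.coprime_iff_not_dvd.mpr hnd
      obtain ⟨r, s, hrs⟩ := hcop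
      apply h𝔪'.ne_top
      rw [Ideal.eq_top_iff_one]
      have h9 : (1 : integralClosure ℤ ℂ) = (r : integralClosure ℤ ℂ) * (p : integralClosure ℤ ℂ) +
          (s : integralClosure ℤ ℂ) * (((ℓ₀ : ℤ) + 1 - a ℓ₀ : ℤ) : integralClosure ℤ ℂ) := by
        have := congrArg (Int.cast : ℤ → integralClosure ℤ ℂ) hrs
        push_cast at this ⊢
        exact this.symm
      rw [h9]
      exact 𝔪'.add_mem (𝔪'.mul_mem_left _ hp𝔪') (𝔪'.mul_mem_left _ h6)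
    have h9 : (p : ℤ) ∣ (ℓ₀ : ℤ) - 1 := by
      rw [← ZMod.intCast_zmod_eq_zero_iff_dvd]
      push_cast
      rw [h1p, sub_self]
    have h10 : a ℓ₀ - 2 = ((ℓ₀ : ℤ) - 1) - ((ℓ₀ : ℤ) + 1 - a ℓ₀) := by ring
    rw [h10]
    exact dvd_sub h9 h8
  -- Step G: the eigenform
  let lam' : ℕ → ℂ := fun ℓ => open Classical in if h : ℓ.Prime then (mu ⟨ℓ, h⟩ : ℂ) else 0
  have hlam' : ∀ ℓ (h : ℓ.Prime), lam' ℓ = (mu ⟨ℓ, h⟩ : ℂ) := fun ℓ h => dif_pos h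
  obtain ⟨g, hg, hgℓ⟩ := exists_eigenform_of_eigensymbol hES hxmem hnb lam'
    (fun ℓ hℓ hℓN => by
      rw [hlam' ℓ hℓ, ← hxeig ⟨ℓ, hℓ⟩, hop_of_not_dvd hℓN])
    (fun ℓ hℓ hℓN => by
      rw [hlam' ℓ hℓ, ← hxeig ⟨ℓ, hℓ⟩, hop_of_dvd hℓN])
  refine ⟨g, 𝔪', hg, h𝔪', hp𝔪', fun ℓ hℓ hℓG hℓN hℓp => ?_, ?_⟩
  · refine ⟨mu ⟨ℓ, hℓ⟩, by rw [hgℓ ℓ hℓ, hlam' ℓ hℓ], hmu ⟨ℓ, hℓ⟩ ⟨hℓG, fun h => ?_⟩⟩
    rcases (Nat.Prime.dvd_mul hℓ).mp h with h1 | h1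
    · exact hℓN h1
    · exact hℓp ((Nat.prime_dvd_prime_iff_eq hℓ hp).mp h1)
  · have h1 := hxeig ⟨q, hq⟩
    rw [hop_of_dvd (dvd_mul_left q N)] at h1
    have h2 := heckeU_heckeU_of_new hq hqN hxnew
    rw [h1, map_smul, h1, smul_smul] at h2
    have h3 : ((mu ⟨q, hq⟩ : ℂ) * (mu ⟨q, hq⟩ : ℂ) - 1) • x = 0 := by
      rw [sub_smul, h2, one_smul, sub_self]
    have h4 := (smul_eq_zero.mp h3).resolve_right hx0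
    show ModularFormClass.qCoeff g q ^ 2 = 1
    rw [hgℓ q hq, hlam' q hq, sq]
    exact sub_eq_zero.mp h4

open WeierstrassCurve WeierstrassCurve.Affine WeierstrassCurve.Affine.Point in
/-- **S41** from the core statement and the Eichler-Shimura isomorphism. -/
theorem s41_of_core
    (hES : ∀ (M : ℕ) [NeZero M], LinearMap.range (ModularCurve.periodHomPair M) =
      ModularCurve.Period.parabolicHoms ℂ (Gamma0 M) ℂ)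
    (hcore : ∀ p N q : ℕ, p.Prime → p ≠ 2 → 0 < N → q.Prime → ¬ q ∣ N → q ≠ p →
      CoreStatement p N q)
    (E : WeierstrassCurve ℚ) [E.IsElliptic] {W : WeierstrassCurve ℤ} (hW : W.IsIntegralModelOf E)
    {p N q' : ℕ} (hp : p.Prime) (hp2 : p ≠ 2) (hN : 0 < N) (hq' : q'.Prime) (hq'N : ¬ q' ∣ N)
    (hq'p : q' ≠ p)
    (hirr : GaloisRepIsIrreducible (K := AlgebraicClosure ℚ) ℚ E p)
    (f : CuspForm (CongruenceSubgroup.Gamma0 N) 2) (𝔪 : Ideal (integralClosure ℤ ℂ))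
    (hf : f.IsNormalizedEigenform) (hmax : 𝔪.IsMaximal) (hpm : (p : integralClosure ℤ ℂ) ∈ 𝔪)
    (hcong : ∀ ℓ : ℕ, ℓ.Prime → W.IsGoodPrimeFor ℓ → ¬ ℓ ∣ N → ℓ ≠ p →
      ∃ a : integralClosure ℤ ℂ, (a : ℂ) = ModularFormClass.qCoeff f ℓ ∧
        a - ((W.apOfModel ℓ : ℤ) : integralClosure ℤ ℂ) ∈ 𝔪)
    (hLR : ∃ a : integralClosure ℤ ℂ, (a : ℂ) = ModularFormClass.qCoeff f q' ∧
      a ^ 2 - ((q' : integralClosure ℤ ℂ) + 1) ^ 2 ∈ 𝔪) :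
    ∃ (g : CuspForm (CongruenceSubgroup.Gamma0 (N * q')) 2) (𝔪' : Ideal (integralClosure ℤ ℂ)),
      g.IsNormalizedEigenform ∧ 𝔪'.IsMaximal ∧ (p : integralClosure ℤ ℂ) ∈ 𝔪' ∧
      (∀ ℓ : ℕ, ℓ.Prime → W.IsGoodPrimeFor ℓ → ¬ ℓ ∣ N * q' → ℓ ≠ p →
        ∃ a : integralClosure ℤ ℂ, (a : ℂ) = ModularFormClass.qCoeff g ℓ ∧
          a - ((W.apOfModel ℓ : ℤ) : integralClosure ℤ ℂ) ∈ 𝔪') ∧
      g.IsNewAt q' := by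
  have : NeZero (N * q') := ⟨mul_ne_zero hN.ne' hq'.ne_zero⟩
  refine levelRaising_of_core hp hN hq' hq'N (hES (N * q')) (hcore p N q' hp hp2 hN hq' hq'N hq'p)
    f 𝔪 hf hmax hpm {ℓ | W.IsGoodPrimeFor ℓ} W.apOfModel ?_ hcong hLR
  intro D hD
  obtain ⟨ℓ, hℓ, hℓS, hℓD, hgood, hpow, ha⟩ := GaloisInput.exists_prime_not_eisenstein E hW hp hp2
    (GaloisInput.frobTraceInput W hp) hirr hq' D hD (N * q' * p).primeFactors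
  refine ⟨ℓ, hℓ, fun h => hℓS ?_, hgood, hℓD, hpow, ha⟩
  exact Nat.mem_primeFactors.mpr ⟨hℓ, h,
    mul_ne_zero (mul_ne_zero hN.ne' hq'.ne_zero) hp.ne_zero⟩

end Fermat.Agent.LR.Asm
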