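import Fermat.Agent.LR.Manin

/-!
# The intersection form on modular symbols (team LR, piece P5)

For `Γ` of finite index in `SL(2,ℤ)` containing `-1` and `x y ∈ MS Γ R`:

`formSum Γ x y = Σ_{c ∈ SL(2,ℤ)/Γ} (m_x(c) m_y(U⁻¹c) - m_x(U⁻¹c) m_y(c))`.

* `three_dvd_formSum`, `form Γ x y = formSum Γ x y / 3` over `ℤ`;
* `exists_boundary_of_dvd_form` : nondegeneracy modulo an odd integer `p`.
-/

set_option autoImplicit false

open Matrix Matrix.SpecialLinearGroup CongruenceSubgroup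
open scoped MatrixGroups OnePoint

namespace Fermat.Agent.LR

local notation "S" => ModularGroup.S
local notation "T" => ModularGroup.T

variable {R : Type*} [CommRing R]

section Perm3

/-- `H¹(C₃, ℤ[X]) = 0` for a permutation `σ` with `σ³ = 1`. -/
theorem exists_primitive_perm {α : Type*} (σ : α → α) (hσ : ∀ c, σ (σ (σ c)) = c) (M : α → ℤ)
    (hM : ∀ c, M c + M (σ c) + M (σ (σ c)) = 0) : ∃ ν : α → ℤ, ∀ c, ν (σ c) - ν c = M c := by
  classical
  -- orbit representatives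
  let s : Setoid α :=
    { r := fun c d => d = c ∨ d = σ c ∨ d = σ (σ c)
      iseqv :=
        { refl := fun c => Or.inl rfl
          symm := by
            rintro c d (rfl | rfl | rfl)
            · exact Or.inl rfl
            · exact Or.inr (Or.inr (hσ c).symm)
            · exact Or.inr (Or.inl (hσ c).symm)
          trans := by
            rintro c d e (rfl | rfl | rfl) (rfl | rfl | rfl)
            · exact Or.inl rfl
            · exact Or.inr (Or.inl rfl)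
            · exact Or.inr (Or.inr rfl)
            · exact Or.inr (Or.inl rfl)
            · exact Or.inr (Or.inr rfl)
            · exact Or.inl (hσ c)
            · exact Or.inr (Or.inr rfl)
            · exact Or.inl (hσ c)
            · rw [hσ]; exact Or.inr (Or.inl rfl) } }
  let r : α → α := fun c => (Quotient.mk s c).out
  have hr1 : ∀ c, r (σ c) = r c := by
    intro c
    have : Quotient.mk s (σ c) = Quotient.mk s c := by
      apply Quotient.sound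
      change c = σ c ∨ c = σ (σ c) ∨ c = σ (σ (σ c))
      exact Or.inr (Or.inr (hσ c).symm)
    simp only [r, this]
  have hr2 : ∀ c, r c = c ∨ r c = σ c ∨ r c = σ (σ c) := by
    intro c
    have : s.r c (r c) := Setoid.symm' s (Quotient.mk_out (s := s) c)
    exact this
  refine ⟨fun c => if r c = c then 0 else if r c = σ (σ c) then M (σ (σ c)) else - M c,
    fun c => ?_⟩
  simp only [hr1, hσ]
  have hMc := hM c
  by_cases h1 : r c = c
  · simp only [if_pos h1]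
    by_cases h2 : σ c = c
    · rw [h2, h2] at hMc
      have hMc : M c = 0 := by omega
      rw [h2, if_pos h1, hMc]; ring
    · rw [h1, if_neg (fun h => h2 h.symm)]; ring
  · simp only [if_neg h1]
    by_cases h2 : r c = σ (σ c)
    · rw [if_pos h2]
      have h3 : ¬ (r c = σ c) := by
        intro h
        rw [h] at h2
        have h4 := congrArg (fun z => σ (σ z)) h2
        simp only [hσ] at h4
        exact h1 (by rw [h, ← h4])
      rw [if_neg h3]
      omega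
    · rw [if_neg h2]
      have h3 : r c = σ c := by
        rcases hr2 c with h | h | h
        · exact absurd h h1
        · exact h
        · exact absurd h h2
      rw [if_pos h3]; ring

end Perm3

section Form

variable (Γ : Subgroup SL(2, ℤ))

/-- `Σ_{c ∈ SL(2,ℤ)/Γ} (m_x(c) m_y(U⁻¹c) - m_x(U⁻¹c) m_y(c))`. -/
noncomputable def formSum (x y : Pairs R) : R :=
  ∑ᶠ c : SL(2, ℤ) ⧸ Γ, (manin Γ x c * manin Γ y (U⁻¹ • c) - manin Γ x (U⁻¹ • c) * manin Γ y c)

theorem formSum_eq_sum [Fintype (SL(2, ℤ) ⧸ Γ)] (x y : Pairs R) :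
    formSum Γ x y = ∑ c : SL(2, ℤ) ⧸ Γ,
      (manin Γ x c * manin Γ y (U⁻¹ • c) - manin Γ x (U⁻¹ • c) * manin Γ y c) :=
  finsum_eq_sum_of_fintype _

variable {Γ}

theorem neg_one_smul_coset (hneg : (-1 : SL(2, ℤ)) ∈ Γ) (c : SL(2, ℤ) ⧸ Γ) :
    (-1 : SL(2, ℤ)) • c = c := by
  induction c using QuotientGroup.induction_on with
  | H g =>
    rw [MulAction.Quotient.smul_coe, smul_eq_mul]
    have : (-1 : SL(2, ℤ)) * g = g * (-1) := by simp
    rw [this, QuotientGroup.mk_mul_of_mem _ hneg]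

theorem U_inv_smul_three (hneg : (-1 : SL(2, ℤ)) ∈ Γ) (c : SL(2, ℤ) ⧸ Γ) :
    U⁻¹ • U⁻¹ • U⁻¹ • c = c := by
  rw [← mul_smul, ← mul_smul]
  have : U⁻¹ * (U⁻¹ * U⁻¹) = (-1 : SL(2, ℤ)) := by
    have h := U_pow_three
    have : U⁻¹ * (U⁻¹ * U⁻¹) = (U ^ 3)⁻¹ := by group
    rw [this, h, inv_eq_iff_mul_eq_one]; simp
  rw [mul_assoc, this, neg_one_smul_coset hneg]

theorem S_inv_smul_two (hneg : (-1 : SL(2, ℤ)) ∈ Γ) (c : SL(2, ℤ) ⧸ Γ) :
    S⁻¹ • S⁻¹ • c = c := by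
  rw [← mul_smul]
  have : S⁻¹ * S⁻¹ = (-1 : SL(2, ℤ)) := by
    have h := S_sq
    have : S⁻¹ * S⁻¹ = (S ^ 2)⁻¹ := by group
    rw [this, h, inv_eq_iff_mul_eq_one]; simp
  rw [this, neg_one_smul_coset hneg]

/-- Reindexing. -/
theorem sum_smul_eq [Fintype (SL(2, ℤ) ⧸ Γ)] (k : SL(2, ℤ)) (F : SL(2, ℤ) ⧸ Γ → R) :
    ∑ c, F (k • c) = ∑ c, F c :=
  Equiv.sum_comp (MulAction.toPerm k) F

/-- The integral dual `μ` of a function `M` on cosets. -/
theorem exists_mu (hneg : (-1 : SL(2, ℤ)) ∈ Γ) {M : SL(2, ℤ) ⧸ Γ → ℤ} (hM : IsManin M) :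
    ∃ ν : SL(2, ℤ) ⧸ Γ → ℤ, ∀ c, ν (U⁻¹ • c) - ν c = -2 * M c := by
  refine exists_primitive_perm (fun c => U⁻¹ • c) (U_inv_smul_three hneg) (fun c => -2 * M c) ?_
  intro c
  have := hM.rU c
  linear_combination -2 * this

theorem sum_eq_three_mul [Fintype (SL(2, ℤ) ⧸ Γ)] (hneg : (-1 : SL(2, ℤ)) ∈ Γ)
    {M F ν : SL(2, ℤ) ⧸ Γ → ℤ} (hM : IsManin M) (hF : IsManin F)
    (hν : ∀ c, ν (U⁻¹ • c) - ν c = -2 * M c) :
    ∑ c, (M c * F (U⁻¹ • c) - M (U⁻¹ • c) * F c) = 3 * ∑ c, F c * (M c - ν c) := by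
  have h1 : ∑ c, M c * F (U⁻¹ • c) = ∑ c, M (U⁻¹ • U⁻¹ • c) * F c := by
    rw [← sum_smul_eq U⁻¹ (fun c => M (U⁻¹ • U⁻¹ • c) * F c)]
    exact Finset.sum_congr rfl fun c _ => by rw [U_inv_smul_three hneg]
  set τ : SL(2, ℤ) ⧸ Γ → ℤ := fun c =>
    3 * (M c - ν c) - (M (U⁻¹ • U⁻¹ • c) - M (U⁻¹ • c)) with hτ
  have hτU : ∀ c, τ (U⁻¹ • c) = τ c := by
    intro c
    simp only [hτ, U_inv_smul_three hneg]
    have h2 := hν c
    have h3 := hM.rU c
    linear_combination (-3) * h2 + 2 * h3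
  have h0 : 3 * ∑ c, F c * τ c = 0 := by
    have e1 : ∑ c, F c * τ c = ∑ c, F (U⁻¹ • c) * τ c := by
      rw [← sum_smul_eq U⁻¹ (fun c => F c * τ c)]
      exact Finset.sum_congr rfl fun c _ => by rw [hτU]
    have e2 : ∑ c, F c * τ c = ∑ c, F (U⁻¹ • U⁻¹ • c) * τ c := by
      rw [e1, ← sum_smul_eq U⁻¹ (fun c => F (U⁻¹ • c) * τ c)]
      exact Finset.sum_congr rfl fun c _ => by rw [hτU]
    have e3 : 3 * ∑ c, F c * τ c =
        ∑ c, (F c + F (U⁻¹ • c) + F (U⁻¹ • U⁻¹ • c)) * τ c := by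
      simp only [add_mul, Finset.sum_add_distrib]
      rw [← e1, ← e2]; ring
    rw [e3]
    exact Finset.sum_eq_zero fun c _ => by rw [hF.rU, zero_mul]
  have h0' : ∑ c, F c * τ c = 0 := by omega
  have h4 : ∑ c, F c * τ c = 3 * ∑ c, F c * (M c - ν c) -
      (∑ c, M (U⁻¹ • U⁻¹ • c) * F c - ∑ c, M (U⁻¹ • c) * F c) := by
    rw [Finset.mul_sum, ← Finset.sum_sub_distrib, ← Finset.sum_sub_distrib]
    exact Finset.sum_congr rfl fun c _ => by simp only [hτ]; ring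
  rw [Finset.sum_sub_distrib, h1]
  rw [h0'] at h4
  linarith

theorem three_dvd_formSum [Γ.FiniteIndex] (hneg : (-1 : SL(2, ℤ)) ∈ Γ) {x y : Pairs ℤ}
    (hx : x ∈ MS Γ ℤ) (hy : y ∈ MS Γ ℤ) : (3 : ℤ) ∣ formSum Γ x y := by
  have := finite_quotient_of_index (Γ := Γ)
  let := Fintype.ofFinite (SL(2, ℤ) ⧸ Γ)
  obtain ⟨ν, hν⟩ := exists_mu hneg (isManin_manin hx)
  rw [formSum_eq_sum, sum_eq_three_mul hneg (isManin_manin hx) (isManin_manin hy) hν]
  exact dvd_mul_right _ _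

variable (Γ) in
/-- The (normalised) intersection form. -/
noncomputable def form (x y : Pairs ℤ) : ℤ := formSum Γ x y / 3

theorem three_mul_form [Γ.FiniteIndex] (hneg : (-1 : SL(2, ℤ)) ∈ Γ) {x y : Pairs ℤ}
    (hx : x ∈ MS Γ ℤ) (hy : y ∈ MS Γ ℤ) : 3 * form Γ x y = formSum Γ x y :=
  Int.mul_ediv_cancel' (three_dvd_formSum hneg hx hy)

section Bilinear

variable (Γ) [Γ.FiniteIndex]

omit [Γ.FiniteIndex] in
theorem manin_add (x x' : Pairs R) : manin Γ (x + x') = manin Γ x + manin Γ x' := rfl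

omit [Γ.FiniteIndex] in
theorem manin_smul (r : R) (x : Pairs R) : manin Γ (r • x) = r • manin Γ x := rfl

theorem formSum_add_left (x x' y : Pairs R) :
    formSum Γ (x + x') y = formSum Γ x y + formSum Γ x' y := by
  have := finite_quotient_of_index (Γ := Γ)
  let := Fintype.ofFinite (SL(2, ℤ) ⧸ Γ)
  simp only [formSum_eq_sum, ← Finset.sum_add_distrib, manin_add, Pi.add_apply]
  exact Finset.sum_congr rfl fun c _ => by ring

theorem formSum_smul_left (r : R) (x y : Pairs R) :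
    formSum Γ (r • x) y = r * formSum Γ x y := by
  have := finite_quotient_of_index (Γ := Γ)
  let := Fintype.ofFinite (SL(2, ℤ) ⧸ Γ)
  simp only [formSum_eq_sum, Finset.mul_sum, manin_smul, Pi.smul_apply, smul_eq_mul]
  exact Finset.sum_congr rfl fun c _ => by ring

theorem formSum_swap (x y : Pairs R) : formSum Γ y x = - formSum Γ x y := by
  have := finite_quotient_of_index (Γ := Γ)
  let := Fintype.ofFinite (SL(2, ℤ) ⧸ Γ)
  simp only [formSum_eq_sum, ← Finset.sum_neg_distrib]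
  exact Finset.sum_congr rfl fun c _ => by ring

theorem formSum_add_right (x y y' : Pairs R) :
    formSum Γ x (y + y') = formSum Γ x y + formSum Γ x y' := by
  rw [formSum_swap, formSum_add_left, formSum_swap Γ x y, formSum_swap Γ x y']; ring

theorem formSum_smul_right (r : R) (x y : Pairs R) :
    formSum Γ x (r • y) = r * formSum Γ x y := by
  rw [formSum_swap, formSum_smul_left, formSum_swap Γ x y]; ring

variable {Γ}

theorem form_add_left (hneg : (-1 : SL(2, ℤ)) ∈ Γ) {x x' y : Pairs ℤ} (hx : x ∈ MS Γ ℤ)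
    (hx' : x' ∈ MS Γ ℤ) (hy : y ∈ MS Γ ℤ) :
    form Γ (x + x') y = form Γ x y + form Γ x' y := by
  have h1 := three_mul_form hneg (Submodule.add_mem _ hx hx') hy
  have h2 := three_mul_form hneg hx hy
  have h3 := three_mul_form hneg hx' hy
  rw [formSum_add_left] at h1
  omega

theorem form_smul_left (hneg : (-1 : SL(2, ℤ)) ∈ Γ) (n : ℤ) {x y : Pairs ℤ} (hx : x ∈ MS Γ ℤ)
    (hy : y ∈ MS Γ ℤ) : form Γ (n • x) y = n * form Γ x y := by
  have h1 := three_mul_form hneg (Submodule.smul_mem _ n hx) hy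
  have h2 := three_mul_form hneg hx hy
  rw [formSum_smul_left, ← h2] at h1
  have : (3 : ℤ) ≠ 0 := by norm_num
  apply mul_left_cancel₀ this
  rw [h1]; ring

theorem form_swap (hneg : (-1 : SL(2, ℤ)) ∈ Γ) {x y : Pairs ℤ} (hx : x ∈ MS Γ ℤ)
    (hy : y ∈ MS Γ ℤ) : form Γ y x = - form Γ x y := by
  have h1 := three_mul_form hneg hx hy
  have h2 := three_mul_form hneg hy hx
  rw [formSum_swap] at h2
  omega

theorem form_add_right (hneg : (-1 : SL(2, ℤ)) ∈ Γ) {x y y' : Pairs ℤ} (hx : x ∈ MS Γ ℤ)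
    (hy : y ∈ MS Γ ℤ) (hy' : y' ∈ MS Γ ℤ) :
    form Γ x (y + y') = form Γ x y + form Γ x y' := by
  rw [form_swap hneg (Submodule.add_mem _ hy hy') hx, form_add_left hneg hy hy' hx,
    form_swap hneg hy hx, form_swap hneg hy' hx]; ring

theorem form_smul_right (hneg : (-1 : SL(2, ℤ)) ∈ Γ) (n : ℤ) {x y : Pairs ℤ} (hx : x ∈ MS Γ ℤ)
    (hy : y ∈ MS Γ ℤ) : form Γ x (n • y) = n * form Γ x y := by
  rw [form_swap hneg (Submodule.smul_mem _ n hy) hx, form_smul_left hneg n hy hx,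
    form_swap hneg hy hx]; ring

/-- The form as a bilinear map on `MS Γ ℤ`. -/
noncomputable def formB (hneg : (-1 : SL(2, ℤ)) ∈ Γ) : MS Γ ℤ →ₗ[ℤ] MS Γ ℤ →ₗ[ℤ] ℤ :=
  LinearMap.mk₂ ℤ (fun x y => form Γ x.1 y.1)
    (fun x x' y => form_add_left hneg x.2 x'.2 y.2)
    (fun n x y => form_smul_left hneg n x.2 y.2)
    (fun x y y' => form_add_right hneg x.2 y.2 y'.2)
    (fun n x y => form_smul_right hneg n x.2 y.2)

theorem formB_apply (hneg : (-1 : SL(2, ℤ)) ∈ Γ) (x y : MS Γ ℤ) :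
    formB hneg x y = form Γ x.1 y.1 := rfl

end Bilinear

section Nondeg

variable [Γ.FiniteIndex]

/-- `MS Γ ℤ` is a direct summand of the functions on cosets. -/
theorem exists_retraction (hneg : (-1 : SL(2, ℤ)) ∈ Γ) :
    ∃ ρ : (SL(2, ℤ) ⧸ Γ → ℤ) →ₗ[ℤ] MS Γ ℤ, ∀ x, ρ (maninL ℤ Γ x) = x := by
  have := finite_quotient_of_index (Γ := Γ)
  set V := SL(2, ℤ) ⧸ Γ → ℤ
  set W : Submodule ℤ V := LinearMap.range (maninL ℤ Γ) with hW
  have htf : Module.IsTorsionFree ℤ (V ⧸ W) := by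
    refine ⟨fun n hn => ?_⟩
    have hn0 : n ≠ 0 := by
      rintro rfl
      exact hn.ne_zero rfl
    have hker : ∀ q : V ⧸ W, n • q = 0 → q = 0 := by
      intro q hq
      obtain ⟨F, rfl⟩ := Submodule.Quotient.mk_surjective W q
      rw [← Submodule.Quotient.mk_smul, Submodule.Quotient.mk_eq_zero] at hq
      rw [Submodule.Quotient.mk_eq_zero]
      obtain ⟨x, hx⟩ := hq
      have hF := isManin_manin x.2
      rw [← maninL_apply, hx] at hF
      have hF' : IsManin F := by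
        refine ⟨fun c => by rw [neg_one_smul_coset hneg], fun c => ?_, fun c => ?_⟩
        · have := hF.rS c
          change n * F c + n * F (S⁻¹ • c) = 0 at this
          rw [← mul_add] at this
          exact (mul_eq_zero.mp this).resolve_left hn0
        · have := hF.rU c
          change n * F c + n * F (U⁻¹ • c) + n * F (U⁻¹ • U⁻¹ • c) = 0 at this
          rw [← mul_add, ← mul_add] at this
          exact (mul_eq_zero.mp this).resolve_left hn0
      obtain ⟨y, hy, hyF⟩ := exists_of_isManin hF'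
      exact ⟨⟨y, hy⟩, hyF⟩
    intro q q' h
    rw [← sub_eq_zero]
    apply hker
    rw [smul_sub, sub_eq_zero]
    exact h
  have hfree : Module.Free ℤ (V ⧸ W) := Module.free_of_finite_type_torsion_free'
  obtain ⟨s, hs⟩ := Module.projective_lifting_property W.mkQ LinearMap.id W.mkQ_surjective
  let e : MS Γ ℤ ≃ₗ[ℤ] W := LinearEquiv.ofInjective _ (maninL_injective ℤ Γ)
  have hmem : ∀ v : V, v - s (W.mkQ v) ∈ W := by
    intro v
    have h1 : W.mkQ (v - s (W.mkQ v)) = 0 := by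
      rw [map_sub, sub_eq_zero]
      exact (LinearMap.congr_fun hs (W.mkQ v)).symm
    rwa [Submodule.mkQ_apply, Submodule.Quotient.mk_eq_zero] at h1
  refine ⟨e.symm.toLinearMap ∘ₗ LinearMap.codRestrict W (LinearMap.id - s ∘ₗ W.mkQ) hmem, ?_⟩
  intro x
  rw [LinearMap.comp_apply, LinearEquiv.coe_coe, LinearEquiv.symm_apply_eq]
  apply Subtype.ext
  change maninL ℤ Γ x - s (W.mkQ (maninL ℤ Γ x)) = maninL ℤ Γ x
  have : W.mkQ (maninL ℤ Γ x) = 0 := by
    rw [← LinearMap.mem_ker, Submodule.ker_mkQ]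
    exact ⟨x, rfl⟩
  rw [this, map_zero, sub_zero]

omit [Γ.FiniteIndex] in
/-- Over `ℚ`: a function orthogonal to all Manin functions is `S`-invariant plus `U`-invariant. -/
theorem exists_decomp_of_orthogonal (hneg : (-1 : SL(2, ℤ)) ∈ Γ) [Fintype (SL(2, ℤ) ⧸ Γ)]
    {δ : SL(2, ℤ) ⧸ Γ → ℚ} (hδ : ∀ F : SL(2, ℤ) ⧸ Γ → ℚ, IsManin F → ∑ c, F c * δ c = 0) :
    ∃ a b : SL(2, ℤ) ⧸ Γ → ℚ, (∀ c, a (S⁻¹ • c) = a c) ∧ (∀ c, b (U⁻¹ • c) = b c) ∧
      ∀ c, δ c = a c + b c := by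
  classical
  let VS : Submodule ℚ (SL(2, ℤ) ⧸ Γ → ℚ) :=
    { carrier := {a | ∀ c, a (S⁻¹ • c) = a c}
      zero_mem' := fun _ => rfl
      add_mem' := fun {a b} ha hb c => by simp only [Pi.add_apply]; rw [ha, hb]
      smul_mem' := fun r a ha c => by simp only [Pi.smul_apply]; rw [ha] }
  let VU : Submodule ℚ (SL(2, ℤ) ⧸ Γ → ℚ) :=
    { carrier := {a | ∀ c, a (U⁻¹ • c) = a c}
      zero_mem' := fun _ => rfl
      add_mem' := fun {a b} ha hb c => by simp only [Pi.add_apply]; rw [ha, hb]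
      smul_mem' := fun r a ha c => by simp only [Pi.smul_apply]; rw [ha] }
  by_cases hmem : δ ∈ VS ⊔ VU
  · obtain ⟨a, ha, b, hb, hab⟩ := Submodule.mem_sup.mp hmem
    exact ⟨a, b, ha, hb, fun c => by rw [← hab]; rfl⟩
  · exfalso
    obtain ⟨f, hf, hle⟩ := Submodule.exists_le_ker_of_notMem hmem
    have hrep : ∀ F : SL(2, ℤ) ⧸ Γ → ℚ, f F = ∑ c, F c * f (Pi.single c 1) := by
      intro F
      have hF : F = ∑ c, F c • (Pi.single c (1 : ℚ) : SL(2, ℤ) ⧸ Γ → ℚ) := by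
        ext d
        simp [Finset.sum_apply, Pi.single_apply]
      conv_lhs => rw [hF]
      rw [map_sum]
      simp only [map_smul, smul_eq_mul]
    apply hf
    rw [hrep]
    have := hδ (fun c => f (Pi.single c 1)) ⟨fun c => by rw [neg_one_smul_coset hneg],
      fun c => ?_, fun c => ?_⟩
    · rw [← this]
      exact Finset.sum_congr rfl fun c _ => mul_comm _ _
    · rw [← map_add]
      have : Pi.single c 1 + Pi.single (S⁻¹ • c) 1 ∈ VS := by
        intro d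
        have e1 : (S⁻¹ • d = c) ↔ (d = S⁻¹ • c) :=
          ⟨fun h => by rw [← h, S_inv_smul_two hneg], fun h => by rw [h, S_inv_smul_two hneg]⟩
        simp only [Pi.add_apply, Pi.single_apply, e1, smul_left_cancel_iff]
        exact add_comm _ _
      exact hle (Submodule.mem_sup_left this)
    · rw [← map_add, ← map_add]
      have : Pi.single c 1 + Pi.single (U⁻¹ • c) 1 + Pi.single (U⁻¹ • U⁻¹ • c) 1 ∈ VU := by
        intro d
        have e1 : (U⁻¹ • d = c) ↔ (d = U⁻¹ • U⁻¹ • c) :=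
          ⟨fun h => by rw [← h, U_inv_smul_three hneg], fun h => by rw [h, U_inv_smul_three hneg]⟩
        simp only [Pi.add_apply, Pi.single_apply, e1, smul_left_cancel_iff]
        ring
      exact hle (Submodule.mem_sup_right this)

/-- The tree property: any function `μ` on cosets is a difference `k - k'` with `k` right
`S`-invariant and `k'` right `U`-invariant on `SL(2,ℤ)`. -/
theorem exists_tree_primitive {Γ : Subgroup SL(2, ℤ)} (hneg : (-1 : SL(2, ℤ)) ∈ Γ)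
    (μ : SL(2, ℤ) ⧸ Γ → ℤ) :
    ∃ k : SL(2, ℤ) → ℤ, (∀ g, k (g * S) = k g) ∧
      ∀ g, k (g * U) - μ (((g * U)⁻¹ : SL(2, ℤ)) : SL(2, ℤ) ⧸ Γ) =
        k g - μ ((g⁻¹ : SL(2, ℤ)) : SL(2, ℤ) ⧸ Γ) := by
  have hμneg : ∀ g : SL(2, ℤ), μ (((-g)⁻¹ : SL(2, ℤ)) : SL(2, ℤ) ⧸ Γ) =
      μ ((g⁻¹ : SL(2, ℤ)) : SL(2, ℤ) ⧸ Γ) := by
    intro g
    have : (-g)⁻¹ = g⁻¹ * (-1) := by rw [inv_eq_iff_mul_eq_one]; simp
    rw [this, QuotientGroup.mk_mul_of_mem _ hneg]
  obtain ⟨k, hkS, hkU⟩ := exists_primitive (A := ℤ) (fun _ => 0)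
    (fun g => μ (((g * U)⁻¹ : SL(2, ℤ)) : SL(2, ℤ) ⧸ Γ) -
      μ ((g⁻¹ : SL(2, ℤ)) : SL(2, ℤ) ⧸ Γ))
    (fun _ => rfl)
    (fun g => by rw [neg_mul, hμneg, hμneg])
    (fun _ => by simp)
    (fun g => by
      have h3 : g * U ^ 2 * U = -g := by
        rw [mul_assoc, ← pow_succ, U_pow_three]; simp
      have h2 : g * U * U = g * U ^ 2 := by rw [mul_assoc, ← pow_two]
      rw [h2, h3, hμneg]; ring)
  refine ⟨k, fun g => by rw [hkS, add_zero], fun g => ?_⟩
  rw [hkU]; ring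

/-- Key step of the nondegeneracy: if `p ∣ form Γ x y` for all `y` then `p ∣ x(∞, γ∞)` for all
`γ ∈ Γ` (`p` odd). -/
theorem dvd_of_dvd_form (hneg : (-1 : SL(2, ℤ)) ∈ Γ) {p : ℕ} (hp : Odd p) {x : Pairs ℤ}
    (hx : x ∈ MS Γ ℤ) (h : ∀ y ∈ MS Γ ℤ, (p : ℤ) ∣ form Γ x y) {γ : SL(2, ℤ)} (hγ : γ ∈ Γ) :
    (p : ℤ) ∣ x ∞ (toQ γ • ∞) := by
  classical
  have hfin := finite_quotient_of_index (Γ := Γ)
  let := Fintype.ofFinite (SL(2, ℤ) ⧸ Γ)
  have hp0 : (p : ℤ) ≠ 0 := by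
    have := hp.pos
    exact_mod_cast this.ne'
  have hxM := isManin_manin hx
  obtain ⟨ν, hν⟩ := exists_mu hneg hxM
  set μ : SL(2, ℤ) ⧸ Γ → ℤ := fun c => manin Γ x c - ν c with hμ
  have hform : ∀ y ∈ MS Γ ℤ, form Γ x y = ∑ c, manin Γ y c * μ c := by
    intro y hy
    have h1 := three_mul_form hneg hx hy
    rw [formSum_eq_sum, sum_eq_three_mul hneg hxM (isManin_manin hy) hν] at h1
    have : (3 : ℤ) ≠ 0 := by norm_num
    exact mul_left_cancel₀ this h1
  -- divide by `p` and extend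
  obtain ⟨ρ, hρ⟩ := exists_retraction hneg
  choose! q hq using h
  have hqlin : ∀ y y' : Pairs ℤ, y ∈ MS Γ ℤ → y' ∈ MS Γ ℤ → q (y + y') = q y + q y' := by
    intro y y' hy hy'
    apply mul_left_cancel₀ hp0
    rw [mul_add, ← hq _ hy, ← hq _ hy', ← hq _ (Submodule.add_mem _ hy hy'),
      form_add_right hneg hx hy hy']
  let qL : MS Γ ℤ →+ ℤ := AddMonoidHom.mk' (fun y => q y.1) (fun y y' => hqlin _ _ y.2 y'.2)
  let Λ : (SL(2, ℤ) ⧸ Γ → ℤ) →ₗ[ℤ] ℤ := qL.toIntLinearMap ∘ₗ ρ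
  let μ' : SL(2, ℤ) ⧸ Γ → ℤ := fun c => Λ (Pi.single c 1)
  have hΛ : ∀ y ∈ MS Γ ℤ, q y = ∑ c, manin Γ y c * μ' c := by
    intro y hy
    have h1 : Λ (maninL ℤ Γ ⟨y, hy⟩) = q y := by
      change qL (ρ (maninL ℤ Γ ⟨y, hy⟩)) = q y
      rw [hρ]; rfl
    rw [← h1]
    have hF : maninL ℤ Γ ⟨y, hy⟩ = ∑ c, manin Γ y c •
        (Pi.single c (1 : ℤ) : SL(2, ℤ) ⧸ Γ → ℤ) := by
      ext d
      simp [Finset.sum_apply, Pi.single_apply, maninL_apply]
    rw [hF, map_sum]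
    simp only [map_smul, smul_eq_mul]
    rfl
  -- decomposition over `ℚ`
  have horth : ∀ F : SL(2, ℤ) ⧸ Γ → ℚ, IsManin F → ∑ c, F c * ((μ c : ℚ) - p * μ' c) = 0 := by
    intro F hF
    obtain ⟨z, hz, hzF⟩ := exists_of_isManin hF
    obtain ⟨n, w, y, -, hy, hzy⟩ := exists_int_decomp hz
    have hFc : ∀ c, F c = ∑ i, w i * ((manin Γ (y i) c : ℤ) : ℚ) := by
      intro c
      rw [← hzF, hzy]
      simp only [manin, maninFun, Finset.sum_apply, Pi.smul_apply, smul_eq_mul, mapCoeff_apply,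
        eq_intCast]
    have h0 : ∀ i, ∑ c, ((manin Γ (y i) c : ℤ) : ℚ) * ((μ c : ℚ) - p * μ' c) = 0 := by
      intro i
      have h1 := hform (y i) (hy i)
      rw [hq _ (hy i), hΛ _ (hy i)] at h1
      have h2 : ∑ c, manin Γ (y i) c * (μ c - p * μ' c) = 0 := by
        have : ∑ c, manin Γ (y i) c * (μ c - p * μ' c) =
            ∑ c, manin Γ (y i) c * μ c - p * ∑ c, manin Γ (y i) c * μ' c := by
          rw [Finset.mul_sum, ← Finset.sum_sub_distrib]
          exact Finset.sum_congr rfl fun c _ => by ring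
        rw [this, h1, sub_self]
      exact_mod_cast h2
    calc ∑ c, F c * ((μ c : ℚ) - p * μ' c)
        = ∑ c, ∑ i, w i * (((manin Γ (y i) c : ℤ) : ℚ) * ((μ c : ℚ) - p * μ' c)) := by
          refine Finset.sum_congr rfl fun c _ => ?_
          rw [hFc, Finset.sum_mul]
          exact Finset.sum_congr rfl fun i _ => by ring
      _ = 0 := by
          rw [Finset.sum_comm]
          refine Finset.sum_eq_zero fun i _ => ?_
          rw [← Finset.mul_sum, h0, mul_zero]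
  obtain ⟨a, b, ha, hb, hab⟩ := exists_decomp_of_orthogonal hneg horth
  obtain ⟨k, hkS, hkU⟩ := exists_tree_primitive hneg μ'
  -- the function `ω`
  set mk : SL(2, ℤ) → SL(2, ℤ) ⧸ Γ := fun g => ((g⁻¹ : SL(2, ℤ)) : SL(2, ℤ) ⧸ Γ) with hmk
  have hmkS : ∀ g, mk (g * S) = S⁻¹ • mk g := fun g => by
    simp only [hmk]; rw [MulAction.Quotient.smul_coe, smul_eq_mul, _root_.mul_inv_rev]
  have hmkU : ∀ g, mk (g * U) = U⁻¹ • mk g := fun g => by
    simp only [hmk]; rw [MulAction.Quotient.smul_coe, smul_eq_mul, _root_.mul_inv_rev]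
  set hh : SL(2, ℤ) → ℤ := fun g => x ∞ (toQ g • ∞) + x ∞ (toQ g • ((0 : ℚ) : Cusp)) with hhh
  have hhS : ∀ g, hh (g * S) = hh g := by
    intro g
    simp only [hhh]
    rw [toQ_mul_smul, toQ_mul_smul, toQ_S_infty, toQ_S_zero, add_comm]
  have hhμ : ∀ g, hh g = 2 * x ∞ (toQ g • ∞) + ν (mk g) + μ (mk g) := by
    intro g
    simp only [hhh, hμ, hmk]
    rw [manin_mk hx, inv_inv, maninFun]
    have := hx.1 ∞ (toQ g • ∞) (toQ g • ((0 : ℚ) : Cusp))
    rw [← this]; ring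
  have hhU : ∀ g, 2 * x ∞ (toQ (g * U) • ∞) + ν (mk (g * U)) =
      2 * x ∞ (toQ g • ∞) + ν (mk g) := by
    intro g
    rw [hmkU, toQ_mul_smul, toQ_U_infty]
    have h1 := hν (mk g)
    have h2 : manin Γ x (mk g) = x (toQ g • ∞) (toQ g • ((0 : ℚ) : Cusp)) := by
      simp only [hmk]
      rw [manin_mk hx, inv_inv, maninFun]
    rw [h2] at h1
    have h3 := hx.1 ∞ (toQ g • ∞) (toQ g • ((0 : ℚ) : Cusp))
    linear_combination h1 - 2 * h3
  set ω : SL(2, ℤ) → ℚ := fun g => (hh g : ℚ) - p * k g - a (mk g) with hω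
  have hωS : ∀ g, ω (g * S) = ω g := by
    intro g
    simp only [hω]
    rw [hhS, hkS, hmkS, ha]
  have hωU : ∀ g, ω (g * U) = ω g := by
    intro g
    have key : ∀ g, ω g = ((2 * x ∞ (toQ g • ∞) + ν (mk g) : ℤ) : ℚ) -
        p * ((k g - μ' (mk g) : ℤ) : ℚ) + b (mk g) := by
      intro g
      simp only [hω]
      rw [hhμ]
      have := hab (mk g)
      push_cast
      linear_combination this
    rw [key, key, hhU, hmkU, hb]
    have h1 := hkU g
    have h2 : μ' (((g * U)⁻¹ : SL(2, ℤ)) : SL(2, ℤ) ⧸ Γ) = μ' (U⁻¹ • mk g) := by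
      rw [← hmkU]
    rw [h2] at h1
    rw [h1]
  have hconst := const_of_S_U (f := ω) hωS hωU γ
  have hmkγ : mk γ = mk 1 := by
    simp only [hmk]
    rw [QuotientGroup.eq]
    simpa using hγ
  have h2 : 2 * x ∞ (toQ γ • ∞) = p * (k γ - k 1) := by
    simp only [hω, hmkγ] at hconst
    have h3 : hh γ - hh 1 = 2 * x ∞ (toQ γ • ∞) := by
      simp only [hhh]
      have e1 : toQ (1 : SL(2, ℤ)) = 1 := map_one _
      rw [e1, one_smul, one_smul, add_self_eq_zero hx.1]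
      have h4 := hx.1 ∞ (toQ γ • ∞) (toQ γ • ((0 : ℚ) : Cusp))
      have h5 := congrFun (congrFun (hx.2 γ hγ) ∞) ((0 : ℚ) : Cusp)
      rw [slash_apply] at h5
      rw [← h4, h5]; ring
    have h6 : ((2 * x ∞ (toQ γ • ∞) : ℤ) : ℚ) = ((p * (k γ - k 1) : ℤ) : ℚ) := by
      rw [← h3]
      push_cast
      linear_combination hconst
    exact_mod_cast h6
  have h3 : (p : ℤ) ∣ 2 * x ∞ (toQ γ • ∞) := ⟨_, h2⟩
  have hcop : IsCoprime (p : ℤ) 2 := by
    have : Nat.Coprime p 2 := Nat.coprime_two_right.mpr hp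
    exact_mod_cast Nat.isCoprime_iff_coprime.mpr this
  exact hcop.dvd_of_dvd_mul_left h3

/-- **Nondegeneracy modulo odd `p`**: a modular symbol orthogonal to everything mod `p` is a
boundary mod `p`. -/
theorem exists_boundary_of_dvd_form (hneg : (-1 : SL(2, ℤ)) ∈ Γ) {p : ℕ} (hp : Odd p)
    {x : Pairs ℤ} (hx : x ∈ MS Γ ℤ) (h : ∀ y ∈ MS Γ ℤ, (p : ℤ) ∣ form Γ x y) :
    ∃ ψ : Cusp → ZMod p, (∀ γ ∈ Γ, ∀ s, ψ (toQ γ • s) = ψ s) ∧
      ∀ a b, ((x a b : ℤ) : ZMod p) = ψ b - ψ a := by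
  refine ⟨fun s => ((x ∞ s : ℤ) : ZMod p), fun γ hγ s => ?_, fun a b => ?_⟩
  · have h1 := dvd_of_dvd_form hneg hp hx h hγ
    have h2 := hx.1 ∞ (toQ γ • ∞) (toQ γ • s)
    have h3 := congrFun (congrFun (hx.2 γ hγ) ∞) s
    rw [slash_apply] at h3
    rw [h3] at h2
    change ((x ∞ (toQ γ • s) : ℤ) : ZMod p) = ((x ∞ s : ℤ) : ZMod p)
    rw [← h2]
    push_cast
    rw [(ZMod.intCast_zmod_eq_zero_iff_dvd _ _).mpr h1, zero_add]
  · rw [← Int.cast_sub]
    congr 1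
    rw [← hx.1 ∞ a b]; ring

end Nondeg

end Form

end Fermat.Agent.LR
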