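import Fermat.Agent.LR.CoreAlg
import Fermat.Agent.LR.BoundaryEis
import Fermat.Agent.LR.Form
import Fermat.Agent.LR.Assembly

/-!
# The core of level raising (team LR, piece P7)

`coreStatement_of` : adjointness of the traces and degeneracy maps, self-adjointness of `T_ℓ` and
Ihara's lemma mod `p` imply the core statement.
-/

set_option autoImplicit false
set_option linter.unusedSectionVars false

noncomputable section

open CongruenceSubgroup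
open scoped MatrixGroups OnePoint

namespace Fermat.Agent.LR.Core

open Fermat.Agent.LR Fermat.Agent.LR.PS Fermat.Agent.LR.CoreAlg

variable {p : ℕ} [hp : Fact p.Prime]

theorem neg_one_mem (M : ℕ) : (-1 : SL(2, ℤ)) ∈ Gamma0 M := by
  rw [Gamma0_mem]; simp

theorem exists_div {Γ : Subgroup SL(2, ℤ)} {y : Pairs ℤ} (hy : y ∈ MS Γ ℤ)
    (h : ∀ a b, (p : ℤ) ∣ y a b) : ∃ w ∈ MS Γ ℤ, y = (p : ℤ) • w := by
  choose w hw using h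
  have hw' : y = (p : ℤ) • w := by
    funext a b
    simp only [Pi.smul_apply, smul_eq_mul]
    exact hw a b
  have hp0 : (p : ℤ) ≠ 0 := by exact_mod_cast hp.out.ne_zero
  refine ⟨w, ⟨fun a b c => ?_, fun γ hγ => ?_⟩, hw'⟩
  · have h1 := hy.1 a b c
    rw [hw a b, hw b c, hw a c, ← mul_add] at h1
    exact mul_left_cancel₀ hp0 h1
  · have h1 := hy.2 γ hγ
    funext a b
    have h2 := congrFun (congrFun h1 a) b
    rw [slash_apply, hw, hw a b] at h2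
    exact mul_left_cancel₀ hp0 h2

theorem exists_div_of_mapCoeff {Γ : Subgroup SL(2, ℤ)} {y : Pairs ℤ} (hy : y ∈ MS Γ ℤ)
    (h : mapCoeff (Int.castRingHom (ZMod p)) y = 0) : ∃ w ∈ MS Γ ℤ, y = (p : ℤ) • w := by
  refine exists_div hy fun a b => ?_
  rw [← ZMod.intCast_zmod_eq_zero_iff_dvd]
  exact congrFun (congrFun h a) b

/-- `T_ℓ - (ℓ+1)` kills mod `p` boundary symbols. -/
theorem eis_of_dvd_form (hp2 : p ≠ 2) {M ℓ : ℕ} [NeZero M] (hℓ : ℓ.Prime) (hℓM : ¬ ℓ ∣ M)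
    (h1 : ℓ ≡ 1 [MOD M]) {x : Pairs ℤ} (hx : x ∈ MS (Gamma0 M) ℤ)
    (h : ∀ y ∈ MS (Gamma0 M) ℤ, (p : ℤ) ∣ form (Gamma0 M) x y) :
    ∃ w ∈ MS (Gamma0 M) ℤ, heckeT ℓ x - ((ℓ : ℤ) + 1) • x = (p : ℤ) • w := by
  have hfi : (Gamma0 M).FiniteIndex := (Gamma0_is_congruence M).finiteIndex
  obtain ⟨ψ, hψ, hxψ⟩ := exists_boundary_of_dvd_form (neg_one_mem M)
    (hp.out.odd_of_ne_two hp2) hx h
  have hb : IsBoundary (Gamma0 M) (mapCoeff (Int.castRingHom (ZMod p)) x) :=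
    ⟨ψ, hψ, fun a b => hxψ a b⟩
  have h1' : (ℓ : ZMod M) = 1 := by
    have h3 := (ZMod.natCast_eq_natCast_iff _ _ _).mpr h1
    rw [h3, Nat.cast_one]
  refine exists_div_of_mapCoeff
    (Submodule.sub_mem _ (PS.heckeT_mem hℓ hℓM hx) (Submodule.smul_mem _ _ hx)) ?_
  rw [map_sub, mapCoeff_heckeT, heckeT_of_isBoundary hℓ h1' hb, sub_eq_zero]
  funext a b
  simp [mapCoeff_apply]

/-! ### the operators -/

/-- `T_ℓ - (ℓ+1)` on integral symbols. -/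
def eisOp (M ℓ : ℕ) (hℓ : ℓ.Prime) (hℓM : ¬ ℓ ∣ M) : Module.End ℤ (MS (Gamma0 M) ℤ) :=
  (heckeT ℓ).restrict (fun _ hx => PS.heckeT_mem hℓ hℓM hx) - ((ℓ : ℤ) + 1) • LinearMap.id

theorem coe_eisOp {M ℓ : ℕ} (hℓ : ℓ.Prime) (hℓM : ¬ ℓ ∣ M) (x : MS (Gamma0 M) ℤ) :
    ((eisOp M ℓ hℓ hℓM x : MS (Gamma0 M) ℤ) : Pairs ℤ) = heckeT ℓ x.1 - ((ℓ : ℤ) + 1) • x.1 := rfl

variable {N q : ℕ}

/-- the trace map -/
def trMap (hq : q.Prime) (hqN : ¬ q ∣ N) :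
    MS (Gamma0 (N * q)) ℤ →ₗ[ℤ] (MS (Gamma0 N) ℤ) × (MS (Gamma0 N) ℤ) :=
  ((tr1 N q).restrict (fun _ hx => tr1_mem hq hqN hx)).prod
    ((tr2 N q).restrict (fun _ hx => tr2_mem hq hqN hx))

theorem coe_trMap_fst (hq : q.Prime) (hqN : ¬ q ∣ N) (x : MS (Gamma0 (N * q)) ℤ) :
    ((trMap hq hqN x).1 : Pairs ℤ) = tr1 N q x.1 := rfl

theorem coe_trMap_snd (hq : q.Prime) (hqN : ¬ q ∣ N) (x : MS (Gamma0 (N * q)) ℤ) :
    ((trMap hq hqN x).2 : Pairs ℤ) = tr2 N q x.1 := rfl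

/-- the form on pairs -/
def formPair (N : ℕ) [NeZero N] :
    (MS (Gamma0 N) ℤ × MS (Gamma0 N) ℤ) →ₗ[ℤ] (MS (Gamma0 N) ℤ × MS (Gamma0 N) ℤ) →ₗ[ℤ] ℤ :=
  haveI : (Gamma0 N).FiniteIndex := (Gamma0_is_congruence N).finiteIndex
  (formB (neg_one_mem N)).compl₁₂ (LinearMap.fst ℤ _ _) (LinearMap.fst ℤ _ _) +
    (formB (neg_one_mem N)).compl₁₂ (LinearMap.snd ℤ _ _) (LinearMap.snd ℤ _ _)

theorem formPair_apply [NeZero N] (x y : MS (Gamma0 N) ℤ × MS (Gamma0 N) ℤ) :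
    formPair N x y = form (Gamma0 N) x.1.1 y.1.1 + form (Gamma0 N) x.2.1 y.2.1 := rfl

/-! ### The core statement -/

theorem pow_apply_of_apply {V : Type*} [AddCommGroup V] (A : Module.End ℤ V) (m : ℤ) {u : ℤ}
    {x : V} (h : ∃ w, A x = u • x + m • w) (n : ℕ) : ∃ w, (A ^ n) x = u ^ n • x + m • w := by
  induction n with
  | zero => exact ⟨0, by simp⟩
  | succ n ih =>
    obtain ⟨w, hw⟩ := h
    obtain ⟨w', hw'⟩ := ih
    refine ⟨u ^ n • w + A w', ?_⟩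
    rw [pow_succ', Module.End.mul_apply, hw', map_add, map_smul, map_smul, hw]
    module

/-- **P7**: the core statement, from adjointness and Ihara's lemma. -/
theorem coreStatement_of (hp2 : p ≠ 2) (hN : 0 < N) (hq : q.Prime) (hqN : ¬ q ∣ N)
    (hAd1 : ∀ x ∈ MS (Gamma0 N) ℤ, ∀ z ∈ MS (Gamma0 (N * q)) ℤ,
      form (Gamma0 (N * q)) x z = form (Gamma0 N) x (tr1 N q z))
    (hAd2 : ∀ x ∈ MS (Gamma0 N) ℤ, ∀ z ∈ MS (Gamma0 (N * q)) ℤ,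
      form (Gamma0 (N * q)) (degen q x) z = form (Gamma0 N) x (tr2 N q z))
    (hAdT : ∀ ℓ : ℕ, ℓ.Prime → ¬ ℓ ∣ N → ∀ x ∈ MS (Gamma0 N) ℤ, ∀ y ∈ MS (Gamma0 N) ℤ,
      form (Gamma0 N) (heckeT ℓ x) y = form (Gamma0 N) x (heckeT ℓ y))
    (hIhara : ∃ D : ℕ, 0 < D ∧ ∀ ℓ : ℕ, ℓ.Prime → ℓ ≡ 1 [MOD D] →
      (∀ x : ZMod ℓ, x ^ p ≠ (q : ZMod ℓ)) →
      ∀ x ∈ MS (Gamma0 N) ℤ, ∀ y ∈ MS (Gamma0 N) ℤ,
      (∃ w ∈ MS (Gamma0 (N * q)) ℤ, x + degen q y = (p : ℤ) • w) →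
      (∃ w ∈ MS (Gamma0 N) ℤ, heckeT ℓ x - ((ℓ : ℤ) + 1) • x = (p : ℤ) • w) ∧
      (∃ w ∈ MS (Gamma0 N) ℤ, heckeT ℓ y - ((ℓ : ℤ) + 1) • y = (p : ℤ) • w)) :
    Asm.CoreStatement p N q := by
  have hN0 : NeZero N := ⟨hN.ne'⟩
  have hq0 : NeZero q := ⟨hq.ne_zero⟩
  have hNq0 : NeZero (N * q) := ⟨mul_ne_zero hN.ne' hq.ne_zero⟩
  have hfi : (Gamma0 N).FiniteIndex := (Gamma0_is_congruence N).finiteIndex
  have hfi' : (Gamma0 (N * q)).FiniteIndex := (Gamma0_is_congruence (N * q)).finiteIndex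
  have hcop : Nat.Coprime q N := (Nat.Prime.coprime_iff_not_dvd hq).mpr hqN
  have hp0 : (p : ℤ) ≠ 0 := by exact_mod_cast hp.out.ne_zero
  obtain ⟨D₀, hD₀, hIh⟩ := hIhara
  refine ⟨D₀ * (N * q * p), Nat.mul_pos hD₀ (Nat.mul_pos (Nat.mul_pos hN hq.pos) hp.out.pos),
    fun L a ε hε hL hℓ₀ v hv hvp hvL hvq => ?_⟩
  obtain ⟨ℓ₀, hℓ₀L, hℓ₀D, hℓ₀q, hℓ₀a⟩ := hℓ₀
  obtain ⟨hℓ₀, hℓ₀Nqp⟩ := hL ℓ₀ hℓ₀L
  have hℓ₀Nq : ¬ ℓ₀ ∣ N * q := fun h => hℓ₀Nqp (h.mul_right p)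
  have hℓ₀N : ¬ ℓ₀ ∣ N := fun h => hℓ₀Nq (h.mul_right q)
  have hm1 : ℓ₀ ≡ 1 [MOD D₀] := Nat.ModEq.of_mul_right _ hℓ₀D
  have hm2 : ℓ₀ ≡ 1 [MOD N * q] := (Nat.ModEq.of_mul_left D₀ hℓ₀D).of_mul_right p
  have hm3 : ℓ₀ ≡ 1 [MOD N] := hm2.of_mul_right q
  have hm4 : ℓ₀ ≡ 1 [MOD p] := (Nat.ModEq.of_mul_left D₀ hℓ₀D).of_mul_left (N * q)
  have hℓ₀q' : ℓ₀ ≠ q := by rintro rfl; exact hℓ₀Nq (dvd_mul_left _ _)
  have hIh' := hIh ℓ₀ hℓ₀ hm1 hℓ₀q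
  -- abstract set-up
  set A₀ := eisOp N ℓ₀ hℓ₀ hℓ₀N with hA₀
  set A₁ := eisOp (N * q) ℓ₀ hℓ₀ hℓ₀Nq with hA₁
  let A : Module.End ℤ (MS (Gamma0 N) ℤ × MS (Gamma0 N) ℤ) := A₀.prodMap A₀
  set t := trMap (N := N) hq hqN with ht
  have htA : ∀ z, t (A₁ z) = A (t z) := by
    intro z
    refine Prod.ext (Subtype.ext ?_) (Subtype.ext ?_)
    · show tr1 N q (heckeT ℓ₀ z.1 - ((ℓ₀ : ℤ) + 1) • z.1) =
        heckeT ℓ₀ (tr1 N q z.1) - ((ℓ₀ : ℤ) + 1) • tr1 N q z.1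
      rw [map_sub, map_smul, heckeT_tr1 hq hqN hℓ₀ hℓ₀N hℓ₀q' z.2]
    · show tr2 N q (heckeT ℓ₀ z.1 - ((ℓ₀ : ℤ) + 1) • z.1) =
        heckeT ℓ₀ (tr2 N q z.1) - ((ℓ₀ : ℤ) + 1) • tr2 N q z.1
      rw [map_sub, map_smul, heckeT_tr2 hq hqN hℓ₀ hℓ₀N hℓ₀q' z.2]
  have hform0 : ∀ x y : MS (Gamma0 N) ℤ,
      form (Gamma0 N) (A₀ x).1 y.1 = form (Gamma0 N) x.1 (A₀ y).1 := by
    intro x y
    have h1 : form (Gamma0 N) (A₀ x).1 y.1 = formB (neg_one_mem N) (A₀ x) y := rfl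
    have h2 : form (Gamma0 N) x.1 (A₀ y).1 = formB (neg_one_mem N) x (A₀ y) := rfl
    have h3 : formB (neg_one_mem N)
        ((heckeT ℓ₀).restrict (fun _ hx => PS.heckeT_mem hℓ₀ hℓ₀N hx) x) y =
        formB (neg_one_mem N) x
          ((heckeT ℓ₀).restrict (fun _ hx => PS.heckeT_mem hℓ₀ hℓ₀N hx) y) :=
      hAdT ℓ₀ hℓ₀ hℓ₀N x.1 x.2 y.1 y.2
    rw [h1, h2, hA₀, eisOp]
    simp only [LinearMap.sub_apply, LinearMap.smul_apply, LinearMap.id_apply, map_sub, map_smul,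
      h3]
  have hform0' : ∀ x y : MS (Gamma0 N) ℤ × MS (Gamma0 N) ℤ,
      formPair N (A x) y = formPair N x (A y) := by
    intro x y
    rw [formPair_apply, formPair_apply]
    exact congrArg₂ (· + ·) (hform0 x.1 y.1) (hform0 x.2 y.2)
  have hswap : ∀ x y : MS (Gamma0 N) ℤ, (p : ℤ) ∣ form (Gamma0 N) x.1 y.1 →
      (p : ℤ) ∣ form (Gamma0 N) y.1 x.1 := by
    intro x y h
    rw [form_swap (neg_one_mem N) x.2 y.2]
    exact h.neg_right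
  have hrad0 : ∀ y : MS (Gamma0 N) ℤ, (∀ x : MS (Gamma0 N) ℤ, (p : ℤ) ∣ form (Gamma0 N) x.1 y.1) →
      ∃ w, A₀ y = (p : ℤ) • w := by
    intro y hy
    obtain ⟨w, hw, hyw⟩ := eis_of_dvd_form hp2 hℓ₀ hℓ₀N hm3 y.2
      (fun x hx => hswap ⟨x, hx⟩ y (hy ⟨x, hx⟩))
    exact ⟨⟨w, hw⟩, Subtype.ext hyw⟩
  have hzero : form (Gamma0 N) (0 : Pairs ℤ) = fun _ => 0 := by
    funext y
    have : formSum (Gamma0 N) (0 : Pairs ℤ) y = 0 := by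
      have h := formSum_smul_left (Γ := Gamma0 N) (0 : ℤ) (0 : Pairs ℤ) y
      simpa using h
    rw [form, this]; rfl
  have hrad : ∀ y : MS (Gamma0 N) ℤ × MS (Gamma0 N) ℤ, (∀ x, (p : ℤ) ∣ formPair N x y) →
      ∃ w, A y = (p : ℤ) • w := by
    intro y hy
    obtain ⟨w1, hw1⟩ := hrad0 y.1 (fun x => by
      have := hy (x, 0)
      rw [formPair_apply] at this
      simpa [hzero] using this)
    obtain ⟨w2, hw2⟩ := hrad0 y.2 (fun x => by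
      have := hy (0, x)
      rw [formPair_apply] at this
      simpa [hzero] using this)
    exact ⟨(w1, w2), Prod.ext hw1 hw2⟩
  have hK : ∀ x : MS (Gamma0 N) ℤ × MS (Gamma0 N) ℤ, (∀ z, (p : ℤ) ∣ formPair N x (t z)) →
      ∃ w, A (A x) = (p : ℤ) • w := by
    intro x hx
    have hx2 : degen q x.2.1 ∈ MS (Gamma0 (N * q)) ℤ := degen_mem hq.ne_zero x.2.2
    have hx1 : x.1.1 ∈ MS (Gamma0 (N * q)) ℤ := MS_mono (Gamma0_mono (Dvd.intro q rfl)) x.1.2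
    have h1 : ∀ z ∈ MS (Gamma0 (N * q)) ℤ,
        (p : ℤ) ∣ form (Gamma0 (N * q)) (x.1.1 + degen q x.2.1) z := by
      intro z hz
      have h2 := hx ⟨z, hz⟩
      rw [formPair_apply] at h2
      rw [form_add_left (neg_one_mem _) hx1 hx2 hz, hAd1 _ x.1.2 z hz, hAd2 _ x.2.2 z hz]
      exact h2
    obtain ⟨w, hw, hxw⟩ := eis_of_dvd_form hp2 hℓ₀ hℓ₀Nq hm2 (Submodule.add_mem _ hx1 hx2) h1
    have h3 : (A₀ x.1).1 + degen q (A₀ x.2).1 = (p : ℤ) • w := by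
      rw [← hxw, coe_eisOp, coe_eisOp, map_sub, map_smul, map_add,
        heckeT_degen hℓ₀.ne_zero hq.ne_zero ((Nat.coprime_primes hq hℓ₀).mpr (Ne.symm hℓ₀q'))
          (TInv_of_mem x.2.2)]
      module
    obtain ⟨⟨w1, hw1, e1⟩, ⟨w2, hw2, e2⟩⟩ := hIh' _ (A₀ x.1).2 _ (A₀ x.2).2 ⟨w, hw, h3⟩
    exact ⟨(⟨w1, hw1⟩, ⟨w2, hw2⟩), Prod.ext (Subtype.ext e1) (Subtype.ext e2)⟩
  have hsurj := pow_three_mem_int (p := p) (formPair N) A A₁ t hform0' htA hrad hK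
  -- the starting vector
  have hvd : degen q v ∈ MS (Gamma0 (N * q)) ℤ := degen_mem hq.ne_zero hv
  have hv1 : v ∈ MS (Gamma0 (N * q)) ℤ := MS_mono (Gamma0_mono (Dvd.intro q rfl)) hv
  let y₀ : MS (Gamma0 (N * q)) ℤ := ⟨v - ε • degen q v,
    Submodule.sub_mem _ hv1 (Submodule.smul_mem _ _ hvd)⟩
  have hεε : ε * ε = 1 := by rcases hε with rfl | rfl <;> norm_num
  obtain ⟨wq, hwq, hvwq⟩ := hvq
  have hTq : heckeT q v = (ε * ((q : ℤ) + 1)) • v + (p : ℤ) • wq := by rw [← hvwq]; module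
  have hty₀ : ∃ w, t y₀ = (p : ℤ) • w := by
    refine ⟨(⟨-ε • wq, Submodule.smul_mem _ _ hwq⟩, ⟨wq, hwq⟩), Prod.ext (Subtype.ext ?_)
      (Subtype.ext ?_)⟩
    · show tr1 N q (v - ε • degen q v) = (p : ℤ) • (-ε • wq)
      rw [map_sub, map_smul, tr1_of_mem hv, tr1_degen hcop hv, hTq, smul_add, smul_smul,
        ← mul_assoc, hεε, one_mul, smul_smul, smul_smul]
      simp only [mul_neg, neg_smul, mul_comm (p : ℤ) ε]
      abel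
    · show tr2 N q (v - ε • degen q v) = (p : ℤ) • wq
      rw [map_sub, map_smul, tr2_of_mem hcop hv, tr2_degen hcop hv, hTq, smul_smul]
      abel
  obtain ⟨k, y', w', hk, hty'⟩ := exists_ker_of_surj (p := p) t (A * A * A) (A₁ * A₁ * A₁)
    (fun z => by
      simp only [Module.End.mul_apply, htA]) (fun v => by
      obtain ⟨z, w, h⟩ := hsurj v
      exact ⟨z, w, h⟩) y₀ hty₀
  have hy'new : y'.1 ∈ newMS N q ℤ := by
    refine mem_newMS.mpr ⟨y'.2, ?_, ?_⟩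
    · exact congrArg Subtype.val (congrArg Prod.fst hty')
    · exact congrArg Subtype.val (congrArg Prod.snd hty')
  -- `y₀` is an eigenvector mod `p`
  have heigen : ∀ ℓ ∈ L, ∃ w ∈ MS (Gamma0 (N * q)) ℤ,
      heckeT ℓ y₀.1 - a ℓ • y₀.1 = (p : ℤ) • w := by
    intro ℓ hℓ
    obtain ⟨hℓp, hℓNqp⟩ := hL ℓ hℓ
    have hℓq : ℓ ≠ q := by rintro rfl; exact hℓNqp ((dvd_mul_left _ _).mul_right p)
    obtain ⟨w, hw, hvw⟩ := hvL ℓ hℓ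
    refine ⟨w - ε • degen q w, Submodule.sub_mem _ (MS_mono (Gamma0_mono (Dvd.intro q rfl)) hw)
      (Submodule.smul_mem _ _ (degen_mem hq.ne_zero hw)), ?_⟩
    have h1 : heckeT ℓ v = a ℓ • v + (p : ℤ) • w := by rw [← hvw]; module
    show heckeT ℓ (v - ε • degen q v) - a ℓ • (v - ε • degen q v) = _
    rw [map_sub, map_smul, heckeT_degen hℓp.ne_zero hq.ne_zero
      ((Nat.coprime_primes hq hℓp).mpr (Ne.symm hℓq)) (TInv_of_mem hv), h1, map_add, map_smul,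
      map_smul]
    module
  set u : ℤ := a ℓ₀ - ((ℓ₀ : ℤ) + 1) with hu
  have hA₁y₀ : ∃ w, A₁ y₀ = u • y₀ + (p : ℤ) • w := by
    obtain ⟨w, hw, hyw⟩ := heigen ℓ₀ hℓ₀L
    refine ⟨⟨w, hw⟩, Subtype.ext ?_⟩
    show heckeT ℓ₀ y₀.1 - ((ℓ₀ : ℤ) + 1) • y₀.1 = u • y₀.1 + (p : ℤ) • w
    rw [← hyw, hu]; module
  have hu3 : ∃ w, (A₁ * A₁ * A₁) y₀ = (u ^ 3) • y₀ + (p : ℤ) • w := by
    have h1 := pow_apply_of_apply A₁ (p : ℤ) hA₁y₀ 3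
    have h2 : A₁ ^ 3 = A₁ * A₁ * A₁ := by rw [pow_succ, pow_two]
    rwa [h2] at h1
  obtain ⟨w₂, hw₂⟩ := pow_apply_of_apply (A₁ * A₁ * A₁) (p : ℤ) hu3 k
  have hup : ¬ (p : ℤ) ∣ u := by
    intro h
    apply hℓ₀a
    have h1 : (p : ℤ) ∣ (ℓ₀ : ℤ) - 1 := by
      have := (Nat.modEq_iff_dvd.mp hm4)
      have h2 : (ℓ₀ : ℤ) - 1 = - (((1 : ℕ) : ℤ) - (ℓ₀ : ℤ)) := by push_cast; ring
      rw [h2]
      exact this.neg_right
    have h2 : a ℓ₀ - 2 = u + ((ℓ₀ : ℤ) - 1) := by rw [hu]; ring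
    rw [h2]
    exact dvd_add h h1
  have hucop : IsCoprime ((u ^ 3) ^ k) (p : ℤ) :=
    (((Nat.prime_iff_prime_int.mp hp.out).irreducible.coprime_iff_not_dvd.mpr hup).symm.pow_left).pow_left
  obtain ⟨c, d, hcd⟩ := hucop
  -- the new vector
  have hy : ∃ w₃ : MS (Gamma0 (N * q)) ℤ, c • y' = y₀ + (p : ℤ) • w₃ := by
    refine ⟨-d • y₀ + c • w₂ - c • w', ?_⟩
    have h1 : y' = (u ^ 3) ^ k • y₀ + (p : ℤ) • w₂ - (p : ℤ) • w' := by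
      rw [← hw₂, hk]; abel
    have h2 : c * (u ^ 3) ^ k = 1 - d * p := by linear_combination hcd
    rw [h1, smul_sub, smul_add, smul_smul, h2]
    module
  obtain ⟨w₃, hw₃⟩ := hy
  have hcy' : (c • y').1 ∈ newMS N q ℤ := Submodule.smul_mem _ c hy'new
  have hw₃' : (c • y').1 = y₀.1 + (p : ℤ) • w₃.1 := congrArg Subtype.val hw₃
  have hdiv : ∀ w : Pairs ℤ, (p : ℤ) • w ∈ newMS N q ℤ → w ∈ MS (Gamma0 (N * q)) ℤ →
      w ∈ newMS N q ℤ := by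
    intro w h hw
    obtain ⟨-, h2, h3⟩ := mem_newMS.mp h
    rw [map_smul] at h2 h3
    refine mem_newMS.mpr ⟨hw, ?_, ?_⟩
    · exact (smul_eq_zero.mp h2).resolve_left hp0
    · exact (smul_eq_zero.mp h3).resolve_left hp0
  refine ⟨(c • y').1, hcy', ?_, ?_⟩
  · rintro ⟨w, hw, hyw⟩
    -- `y₀ ∈ p`, contradiction with Ihara
    have h1 : v + degen q (-ε • v) = (p : ℤ) • (w - w₃.1) := by
      have h2 : y₀.1 = (p : ℤ) • (w - w₃.1) := by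
        rw [smul_sub, ← hyw, hw₃']; abel
      rw [← h2, map_smul]
      show _ = v - ε • degen q v
      module
    obtain ⟨⟨w1, hw1, e1⟩, -⟩ := hIh' v hv (-ε • v) (Submodule.smul_mem _ _ hv)
      ⟨w - w₃.1, Submodule.sub_mem _ (mem_newMS.mp hw).1 w₃.2, h1⟩
    obtain ⟨w2, hw2, e2⟩ := hvL ℓ₀ hℓ₀L
    apply hvp
    have h3 : u • v = (p : ℤ) • (w1 - w2) := by
      rw [smul_sub, ← e1, ← e2, hu]; module
    have hcop' : IsCoprime u (p : ℤ) :=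
      ((Nat.prime_iff_prime_int.mp hp.out).irreducible.coprime_iff_not_dvd.mpr hup).symm
    obtain ⟨c', d', hcd'⟩ := hcop'
    refine ⟨c' • (w1 - w2) + d' • v, Submodule.add_mem _
      (Submodule.smul_mem _ _ (Submodule.sub_mem _ hw1 hw2)) (Submodule.smul_mem _ _ hv), ?_⟩
    calc v = (c' * u + d' * p) • v := by rw [hcd', one_smul]
      _ = c' • (u • v) + (d' * p) • v := by rw [add_smul, smul_smul]
      _ = _ := by rw [h3]; module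
  · intro ℓ hℓ
    obtain ⟨w, hw, hyw⟩ := heigen ℓ hℓ
    obtain ⟨hℓp, hℓNqp⟩ := hL ℓ hℓ
    have hℓNq : ¬ ℓ ∣ N * q := fun h => hℓNqp (h.mul_right p)
    have hℓN : ¬ ℓ ∣ N := fun h => hℓNq (h.mul_right q)
    have hℓq : ℓ ≠ q := by rintro rfl; exact hℓNq (dvd_mul_left _ _)
    have h1 : heckeT ℓ (c • y').1 - a ℓ • (c • y').1 =
        (p : ℤ) • (w + (heckeT ℓ w₃.1 - a ℓ • w₃.1)) := by
      rw [hw₃', map_add, map_smul, smul_add (p : ℤ) w, ← hyw]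
      module
    refine ⟨_, hdiv _ ?_ ?_, h1⟩
    · rw [← h1]
      exact Submodule.sub_mem _ (heckeT_mem_new hq hqN hℓp hℓN hℓq hcy')
        (Submodule.smul_mem _ _ hcy')
    · exact Submodule.add_mem _ hw (Submodule.sub_mem _ (PS.heckeT_mem hℓp hℓNq w₃.2)
        (Submodule.smul_mem _ _ w₃.2))

end Fermat.Agent.LR.Core
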