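import Mathlib

/-!
# Abstract algebra for the core of level raising (team LR, piece P7)
-/

set_option autoImplicit false
set_option linter.unusedSectionVars false

noncomputable section

open TensorProduct

namespace Fermat.Agent.LR.CoreAlg

section Field

variable {F V : Type*} [Field F] [AddCommGroup V] [Module F V] [FiniteDimensional F V]

/-- If the radical of a form is killed by the self-adjoint operator `A`, and the orthogonal
complement of the `A`-stable subspace `W` is killed by `A²`, then `A³ V ⊆ W`. -/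
theorem pow_three_mem (B : V →ₗ[F] V →ₗ[F] F) (A : Module.End F V) (W : Submodule F V)
    (hA : ∀ x y, B (A x) y = B x (A y)) (hW : ∀ w ∈ W, A w ∈ W)
    (hrad : ∀ y, (∀ x, B x y = 0) → A y = 0)
    (hK : ∀ x, (∀ w ∈ W, B x w = 0) → A (A x) = 0) (v : V) : A (A (A v)) ∈ W := by
  by_contra hv
  obtain ⟨φ, hφ, hφW⟩ := Submodule.exists_dual_map_eq_bot_of_notMem hv inferInstance
  have hφW' : ∀ w ∈ W, φ w = 0 := by
    intro w hw
    have : φ w ∈ W.map φ := Submodule.mem_map_of_mem hw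
    rw [hφW] at this
    simpa using this
  -- `φ ∘ A` vanishes on the radical
  have h1 : (φ.comp A) ∈ LinearMap.range (LinearMap.dualMap B.flip) := by
    rw [LinearMap.range_dualMap_eq_dualAnnihilator_ker, Submodule.mem_dualAnnihilator]
    intro y hy
    rw [LinearMap.mem_ker] at hy
    rw [LinearMap.comp_apply, hrad y (fun x => by
      have := congrArg (fun l => l x) hy
      simpa using this), map_zero]
  obtain ⟨g, hg⟩ := h1
  obtain ⟨x, rfl⟩ := (Module.evalEquiv F V).surjective g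
  have h2 : ∀ y, φ (A y) = B x y := by
    intro y
    have := congrArg (fun l => l y) hg
    simpa using this.symm
  have h3 : A (A x) = 0 := hK x fun w hw => by rw [← h2, hφW' _ (hW w hw)]
  apply hφ
  rw [h2, ← hA, ← hA, h3, map_zero, LinearMap.zero_apply]

end Field

section ZModTensor

variable {p : ℕ} [hp : Fact p.Prime] {V : Type*} [AddCommGroup V]

theorem exists_one_tmul (u : ZMod p ⊗[ℤ] V) : ∃ v : V, u = 1 ⊗ₜ v := by
  induction u using TensorProduct.induction_on with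
  | zero => exact ⟨0, by rw [tmul_zero]⟩
  | tmul c v =>
    obtain ⟨n, rfl⟩ := ZMod.intCast_surjective c
    refine ⟨n • v, ?_⟩
    rw [tmul_smul, smul_tmul', zsmul_one]
  | add u u' hu hu' =>
    obtain ⟨v, rfl⟩ := hu
    obtain ⟨v', rfl⟩ := hu'
    exact ⟨v + v', by rw [tmul_add]⟩

theorem one_tmul_eq_zero_of (v : V) (h : ∃ w, v = (p : ℤ) • w) :
    (1 : ZMod p) ⊗ₜ[ℤ] v = 0 := by
  obtain ⟨w, rfl⟩ := h
  rw [tmul_smul, smul_tmul']
  simp

theorem exists_of_one_tmul_eq_zero [Module.Free ℤ V] [Module.Finite ℤ V] {v : V}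
    (h : (1 : ZMod p) ⊗ₜ[ℤ] v = 0) : ∃ w, v = (p : ℤ) • w := by
  let b := Module.Free.chooseBasis ℤ V
  let b' := b.baseChange (ZMod p)
  have h1 : ∀ i, (p : ℤ) ∣ b.repr v i := by
    intro i
    have h2 : b'.repr ((1 : ZMod p) ⊗ₜ v) i = 0 := by rw [h, map_zero]; rfl
    rw [Module.Basis.baseChange_repr_tmul] at h2
    rw [← ZMod.intCast_zmod_eq_zero_iff_dvd]
    simpa using h2
  choose c hc using h1
  refine ⟨∑ i, c i • b i, ?_⟩
  rw [Finset.smul_sum]
  conv_lhs => rw [← b.sum_repr v]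
  exact Finset.sum_congr rfl fun i _ => by rw [hc i, mul_smul]

/-- integral version of `pow_three_mem`. -/
theorem pow_three_mem_int [Module.Free ℤ V] [Module.Finite ℤ V] {V₁ : Type*} [AddCommGroup V₁]
    (B : V →ₗ[ℤ] V →ₗ[ℤ] ℤ) (A : Module.End ℤ V) (A₁ : Module.End ℤ V₁) (t : V₁ →ₗ[ℤ] V)
    (hA : ∀ x y, B (A x) y = B x (A y)) (ht : ∀ z, t (A₁ z) = A (t z))
    (hrad : ∀ y, (∀ x, (p : ℤ) ∣ B x y) → ∃ w, A y = (p : ℤ) • w)
    (hK : ∀ x, (∀ z, (p : ℤ) ∣ B x (t z)) → ∃ w, A (A x) = (p : ℤ) • w) (v : V) :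
    ∃ z w, A (A (A v)) = t z + (p : ℤ) • w := by
  let F := ZMod p
  let B' : (F ⊗[ℤ] V) →ₗ[F] (F ⊗[ℤ] V) →ₗ[F] F := LinearMap.BilinForm.baseChange F B
  have hB' : ∀ x y : V, B' (1 ⊗ₜ x) (1 ⊗ₜ y) = ((B x y : ℤ) : F) := by
    intro x y
    simp [B']
  let A' : Module.End F (F ⊗[ℤ] V) := A.baseChange F
  have hA' : ∀ x : V, A' (1 ⊗ₜ x) = 1 ⊗ₜ (A x) := fun x => LinearMap.baseChange_tmul _ _ _
  let t' : (F ⊗[ℤ] V₁) →ₗ[F] (F ⊗[ℤ] V) := t.baseChange F
  have ht' : ∀ x : V₁, t' (1 ⊗ₜ x) = 1 ⊗ₜ (t x) := fun x => LinearMap.baseChange_tmul _ _ _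
  have key := pow_three_mem B' A' (LinearMap.range t') (by
      intro x y
      obtain ⟨x, rfl⟩ := exists_one_tmul x
      obtain ⟨y, rfl⟩ := exists_one_tmul y
      rw [hA', hA', hB', hB', hA]) (by
      rintro _ ⟨z, rfl⟩
      obtain ⟨z, rfl⟩ := exists_one_tmul z
      exact ⟨1 ⊗ₜ (A₁ z), by rw [ht', ht', hA', ht]⟩) (by
      intro y hy
      obtain ⟨y, rfl⟩ := exists_one_tmul y
      rw [hA']
      refine one_tmul_eq_zero_of _ (hrad y fun x => ?_)
      have := hy (1 ⊗ₜ x)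
      rw [hB'] at this
      exact (ZMod.intCast_zmod_eq_zero_iff_dvd _ _).mp this) (by
      intro x hx
      obtain ⟨x, rfl⟩ := exists_one_tmul x
      rw [hA', hA']
      refine one_tmul_eq_zero_of _ (hK x fun z => ?_)
      have := hx (t' (1 ⊗ₜ z)) ⟨_, rfl⟩
      rw [ht', hB'] at this
      exact (ZMod.intCast_zmod_eq_zero_iff_dvd _ _).mp this) (1 ⊗ₜ v)
  obtain ⟨z, hz⟩ := key
  obtain ⟨z, rfl⟩ := exists_one_tmul z
  rw [ht', hA', hA', hA'] at hz
  have h1 : (1 : ZMod p) ⊗ₜ[ℤ] (A (A (A v)) - t z) = 0 := by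
    rw [tmul_sub, ← hz, sub_self]
  obtain ⟨w, hw⟩ := exists_of_one_tmul_eq_zero h1
  exact ⟨z, w, by rw [← hw]; abel⟩

end ZModTensor

section Lift

variable {p : ℕ} {V V₁ : Type*} [AddCommGroup V] [AddCommGroup V₁] [Module.Finite ℤ V]

/-- `p`-torsion bound (Artin-Rees). -/
theorem exists_ker_approx (t : V₁ →ₗ[ℤ] V) :
    ∃ k : ℕ, ∀ y : V₁, (∃ w, t y = (p : ℤ) ^ k • w) → ∃ y' w', y = y' + (p : ℤ) • w' ∧ t y' = 0 := by
  let Q := V ⧸ LinearMap.range t
  let f : Module.End ℤ Q := (p : ℤ) • LinearMap.id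
  have hf : ∀ (n : ℕ) (x : Q), (f ^ n) x = (p : ℤ) ^ n • x := by
    intro n
    induction n with
    | zero => intro x; simp
    | succ n ih =>
      intro x
      rw [pow_succ', Module.End.mul_apply, ih]
      simp only [f, LinearMap.smul_apply, LinearMap.id_apply]
      rw [smul_smul, pow_succ']
  obtain ⟨c, hc⟩ := monotone_stabilizes_iff_noetherian.mpr (inferInstance : IsNoetherian ℤ Q)
    ⟨fun n => LinearMap.ker (f ^ n), by
      refine monotone_nat_of_le_succ fun n x hx => ?_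
      rw [LinearMap.mem_ker] at hx ⊢
      rw [pow_succ', Module.End.mul_apply, hx, map_zero]⟩
  refine ⟨c + 1, fun y ⟨w, hw⟩ => ?_⟩
  have h1 : (Submodule.Quotient.mk w : Q) ∈ LinearMap.ker (f ^ (c + 1)) := by
    rw [LinearMap.mem_ker, hf, ← Submodule.Quotient.mk_smul, ← hw,
      Submodule.Quotient.mk_eq_zero]
    exact ⟨y, rfl⟩
  have h2 : (Submodule.Quotient.mk w : Q) ∈ LinearMap.ker (f ^ c) := by
    have := hc (c + 1) (Nat.le_succ c)
    simp only [OrderHom.coe_mk] at this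
    rw [this]
    exact h1
  rw [LinearMap.mem_ker, hf, ← Submodule.Quotient.mk_smul, Submodule.Quotient.mk_eq_zero] at h2
  obtain ⟨w₁, hw₁⟩ := h2
  refine ⟨y - (p : ℤ) • w₁, w₁, by abel, ?_⟩
  rw [map_sub, map_smul, hw₁, hw, pow_succ', mul_smul, sub_self]

/-- Iterative lifting into `ker t`. -/
theorem exists_ker_of_surj (t : V₁ →ₗ[ℤ] V) (A : Module.End ℤ V) (A₁ : Module.End ℤ V₁)
    (ht : ∀ z, t (A₁ z) = A (t z))
    (hsurj : ∀ v, ∃ z w, A v = t z + (p : ℤ) • w) (y₀ : V₁) (hy₀ : ∃ w, t y₀ = (p : ℤ) • w) :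
    ∃ (k : ℕ) (y' w' : V₁), (A₁ ^ k) y₀ = y' + (p : ℤ) • w' ∧ t y' = 0 := by
  obtain ⟨k, hk⟩ := exists_ker_approx (p := p) t
  have key : ∀ k : ℕ, ∃ y w, t ((A₁ ^ k) y₀ - (p : ℤ) • y) = (p : ℤ) ^ (k + 1) • w := by
    intro k
    induction k with
    | zero =>
      obtain ⟨w, hw⟩ := hy₀
      exact ⟨0, w, by simpa using hw⟩
    | succ k ih =>
      obtain ⟨y, w, hyw⟩ := ih
      obtain ⟨z, w', hz⟩ := hsurj w
      refine ⟨A₁ y + (p : ℤ) ^ k • z, w', ?_⟩
      have h1 : (A₁ ^ (k + 1)) y₀ - (p : ℤ) • (A₁ y + (p : ℤ) ^ k • z) =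
          A₁ ((A₁ ^ k) y₀ - (p : ℤ) • y) - (p : ℤ) ^ (k + 1) • z := by
        rw [map_sub, map_smul, pow_succ', Module.End.mul_apply, smul_add, smul_smul, pow_succ']
        abel
      rw [h1, map_sub, ht, hyw, map_smul, map_smul, hz, smul_add, smul_smul, ← pow_succ]
      abel
  obtain ⟨y, w, hyw⟩ := key k
  obtain ⟨y', w', hy', hty'⟩ := hk ((A₁ ^ k) y₀ - (p : ℤ) • y) ⟨(p : ℤ) • w, by
    rw [hyw, pow_succ, mul_smul]⟩
  refine ⟨k, y', w' + y, ?_, hty'⟩
  rw [smul_add, ← add_assoc, ← hy']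
  abel

end Lift

end Fermat.Agent.LR.CoreAlg
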