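import Fermat.Agent.LR.Level

/-!
# Ihara's lemma at a non-Eisenstein place, by a Manin-type computation (team LR)
-/

set_option autoImplicit false

open Matrix Matrix.SpecialLinearGroup CongruenceSubgroup
open scoped MatrixGroups OnePoint

namespace Fermat.Agent.LR

variable {R : Type*} [CommRing R]

/-- the cusp `0`. -/
abbrev cusp0 : Cusp := ((0 : ℚ) : OnePoint ℚ)

theorem toQ_S_smul_infty : toQ ModularGroup.S • (∞ : Cusp) = cusp0 := by
  rw [OnePoint.smul_infty_eq_ite, val_toQ]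
  simp [ModularGroup.S]

theorem toQ_S_smul_zero : toQ ModularGroup.S • cusp0 = (∞ : Cusp) := by
  rw [OnePoint.smul_some_eq_ite, val_toQ]
  simp [ModularGroup.S]

theorem toQ_T_zpow_smul_infty (k : ℤ) : toQ (ModularGroup.T ^ k) • (∞ : Cusp) = ∞ := by
  rw [OnePoint.smul_infty_eq_ite, val_toQ_T_zpow]
  simp

theorem toQ_T_smul_infty : toQ ModularGroup.T • (∞ : Cusp) = ∞ := by
  have := toQ_T_zpow_smul_infty 1
  rwa [zpow_one] at this

theorem exists_SL2_smul_infty (s : Cusp) : ∃ g : SL(2, ℤ), toQ g • (∞ : Cusp) = s :=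
  OnePoint.exists_mem_SL2 ℤ s

/-- Manin: an additive function vanishing on all `g{∞,0}` is zero. -/
theorem eq_zero_of_manin {z : Pairs R} (hz : ∀ a b c, z a b + z b c = z a c)
    (h : ∀ g : SL(2, ℤ), z (toQ g • ∞) (toQ g • cusp0) = 0) : z = 0 := by
  have key : ∀ k : SL(2, ℤ), ∀ g : SL(2, ℤ), z (toQ g • ∞) (toQ (g * k) • ∞) = 0 := by
    intro k
    have hk : k ∈ Subgroup.closure {ModularGroup.S, ModularGroup.T} := by
      rw [SpecialLinearGroup.SL2Z_generators]; trivial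
    induction hk using Subgroup.closure_induction with
    | mem x hx =>
      intro g
      rcases hx with rfl | rfl
      · rw [toQ_mul, mul_smul, toQ_S_smul_infty]; exact h g
      · rw [toQ_mul, mul_smul, toQ_T_smul_infty]; exact add_self_eq_zero hz _
    | one => intro g; rw [mul_one]; exact add_self_eq_zero hz _
    | mul x y _ _ hx hy =>
      intro g
      rw [← hz _ (toQ (g * x) • ∞) _, hx g, ← mul_assoc, hy (g * x), add_zero]
    | inv x _ hx =>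
      intro g
      rw [neg_swap hz (toQ (g * x⁻¹) • ∞) (toQ g • ∞)]
      have := hx (g * x⁻¹)
      rw [inv_mul_cancel_right] at this
      rw [this, neg_zero]
  funext a b
  obtain ⟨g, rfl⟩ := exists_SL2_smul_infty a
  obtain ⟨k, rfl⟩ := exists_SL2_smul_infty b
  have := key (g⁻¹ * k) g
  rwa [mul_inv_cancel_left] at this

theorem ext_of_manin {x y : Pairs R} (hx : ∀ a b c, x a b + x b c = x a c)
    (hy : ∀ a b c, y a b + y b c = y a c)
    (h : ∀ g : SL(2, ℤ), x (toQ g • ∞) (toQ g • cusp0) = y (toQ g • ∞) (toQ g • cusp0)) :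
    x = y := by
  rw [← sub_eq_zero]
  refine eq_zero_of_manin (fun a b c => ?_) (fun g => ?_)
  · simp only [Pi.sub_apply]; rw [← hx a b c, ← hy a b c]; ring
  · simp only [Pi.sub_apply]; rw [h g, sub_self]

/-- reduction mod `N`. -/
abbrev redN (N : ℕ) : SL(2, ℤ) →* SL(2, ZMod N) := SpecialLinearGroup.map (Int.castRingHom (ZMod N))

theorem redN_apply (N : ℕ) (g : SL(2, ℤ)) (i j : Fin 2) :
    (redN N g) i j = ((g i j : ℤ) : ZMod N) := rfl

theorem Gamma_le_Gamma0 (N : ℕ) : Gamma N ≤ Gamma0 N := by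
  intro γ hγ
  rw [Gamma_mem] at hγ
  rw [Gamma0_mem]
  exact hγ.2.2.1

theorem dvd_of_mem_Gamma {N : ℕ} {γ : SL(2, ℤ)} (hγ : γ ∈ Gamma N) : redN N γ = 1 := hγ

/-- CRT for `SL₂`: an element of `Γ(N)` with prescribed reduction mod `q`. -/
theorem exists_Gamma_redN {N q : ℕ} (hcop : Nat.Coprime N q) (h : SL(2, ℤ)) :
    ∃ γ ∈ Gamma N, redN q γ = redN q h := by
  -- an integer `e` with `e ≡ 0 mod N` and `e ≡ 1 mod q`
  obtain ⟨e, he1, he2⟩ : ∃ e : ℤ, (N : ℤ) ∣ e ∧ ((e : ℤ) : ZMod q) = 1 := by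
    obtain ⟨u, v, huv⟩ := Nat.isCoprime_iff_coprime.mpr hcop
    refine ⟨u * N, Dvd.intro_left u rfl, ?_⟩
    have := congrArg (Int.cast : ℤ → ZMod q) huv
    push_cast at this ⊢
    simpa using this
  have hh : h ∈ Subgroup.closure {ModularGroup.S, ModularGroup.T} := by
    rw [SpecialLinearGroup.SL2Z_generators]; trivial
  -- upper and lower unipotents
  have hTmem : ModularGroup.T ^ e ∈ Gamma N := by
    exact ModularGroup_T_pow_mem_Gamma N e he1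
  have hTred : redN q (ModularGroup.T ^ e) = redN q ModularGroup.T := by
    ext i j
    rw [redN_apply, redN_apply, ModularGroup.coe_T_zpow]
    fin_cases i <;> fin_cases j <;> simp [ModularGroup.T, he2]
  set L : SL(2, ℤ) := mkSL 1 0 e 1 (by ring) with hL
  have hLmem : L ∈ Gamma N := by
    rw [Gamma_mem]
    have : ((e : ℤ) : ZMod N) = 0 := (ZMod.intCast_zmod_eq_zero_iff_dvd _ _).mpr he1
    simp [hL, mkSL, this]
  have hLred : redN q L = redN q (mkSL 1 0 1 1 (by ring)) := by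
    ext i j
    rw [redN_apply, redN_apply]
    fin_cases i <;> fin_cases j <;> simp [hL, mkSL, he2]
  have hS : ModularGroup.S = ModularGroup.T⁻¹ * mkSL 1 0 1 1 (by ring) * ModularGroup.T⁻¹ := by
    ext i j
    fin_cases i <;> fin_cases j <;>
      simp [ModularGroup.S, ModularGroup.T, mkSL, Matrix.mul_apply, Fin.sum_univ_two,
        Matrix.SpecialLinearGroup.coe_inv, Matrix.adjugate_fin_two]
  induction hh using Subgroup.closure_induction with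
  | mem x hx =>
    rcases hx with rfl | rfl
    · refine ⟨(ModularGroup.T ^ e)⁻¹ * L * (ModularGroup.T ^ e)⁻¹,
        mul_mem (mul_mem (inv_mem hTmem) hLmem) (inv_mem hTmem), ?_⟩
      rw [hS]
      simp only [map_mul, map_inv, hTred, hLred]
    · exact ⟨_, hTmem, hTred⟩
  | one => exact ⟨1, one_mem _, rfl⟩
  | mul x y _ _ hx hy =>
    obtain ⟨a, ha, ha'⟩ := hx
    obtain ⟨b, hb, hb'⟩ := hy
    exact ⟨a * b, mul_mem ha hb, by rw [map_mul, map_mul, ha', hb']⟩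
  | inv x _ hx =>
    obtain ⟨a, ha, ha'⟩ := hx
    exact ⟨a⁻¹, inv_mem ha, by rw [map_inv, map_inv, ha']⟩

/-- cosets of `Γ₁(N)` are determined by the lower row mod `N`. -/
theorem slash_toQ_congr' {N : ℕ} {x : Pairs R} (hx : ∀ γ ∈ Gamma1 N, slash (toQ γ) x = x)
    {g k : SL(2, ℤ)}
    (h0 : ((g 1 0 : ℤ) : ZMod N) = ((k 1 0 : ℤ) : ZMod N))
    (h1 : ((g 1 1 : ℤ) : ZMod N) = ((k 1 1 : ℤ) : ZMod N)) :
    slash (toQ g) x = slash (toQ k) x := by
  have hdet : ∀ m : SL(2, ℤ), ((m 0 0 : ℤ) : ZMod N) * ((m 1 1 : ℤ) : ZMod N) -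
      ((m 0 1 : ℤ) : ZMod N) * ((m 1 0 : ℤ) : ZMod N) = 1 := fun m => by
    have := congrArg (Int.cast : ℤ → ZMod N) (det_eq' m)
    push_cast at this
    exact this
  have e10 : (((g * k⁻¹) 1 0 : ℤ) : ZMod N) = 0 := by
    have : (g * k⁻¹) 1 0 = g 1 0 * k 1 1 - g 1 1 * k 1 0 := by
      simp [Matrix.mul_apply, Fin.sum_univ_two, Matrix.SpecialLinearGroup.coe_inv,
        Matrix.adjugate_fin_two]
      ring
    rw [this]; push_cast; rw [h0, h1]; ring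
  have e11 : (((g * k⁻¹) 1 1 : ℤ) : ZMod N) = 1 := by
    have : (g * k⁻¹) 1 1 = g 1 1 * k 0 0 - g 1 0 * k 0 1 := by
      simp [Matrix.mul_apply, Fin.sum_univ_two, Matrix.SpecialLinearGroup.coe_inv,
        Matrix.adjugate_fin_two]
      ring
    rw [this]; push_cast; rw [h0, h1, ← hdet k]; ring
  have e00 : (((g * k⁻¹) 0 0 : ℤ) : ZMod N) = 1 := by
    have := hdet (g * k⁻¹)
    rwa [e10, e11, mul_one, mul_zero, sub_zero] at this
  have hmem : g * k⁻¹ ∈ Gamma1 N := by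
    rw [Gamma1_mem]
    exact ⟨e00, e11, e10⟩
  have : toQ g = toQ (g * k⁻¹) * toQ k := by rw [← toQ_mul, inv_mul_cancel_right]
  rw [this, slash_mul, hx _ hmem]

theorem slash_toQ_congr {N : ℕ} {x : Pairs R} (hx : x ∈ MS (Gamma1 N) R) {g k : SL(2, ℤ)}
    (h0 : ((g 1 0 : ℤ) : ZMod N) = ((k 1 0 : ℤ) : ZMod N))
    (h1 : ((g 1 1 : ℤ) : ZMod N) = ((k 1 1 : ℤ) : ZMod N)) :
    slash (toQ g) x = slash (toQ k) x := slash_toQ_congr' hx.2 h0 h1

theorem MS_Gamma1 {N : ℕ} {x : Pairs R} (hx : x ∈ MS (Gamma0 N) R) : x ∈ MS (Gamma1 N) R :=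
  MS_mono (Gamma1_in_Gamma0 N) hx

/-! ### `T_ℓ` for `ℓ ≡ 1 mod N` -/

/-- For `ℓ ≡ 1 mod N`:
`(T_ℓ x)|g = ∑_j (x|g)|[1 (1-ℓ)j; 0 ℓ] + (x|g)|diag(ℓ,1)`. -/
theorem slash_heckeT {N ℓ : ℕ} (hℓ : ℓ.Prime) (hℓN : ((ℓ : ℕ) : ZMod N) = 1) {x : Pairs R}
    (hx : ∀ γ ∈ Gamma1 N, slash (toQ γ) x = x) (g : SL(2, ℤ)) :
    haveI : NeZero ℓ := ⟨hℓ.ne_zero⟩
    slash (toQ g) (heckeT ℓ x) =
      ∑ j : ZMod ℓ, slash (heckeMat ℓ ((1 - ℓ) * (j.val : ℤ))) (slash (toQ g) x) +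
        slash (diagMat ℓ) (slash (toQ g) x) := by
  have : Fact ℓ.Prime := ⟨hℓ⟩
  have hℓ0 : ℓ ≠ 0 := hℓ.ne_zero
  have hℓ1 : (1 : ℤ) * ℓ ≠ 0 := by simpa using hℓ0
  set F : OnePoint (ZMod ℓ) → Pairs R := fun s =>
    s.elim (slash (diagMat ℓ) (slash (toQ g) x))
      (fun j => slash (heckeMat ℓ ((1 - ℓ) * (j.val : ℤ))) (slash (toQ g) x)) with hF
  have hsum : ∑ s, F s = ∑ j : ZMod ℓ, slash (heckeMat ℓ ((1 - ℓ) * (j.val : ℤ)))
      (slash (toQ g) x) + slash (diagMat ℓ) (slash (toQ g) x) := by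
    rw [add_comm]
    exact Fintype.sum_option F
  rw [← hsum, heckeT_eq_sum, map_sum, ← Equiv.sum_comp (MulAction.toPerm (redMat ℓ g)) F]
  refine Finset.sum_congr rfl fun s _ => ?_
  rw [MulAction.toPerm_apply]
  obtain ⟨g', -, h1⟩ := heckeRepQ_mul (N := 1) (by simpa using hℓ.one_lt.ne') g (by simp) s
  rw [← slash_mul, h1]
  have hrow : ∃ a b d : ℤ, ((d : ℤ) : ZMod N) = 1 ∧
      (heckeRepQ ℓ s : Matrix (Fin 2) (Fin 2) ℚ) = !![(a : ℚ), (b : ℚ); 0, (d : ℚ)] := by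
    induction s using OnePoint.rec with
    | infty => exact ⟨ℓ, 0, 1, by simp, by rw [heckeRepQ_infty, val_diagMat hℓ0]; simp⟩
    | coe j => exact ⟨1, j.val, ℓ, by simpa using hℓN, by
        rw [heckeRepQ_coe, val_heckeMat hℓ0]; simp⟩
  obtain ⟨a, b, d, hd, hs⟩ := hrow
  generalize redMat ℓ g • s = t at h1 ⊢
  induction t using OnePoint.rec with
  | infty =>
    rw [heckeRepQ_infty] at h1 ⊢
    have e0 := congrArg (fun m : GL (Fin 2) ℚ => (m : Matrix (Fin 2) (Fin 2) ℚ) 1 0) h1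
    have e1 := congrArg (fun m : GL (Fin 2) ℚ => (m : Matrix (Fin 2) (Fin 2) ℚ) 1 1) h1
    simp only [val_mul', val_toQ, hs, val_diagMat hℓ0] at e0 e1
    simp [Matrix.mul_apply, Fin.sum_univ_two] at e0 e1
    have e0' : d * g 1 0 = g' 1 0 * ℓ := by exact_mod_cast e0
    have e1' : d * g 1 1 = g' 1 1 := by exact_mod_cast e1
    have f0 := congrArg (Int.cast : ℤ → ZMod N) e0'
    have f1 := congrArg (Int.cast : ℤ → ZMod N) e1'
    push_cast at f0 f1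
    rw [hd, hℓN] at f0
    rw [hd] at f1
    rw [slash_mul, slash_toQ_congr' hx (k := g) (by simpa using f0.symm) (by simpa using f1.symm)]
    rfl
  | coe j =>
    rw [heckeRepQ_coe] at h1 ⊢
    have e0 := congrArg (fun m : GL (Fin 2) ℚ => (m : Matrix (Fin 2) (Fin 2) ℚ) 1 0) h1
    have e1 := congrArg (fun m : GL (Fin 2) ℚ => (m : Matrix (Fin 2) (Fin 2) ℚ) 1 1) h1
    simp only [val_mul', val_toQ, hs, val_heckeMat hℓ0] at e0 e1
    simp [-ZMod.natCast_val, Matrix.mul_apply, Fin.sum_univ_two] at e0 e1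
    have e0' : d * g 1 0 = g' 1 0 := by exact_mod_cast e0
    have e1' : d * g 1 1 = g' 1 0 * j.val + g' 1 1 * ℓ := by exact_mod_cast e1
    have f0 := congrArg (Int.cast : ℤ → ZMod N) e0'
    have f1 := congrArg (Int.cast : ℤ → ZMod N) e1'
    push_cast at f0 f1
    rw [hd, one_mul] at f0
    rw [hd, hℓN, mul_one, one_mul] at f1
    have e2 : slash (toQ g') x = slash (toQ (g * ModularGroup.T ^ (-(j.val : ℤ)))) x := by
      refine slash_toQ_congr' hx ?_ ?_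
      · rw [← f0]
        congr 1
        simp [Matrix.mul_apply, Fin.sum_univ_two, ModularGroup.coe_T_zpow]
      · have : (g * ModularGroup.T ^ (-(j.val : ℤ))) 1 1 = - (j.val : ℤ) * g 1 0 + g 1 1 := by
          simp [Matrix.mul_apply, Fin.sum_univ_two, ModularGroup.coe_T_zpow]
          ring
        rw [this]
        push_cast
        rw [f0, f1]
        ring
    rw [slash_mul, e2, toQ_mul, slash_mul, ← slash_mul]
    refine slash_congr (c := 1) one_ne_zero ?_ _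
    rw [one_smul, val_mul', val_toQ_T_zpow, val_heckeMat hℓ0, val_heckeMat hℓ0]
    ext i k
    fin_cases i <;> fin_cases k <;> simp [Matrix.mul_apply, Fin.sum_univ_two]
    ring

theorem heckeMat_smul_infty {ℓ : ℕ} (hℓ : ℓ ≠ 0) (j : ℤ) : heckeMat ℓ j • (∞ : Cusp) = ∞ := by
  rw [OnePoint.smul_infty_eq_ite, val_heckeMat hℓ]; simp

theorem heckeMat_smul_coe {ℓ : ℕ} (hℓ : ℓ ≠ 0) (j : ℤ) (k : ℚ) :
    heckeMat ℓ j • (k : Cusp) = (((k + j) / ℓ : ℚ) : Cusp) := by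
  have hℓ' : (ℓ : ℚ) ≠ 0 := by exact_mod_cast hℓ
  rw [OnePoint.smul_some_eq_ite, val_heckeMat hℓ]; simp [hℓ']

theorem diagMat_smul_infty {ℓ : ℕ} (hℓ : ℓ ≠ 0) : diagMat ℓ • (∞ : Cusp) = ∞ := by
  rw [OnePoint.smul_infty_eq_ite, val_diagMat hℓ]; simp

theorem diagMat_smul_coe {ℓ : ℕ} (hℓ : ℓ ≠ 0) (k : ℚ) :
    diagMat ℓ • (k : Cusp) = ((ℓ * k : ℚ) : Cusp) := by
  rw [OnePoint.smul_some_eq_ite, val_diagMat hℓ]; simp

theorem toQ_T_zpow_smul_coe (n : ℤ) (k : ℚ) :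
    toQ (ModularGroup.T ^ n) • (k : Cusp) = ((k + n : ℚ) : Cusp) := by
  rw [OnePoint.smul_some_eq_ite, val_toQ_T_zpow]; simp

/-- value of `T_ℓ x` on `g{∞,0}` for `ℓ ≡ 1 mod N`. -/
theorem heckeT_apply_manin {N ℓ : ℕ} (hℓ : ℓ.Prime) (hℓN : ((ℓ : ℕ) : ZMod N) = 1) {x : Pairs R}
    (hx : x ∈ MS (Gamma1 N) R) (g : SL(2, ℤ)) :
    haveI : NeZero ℓ := ⟨hℓ.ne_zero⟩
    heckeT ℓ x (toQ g • ∞) (toQ g • cusp0) =
      ∑ j : ZMod ℓ, slash (toQ g) x ∞ ((((1 - ℓ) * (j.val : ℚ)) / ℓ : ℚ) : Cusp) +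
        slash (toQ g) x ∞ cusp0 := by
  have hℓ0 : ℓ ≠ 0 := hℓ.ne_zero
  have h := congrFun (congrFun (slash_heckeT hℓ hℓN hx.2 g) ∞) cusp0
  rw [slash_apply] at h
  rw [h]
  simp only [Pi.add_apply, Finset.sum_apply]
  congr 1
  · refine Finset.sum_congr rfl fun j _ => ?_
    rw [slash_apply, heckeMat_smul_infty hℓ0, heckeMat_smul_coe hℓ0]
    simp
  · rw [slash_apply, diagMat_smul_infty hℓ0, diagMat_smul_coe hℓ0, mul_zero]

/-- if `p` divides the order of `u`, functions invariant under `u` sum to zero in characteristic `p`. -/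
theorem sum_eq_zero_of_invariant {G R : Type*} [CommGroup G] [Fintype G] [CommRing R] {p : ℕ}
    (hpR : (p : R) = 0) (u : G) (hu : p ∣ orderOf u) (f : G → R) (hf : ∀ g, f (g * u) = f g) :
    ∑ g, f g = 0 := by
  classical
  have hz : ∀ (h : Subgroup.zpowers u) (g : G), f (g * h) = f g := by
    rintro ⟨h, hh⟩ g
    obtain ⟨n, rfl⟩ := (mem_powers_iff_mem_zpowers.mpr hh)
    simp only
    induction n generalizing g with
    | zero => simp
    | succ n ih => rw [pow_succ, ← mul_assoc, hf]; exact ih _ (by exact ⟨n, by simp⟩)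
  have hbij : Function.Bijective
      (fun x : (G ⧸ Subgroup.zpowers u) × Subgroup.zpowers u => x.1.out * (x.2 : G)) := by
    refine ⟨?_, fun g => ?_⟩
    · rintro ⟨c, h⟩ ⟨c', h'⟩ e
      simp only at e
      have h1 : c = c' := by
        rw [← QuotientGroup.out_eq' c, ← QuotientGroup.out_eq' c',
          ← QuotientGroup.mk_mul_of_mem c.out h.2, ← QuotientGroup.mk_mul_of_mem c'.out h'.2]
        exact congrArg _ e
      subst h1
      simpa using e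
    · obtain ⟨h, hh⟩ := QuotientGroup.mk_out_eq_mul (Subgroup.zpowers u) g
      exact ⟨((g : G ⧸ Subgroup.zpowers u), h⁻¹), by simp [hh]⟩
  rw [← (Equiv.ofBijective _ hbij).sum_comp f, Fintype.sum_prod_type]
  refine Finset.sum_eq_zero fun c _ => ?_
  have this : ∀ h : Subgroup.zpowers u,
      f ((Equiv.ofBijective _ hbij) (c, h)) = f c.out := fun h => hz h _
  rw [Finset.sum_congr rfl fun h _ => this h, Finset.sum_const, Finset.card_univ,
    Fintype.card_zpowers, nsmul_eq_mul]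
  obtain ⟨k, hk⟩ := hu
  rw [hk]; push_cast; rw [hpR]; ring

/-- if `q` is not a `p`-th power mod `ℓ`, `ℓ ≡ 1 mod p m`, then `p` divides the order of `q ^ m`. -/
theorem dvd_orderOf_pow {G : Type*} [CommGroup G] [Fintype G] [IsCyclic G] {p m : ℕ}
    (hp : p.Prime) (hm : p * m ∣ Fintype.card G) (q : G) (hq : ∀ t : G, t ^ p ≠ q) :
    p ∣ orderOf (q ^ m) := by
  by_contra hn
  obtain ⟨t, ht⟩ := hm
  have hcard : 0 < Fintype.card G := Fintype.card_pos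
  have hmt : 0 < m * t := by
    rcases Nat.eq_zero_or_pos (m * t) with h | h
    · rw [mul_assoc, h, mul_zero] at ht; omega
    · exact h
  -- `q ^ (m * t) = 1`
  have h1 : orderOf q ∣ m * orderOf (q ^ m) := by
    rw [orderOf_dvd_iff_pow_eq_one, pow_mul, pow_orderOf_eq_one]
  have h2 : orderOf q ∣ m * (p * t) := by
    have := orderOf_dvd_card (x := q)
    rw [ht] at this
    convert this using 1; ring
  have h3 : orderOf q ∣ m * t := by
    have h4 := Nat.dvd_gcd h1 h2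
    rw [Nat.gcd_mul_left] at h4
    refine h4.trans (mul_dvd_mul_left m ?_)
    have : Nat.Coprime p (orderOf (q ^ m)) := (Nat.Prime.coprime_iff_not_dvd hp).mpr hn
    rw [Nat.Coprime.gcd_mul_left_cancel_right _ this]
    exact Nat.gcd_dvd_right _ _
  obtain ⟨g, hg⟩ := IsCyclic.exists_generator (α := G)
  obtain ⟨k, hk⟩ := mem_powers_iff_mem_zpowers.mpr (hg q)
  simp only at hk
  have h5 : orderOf g = Fintype.card G := by rw [orderOf_eq_card_of_forall_mem_zpowers hg, Nat.card_eq_fintype_card]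
  have h6 : g ^ (k * (m * t)) = 1 := by
    rw [pow_mul, hk, ← orderOf_dvd_iff_pow_eq_one]; exact h3
  rw [← orderOf_dvd_iff_pow_eq_one, h5, ht, mul_assoc] at h6
  have h7 : p ∣ k := (Nat.mul_dvd_mul_iff_right hmt).mp h6
  obtain ⟨r, rfl⟩ := h7
  exact hq (g ^ r) (by rw [← pow_mul, mul_comm]; exact hk)

/-- One step of Ihara's argument: if `x = x'|δ` with `x, x'` of level `Γ₁(N)`, then
`x|g = (x|k)|δ²` for some `k` whose lower row is `(g₁₀/q, q g₁₁)` mod `N`. -/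
theorem exists_slash_of_degen {N q : ℕ} (hq : q ≠ 0) (hcop : Nat.Coprime N q) {x x' : Pairs R}
    (hx : x ∈ MS (Gamma1 N) R) (hx' : x' ∈ MS (Gamma1 N) R) (h : x = degen q x')
    (g : SL(2, ℤ)) : ∃ k : SL(2, ℤ),
      ((q : ℤ) : ZMod N) * ((k 1 0 : ℤ) : ZMod N) = ((g 1 0 : ℤ) : ZMod N) ∧
      ((k 1 1 : ℤ) : ZMod N) = ((q : ℤ) : ZMod N) * ((g 1 1 : ℤ) : ZMod N) ∧
      slash (toQ g) x = slash (diagMat (q ^ 2)) (slash (toQ k) x) := by
  have hqQ : (q : ℚ) ≠ 0 := by exact_mod_cast hq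
  have hqZ : (q : ℤ) ≠ 0 := by exact_mod_cast hq
  -- `γ₁ g ≡ 1 mod q²`, `γ₁ ∈ Γ(N)`
  obtain ⟨γ₁, hγ₁, hγ₁'⟩ := exists_Gamma_redN (N := N) (q := q ^ 2) (Nat.Coprime.pow_right 2 hcop) g⁻¹
  set h₀ := γ₁ * g with hh₀
  have hred : redN (q ^ 2) h₀ = 1 := by
    rw [hh₀, map_mul, hγ₁', ← map_mul, inv_mul_cancel, map_one]
  have hredN : redN N h₀ = redN N g := by
    rw [hh₀, map_mul, dvd_of_mem_Gamma hγ₁, one_mul]
  obtain ⟨e, he⟩ : (q : ℤ) ^ 2 ∣ h₀ 1 0 := by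
    have := congrFun (congrFun (congrArg Subtype.val hred) 1) 0
    have h' : ((h₀ 1 0 : ℤ) : ZMod (q ^ 2)) = 0 := by simpa using this
    have := (ZMod.intCast_zmod_eq_zero_iff_dvd _ _).mp h'
    exact_mod_cast this
  -- `γ₂ ≡ S mod q`, `γ₂ ∈ Γ(N)`
  obtain ⟨γ₂, hγ₂, hγ₂'⟩ := exists_Gamma_redN (N := N) (q := q) hcop ModularGroup.S
  obtain ⟨a', ha'⟩ : (q : ℤ) ∣ γ₂ 0 0 := by
    have := congrFun (congrFun (congrArg Subtype.val hγ₂') 0) 0
    have h' : ((γ₂ 0 0 : ℤ) : ZMod q) = 0 := by simpa [ModularGroup.S] using this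
    exact (ZMod.intCast_zmod_eq_zero_iff_dvd _ _).mp h'
  have hdet₀ := det_eq' h₀
  have hdet₂ := det_eq' γ₂
  rw [he] at hdet₀
  rw [ha'] at hdet₂
  -- `k = δ⁻¹ γ₂ [h00, q² h01; h10/q, q h11]`
  let k : SL(2, ℤ) := mkSL (a' * h₀ 0 0 + γ₂ 0 1 * e) (a' * (q : ℤ) ^ 2 * h₀ 0 1 + γ₂ 0 1 * h₀ 1 1)
    (γ₂ 1 0 * h₀ 0 0 + γ₂ 1 1 * (q * e)) (γ₂ 1 0 * (q : ℤ) ^ 2 * h₀ 0 1 + γ₂ 1 1 * q * h₀ 1 1)
    (by linear_combination (h₀ 0 0 * h₀ 1 1 - h₀ 0 1 * ((q : ℤ) ^ 2 * e)) * hdet₂ + hdet₀)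
  have hN10 : ((h₀ 1 0 : ℤ) : ZMod N) = ((g 1 0 : ℤ) : ZMod N) := by
    have := congrFun (congrFun (congrArg Subtype.val hredN) 1) 0
    simpa using this
  have hN11 : ((h₀ 1 1 : ℤ) : ZMod N) = ((g 1 1 : ℤ) : ZMod N) := by
    have := congrFun (congrFun (congrArg Subtype.val hredN) 1) 1
    simpa using this
  rw [Gamma_mem] at hγ₂
  refine ⟨k, ?_, ?_, ?_⟩
  · have : ((k 1 0 : ℤ) : ZMod N) = ((γ₂ 1 0 * h₀ 0 0 + γ₂ 1 1 * (q * e) : ℤ) : ZMod N) := rfl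
    rw [this, ← hN10, he]
    push_cast
    rw [hγ₂.2.2.1, hγ₂.2.2.2]
    ring
  · have : ((k 1 1 : ℤ) : ZMod N) =
      ((γ₂ 1 0 * (q : ℤ) ^ 2 * h₀ 0 1 + γ₂ 1 1 * q * h₀ 1 1 : ℤ) : ZMod N) := rfl
    rw [this, ← hN11]
    push_cast
    rw [hγ₂.2.2.1, hγ₂.2.2.2]
    ring
  · have h2 : slash (toQ γ₂) x' = x' := by
      refine hx'.2 γ₂ ?_
      rw [Gamma1_mem]
      exact ⟨hγ₂.1, hγ₂.2.2.2, hγ₂.2.2.1⟩
    have h1 : slash (toQ γ₁) x = x := by
      refine hx.2 γ₁ ?_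
      rw [Gamma_mem] at hγ₁
      rw [Gamma1_mem]
      exact ⟨hγ₁.1, hγ₁.2.2.2, hγ₁.2.2.1⟩
    have e1 : slash (toQ g) x = slash (diagMat q * toQ h₀) x' := by
      rw [slash_mul, ← degen_apply q, ← h, hh₀, toQ_mul, slash_mul, h1]
    have e2 : slash (diagMat (q ^ 2)) (slash (toQ k) x) =
        slash (diagMat q * toQ k * diagMat (q ^ 2)) x' := by
      rw [slash_mul, slash_mul, ← degen_apply q, ← h]
    have e3 : slash (diagMat q * toQ h₀) x' = slash (toQ γ₂ * diagMat q * toQ h₀) x' := by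
      rw [mul_assoc (toQ γ₂), slash_mul (toQ γ₂), h2]
    rw [e1, e2, e3]
    refine slash_congr (c := (q : ℚ)⁻¹) (inv_ne_zero hqQ) ?_ _
    have ea : ((γ₂ 0 0 : ℤ) : ℚ) = q * a' := by rw [ha']; push_cast; ring
    have eh : ((h₀ 1 0 : ℤ) : ℚ) = q ^ 2 * e := by rw [he]; push_cast; ring
    have hk : (toQ k : Matrix (Fin 2) (Fin 2) ℚ) = _ := val_toQ_mkSL _ _ _ _ _
    rw [val_mul', val_mul', val_mul', val_mul', hk, val_toQ, val_toQ, val_diagMat hq,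
      val_diagMat (pow_ne_zero 2 hq), ea, eh]
    ext i j
    fin_cases i <;> fin_cases j <;>
      simp [Matrix.mul_apply, Fin.sum_univ_two] <;> field_simp

/-- iterate: `x|g = (x|k)|δ^{2m}`. -/
theorem exists_slash_of_degen_pow {N q : ℕ} (hq : q ≠ 0) (hcop : Nat.Coprime N q) {x x' : Pairs R}
    (hx : x ∈ MS (Gamma1 N) R) (hx' : x' ∈ MS (Gamma1 N) R) (h : x = degen q x') (m : ℕ)
    (g : SL(2, ℤ)) : ∃ k : SL(2, ℤ),
      ((q : ℤ) : ZMod N) ^ m * ((k 1 0 : ℤ) : ZMod N) = ((g 1 0 : ℤ) : ZMod N) ∧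
      ((k 1 1 : ℤ) : ZMod N) = ((q : ℤ) : ZMod N) ^ m * ((g 1 1 : ℤ) : ZMod N) ∧
      slash (toQ g) x = slash (diagMat (q ^ (2 * m))) (slash (toQ k) x) := by
  induction m with
  | zero =>
    refine ⟨g, by simp, by simp, ?_⟩
    have : slash (diagMat (q ^ (2 * 0))) (slash (toQ g) x) = slash 1 (slash (toQ g) x) := by
      refine slash_congr (c := 1) one_ne_zero ?_ _
      rw [val_diagMat (by simp)]
      ext i j
      fin_cases i <;> fin_cases j <;> simp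
    rw [this, slash_one]
  | succ m ih =>
    obtain ⟨k, h1, h2, h3⟩ := ih
    obtain ⟨k', h1', h2', h3'⟩ := exists_slash_of_degen hq hcop hx hx' h k
    refine ⟨k', ?_, ?_, ?_⟩
    · rw [pow_succ, mul_assoc, h1', h1]
    · rw [h2', h2, pow_succ]; ring
    · rw [h3, h3', ← slash_mul]
      refine slash_congr (c := 1) one_ne_zero ?_ _
      rw [val_mul', val_diagMat (pow_ne_zero _ hq), val_diagMat (pow_ne_zero _ hq),
        val_diagMat (pow_ne_zero _ hq)]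
      ext i j
      fin_cases i <;> fin_cases j <;> simp [Matrix.mul_apply, Fin.sum_univ_two]
      ring

/-- **Ihara's lemma, elementary form**: if `x = x'|δ` with both of level `Γ₁(N)`, then every
`x|g` is invariant under `diag(q^{2m},1)` when `q^m ≡ 1 mod N`. -/
theorem slash_diagMat_of_degen {N q : ℕ} (hq : q ≠ 0) (hcop : Nat.Coprime N q) {x x' : Pairs R}
    (hx : x ∈ MS (Gamma1 N) R) (hx' : x' ∈ MS (Gamma1 N) R) (h : x = degen q x') {m : ℕ}
    (hm : ((q : ℤ) : ZMod N) ^ m = 1) (g : SL(2, ℤ)) :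
    slash (diagMat (q ^ (2 * m))) (slash (toQ g) x) = slash (toQ g) x := by
  obtain ⟨k, h1, h2, h3⟩ := exists_slash_of_degen_pow hq hcop hx hx' h m g
  rw [hm, one_mul] at h1 h2
  rw [slash_toQ_congr hx h1 h2] at h3
  exact h3.symm

theorem slash_add {x : Pairs R} (hx : ∀ a b c, x a b + x b c = x a c) (g : GL (Fin 2) ℚ)
    (a b c : Cusp) : slash g x a b + slash g x b c = slash g x a c := hx _ _ _

/-- translation invariance of `x|g` by `N ℤ`. -/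
theorem slash_toQ_translate {N : ℕ} {x : Pairs R} (hx : x ∈ MS (Gamma1 N) R) (g : SL(2, ℤ))
    (n : ℤ) (s : ℚ) :
    slash (toQ g) x ∞ ((s + N * n : ℚ) : Cusp) = slash (toQ g) x ∞ (s : Cusp) := by
  have h : slash (toQ (g * ModularGroup.T ^ (N * n : ℤ))) x = slash (toQ g) x := by
    refine slash_toQ_congr hx ?_ ?_
    · simp [Matrix.mul_apply, Fin.sum_univ_two, ModularGroup.coe_T_zpow]
    · simp [Matrix.mul_apply, Fin.sum_univ_two, ModularGroup.coe_T_zpow]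
  have h' := congrFun (congrFun h ∞) (s : Cusp)
  rw [toQ_mul, slash_mul, slash_apply (toQ (ModularGroup.T ^ (N * n : ℤ))), toQ_T_zpow_smul_infty,
    toQ_T_zpow_smul_coe] at h'
  push_cast at h'
  exact h'

theorem heckeT_add {ℓ : ℕ} (hℓ : ℓ ≠ 0) {x : Pairs R} (hx : ∀ a b c, x a b + x b c = x a c)
    (a b c : Cusp) : heckeT ℓ x a b + heckeT ℓ x b c = heckeT ℓ x a c := by
  have : NeZero ℓ := ⟨hℓ⟩
  rw [heckeT_eq_sum]
  exact sum_apply_add (fun s => slash (heckeRepQ ℓ s) x) (fun s => slash_add_of_add hx _) a b c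

theorem sum_eq_add_sum_units {F A : Type*} [Field F] [Fintype F] [DecidableEq F]
    [AddCommMonoid A] (f : F → A) : ∑ j, f j = f 0 + ∑ j : Fˣ, f j := by
  rw [Fintype.sum_eq_add_sum_compl 0]
  congr 1
  rw [← Equiv.sum_comp (unitsEquivNeZero (G₀ := F)).symm]
  have : ∀ i : {a : F // a ≠ 0}, f ((unitsEquivNeZero (G₀ := F)).symm i : Fˣ) = f i := by
    intro i; rfl
  rw [Finset.sum_congr rfl fun i _ => this i]
  refine Finset.sum_subtype _ (fun x => ?_) f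
  simp

/-- **Main trick.** If `(x|g)` is `diag(u,1)`-invariant for all `g`, `u ≡ 1 mod N`, `ℓ ≡ 1 mod N`,
`p` divides the order of `u` mod `ℓ` and `p = 0` in `R`, then `T_ℓ x = 2 x`. -/
theorem heckeT_eq_two_smul_of_invariant {N ℓ p : ℕ} (hN : N ≠ 0) (hℓ : ℓ.Prime)
    (hℓN : ((ℓ : ℕ) : ZMod N) = 1) (hpR : (p : R) = 0) {x : Pairs R} (hx : x ∈ MS (Gamma1 N) R)
    {u : ℕ} (hu0 : u ≠ 0)
    (hinv : ∀ g : SL(2, ℤ), slash (diagMat u) (slash (toQ g) x) = slash (toQ g) x)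
    (v : (ZMod ℓ)ˣ) (hv : (v : ZMod ℓ) = u) (hord : p ∣ orderOf v) :
    heckeT ℓ x = (2 : R) • x := by
  have : Fact ℓ.Prime := ⟨hℓ⟩
  have : NeZero ℓ := ⟨hℓ.ne_zero⟩
  have : NeZero N := ⟨hN⟩
  have hℓ0 : (ℓ : ℚ) ≠ 0 := by exact_mod_cast hℓ.ne_zero
  -- `T_ℓ x` is additive
  have hadd : ∀ a b c, heckeT ℓ x a b + heckeT ℓ x b c = heckeT ℓ x a c :=
    heckeT_add hℓ.ne_zero hx.1
  refine ext_of_manin hadd (((MS (Gamma1 N) R).smul_mem _ hx).1) fun g => ?_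
  rw [heckeT_apply_manin hℓ hℓN hx]
  set y := slash (toQ g) x with hy
  have hy0 : x (toQ g • ∞) (toQ g • cusp0) = y ∞ cusp0 := rfl
  -- `S j`
  obtain ⟨c, hc⟩ : (N : ℤ) ∣ 1 - ℓ := by
    rw [← ZMod.intCast_zmod_eq_zero_iff_dvd]
    push_cast
    rw [hℓN, sub_self]
  let S : ℤ → R := fun j => y ∞ ((((1 - ℓ) * (j : ℚ)) / ℓ : ℚ) : Cusp)
  have hSper : ∀ j k : ℤ, S (j + ℓ * k) = S j := by
    intro j k
    simp only [S]
    rw [hy, ← slash_toQ_translate hx g (c * k) (((1 - ℓ) * (j : ℚ)) / ℓ)]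
    have hc' : (1 - ℓ : ℚ) = N * c := by exact_mod_cast congrArg (Int.cast : ℤ → ℚ) hc
    push_cast
    rw [hc']
    field_simp
  have hSmod : ∀ j j' : ℤ, ((j : ℤ) : ZMod ℓ) = ((j' : ℤ) : ZMod ℓ) → S j = S j' := by
    intro j j' h
    rw [ZMod.intCast_eq_intCast_iff] at h
    obtain ⟨k, hk⟩ := h.dvd
    rw [show j' = j + ℓ * k by rw [← hk]; ring, hSper]
  have hSu : ∀ j : ℤ, S (u * j) = S j := by
    intro j
    have h1 := congrFun (congrFun (hinv g) ∞) ((((1 - ℓ) * (j : ℚ)) / ℓ : ℚ) : Cusp)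
    rw [slash_apply, diagMat_smul_infty hu0, diagMat_smul_coe hu0] at h1
    simp only [S]
    rw [hy, ← h1]
    push_cast
    ring
  have hsum : ∑ j : (ZMod ℓ)ˣ, S ((j : ZMod ℓ).val : ℤ) = 0 := by
    refine sum_eq_zero_of_invariant hpR v hord _ fun j => ?_
    rw [← hSu ((j : ZMod ℓ).val : ℤ)]
    refine hSmod _ _ ?_
    push_cast
    rw [ZMod.natCast_zmod_val, ZMod.natCast_zmod_val, hv]
    ring
  have hS0 : S 0 = y ∞ cusp0 := by simp [S]
  have hsplit : ∑ j : ZMod ℓ, S (j.val : ℤ) = S 0 + ∑ j : (ZMod ℓ)ˣ, S ((j : ZMod ℓ).val : ℤ) := by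
    rw [sum_eq_add_sum_units]
    simp
  have hfin : ∑ j : ZMod ℓ, y ∞ ((((1 - ℓ) * (j.val : ℚ)) / ℓ : ℚ) : Cusp) = y ∞ cusp0 := by
    have : ∀ j : ZMod ℓ, y ∞ ((((1 - ℓ) * (j.val : ℚ)) / ℓ : ℚ) : Cusp) = S (j.val : ℤ) := by
      intro j; simp only [S]; push_cast; rfl
    rw [Finset.sum_congr rfl fun j _ => this j, hsplit, hsum, add_zero, hS0]
  rw [hfin]
  simp only [Pi.smul_apply, smul_eq_mul]
  rw [hy0]
  ring

/-- **Ihara's lemma with Eisenstein-free Hecke operator.** -/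
theorem heckeT_eq_two_smul_of_degen {N q p ℓ : ℕ} (hN : N ≠ 0) (hq : q.Prime) (hqN : ¬ q ∣ N)
    (hp : p.Prime) (hpR : (p : R) = 0) {x x' : Pairs R} (hx : x ∈ MS (Gamma1 N) R)
    (hx' : x' ∈ MS (Gamma1 N) R) (h : x = degen q x') (hℓ : ℓ.Prime)
    (hℓ1 : ℓ ≡ 1 [MOD N * (p * (2 * N.totient))]) (hpow : ∀ t : ZMod ℓ, t ^ p ≠ q) :
    heckeT ℓ x = (2 : R) • x := by
  have : Fact ℓ.Prime := ⟨hℓ⟩
  have hcop : Nat.Coprime N q := ((Nat.Prime.coprime_iff_not_dvd hq).mpr hqN).symm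
  have hm : ((q : ℤ) : ZMod N) ^ N.totient = 1 := by
    have := ZMod.pow_totient (ZMod.unitOfCoprime q hcop.symm)
    have := congrArg Units.val this
    rw [Units.val_pow_eq_pow_val, Units.val_one, ZMod.coe_unitOfCoprime] at this
    exact_mod_cast this
  have hℓN : ((ℓ : ℕ) : ZMod N) = 1 := by
    have := (ZMod.natCast_eq_natCast_iff _ _ _).mpr (hℓ1.of_mul_right _)
    simpa using this
  have hq0 : (q : ZMod ℓ) ≠ 0 := fun h0 => hpow 0 (by rw [zero_pow hp.ne_zero, h0])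
  refine heckeT_eq_two_smul_of_invariant (p := p) hN hℓ hℓN hpR hx (u := q ^ (2 * N.totient))
    (pow_ne_zero _ hq.ne_zero) (fun g => slash_diagMat_of_degen hq.ne_zero hcop hx hx' h hm g)
    ((Units.mk0 _ hq0) ^ (2 * N.totient)) (by simp) ?_
  refine dvd_orderOf_pow hp ?_ _ fun t ht => hpow t ?_
  · rw [ZMod.card_units_eq_totient, Nat.totient_prime hℓ]
    have h2 := (Nat.modEq_iff_dvd' hℓ.one_le).mp (hℓ1.of_mul_left _).symm
    exact h2
  · have := congrArg Units.val ht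
    simpa using this

/-- The boundary symbol of `ψ : cusps → R`. -/
def bdry (ψ : Cusp → R) : Pairs R := fun a b => ψ b - ψ a

theorem bdry_apply (ψ : Cusp → R) (a b : Cusp) : bdry ψ a b = ψ b - ψ a := rfl

theorem bdry_add (ψ : Cusp → R) (a b c : Cusp) : bdry ψ a b + bdry ψ b c = bdry ψ a c := by
  simp only [bdry_apply]; ring

theorem bdry_mem {Γ : Subgroup SL(2, ℤ)} {ψ : Cusp → R}
    (hψ : ∀ γ ∈ Γ, ∀ c, ψ (toQ γ • c) = ψ c) : bdry ψ ∈ MS Γ R := by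
  refine ⟨bdry_add ψ, fun γ hγ => ?_⟩
  funext a b
  rw [slash_apply, bdry_apply, bdry_apply, hψ γ hγ, hψ γ hγ]

/-- `T_ℓ` acts as `1 + ℓ` on boundary symbols of level `Γ₁(N)` for `ℓ ≡ 1 mod N`. -/
theorem heckeT_bdry {N ℓ : ℕ} (hℓ : ℓ.Prime) (hℓN : ((ℓ : ℕ) : ZMod N) = 1) {ψ : Cusp → R}
    (hψ : ∀ γ ∈ Gamma1 N, ∀ c, ψ (toQ γ • c) = ψ c) :
    heckeT ℓ (bdry ψ) = ((1 + ℓ : ℕ) : R) • bdry ψ := by
  have : NeZero ℓ := ⟨hℓ.ne_zero⟩
  have hℓ0 : ℓ ≠ 0 := hℓ.ne_zero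
  set X : Pairs R := fun _ b => ψ b with hX
  have hXinv : ∀ γ ∈ Gamma1 N, slash (toQ γ) X = X := by
    intro γ hγ
    funext a b
    exact hψ γ hγ b
  have key : ∀ c, heckeT ℓ X c c = ((1 + ℓ : ℕ) : R) * ψ c := by
    intro c
    obtain ⟨g, rfl⟩ := exists_SL2_smul_infty c
    have h := congrFun (congrFun (slash_heckeT hℓ hℓN hXinv g) ∞) ∞
    rw [slash_apply] at h
    rw [h]
    simp only [Pi.add_apply, Finset.sum_apply, slash_apply, heckeMat_smul_infty hℓ0,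
      diagMat_smul_infty hℓ0]
    simp only [hX, Finset.sum_const, Finset.card_univ, ZMod.card, nsmul_eq_mul]
    push_cast; ring
  funext a b
  have e : heckeT ℓ (bdry ψ) a b = heckeT ℓ X b b - heckeT ℓ X a a := by
    rw [heckeT_eq_sum, heckeT_eq_sum]
    simp only [Finset.sum_apply]
    rw [← Finset.sum_sub_distrib]
    rfl
  rw [e, key, key]
  simp only [Pi.smul_apply, smul_eq_mul, bdry_apply]
  ring

end Fermat.Agent.LR
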