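import Fermat.Agent.LR.Form
import Fermat.Agent.LR.Ihara

/-!
# Poincaré duality for modular symbols: compatibility with level change (team LR)

`IsCoc Γ ω` : alternating `Γ`-invariant 2-cocycles on the cusps; `tot Γ ω = ∑_{Γ\SL₂(ℤ)} ω(g∞,g0,g1)`.
* coboundaries have total `0`, and conversely (`exists_primitive_of_tot_eq_zero`);
* the orientation cocycle is invariant under `GL₂⁺(ℚ)`; hence `tot` is compatible with conjugation
  by `GL₂⁺(ℚ)` (`tot_conj`).
-/

set_option autoImplicit false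

open Matrix Matrix.SpecialLinearGroup CongruenceSubgroup
open scoped MatrixGroups OnePoint

namespace Fermat.Agent.LR

local notation "S" => ModularGroup.S
local notation "T" => ModularGroup.T

/-! ### sums over `Γ \ SL(2,ℤ)` -/

section csum

theorem out_inv_eq {A : Type*} {Γ : Subgroup SL(2, ℤ)} {f : SL(2, ℤ) → A}
    (hf : ∀ γ ∈ Γ, ∀ g, f (γ * g) = f g) (g : SL(2, ℤ)) :
    f ((g : SL(2, ℤ) ⧸ Γ).out)⁻¹ = f g⁻¹ := by
  obtain ⟨γ, hγ⟩ := QuotientGroup.mk_out_eq_mul Γ g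
  rw [hγ, _root_.mul_inv_rev, hf _ (inv_mem γ.2)]

variable {A : Type*} [AddCommGroup A]

/-- sum of a left `Γ`-invariant function over `Γ \ SL(2,ℤ)`. -/
noncomputable def csum (Γ : Subgroup SL(2, ℤ)) (f : SL(2, ℤ) → A) : A :=
  ∑ᶠ c : SL(2, ℤ) ⧸ Γ, f c.out⁻¹

theorem csum_eq_sum (Γ : Subgroup SL(2, ℤ)) [Fintype (SL(2, ℤ) ⧸ Γ)] (f : SL(2, ℤ) → A) :
    csum Γ f = ∑ c : SL(2, ℤ) ⧸ Γ, f c.out⁻¹ := finsum_eq_sum_of_fintype _

theorem csum_mul_right {Γ : Subgroup SL(2, ℤ)} {f : SL(2, ℤ) → A}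
    (hf : ∀ γ ∈ Γ, ∀ g, f (γ * g) = f g) (k : SL(2, ℤ)) :
    csum Γ (fun g => f (g * k)) = csum Γ f := by
  symm
  rw [csum, csum, ← finsum_comp_equiv (MulAction.toPerm (k⁻¹ : SL(2, ℤ)))]
  refine finsum_congr fun c => ?_
  induction c using QuotientGroup.induction_on with
  | H g =>
    rw [MulAction.toPerm_apply, MulAction.Quotient.smul_coe, smul_eq_mul,
      out_inv_eq (f := fun g => f (g * k)) (fun γ hγ g => by rw [mul_assoc, hf γ hγ]),
      out_inv_eq hf, _root_.mul_inv_rev, inv_inv]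

variable (Γ : Subgroup SL(2, ℤ)) [Γ.FiniteIndex]

theorem csum_add (f f' : SL(2, ℤ) → A) : csum Γ (fun g => f g + f' g) = csum Γ f + csum Γ f' :=
  finsum_add_distrib (Set.toFinite _) (Set.toFinite _)

theorem csum_sub (f f' : SL(2, ℤ) → A) : csum Γ (fun g => f g - f' g) = csum Γ f - csum Γ f' :=
  finsum_sub_distrib (Set.toFinite _) (Set.toFinite _)

omit [Γ.FiniteIndex] in
theorem csum_neg (f : SL(2, ℤ) → A) : csum Γ (fun g => - f g) = - csum Γ f := by
  rw [csum, csum, ← finsum_neg_distrib]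

theorem csum_mul_left {R : Type*} [CommRing R] (r : R) (f : SL(2, ℤ) → R) :
    csum Γ (fun g => r * f g) = r * csum Γ f := by
  have := Fintype.ofFinite (SL(2, ℤ) ⧸ Γ)
  rw [csum_eq_sum, csum_eq_sum, Finset.mul_sum]

theorem csum_const (a : A) : csum Γ (fun _ => a) = Γ.index • a := by
  have := Fintype.ofFinite (SL(2, ℤ) ⧸ Γ)
  rw [csum_eq_sum, Finset.sum_const, Finset.card_univ, Subgroup.index_eq_card,
    Nat.card_eq_fintype_card]

theorem map_csum {B : Type*} [AddCommGroup B] (φ : A →+ B) (f : SL(2, ℤ) → A) :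
    φ (csum Γ f) = csum Γ (fun g => φ (f g)) := by
  have := Fintype.ofFinite (SL(2, ℤ) ⧸ Γ)
  rw [csum_eq_sum, csum_eq_sum, map_sum]

/-- decomposition of a sum over `Γ' \ SL(2,ℤ)` for `Γ' ≤ Γ`. -/
theorem csum_subgroup {Γ Γ' : Subgroup SL(2, ℤ)} [Γ.FiniteIndex] [Γ'.FiniteIndex] {ι : Type*}
    [Fintype ι] (hle : Γ' ≤ Γ) (r : ι → SL(2, ℤ)) (hr : ∀ i, r i ∈ Γ)
    (hex : ∀ γ ∈ Γ, ∃ i, γ * (r i)⁻¹ ∈ Γ') (huniq : ∀ i j, r i * (r j)⁻¹ ∈ Γ' → i = j)
    {f : SL(2, ℤ) → A} (hf : ∀ γ ∈ Γ', ∀ g, f (γ * g) = f g) :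
    csum Γ' f = csum Γ (fun g => ∑ i, f (r i * g)) := by
  have := Fintype.ofFinite (SL(2, ℤ) ⧸ Γ)
  have := Fintype.ofFinite (SL(2, ℤ) ⧸ Γ')
  rw [csum_eq_sum, csum_eq_sum, ← Fintype.sum_prod_type']
  symm
  let Φ : (SL(2, ℤ) ⧸ Γ) × ι → SL(2, ℤ) ⧸ Γ' := fun x => ((x.1.out * (r x.2)⁻¹ : SL(2, ℤ)) : _)
  have hΦ : Function.Bijective Φ := by
    refine ⟨?_, fun c => ?_⟩
    · rintro ⟨c, i⟩ ⟨c', j⟩ h
      have h' : (c.out * (r i)⁻¹)⁻¹ * (c'.out * (r j)⁻¹) ∈ Γ' := QuotientGroup.eq.mp h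
      have h1 : c = c' := by
        rw [← QuotientGroup.out_eq' c, ← QuotientGroup.out_eq' c']
        refine QuotientGroup.eq.mpr ?_
        have := mul_mem (mul_mem (inv_mem (hr i)) (hle h')) (hr j)
        convert this using 1
        group
      subst h1
      have h2 : r i * (r j)⁻¹ ∈ Γ' := by
        convert h' using 1
        group
      rw [huniq i j h2]
    · induction c using QuotientGroup.induction_on with
      | H g =>
        obtain ⟨γ, hγ⟩ := QuotientGroup.mk_out_eq_mul Γ g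
        obtain ⟨i, hi⟩ := hex γ γ.2
        refine ⟨((g : SL(2, ℤ) ⧸ Γ), i), ?_⟩
        refine QuotientGroup.eq.mpr ?_
        simp only
        rw [hγ]
        convert inv_mem hi using 1
        group
  rw [← (Equiv.ofBijective Φ hΦ).sum_comp]
  refine Finset.sum_congr rfl fun x _ => ?_
  rw [Equiv.ofBijective_apply, out_inv_eq hf, _root_.mul_inv_rev, inv_inv]

end csum

/-! ### splitting sum-zero functions -/

section split

variable {Γ : Subgroup SL(2, ℤ)}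

theorem neg_one_smul_quot (hneg : (-1 : SL(2, ℤ)) ∈ Γ) (c : SL(2, ℤ) ⧸ Γ) :
    (-1 : SL(2, ℤ)) • c = c := by
  induction c using QuotientGroup.induction_on with
  | H g =>
    rw [MulAction.Quotient.smul_coe, smul_eq_mul]
    refine QuotientGroup.eq.mpr ?_
    have : ((-1 : SL(2, ℤ)) * g)⁻¹ * g = (-1 : SL(2, ℤ))⁻¹ := by
      rw [neg_one_mul, ← mul_neg_one, _root_.mul_inv_rev, inv_mul_cancel_right]
    rw [this]
    exact inv_mem hneg

theorem S_smul_S_smul (hneg : (-1 : SL(2, ℤ)) ∈ Γ) (c : SL(2, ℤ) ⧸ Γ) : S • S • c = c := by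
  rw [← mul_smul, ← pow_two, S_sq, neg_one_smul_quot hneg]

theorem U_smul_U_smul (hneg : (-1 : SL(2, ℤ)) ∈ Γ) (c : SL(2, ℤ) ⧸ Γ) : U • U • U • c = c := by
  rw [← mul_smul, ← mul_smul, ← pow_two, ← pow_succ, U_pow_three, neg_one_smul_quot hneg]

/-- a function on `SL(2,ℤ) ⧸ Γ` with sum zero is `a + b` with `a` anti-invariant under `S` and `b`
killed by the trace of `U`. -/
theorem exists_split_quot [Fintype (SL(2, ℤ) ⧸ Γ)] (hneg : (-1 : SL(2, ℤ)) ∈ Γ)
    (F : SL(2, ℤ) ⧸ Γ → ℚ) (hF : ∑ c, F c = 0) : ∃ a b : SL(2, ℤ) ⧸ Γ → ℚ,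
      (∀ c, a c + a (S⁻¹ • c) = 0) ∧ (∀ c, b c + b (U⁻¹ • c) + b (U⁻¹ • U⁻¹ • c) = 0) ∧
      F = a + b := by
  classical
  let A : Submodule ℚ (SL(2, ℤ) ⧸ Γ → ℚ) :=
    { carrier := {a | ∀ c, a c + a (S⁻¹ • c) = 0}
      zero_mem' := by simp
      add_mem' := by
        intro a b ha hb c
        simp only [Pi.add_apply]
        linear_combination ha c + hb c
      smul_mem' := by
        intro r a ha c
        simp only [Pi.smul_apply, smul_eq_mul]
        linear_combination r * ha c }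
  let B : Submodule ℚ (SL(2, ℤ) ⧸ Γ → ℚ) :=
    { carrier := {b | ∀ c, b c + b (U⁻¹ • c) + b (U⁻¹ • U⁻¹ • c) = 0}
      zero_mem' := by simp
      add_mem' := by
        intro a b ha hb c
        simp only [Pi.add_apply]
        linear_combination ha c + hb c
      smul_mem' := by
        intro r a ha c
        simp only [Pi.smul_apply, smul_eq_mul]
        linear_combination r * ha c }
  have key : F ∈ A ⊔ B := by
    by_contra hFn
    obtain ⟨ψ, hψ1, hψ2⟩ := Submodule.exists_dual_map_eq_bot_of_notMem hFn inferInstance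
    have hψ : ∀ x ∈ A ⊔ B, ψ x = 0 := by
      intro x hx
      have : ψ x ∈ (A ⊔ B).map ψ := Submodule.mem_map_of_mem hx
      rwa [hψ2, Submodule.mem_bot] at this
    set φ : SL(2, ℤ) ⧸ Γ → ℚ := fun c => ψ (Pi.single c 1) with hφ
    have hS : ∀ c, φ (S • c) = φ c := by
      intro c
      have hmem : (Pi.single c 1 - Pi.single (S • c) 1 : SL(2, ℤ) ⧸ Γ → ℚ) ∈ A ⊔ B := by
        refine Submodule.mem_sup_left ?_
        intro c'
        have e1 : (S⁻¹ • c' = c) ↔ c' = S • c := by rw [inv_smul_eq_iff]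
        have e2 : (S⁻¹ • c' = S • c) ↔ c' = c := by
          rw [inv_smul_eq_iff, S_smul_S_smul hneg]
        simp only [Pi.sub_apply, Pi.single_apply, e1, e2]
        ring
      have := hψ _ hmem
      rw [map_sub, sub_eq_zero] at this
      exact this.symm
    have hU : ∀ c, φ (U • c) = φ c := by
      intro c
      have hmem : (Pi.single c 1 - Pi.single (U • c) 1 : SL(2, ℤ) ⧸ Γ → ℚ) ∈ A ⊔ B := by
        refine Submodule.mem_sup_right ?_
        intro c'
        have e1 : (U⁻¹ • c' = c) ↔ c' = U • c := by rw [inv_smul_eq_iff]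
        have e2 : (U⁻¹ • c' = U • c) ↔ c' = U • U • c := by rw [inv_smul_eq_iff]
        have e3 : (U⁻¹ • U⁻¹ • c' = c) ↔ c' = U • U • c := by
          rw [inv_smul_eq_iff, inv_smul_eq_iff]
        have e4 : (U⁻¹ • U⁻¹ • c' = U • c) ↔ c' = c := by
          rw [inv_smul_eq_iff, inv_smul_eq_iff, U_smul_U_smul hneg]
        simp only [Pi.sub_apply, Pi.single_apply, e1, e2, e3, e4]
        ring
      have := hψ _ hmem
      rw [map_sub, sub_eq_zero] at this
      exact this.symm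
    have hall : ∀ g : SL(2, ℤ), ∀ c, φ (g • c) = φ c := by
      intro g
      have hg : g ∈ Subgroup.closure {S, U} := closure_S_U ▸ Subgroup.mem_top g
      induction hg using Subgroup.closure_induction with
      | mem y hy =>
        rcases hy with rfl | rfl
        · exact hS
        · exact hU
      | one => intro c; rw [one_smul]
      | mul y z _ _ hy hz => intro c; rw [mul_smul, hy, hz]
      | inv y _ hy => intro c; rw [← hy (y⁻¹ • c), smul_inv_smul]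
    have hconst : ∀ c, φ c = φ ((1 : SL(2, ℤ)) : SL(2, ℤ) ⧸ Γ) := by
      intro c
      induction c using QuotientGroup.induction_on with
      | H g =>
        rw [← hall g ((1 : SL(2, ℤ)) : SL(2, ℤ) ⧸ Γ), MulAction.Quotient.smul_coe, smul_eq_mul,
          mul_one]
    apply hψ1
    have hFsum : F = ∑ c, F c • (Pi.single c 1 : SL(2, ℤ) ⧸ Γ → ℚ) := by
      funext c'
      simp [Finset.sum_apply, Pi.single_apply]
    rw [hFsum, map_sum]
    have : ∀ c, ψ (F c • (Pi.single c 1 : SL(2, ℤ) ⧸ Γ → ℚ)) =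
        F c * φ ((1 : SL(2, ℤ)) : SL(2, ℤ) ⧸ Γ) := by
      intro c
      rw [map_smul, smul_eq_mul, ← hconst c]
    rw [Finset.sum_congr rfl fun c _ => this c, ← Finset.sum_mul, hF, zero_mul]
  obtain ⟨a, ha, b, hb, hab⟩ := Submodule.mem_sup.mp key
  exact ⟨a, b, ha, hb, hab.symm⟩

theorem exists_split [Γ.FiniteIndex] (hneg : (-1 : SL(2, ℤ)) ∈ Γ)
    (F : SL(2, ℤ) → ℚ) (hFinv : ∀ γ ∈ Γ, ∀ g, F (γ * g) = F g) (hF : csum Γ F = 0) :
    ∃ a b : SL(2, ℤ) → ℚ, (∀ γ ∈ Γ, ∀ g, a (γ * g) = a g) ∧ (∀ γ ∈ Γ, ∀ g, b (γ * g) = b g) ∧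
      (∀ g, a g + a (g * S) = 0) ∧ (∀ g, b g + b (g * U) + b (g * U ^ 2) = 0) ∧
      ∀ g, F g = a g + b g := by
  have := Fintype.ofFinite (SL(2, ℤ) ⧸ Γ)
  rw [csum_eq_sum] at hF
  obtain ⟨a, b, ha, hb, hab⟩ := exists_split_quot hneg (fun c => F c.out⁻¹) hF
  refine ⟨fun g => a ((g⁻¹ : SL(2, ℤ)) : SL(2, ℤ) ⧸ Γ), fun g => b ((g⁻¹ : SL(2, ℤ)) : SL(2, ℤ) ⧸ Γ),
    ?_, ?_, ?_, ?_, ?_⟩
  · intro γ hγ g
    simp only
    rw [_root_.mul_inv_rev, QuotientGroup.mk_mul_of_mem _ (inv_mem hγ)]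
  · intro γ hγ g
    simp only
    rw [_root_.mul_inv_rev, QuotientGroup.mk_mul_of_mem _ (inv_mem hγ)]
  · intro g
    simp only
    rw [_root_.mul_inv_rev, ← smul_eq_mul, ← MulAction.Quotient.smul_coe, ha]
  · intro g
    simp only
    rw [_root_.mul_inv_rev, _root_.mul_inv_rev, ← smul_eq_mul, ← smul_eq_mul,
        ← MulAction.Quotient.smul_coe, ← MulAction.Quotient.smul_coe, pow_two,
        _root_.mul_inv_rev, mul_smul, hb]
  · intro g
    have := congrFun hab ((g⁻¹ : SL(2, ℤ)) : SL(2, ℤ) ⧸ Γ)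
    simp only [Pi.add_apply] at this
    rw [out_inv_eq hFinv, inv_inv] at this
    exact this

end split

/-! ### cocycles -/

/-- alternating `Γ`-invariant 2-cocycle on the cusps. -/
structure IsCoc (Γ : Subgroup SL(2, ℤ)) (ω : Cusp → Cusp → Cusp → ℚ) : Prop where
  swap : ∀ a b c, ω b a c = - ω a b c
  cyc : ∀ a b c, ω b c a = ω a b c
  coc : ∀ a b c d, ω a b c + ω a c d = ω a b d + ω b c d
  inv : ∀ γ ∈ Γ, ∀ a b c, ω (toQ γ • a) (toQ γ • b) (toQ γ • c) = ω a b c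

/-- `∑_{g ∈ Γ\SL₂(ℤ)} ω(g∞, g0, g1)`. -/
noncomputable def tot (Γ : Subgroup SL(2, ℤ)) (ω : Cusp → Cusp → Cusp → ℚ) : ℚ :=
  csum Γ (fun g => ω (toQ g • ∞) (toQ g • ((0 : ℚ) : Cusp)) (toQ g • ((1 : ℚ) : Cusp)))

section coc

variable {Γ : Subgroup SL(2, ℤ)} {ω : Cusp → Cusp → Cusp → ℚ}

theorem IsCoc.aab (h : IsCoc Γ ω) (a c : Cusp) : ω a a c = 0 := by
  have := h.swap a a c
  linarith

theorem IsCoc.aba (h : IsCoc Γ ω) (a b : Cusp) : ω a b a = 0 := by
  rw [h.cyc a a b, h.aab]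

theorem IsCoc.abb (h : IsCoc Γ ω) (a b : Cusp) : ω a b b = 0 := by
  rw [← h.cyc a b b, h.aab]

theorem toQ_mul_U_infty (g : SL(2, ℤ)) : toQ (g * U) • (∞ : Cusp) = toQ g • ((0 : ℚ) : Cusp) := by
  rw [toQ_mul_smul, toQ_U_infty]

theorem toQ_mul_U_zero (g : SL(2, ℤ)) :
    toQ (g * U) • ((0 : ℚ) : Cusp) = toQ g • ((1 : ℚ) : Cusp) := by
  rw [toQ_mul_smul, toQ_U_zero]

theorem toQ_mul_U_one (g : SL(2, ℤ)) :
    toQ (g * U) • ((1 : ℚ) : Cusp) = toQ g • (∞ : Cusp) := by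
  rw [toQ_mul_smul, toQ_U_one]

theorem toQ_mul_S_infty (g : SL(2, ℤ)) : toQ (g * S) • (∞ : Cusp) = toQ g • ((0 : ℚ) : Cusp) := by
  rw [toQ_mul_smul, toQ_S_infty]

theorem toQ_mul_S_zero (g : SL(2, ℤ)) :
    toQ (g * S) • ((0 : ℚ) : Cusp) = toQ g • (∞ : Cusp) := by
  rw [toQ_mul_smul, toQ_S_zero]

/-- coboundaries have total `0`. -/
theorem tot_eq_zero_of_primitive [Γ.FiniteIndex] {η : Pairs ℚ} (hη : ∀ a b, η b a = - η a b)
    (hinv : ∀ γ ∈ Γ, ∀ a b, η (toQ γ • a) (toQ γ • b) = η a b)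
    (h : ∀ a b c, ω a b c = η a b + η b c + η c a) : tot Γ ω = 0 := by
  set F : SL(2, ℤ) → ℚ := fun g => η (toQ g • ∞) (toQ g • ((0 : ℚ) : Cusp)) with hF
  have hFinv : ∀ γ ∈ Γ, ∀ g, F (γ * g) = F g := by
    intro γ hγ g
    simp only [hF, toQ_mul_smul]
    exact hinv γ hγ _ _
  have h1 : csum Γ F = 0 := by
    have e1 := csum_mul_right hFinv S
    have e2 : (fun g => F (g * S)) = fun g => - F g := by
      funext g
      simp only [hF]
      rw [toQ_mul_S_infty, toQ_mul_S_zero, hη]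
    rw [e2, csum_neg] at e1
    linarith
  have h2 : tot Γ ω = csum Γ F + csum Γ (fun g => F (g * U)) + csum Γ (fun g => F (g * U * U)) := by
    rw [← csum_add, ← csum_add, tot]
    congr 1
    funext g
    simp only [hF, toQ_mul_U_infty, toQ_mul_U_zero, toQ_mul_U_one]
    rw [h]
  have h3 : csum Γ (fun g => F (g * U * U)) = csum Γ F := by
    rw [← csum_mul_right hFinv (U * U)]
    simp only [mul_assoc]
  rw [h2, h3, csum_mul_right hFinv U, h1]
  ring

/-- **A cocycle of total `0` is a coboundary.** -/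
theorem exists_primitive_of_tot_eq_zero [Γ.FiniteIndex] (hneg : (-1 : SL(2, ℤ)) ∈ Γ)
    (h : IsCoc Γ ω) (ht : tot Γ ω = 0) : ∃ η : Pairs ℚ, (∀ a b, η b a = - η a b) ∧
      (∀ γ ∈ Γ, ∀ a b, η (toQ γ • a) (toQ γ • b) = η a b) ∧
      ∀ a b c, ω a b c = η a b + η b c + η c a := by
  -- the function to split
  set F : SL(2, ℤ) → ℚ := fun g =>
    (1 / 3) * ω (toQ g • ∞) (toQ g • ((0 : ℚ) : Cusp)) (toQ g • ((1 : ℚ) : Cusp)) with hFdef
  have hFinv : ∀ γ ∈ Γ, ∀ g, F (γ * g) = F g := by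
    intro γ hγ g
    simp only [hFdef, toQ_mul_smul]
    rw [h.inv γ hγ]
  have hF0 : csum Γ F = 0 := by
    rw [hFdef, csum_mul_left]
    change 1 / 3 * tot Γ ω = 0
    rw [ht, mul_zero]
  obtain ⟨a, b, haΓ, hbΓ, haS, hbU, hab⟩ := exists_split hneg F hFinv hF0
  have hneg' : ∀ (f : SL(2, ℤ) → ℚ), (∀ γ ∈ Γ, ∀ g, f (γ * g) = f g) → ∀ g, f (-g) = f g := by
    intro f hf g
    have := hf (-1) hneg g
    rwa [neg_one_mul] at this
  have hFU : ∀ g, F (g * U) = F g := by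
    intro g
    simp only [hFdef]
    rw [toQ_mul_U_infty, toQ_mul_U_zero, toQ_mul_U_one, h.cyc]
  -- `m g = a g - ω(∞, g∞, g0)`
  set m : SL(2, ℤ) → ℚ := fun g =>
    a g - ω ∞ (toQ g • ∞) (toQ g • ((0 : ℚ) : Cusp)) with hm
  have hmS : ∀ g, m g + m (g * S) = 0 := by
    intro g
    simp only [hm]
    rw [toQ_mul_S_infty, toQ_mul_S_zero]
    have h1 := haS g
    have h2 := h.swap (toQ g • ∞) ∞ (toQ g • ((0 : ℚ) : Cusp))
    have h3 := h.coc ∞ (toQ g • ∞) (toQ g • ((0 : ℚ) : Cusp)) (toQ g • ∞)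
    rw [h.abb, h.aba] at h3
    linarith
  have hmU : ∀ g, m g + m (g * U) + m (g * U ^ 2) = 0 := by
    intro g
    simp only [hm]
    rw [pow_two, ← mul_assoc, toQ_mul_U_infty, toQ_mul_U_infty, toQ_mul_U_zero, toQ_mul_U_zero,
      toQ_mul_U_one]
    have h1 := hbU g
    rw [pow_two, ← mul_assoc] at h1
    have e1 := hab g
    have e2 := hab (g * U)
    have e3 := hab (g * U * U)
    rw [hFU] at e2
    rw [hFU, hFU] at e3
    have e4 : F g = (1 / 3) * ω (toQ g • ∞) (toQ g • ((0 : ℚ) : Cusp)) (toQ g • ((1 : ℚ) : Cusp)) :=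
      rfl
    have h3 := h.coc ∞ (toQ g • ∞) (toQ g • ((0 : ℚ) : Cusp)) (toQ g • ((1 : ℚ) : Cusp))
    have h4 := h.coc ∞ (toQ g • ∞) (toQ g • ((1 : ℚ) : Cusp)) (toQ g • ∞)
    rw [h.abb, h.aba] at h4
    linarith
  have hme : ∀ g, m (-g) = m g := by
    intro g
    simp only [hm]
    rw [hneg' a haΓ, toQ_neg_smul, toQ_neg_smul]
  obtain ⟨κ, hκS, hκU⟩ := exists_primitive m m hme hme hmS hmU
  -- the two-variable function
  set ζ : SL(2, ℤ) → SL(2, ℤ) → ℚ := fun g k =>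
    κ k - κ g + ω ∞ (toQ g • ∞) (toQ k • ∞) with hζ
  have hζadd : ∀ g k l, ζ g k + ζ k l = ζ g l + ω (toQ g • ∞) (toQ k • ∞) (toQ l • ∞) := by
    intro g k l
    simp only [hζ]
    have := h.coc ∞ (toQ g • ∞) (toQ k • ∞) (toQ l • ∞)
    linarith
  have hζS : ∀ g, ζ g (g * S) = a g := by
    intro g
    simp only [hζ]
    rw [hκS, toQ_mul_S_infty]
    simp only [hm]
    ring
  have hζU : ∀ g, ζ g (g * U) = a g := by
    intro g
    simp only [hζ]
    rw [hκU, toQ_mul_U_infty]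
    simp only [hm]
    ring
  have hζself : ∀ g, ζ g g = 0 := by
    intro g
    simp only [hζ]
    rw [h.abb]; ring
  have hζswap : ∀ g k, ζ k g = - ζ g k := by
    intro g k
    have := hζadd g k g
    rw [hζself, h.aba] at this
    linarith
  -- `Γ`-invariance
  have hζΓ : ∀ γ ∈ Γ, ∀ g k, ζ (γ * g) (γ * k) = ζ g k := by
    intro γ hγ g
    have hstep : ∀ k l, ζ (γ * k) (γ * l) = ζ k l →
        ζ (γ * g) (γ * l) - ζ g l = ζ (γ * g) (γ * k) - ζ g k := by
      intro k l hkl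
      have h1 := hζadd (γ * g) (γ * k) (γ * l)
      have h2 := hζadd g k l
      simp only [toQ_mul_smul] at h1
      rw [h.inv γ hγ] at h1
      linarith
    have hc := const_of_S_U (f := fun k => ζ (γ * g) (γ * k) - ζ g k)
      (fun k => hstep k (k * S) (by rw [← mul_assoc, hζS, hζS, haΓ γ hγ]))
      (fun k => hstep k (k * U) (by rw [← mul_assoc, hζU, hζU, haΓ γ hγ]))
    intro k
    have h1 := hc k
    have h2 := hc g
    simp only [hζself] at h1 h2
    linarith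
  -- dependence on the cusp only
  have hζinf : ∀ g k l, toQ k • (∞ : Cusp) = toQ l • ∞ → ζ g k = ζ g l := by
    intro g k l hkl
    have hstep : ∀ k l, toQ l • (∞ : Cusp) = toQ k • ((0 : ℚ) : Cusp) → ζ k l = a k →
        ζ g l = ζ g k + (a k - ω (toQ g • ∞) (toQ k • ∞) (toQ k • ((0 : ℚ) : Cusp))) := by
      intro k l h1 h2
      have h3 := hζadd g k l
      rw [h1, h2] at h3
      linarith
    refine eq_of_smul_infty_eq
      (m := fun k => a k - ω (toQ g • ∞) (toQ k • ∞) (toQ k • ((0 : ℚ) : Cusp))) (k := ζ g)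
      ?_ (fun k => hstep k (k * S) (toQ_mul_S_infty k) (hζS k))
      (fun k => hstep k (k * U) (toQ_mul_U_infty k) (hζU k)) hkl
    intro k
    rw [toQ_mul_S_infty, toQ_mul_S_zero]
    have h1 := haS k
    have h3 := h.coc (toQ g • ∞) (toQ k • ∞) (toQ k • ((0 : ℚ) : Cusp)) (toQ k • ∞)
    rw [h.abb, h.aba] at h3
    linarith
  -- descend to cusps
  choose r hr using exists_toQ
  have hζinf' : ∀ g g' k k', toQ g • (∞ : Cusp) = toQ g' • ∞ → toQ k • (∞ : Cusp) = toQ k' • ∞ →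
      ζ g k = ζ g' k' := by
    intro g g' k k' h1 h2
    rw [hζinf g k k' h2, hζswap k' g, hζinf k' g g' h1, ← hζswap k' g']
  refine ⟨fun s t => ζ (r s) (r t), fun s t => hζswap _ _, ?_, ?_⟩
  · intro γ hγ s t
    simp only
    rw [← hζΓ γ hγ (r s) (r t)]
    refine hζinf' _ _ _ _ ?_ ?_
    · rw [hr, toQ_mul_smul, hr]
    · rw [hr, toQ_mul_smul, hr]
  · intro s t u
    simp only
    have h1 := hζadd (r s) (r t) (r u)
    rw [hr, hr, hr] at h1
    have h2 := hζswap (r s) (r u)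
    linarith

end coc

/-! ### the orientation cocycle -/

/-- sign, with values in `ℚ`. -/
def sg (x : ℚ) : ℚ := ((SignType.sign x : SignType) : ℚ)

theorem sg_mul (x y : ℚ) : sg (x * y) = sg x * sg y := by
  simp [sg, sign_mul]

theorem sg_pos {x : ℚ} (h : 0 < x) : sg x = 1 := by simp [sg, sign_pos h]

theorem sg_neg {x : ℚ} (h : x < 0) : sg x = -1 := by simp [sg, sign_neg h]

@[simp] theorem sg_zero : sg 0 = 0 := by simp [sg]

@[simp] theorem sg_one : sg 1 = 1 := sg_pos one_pos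

@[simp] theorem sg_neg_one : sg (-1) = -1 := sg_neg (by norm_num)

theorem sg_sq {x : ℚ} (h : x ≠ 0) : sg x * sg x = 1 := by
  rcases lt_or_gt_of_ne h with h | h
  · rw [sg_neg h]; norm_num
  · rw [sg_pos h]; norm_num

theorem sg_neg' (x : ℚ) : sg (-x) = - sg x := by
  rw [neg_eq_neg_one_mul, sg_mul]; simp

theorem sg_cases (x y : ℚ) : (x < y ∧ sg (y - x) = 1) ∨ (x = y ∧ sg (y - x) = 0) ∨
    (y < x ∧ sg (y - x) = -1) := by
  rcases lt_trichotomy x y with h | h | h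
  · exact Or.inl ⟨h, sg_pos (sub_pos.mpr h)⟩
  · exact Or.inr (Or.inl ⟨h, by rw [h, sub_self, sg_zero]⟩)
  · exact Or.inr (Or.inr ⟨h, sg_neg (sub_neg.mpr h)⟩)

theorem sg_three (x y z : ℚ) :
    sg (y - x) + sg (z - y) + sg (x - z) = - (sg (y - x) * sg (z - y) * sg (x - z)) := by
  rcases sg_cases x y with ⟨h1, e1⟩ | ⟨h1, e1⟩ | ⟨h1, e1⟩ <;>
  rcases sg_cases y z with ⟨h2, e2⟩ | ⟨h2, e2⟩ | ⟨h2, e2⟩ <;>
  rcases sg_cases z x with ⟨h3, e3⟩ | ⟨h3, e3⟩ | ⟨h3, e3⟩ <;>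
  rw [e1, e2, e3] <;> first | (norm_num; done) | (exfalso; linarith)

/-- homogeneous coordinates of a cusp -/
def cuspX : Cusp → ℚ := fun c => c.elim 1 id
def cuspY : Cusp → ℚ := fun c => c.elim 0 (fun _ => 1)

@[simp] theorem cuspX_infty : cuspX ∞ = 1 := rfl
@[simp] theorem cuspY_infty : cuspY ∞ = 0 := rfl
@[simp] theorem cuspX_coe (r : ℚ) : cuspX (r : Cusp) = r := rfl
@[simp] theorem cuspY_coe (r : ℚ) : cuspY (r : Cusp) = 1 := rfl

/-- determinant of two cusps -/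
def dd (a b : Cusp) : ℚ := cuspX b * cuspY a - cuspY b * cuspX a

theorem dd_swap (a b : Cusp) : dd b a = - dd a b := by simp only [dd]; ring

/-- the orientation cocycle of the cyclic order on `ℙ¹(ℚ)`. -/
def orc (a b c : Cusp) : ℚ := sg (dd a b) + sg (dd b c) + sg (dd c a)

theorem orc_eq (a b c : Cusp) : orc a b c = - (sg (dd a b) * sg (dd b c) * sg (dd c a)) := by
  induction a using OnePoint.rec with
  | infty =>
    induction b using OnePoint.rec with
    | infty => induction c using OnePoint.rec <;> simp [orc, dd]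
    | coe b =>
      induction c using OnePoint.rec with
      | infty => simp [orc, dd]
      | coe c => simp [orc, dd]
  | coe a =>
    induction b using OnePoint.rec with
    | infty =>
      induction c using OnePoint.rec with
      | infty => simp [orc, dd]
      | coe c => simp [orc, dd]
    | coe b =>
      induction c using OnePoint.rec with
      | infty => simp [orc, dd]
      | coe c => simpa [orc, dd] using sg_three a b c

theorem exists_smul_coord (g : GL (Fin 2) ℚ) (c : Cusp) : ∃ j : ℚ, j ≠ 0 ∧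
    g 0 0 * cuspX c + g 0 1 * cuspY c = j * cuspX (g • c) ∧
    g 1 0 * cuspX c + g 1 1 * cuspY c = j * cuspY (g • c) := by
  have hdet : g 0 0 * g 1 1 - g 0 1 * g 1 0 ≠ 0 := by
    have := g.det_ne_zero
    rwa [Matrix.det_fin_two] at this
  induction c using OnePoint.rec with
  | infty =>
    rw [OnePoint.smul_infty_eq_ite]
    by_cases h : g 1 0 = 0
    · rw [if_pos h]
      refine ⟨g 0 0, ?_, by simp, by simp [h]⟩
      intro h0
      rw [h, h0] at hdet
      simp at hdet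
    · rw [if_neg h]
      exact ⟨g 1 0, h, by simp; field_simp, by simp⟩
  | coe r =>
    rw [OnePoint.smul_some_eq_ite]
    by_cases h : g 1 0 * r + g 1 1 = 0
    · rw [if_pos h]
      refine ⟨g 0 0 * r + g 0 1, ?_, by simp, by simp [h]⟩
      intro h0
      apply hdet
      by_cases h10 : g 1 0 = 0
      · rw [h10] at h ⊢
        have h11 : g 1 1 = 0 := by linarith
        rw [h11]; ring
      · have hr : r = - g 1 1 / g 1 0 := by field_simp; linarith
        rw [hr] at h0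
        field_simp at h0
        linarith
    · rw [if_neg h]
      refine ⟨g 1 0 * r + g 1 1, h, ?_, by simp⟩
      rw [cuspX_coe, cuspY_coe, cuspX_coe, mul_one, mul_div_assoc', mul_div_cancel_left₀ _ h]

theorem orc_smul (g : GL (Fin 2) ℚ) (hg : 0 < (g : Matrix (Fin 2) (Fin 2) ℚ).det) (a b c : Cusp) :
    orc (g • a) (g • b) (g • c) = orc a b c := by
  obtain ⟨ja, hja, a1, a2⟩ := exists_smul_coord g a
  obtain ⟨jb, hjb, b1, b2⟩ := exists_smul_coord g b
  obtain ⟨jc, hjc, c1, c2⟩ := exists_smul_coord g c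
  rw [Matrix.det_fin_two] at hg
  have key : ∀ {s t : Cusp} {js jt : ℚ},
      g 0 0 * cuspX s + g 0 1 * cuspY s = js * cuspX (g • s) →
      g 1 0 * cuspX s + g 1 1 * cuspY s = js * cuspY (g • s) →
      g 0 0 * cuspX t + g 0 1 * cuspY t = jt * cuspX (g • t) →
      g 1 0 * cuspX t + g 1 1 * cuspY t = jt * cuspY (g • t) →
      sg js * sg jt * sg (dd (g • s) (g • t)) = sg (dd s t) := by
    intro s t js jt s1 s2 t1 t2
    rw [← sg_mul, ← sg_mul]
    have : js * jt * dd (g • s) (g • t) = (g 0 0 * g 1 1 - g 0 1 * g 1 0) * dd s t := by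
      have : js * jt * dd (g • s) (g • t) =
        (jt * cuspX (g • t)) * (js * cuspY (g • s)) - (jt * cuspY (g • t)) * (js * cuspX (g • s)) := by
        simp only [dd]; ring
      rw [this, ← s1, ← s2, ← t1, ← t2]
      simp only [dd]; ring
    rw [this, sg_mul, sg_pos hg, one_mul]
  rw [orc_eq, orc_eq, ← key a1 a2 b1 b2, ← key b1 b2 c1 c2, ← key c1 c2 a1 a2]
  have ea := sg_sq hja
  have eb := sg_sq hjb
  have ec := sg_sq hjc
  have : sg ja * sg jb * sg (dd (g • a) (g • b)) * (sg jb * sg jc * sg (dd (g • b) (g • c))) *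
      (sg jc * sg ja * sg (dd (g • c) (g • a))) = (sg ja * sg ja) * (sg jb * sg jb) *
      (sg jc * sg jc) * (sg (dd (g • a) (g • b)) * sg (dd (g • b) (g • c)) *
        sg (dd (g • c) (g • a))) := by ring
  rw [this, ea, eb, ec]
  ring


section conj

theorem det_toQ (γ : SL(2, ℤ)) : (toQ γ : Matrix (Fin 2) (Fin 2) ℚ).det = 1 := by
  rw [val_toQ, Matrix.det_fin_two_of]
  exact_mod_cast det_eq' γ

theorem isCoc_orc (Γ : Subgroup SL(2, ℤ)) : IsCoc Γ orc where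
  swap a b c := by
    simp only [orc]
    rw [dd_swap a b, dd_swap c a, dd_swap b c]
    rw [sg_neg', sg_neg', sg_neg']; ring
  cyc a b c := by simp only [orc]; ring
  coc a b c d := by
    simp only [orc]
    rw [dd_swap a c, dd_swap b d, sg_neg', sg_neg']; ring
  inv γ _ a b c := orc_smul _ (by rw [det_toQ]; exact one_pos) a b c

theorem orc_infty_zero_one : orc ∞ ((0 : ℚ) : Cusp) ((1 : ℚ) : Cusp) = 1 := by
  simp [orc, dd]

theorem tot_orc (Γ : Subgroup SL(2, ℤ)) [Γ.FiniteIndex] : tot Γ orc = Γ.index := by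
  have : (fun g : SL(2, ℤ) => orc (toQ g • ∞) (toQ g • ((0 : ℚ) : Cusp))
      (toQ g • ((1 : ℚ) : Cusp))) = fun _ => 1 := by
    funext g
    rw [orc_smul _ (by rw [det_toQ]; exact one_pos), orc_infty_zero_one]
  rw [tot, this, csum_const, nsmul_eq_mul, mul_one]

/-- **`tot` is compatible with conjugation.** -/
theorem tot_conj {Γ Γ' : Subgroup SL(2, ℤ)} [Γ.FiniteIndex] [Γ'.FiniteIndex]
    (hneg : (-1 : SL(2, ℤ)) ∈ Γ) (α : GL (Fin 2) ℚ)
    (hα : 0 < (α : Matrix (Fin 2) (Fin 2) ℚ).det)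
    (hconj : ∀ γ' ∈ Γ', ∃ γ ∈ Γ, α * toQ γ' = toQ γ * α) {ω : Cusp → Cusp → Cusp → ℚ}
    (h : IsCoc Γ ω) :
    Γ.index * tot Γ' (fun a b c => ω (α • a) (α • b) (α • c)) = Γ'.index * tot Γ ω := by
  have hi : (Γ.index : ℚ) ≠ 0 := by exact_mod_cast Subgroup.FiniteIndex.index_ne_zero
  set r : ℚ := tot Γ ω / Γ.index with hr
  set ω' : Cusp → Cusp → Cusp → ℚ := fun a b c => ω a b c - r * orc a b c with hω'
  have hc : IsCoc Γ ω' := by
    have ho := isCoc_orc Γ
    refine ⟨fun a b c => ?_, fun a b c => ?_, fun a b c d => ?_, fun γ hγ a b c => ?_⟩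
    · simp only [hω']; rw [h.swap, ho.swap]; ring
    · simp only [hω']; rw [h.cyc, ho.cyc]
    · simp only [hω']; linear_combination h.coc a b c d - r * ho.coc a b c d
    · simp only [hω']; rw [h.inv γ hγ, ho.inv γ hγ]
  have ht : tot Γ ω' = 0 := by
    have : tot Γ ω' = tot Γ ω - r * tot Γ orc := by
      simp only [tot]
      rw [← csum_mul_left, ← csum_sub]
    rw [this, tot_orc, hr]
    field_simp
    ring
  obtain ⟨η, hη1, hη2, hη3⟩ := exists_primitive_of_tot_eq_zero hneg hc ht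
  have hz : tot Γ' (fun a b c => ω' (α • a) (α • b) (α • c)) = 0 := by
    refine tot_eq_zero_of_primitive (η := fun a b => η (α • a) (α • b)) (fun a b => hη1 _ _) ?_
      (fun a b c => hη3 _ _ _)
    intro γ' hγ' a b
    obtain ⟨γ, hγ, e⟩ := hconj γ' hγ'
    simp only [← mul_smul, e]
    simp only [mul_smul]
    exact hη2 γ hγ _ _
  have hz' : tot Γ' (fun a b c => ω' (α • a) (α • b) (α • c)) =
      tot Γ' (fun a b c => ω (α • a) (α • b) (α • c)) - r * tot Γ' orc := by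
    simp only [tot]
    rw [← csum_mul_left, ← csum_sub]
    congr 1
    funext g
    simp only [hω']
    rw [orc_smul α hα]
  rw [hz', tot_orc] at hz
  have : tot Γ' (fun a b c => ω (α • a) (α • b) (α • c)) = r * Γ'.index := by linarith
  rw [this, hr]
  field_simp

end conj

/-! ### the cup product of two modular symbols -/

section cup

variable {R : Type*} [CommRing R] {Γ : Subgroup SL(2, ℤ)}

/-- the summand of the intersection form. -/
noncomputable def cupFun (x y : Pairs R) (g : SL(2, ℤ)) : R :=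
  maninFun x g * maninFun y (g * U) - maninFun x (g * U) * maninFun y g

theorem formSum_eq_csum {x y : Pairs R} (hx : x ∈ MS Γ R) (hy : y ∈ MS Γ R) :
    formSum Γ x y = csum Γ (cupFun x y) := by
  rw [formSum, csum]
  refine finsum_congr fun c => ?_
  induction c using QuotientGroup.induction_on with
  | H g =>
    rw [manin_smul_mk hx, manin_smul_mk hy, manin_mk hx, manin_mk hy, inv_inv]
    have hinv : ∀ γ ∈ Γ, ∀ g, cupFun x y (γ * g) = cupFun x y g := by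
      intro γ hγ g
      simp only [cupFun, mul_assoc]
      rw [maninFun_of_mem hx hγ, maninFun_of_mem hx hγ, maninFun_of_mem hy hγ,
        maninFun_of_mem hy hγ]
    rw [out_inv_eq hinv]
    rfl

theorem cupFun_inv {x y : Pairs R} (hx : x ∈ MS Γ R) (hy : y ∈ MS Γ R) (γ : SL(2, ℤ))
    (hγ : γ ∈ Γ) (g : SL(2, ℤ)) : cupFun x y (γ * g) = cupFun x y g := by
  simp only [cupFun, mul_assoc]
  rw [maninFun_of_mem hx hγ, maninFun_of_mem hx hγ, maninFun_of_mem hy hγ,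
    maninFun_of_mem hy hγ]

/-- the 2-cocycle of two modular symbols -/
def cupCoc (x y : Pairs ℚ) (a b c : Cusp) : ℚ := x a b * y b c - y a b * x b c

theorem isCoc_cupCoc {x y : Pairs ℚ} (hx : x ∈ MS Γ ℚ) (hy : y ∈ MS Γ ℚ) :
    IsCoc Γ (cupCoc x y) where
  swap a b c := by
    simp only [cupCoc]
    rw [neg_swap hx.1 a b, neg_swap hy.1 a b, ← hx.1 a b c, ← hy.1 a b c]; ring
  cyc a b c := by
    simp only [cupCoc]
    rw [neg_swap hx.1 a c, neg_swap hy.1 a c, ← hx.1 a b c, ← hy.1 a b c]; ring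
  coc a b c d := by
    simp only [cupCoc]
    rw [← hx.1 a b c, ← hy.1 a b c, ← hx.1 b c d, ← hy.1 b c d]; ring
  inv γ hγ a b c := by
    have hx' : ∀ a b, x (toQ γ • a) (toQ γ • b) = x a b := fun a b =>
      congrFun (congrFun (hx.2 γ hγ) a) b
    have hy' : ∀ a b, y (toQ γ • a) (toQ γ • b) = y a b := fun a b =>
      congrFun (congrFun (hy.2 γ hγ) a) b
    simp only [cupCoc, hx', hy']

theorem formSum_eq_tot {x y : Pairs ℚ} (hx : x ∈ MS Γ ℚ) (hy : y ∈ MS Γ ℚ) :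
    formSum Γ x y = tot Γ (cupCoc x y) := by
  rw [formSum_eq_csum hx hy, tot]
  congr 1
  funext g
  simp only [cupFun, cupCoc, maninFun, toQ_mul_U_infty, toQ_mul_U_zero]
  ring

/-- compatibility of the form with conjugation by `GL₂⁺(ℚ)` -/
theorem formSum_conj {Γ Γ' : Subgroup SL(2, ℤ)} [Γ.FiniteIndex] [Γ'.FiniteIndex]
    (hneg : (-1 : SL(2, ℤ)) ∈ Γ) (α : GL (Fin 2) ℚ)
    (hα : 0 < (α : Matrix (Fin 2) (Fin 2) ℚ).det)
    (hconj : ∀ γ' ∈ Γ', ∃ γ ∈ Γ, α * toQ γ' = toQ γ * α) {x y : Pairs ℚ}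
    (hx : x ∈ MS Γ ℚ) (hy : y ∈ MS Γ ℚ) :
    Γ.index * formSum Γ' (slash α x) (slash α y) = Γ'.index * formSum Γ x y := by
  have hmem : ∀ {z : Pairs ℚ}, z ∈ MS Γ ℚ → slash α z ∈ MS Γ' ℚ := by
    intro z hz
    refine ⟨slash_add_of_add hz.1 _, fun γ' hγ' => ?_⟩
    obtain ⟨γ, hγ, e⟩ := hconj γ' hγ'
    rw [← slash_mul, e, slash_toQ_mul_of_mem hz hγ]
  rw [formSum_eq_tot hx hy, formSum_eq_tot (hmem hx) (hmem hy)]
  exact tot_conj hneg α hα hconj (isCoc_cupCoc hx hy)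

theorem formSum_mapCoeff [Γ.FiniteIndex] {R' : Type*} [CommRing R'] (f : R →+* R')
    (x y : Pairs R) : formSum Γ (mapCoeff f x) (mapCoeff f y) = f (formSum Γ x y) := by
  have := Fintype.ofFinite (SL(2, ℤ) ⧸ Γ)
  rw [formSum_eq_sum, formSum_eq_sum, map_sum]
  refine Finset.sum_congr rfl fun c _ => ?_
  rw [map_sub, map_mul, map_mul]
  rfl

theorem det_wMat {N q : ℕ} (hq : q ≠ 0) : (wMat N q : Matrix (Fin 2) (Fin 2) ℚ).det = q := by
  rw [wMat, val_mul', Matrix.det_mul, det_toQ, val_diagMat hq, Matrix.det_fin_two_of]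
  ring

theorem neg_one_mem_Gamma0 (M : ℕ) : (-1 : SL(2, ℤ)) ∈ Gamma0 M := by
  rw [Gamma0_mem]; simp

/-- **`w`-invariance of the form.** -/
theorem formSum_wOp {N q : ℕ} [NeZero N] (hq : q ≠ 0) (h : Nat.Coprime q N) {x y : Pairs ℤ}
    (hx : x ∈ MS (Gamma0 (N * q)) ℤ) (hy : y ∈ MS (Gamma0 (N * q)) ℤ) :
    formSum (Gamma0 (N * q)) (wOp N q x) (wOp N q y) = formSum (Gamma0 (N * q)) x y := by
  have : NeZero q := ⟨hq⟩
  have : NeZero (N * q) := ⟨mul_ne_zero (NeZero.ne N) hq⟩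
  have hi : ((Gamma0 (N * q)).index : ℚ) ≠ 0 := by
    exact_mod_cast Subgroup.FiniteIndex.index_ne_zero
  have h1 := formSum_conj (Γ := Gamma0 (N * q)) (Γ' := Gamma0 (N * q)) (neg_one_mem_Gamma0 _)
    (wMat N q) (by rw [det_wMat hq]; exact_mod_cast Nat.pos_of_ne_zero hq)
    (fun γ' hγ' => wMat_mul hq h hγ') (mapCoeff_mem (Int.castRingHom ℚ) hx)
    (mapCoeff_mem (Int.castRingHom ℚ) hy)
  rw [mul_right_inj' hi, ← mapCoeff_slash, ← mapCoeff_slash, formSum_mapCoeff,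
    formSum_mapCoeff] at h1
  exact Int.cast_injective h1

theorem repSL_exists {N q : ℕ} [Fact q.Prime] (hqN : ¬ q ∣ N) {γ : SL(2, ℤ)}
    (hγ : γ ∈ Gamma0 N) : ∃ s, γ * (repSL N q s)⁻¹ ∈ Gamma0 (N * q) := by
  obtain ⟨γ', h1, h2⟩ := repSL_mul hqN hγ ∞
  rw [repSL_infty, one_mul] at h2
  refine ⟨redMat q γ • ∞, ?_⟩
  rw [mul_inv_eq_iff_eq_mul.mpr h2]
  exact h1

theorem repSL_unique {N q : ℕ} (hq : q.Prime) (hqN : ¬ q ∣ N) {s t : OnePoint (ZMod q)}
    (h : repSL N q s * (repSL N q t)⁻¹ ∈ Gamma0 (N * q)) : s = t := by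
  have hqF : Fact q.Prime := ⟨hq⟩
  have hcop : Nat.Coprime q N := (Nat.Prime.coprime_iff_not_dvd hq).mpr hqN
  have hN0 : N ≠ 0 := by rintro rfl; exact hqN (dvd_zero q)
  have hNZ : (N : ℤ) ≠ 0 := by exact_mod_cast hN0
  have hqZ : Prime (q : ℤ) := Nat.prime_iff_prime_int.mp hq
  obtain ⟨a, c, hac, hal⟩ := exists_alGamma hcop
  have hqc : ¬ (q : ℤ) ∣ c := by
    rintro ⟨e, rfl⟩
    apply hqZ.not_isUnit
    exact isUnit_of_dvd_one ⟨a - N * e, by linear_combination -hac⟩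
  have hqN' : ¬ (q : ℤ) ∣ N := by exact_mod_cast hqN
  have hT : ∀ n : ℤ, ModularGroup.T ^ n ∈ Gamma0 (N * q) := T_zpow_mem_Gamma0 _
  have hnot : alGamma N q ∉ Gamma0 (N * q) := by
    rw [mem_Gamma0_iff, hal]
    simp only [mkSL_val, Matrix.of_apply, Matrix.cons_val', Matrix.cons_val_zero,
      Matrix.cons_val_one, Matrix.cons_val_fin_one]
    push_cast
    rw [mul_dvd_mul_iff_left hNZ]
    exact hqc
  induction s using OnePoint.rec with
  | infty =>
    induction t using OnePoint.rec with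
    | infty => rfl
    | coe j =>
      exfalso
      rw [repSL_infty, one_mul, repSL_coe, inv_mem_iff] at h
      exact hnot (by simpa using mul_mem h (inv_mem (hT (j.val : ℤ))))
  | coe i =>
    induction t using OnePoint.rec with
    | infty =>
      exfalso
      rw [repSL_infty, inv_one, mul_one, repSL_coe] at h
      exact hnot (by simpa using mul_mem h (inv_mem (hT (i.val : ℤ))))
    | coe j =>
      have e : repSL N q (i : OnePoint (ZMod q)) * (repSL N q (j : OnePoint (ZMod q)))⁻¹ =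
          alGamma N q * ModularGroup.T ^ ((i.val : ℤ) - (j.val : ℤ)) * (alGamma N q)⁻¹ := by
        rw [repSL_coe, repSL_coe, _root_.zpow_sub]; group
      rw [e, mem_Gamma0_iff] at h
      have e2 : (alGamma N q * ModularGroup.T ^ ((i.val : ℤ) - (j.val : ℤ)) *
          (alGamma N q)⁻¹) 1 0 = - ((N * c) ^ 2 * ((i.val : ℤ) - (j.val : ℤ))) := by
        rw [hal]
        simp [-ZMod.natCast_val, mkSL, Matrix.mul_apply, Fin.sum_univ_two,
          ModularGroup.coe_T_zpow, Matrix.SpecialLinearGroup.coe_inv, Matrix.adjugate_fin_two]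
        ring
      rw [e2, dvd_neg] at h
      have h3 : (q : ℤ) ∣ (N * c ^ 2) * ((i.val : ℤ) - (j.val : ℤ)) := by
        have : (N : ℤ) * q ∣ N * ((N * c ^ 2) * ((i.val : ℤ) - (j.val : ℤ))) := by
          rw [Nat.cast_mul] at h
          have e3 : (N : ℤ) * ((N * c ^ 2) * ((i.val : ℤ) - (j.val : ℤ))) =
            (N * c) ^ 2 * ((i.val : ℤ) - (j.val : ℤ)) := by ring
          rw [e3]
          exact h
        exact (mul_dvd_mul_iff_left hNZ).mp this
      have h4 : (q : ℤ) ∣ (i.val : ℤ) - (j.val : ℤ) := by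
        rcases hqZ.dvd_or_dvd h3 with h5 | h5
        · exfalso
          rcases hqZ.dvd_or_dvd h5 with h6 | h6
          · exact hqN' h6
          · exact hqc (hqZ.dvd_of_dvd_pow h6)
        · exact h5
      have h5 : (((i.val : ℤ) - (j.val : ℤ) : ℤ) : ZMod q) = 0 :=
        (ZMod.intCast_zmod_eq_zero_iff_dvd _ _).mpr h4
      push_cast at h5
      rw [ZMod.natCast_zmod_val, ZMod.natCast_zmod_val, sub_eq_zero] at h5
      rw [h5]

/-- adjointness of the trace and the inclusion. -/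
theorem formSum_tr1 {N q : ℕ} (hq : q.Prime) (hqN : ¬ q ∣ N) {x y : Pairs R}
    (hx : x ∈ MS (Gamma0 N) R) (hy : y ∈ MS (Gamma0 (N * q)) R) :
    formSum (Gamma0 (N * q)) x y = formSum (Gamma0 N) x (tr1 N q y) := by
  have hqF : Fact q.Prime := ⟨hq⟩
  have : NeZero q := ⟨hq.ne_zero⟩
  have hN0 : N ≠ 0 := by rintro rfl; exact hqN (dvd_zero q)
  have : NeZero N := ⟨hN0⟩
  have : NeZero (N * q) := ⟨mul_ne_zero hN0 hq.ne_zero⟩
  have hle : Gamma0 (N * q) ≤ Gamma0 N := Gamma0_mono (dvd_mul_right N q)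
  have hx' : x ∈ MS (Gamma0 (N * q)) R := MS_mono hle hx
  rw [formSum_eq_csum hx' hy, formSum_eq_csum hx (tr1_mem hq hqN hy),
    csum_subgroup hle (repSL N q) (repSL_mem N q) (fun γ hγ => repSL_exists hqN hγ)
      (fun i j hij => repSL_unique hq hqN hij) (cupFun_inv hx' hy)]
  congr 1
  funext g
  have h1 : ∀ g, maninFun (tr1 N q y) g = ∑ s, maninFun y (repSL N q s * g) := by
    intro g
    rw [maninFun, tr1_eq_sum]
    simp only [Finset.sum_apply, slash_apply, maninFun, toQ_mul_smul]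
  simp only [cupFun]
  rw [h1, h1, Finset.mul_sum, Finset.mul_sum, ← Finset.sum_sub_distrib]
  refine Finset.sum_congr rfl fun s _ => ?_
  rw [maninFun_of_mem hx (repSL_mem N q s), mul_assoc, maninFun_of_mem hx (repSL_mem N q s)]

/-! ### adjointness for the normalised integral form -/

theorem form_of_formSum {Γ Γ' : Subgroup SL(2, ℤ)} {x y x' y' : Pairs ℤ}
    (h : formSum Γ x y = formSum Γ' x' y') : form Γ x y = form Γ' x' y' := by
  rw [form, form, h]

theorem formSum_degen {N q : ℕ} (hq : q.Prime) (hqN : ¬ q ∣ N) {x y : Pairs ℤ}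
    (hx : x ∈ MS (Gamma0 N) ℤ) (hy : y ∈ MS (Gamma0 (N * q)) ℤ) :
    formSum (Gamma0 (N * q)) (degen q x) y = formSum (Gamma0 N) x (tr2 N q y) := by
  have hcop : Nat.Coprime q N := (Nat.Prime.coprime_iff_not_dvd hq).mpr hqN
  have hN0 : N ≠ 0 := by rintro rfl; exact hqN (dvd_zero q)
  have : NeZero N := ⟨hN0⟩
  have hle : Gamma0 (N * q) ≤ Gamma0 N := Gamma0_mono (dvd_mul_right N q)
  have hx' : x ∈ MS (Gamma0 (N * q)) ℤ := MS_mono hle hx
  have hwy := wOp_mem hq.ne_zero hcop hy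
  rw [← wOp_eq_degen hx, tr2_eq hq.ne_zero hcop hy, ← formSum_tr1 hq hqN hx hwy,
    ← formSum_wOp hq.ne_zero hcop hx' hwy, wOp_wOp hq.ne_zero hcop hy]

/-- `hAd1` -/
theorem form_tr1 {N q : ℕ} (hq : q.Prime) (hqN : ¬ q ∣ N) :
    ∀ x ∈ MS (Gamma0 N) ℤ, ∀ z ∈ MS (Gamma0 (N * q)) ℤ,
      form (Gamma0 (N * q)) x z = form (Gamma0 N) x (tr1 N q z) :=
  fun _ hx _ hz => form_of_formSum (formSum_tr1 hq hqN hx hz)

/-- `hAd2` -/
theorem form_tr2 {N q : ℕ} (hq : q.Prime) (hqN : ¬ q ∣ N) :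
    ∀ x ∈ MS (Gamma0 N) ℤ, ∀ z ∈ MS (Gamma0 (N * q)) ℤ,
      form (Gamma0 (N * q)) (degen q x) z = form (Gamma0 N) x (tr2 N q z) :=
  fun _ hx _ hz => form_of_formSum (formSum_degen hq hqN hx hz)

/-- `T_ℓ` is self-adjoint. -/
theorem formSum_heckeT {N ℓ : ℕ} (hℓ : ℓ.Prime) (hℓN : ¬ ℓ ∣ N) {x y : Pairs ℤ}
    (hx : x ∈ MS (Gamma0 N) ℤ) (hy : y ∈ MS (Gamma0 N) ℤ) :
    formSum (Gamma0 N) (heckeT ℓ x) y = formSum (Gamma0 N) x (heckeT ℓ y) := by
  have hcop : Nat.Coprime ℓ N := (Nat.Prime.coprime_iff_not_dvd hℓ).mpr hℓN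
  have hN0 : N ≠ 0 := by rintro rfl; exact hℓN (dvd_zero ℓ)
  have : NeZero N := ⟨hN0⟩
  have : NeZero ℓ := ⟨hℓ.ne_zero⟩
  have : NeZero (N * ℓ) := ⟨mul_ne_zero hN0 hℓ.ne_zero⟩
  have hle : Gamma0 (N * ℓ) ≤ Gamma0 N := Gamma0_mono (dvd_mul_right N ℓ)
  have hy' : y ∈ MS (Gamma0 (N * ℓ)) ℤ := MS_mono hle hy
  have hdx : degen ℓ x ∈ MS (Gamma0 (N * ℓ)) ℤ := degen_mem hℓ.ne_zero hx
  have h1 := formSum_degen hℓ hℓN hx hy'
  have h2 := formSum_tr1 hℓ hℓN hy hdx
  rw [tr2_of_mem hcop hy] at h1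
  rw [tr1_degen hcop hx] at h2
  rw [← h1, formSum_swap (Gamma0 N) y, ← h2, ← formSum_swap]

theorem form_heckeT {N ℓ : ℕ} (hℓ : ℓ.Prime) (hℓN : ¬ ℓ ∣ N) :
    ∀ x ∈ MS (Gamma0 N) ℤ, ∀ y ∈ MS (Gamma0 N) ℤ,
      form (Gamma0 N) (heckeT ℓ x) y = form (Gamma0 N) x (heckeT ℓ y) :=
  fun _ hx _ hy => form_of_formSum (formSum_heckeT hℓ hℓN hx hy)

end cup

end Fermat.Agent.LR
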