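import Fermat.Agent.LR.Core
import Fermat.Agent.LR.Duality

/-!
# The core statement, unconditionally (team LR)
-/

set_option autoImplicit false

open CongruenceSubgroup
open scoped MatrixGroups OnePoint

namespace Fermat.Agent.LR.Core

open Fermat.Agent.LR

variable {R : Type*} [CommRing R]

theorem degen_injective (q : ℕ) : Function.Injective (degen (R := R) q) := by
  intro x y h
  have h1 : ∀ z : Pairs R, slash ((diagMat q)⁻¹) (degen q z) = z := fun z => by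
    rw [degen_apply, ← slash_mul, mul_inv_cancel, slash_one]
  rw [← h1 x, ← h1 y, h]

/-- `hIhara` -/
theorem ihara {p N q : ℕ} (hp : p.Prime) (hN : 0 < N) (hq : q.Prime) (hqN : ¬ q ∣ N) :
    ∃ D : ℕ, 0 < D ∧ ∀ ℓ : ℕ, ℓ.Prime → ℓ ≡ 1 [MOD D] →
      (∀ x : ZMod ℓ, x ^ p ≠ (q : ZMod ℓ)) →
      ∀ x ∈ MS (Gamma0 N) ℤ, ∀ y ∈ MS (Gamma0 N) ℤ,
      (∃ w ∈ MS (Gamma0 (N * q)) ℤ, x + degen q y = (p : ℤ) • w) →
      (∃ w ∈ MS (Gamma0 N) ℤ, heckeT ℓ x - ((ℓ : ℤ) + 1) • x = (p : ℤ) • w) ∧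
      (∃ w ∈ MS (Gamma0 N) ℤ, heckeT ℓ y - ((ℓ : ℤ) + 1) • y = (p : ℤ) • w) := by
  have hpF : Fact p.Prime := ⟨hp⟩
  refine ⟨N * (p * (2 * N.totient)), Nat.mul_pos hN (Nat.mul_pos hp.pos
    (Nat.mul_pos two_pos (Nat.totient_pos.mpr hN))), fun ℓ hℓ hℓ1 hpow x hx y hy hw => ?_⟩
  obtain ⟨w, -, hw⟩ := hw
  have hℓq : ℓ ≠ q := by
    rintro rfl
    exact hpow 0 (by rw [zero_pow hp.ne_zero, ZMod.natCast_self])
  have hℓN : ¬ ℓ ∣ N := by
    intro h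
    have h1 : ℓ ≡ 1 [MOD N] := hℓ1.of_mul_right _
    have h2 : ℓ ≡ 1 [MOD ℓ] := h1.of_dvd h
    have h3 := (Nat.modEq_iff_dvd' hℓ.one_le).mp h2.symm
    have := Nat.le_of_dvd (Nat.sub_pos_of_lt hℓ.one_lt) h3
    have := hℓ.one_lt
    omega
  set f := Int.castRingHom (ZMod p) with hf
  have hxm : mapCoeff f x ∈ MS (Gamma0 N) (ZMod p) := mapCoeff_mem f hx
  have hym : mapCoeff f y ∈ MS (Gamma0 N) (ZMod p) := mapCoeff_mem f hy
  have hp0 : (p : ZMod p) = 0 := ZMod.natCast_self p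
  have hsum : mapCoeff f x + degen q (mapCoeff f y) = 0 := by
    have h1 := congrArg (mapCoeff f) hw
    rw [map_add] at h1
    have h2 : mapCoeff f ((p : ℤ) • w) = 0 := by
      funext a b
      simp only [mapCoeff_apply, Pi.smul_apply, smul_eq_mul, map_mul, Pi.zero_apply]
      rw [map_natCast, hp0, zero_mul]
    rw [h2] at h1
    exact h1
  have hdeg : mapCoeff f x = degen q (- mapCoeff f y) := by
    rw [map_neg]
    exact eq_neg_of_add_eq_zero_left hsum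
  have hTx : heckeT ℓ (mapCoeff f x) = (2 : ZMod p) • mapCoeff f x :=
    heckeT_eq_two_smul_of_degen hN.ne' hq hqN hp hp0 (MS_Gamma1 hxm)
      (MS_Gamma1 (neg_mem hym)) hdeg hℓ hℓ1 hpow
  have hTy : heckeT ℓ (mapCoeff f y) = (2 : ZMod p) • mapCoeff f y := by
    apply degen_injective q
    have hcop : Nat.Coprime q ℓ := (Nat.coprime_primes hq hℓ).mpr (Ne.symm hℓq)
    rw [← heckeT_degen hℓ.ne_zero hq.ne_zero hcop (TInv_of_mem hym), map_smul]
    have h1 : degen q (mapCoeff f y) = - mapCoeff f x := (neg_eq_of_add_eq_zero_right hsum).symm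
    rw [h1, map_neg, hTx, smul_neg]
  have hℓp : (((ℓ : ℤ) + 1 : ℤ) : ZMod p) = 2 := by
    have h1 : ℓ ≡ 1 [MOD p] := (hℓ1.of_mul_left N).of_mul_right _
    have h2 := (ZMod.natCast_eq_natCast_iff _ _ _).mpr h1
    push_cast at h2 ⊢
    rw [h2]; norm_num
  have key : ∀ {z : Pairs ℤ}, z ∈ MS (Gamma0 N) ℤ →
      heckeT ℓ (mapCoeff f z) = (2 : ZMod p) • mapCoeff f z →
      ∃ w ∈ MS (Gamma0 N) ℤ, heckeT ℓ z - ((ℓ : ℤ) + 1) • z = (p : ℤ) • w := by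
    intro z hz h
    refine exists_div_of_mapCoeff (sub_mem (heckeT_mem_MS hℓ hℓN hz)
      ((MS (Gamma0 N) ℤ).smul_mem _ hz)) ?_
    rw [map_sub, mapCoeff_heckeT, h]
    funext a b
    simp only [Pi.sub_apply, Pi.smul_apply, smul_eq_mul, mapCoeff_apply, map_mul, Pi.zero_apply]
    have : f ((ℓ : ℤ) + 1) = 2 := hℓp
    rw [this, sub_self]
  exact ⟨key hx hTx, key hy hTy⟩

theorem coreStatement {p N q : ℕ} (hp : p.Prime) (hp2 : p ≠ 2) (hN : 0 < N) (hq : q.Prime)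
    (hqN : ¬ q ∣ N) : Asm.CoreStatement p N q := by
  have hpF : Fact p.Prime := ⟨hp⟩
  exact coreStatement_of hp2 hN hq hqN (form_tr1 hq hqN) (form_tr2 hq hqN)
    (fun ℓ hℓ hℓN => form_heckeT hℓ hℓN) (ihara hp hN hq hqN)

end Fermat.Agent.LR.Core
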