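import Fermat.Agent.LR.Basic

/-!
# `PSL(2,ℤ)` is the free product `C₂ * C₃` (team LR, piece P2)

`U = [0 1; -1 1]`, `U^3 = -1`, `U∞ = 0`, `U0 = 1`, `U1 = ∞`.

Main results:
* `closure_S_U : Subgroup.closure {S, U} = ⊤`;
* `exists_hom_of_relations` : for any group `H` and `s u : H` with `s^2 = 1`, `u^3 = 1` there is
  `φ : SL(2,ℤ) →* H` with `φ S = s`, `φ U = u`;
* `exists_primitive` : `H¹` computation: a pair of functions `mS mU : SL(2,ℤ) → A` satisfying the
  `S`- and `U`-relations is `(k(gS)-k(g), k(gU)-k(g))` for some `k : SL(2,ℤ) → A`.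
-/

set_option autoImplicit false

open Matrix Matrix.SpecialLinearGroup CongruenceSubgroup
open scoped MatrixGroups OnePoint

namespace Fermat.Agent.LR

/-- `U = [0 1; -1 1]`, of order `3` in `PSL(2,ℤ)`. -/
def U : SL(2, ℤ) := ⟨!![0, 1; -1, 1], by simp [Matrix.det_fin_two_of]⟩

local notation "S" => ModularGroup.S
local notation "T" => ModularGroup.T

theorem coe_U : (U : Matrix (Fin 2) (Fin 2) ℤ) = !![0, 1; -1, 1] := rfl

theorem coe_U_sq : ((U ^ 2 : SL(2, ℤ)) : Matrix (Fin 2) (Fin 2) ℤ) = !![-1, 1; -1, 0] := by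
  rw [Matrix.SpecialLinearGroup.coe_pow, pow_two, coe_U, Matrix.mul_fin_two]
  norm_num

theorem S_sq : S ^ 2 = (-1 : SL(2, ℤ)) := by
  apply Subtype.ext
  rw [Matrix.SpecialLinearGroup.coe_pow, pow_two, ModularGroup.coe_S, Matrix.mul_fin_two,
    Matrix.SpecialLinearGroup.coe_neg, Matrix.SpecialLinearGroup.coe_one, Matrix.one_fin_two]
  ext i j
  fin_cases i <;> fin_cases j <;> simp

theorem U_pow_three : U ^ 3 = (-1 : SL(2, ℤ)) := by
  apply Subtype.ext
  rw [pow_succ, Matrix.SpecialLinearGroup.coe_mul, coe_U_sq, coe_U, Matrix.mul_fin_two,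
    Matrix.SpecialLinearGroup.coe_neg, Matrix.SpecialLinearGroup.coe_one, Matrix.one_fin_two]
  ext i j
  fin_cases i <;> fin_cases j <;> simp

theorem S_mul_U : S * U = T⁻¹ := by
  apply Subtype.ext
  rw [Matrix.SpecialLinearGroup.coe_mul, ModularGroup.coe_T_inv, ModularGroup.coe_S, coe_U,
    Matrix.mul_fin_two]
  norm_num

theorem T_eq : T = (S * U)⁻¹ := by rw [S_mul_U, inv_inv]

theorem closure_S_U : Subgroup.closure {S, U} = (⊤ : Subgroup SL(2, ℤ)) := by
  rw [eq_top_iff, ← SpecialLinearGroup.SL2Z_generators, Subgroup.closure_le]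
  have hS : S ∈ Subgroup.closure {S, U} := Subgroup.subset_closure (by simp)
  have hU : U ∈ Subgroup.closure {S, U} := Subgroup.subset_closure (by simp)
  rintro x (rfl | rfl)
  · exact hS
  · rw [T_eq]; exact inv_mem (mul_mem hS hU)

/-- Induction principle: a right-`S`- and `U`-stable property. -/
theorem const_of_S_U {α : Type*} {f : SL(2, ℤ) → α} (hS : ∀ g, f (g * S) = f g)
    (hU : ∀ g, f (g * U) = f g) (g : SL(2, ℤ)) : f g = f 1 := by
  have key : ∀ h ∈ Subgroup.closure {S, U}, ∀ g, f (g * h) = f g := by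
    intro h hh
    induction hh using Subgroup.closure_induction with
    | mem x hx =>
      rcases hx with rfl | rfl
      · exact hS
      · exact hU
    | one => intro g; rw [mul_one]
    | mul x y _ _ hx hy => intro g; rw [← mul_assoc, hy, hx]
    | inv x _ hx => intro g; rw [← hx (g * x⁻¹), inv_mul_cancel_right]
  have := key g (closure_S_U ▸ Subgroup.mem_top g) 1
  rwa [one_mul] at this

/-- `ZMod n → G` for an element of exponent `n`. -/
def zmodHom {G : Type*} [Group G] (n : ℕ) (g : G) (h : g ^ n = 1) :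
    Multiplicative (ZMod n) →* G :=
  AddMonoidHom.toMultiplicativeLeft
    (ZMod.lift n ⟨zmultiplesHom (Additive G) (Additive.ofMul g), by
      rw [zmultiplesHom_apply, natCast_zsmul, ← ofMul_pow, h, ofMul_one]⟩)

theorem zmodHom_ofAdd_intCast {G : Type*} [Group G] {n : ℕ} {g : G} (h : g ^ n = 1) (k : ℤ) :
    zmodHom n g h (Multiplicative.ofAdd (k : ZMod n)) = g ^ k := by
  change Additive.toMul (ZMod.lift n _ (k : ZMod n)) = _
  rw [ZMod.lift_coe]
  simp

/-- The orders of the two factors. -/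
abbrev nn (b : Bool) : ℕ := cond b 3 2

/-- The factors. -/
abbrev Fac (b : Bool) : Type := Multiplicative (ZMod (nn b))

section

variable {G : Type*} [Group G] (s u : G) (hs : s ^ 2 = 1) (hu : u ^ 3 = 1)

/-- The hom from each factor. -/
def facHom : ∀ b : Bool, Fac b →* G
  | false => zmodHom 2 s hs
  | true => zmodHom 3 u hu

/-- generator of the free product -/
def gen (b : Bool) : Monoid.CoprodI Fac :=
  Monoid.CoprodI.of (i := b) (Multiplicative.ofAdd ((1 : ℤ) : ZMod (nn b)))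

theorem lift_gen_false : Monoid.CoprodI.lift (facHom s u hs hu) (gen false) = s := by
  rw [gen, Monoid.CoprodI.lift_of]
  change zmodHom 2 s hs (Multiplicative.ofAdd ((1 : ℤ) : ZMod 2)) = s
  rw [zmodHom_ofAdd_intCast, zpow_one]

theorem lift_gen_true : Monoid.CoprodI.lift (facHom s u hs hu) (gen true) = u := by
  rw [gen, Monoid.CoprodI.lift_of]
  change zmodHom 3 u hu (Multiplicative.ofAdd ((1 : ℤ) : ZMod 3)) = u
  rw [zmodHom_ofAdd_intCast, zpow_one]

end

/-- The action on cusps as a permutation representation. -/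
noncomputable def permHom : SL(2, ℤ) →* Equiv.Perm Cusp :=
  (MulAction.toPermHom (GL (Fin 2) ℚ) Cusp).comp (mapGL ℚ)

theorem permHom_apply (g : SL(2, ℤ)) (c : Cusp) : permHom g c = toQ g • c := rfl

theorem toQ_apply_fp (g : SL(2, ℤ)) (i j : Fin 2) :
    (toQ g : Matrix (Fin 2) (Fin 2) ℚ) i j = ((g : Matrix (Fin 2) (Fin 2) ℤ) i j : ℚ) := by
  rw [toQ, mapGL_coe_matrix]; rfl

theorem toQ_smul_infty (g : SL(2, ℤ)) : toQ g • (∞ : Cusp) =
    if (g : Matrix (Fin 2) (Fin 2) ℤ) 1 0 = 0 then ∞ else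
      (((g : Matrix (Fin 2) (Fin 2) ℤ) 0 0 / (g : Matrix (Fin 2) (Fin 2) ℤ) 1 0 : ℚ) : Cusp) := by
  rw [OnePoint.smul_infty_eq_ite]
  simp only [toQ_apply_fp, Int.cast_eq_zero]

theorem toQ_smul_coe (g : SL(2, ℤ)) (q : ℚ) : toQ g • (q : Cusp) =
    if ((g : Matrix (Fin 2) (Fin 2) ℤ) 1 0 : ℚ) * q + (g : Matrix (Fin 2) (Fin 2) ℤ) 1 1 = 0
      then ∞ else
      (((((g : Matrix (Fin 2) (Fin 2) ℤ) 0 0 : ℚ) * q + (g : Matrix (Fin 2) (Fin 2) ℤ) 0 1) /
        (((g : Matrix (Fin 2) (Fin 2) ℤ) 1 0 : ℚ) * q + (g : Matrix (Fin 2) (Fin 2) ℤ) 1 1) : ℚ) :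
          Cusp) := by
  rw [OnePoint.smul_some_eq_ite]
  simp only [toQ_apply_fp]

theorem toQ_neg_one_smul (c : Cusp) : toQ (-1) • c = c := by
  induction c using OnePoint.rec with
  | infty => rw [toQ_smul_infty]; simp
  | coe q => rw [toQ_smul_coe]; simp

theorem permHom_neg_one : permHom (-1) = 1 := by
  ext c
  rw [permHom_apply, toQ_neg_one_smul]; rfl

theorem toQ_neg_smul (g : SL(2, ℤ)) (c : Cusp) : toQ (-g) • c = toQ g • c := by
  rw [show -g = g * (-1) by simp, toQ, map_mul, mul_smul]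
  change toQ g • (toQ (-1) • c) = _
  rw [toQ_neg_one_smul]

theorem toQ_S_smul (q : ℚ) (hq : q ≠ 0) : toQ S • (q : Cusp) = ((-q⁻¹ : ℚ) : Cusp) := by
  rw [toQ_smul_coe, ModularGroup.coe_S]
  simp [hq, div_eq_inv_mul]

theorem toQ_S_infty : toQ S • (∞ : Cusp) = ((0 : ℚ) : Cusp) := by
  rw [toQ_smul_infty, ModularGroup.coe_S]
  simp

theorem toQ_S_zero : toQ S • ((0 : ℚ) : Cusp) = ∞ := by
  rw [toQ_smul_coe, ModularGroup.coe_S]
  simp

theorem toQ_U_infty : toQ U • (∞ : Cusp) = ((0 : ℚ) : Cusp) := by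
  rw [toQ_smul_infty, coe_U]
  simp

theorem toQ_U_zero : toQ U • ((0 : ℚ) : Cusp) = ((1 : ℚ) : Cusp) := by
  rw [toQ_smul_coe, coe_U]
  simp

theorem toQ_U_one : toQ U • ((1 : ℚ) : Cusp) = ∞ := by
  rw [toQ_smul_coe, coe_U]
  simp

theorem toQ_T_infty : toQ T • (∞ : Cusp) = ∞ := by
  rw [toQ_smul_infty, ModularGroup.coe_T]
  simp

theorem toQ_U_smul (q : ℚ) (hq : 1 - q ≠ 0) : toQ U • (q : Cusp) = ((1 / (1 - q) : ℚ) : Cusp) := by
  rw [toQ_smul_coe, coe_U]
  have h : ¬ (-q + 1 = 0) := by intro h; apply hq; linarith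
  simp [h, sub_eq_neg_add]

theorem toQ_U_sq_smul (q : ℚ) (hq : q ≠ 0) :
    toQ (U ^ 2) • (q : Cusp) = ((1 - 1 / q : ℚ) : Cusp) := by
  rw [toQ_smul_coe, coe_U_sq]
  simp only [of_apply, cons_val', cons_val_zero, cons_val_one, cons_val_fin_one, Int.cast_neg,
    Int.cast_one, Int.cast_zero, add_zero, neg_mul, one_mul, neg_eq_zero, hq, if_false]
  congr 1
  field_simp
  ring

/-- `S` and `U` acting on the cusps satisfy the ping-pong conditions. -/
theorem lift_perm_injective (hs : permHom S ^ 2 = 1) (hu : permHom U ^ 3 = 1) :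
    Function.Injective (Monoid.CoprodI.lift (facHom (permHom S) (permHom U) hs hu)) := by
  let X : Bool → Set Cusp := fun b => cond b {c | ∃ q : ℚ, 0 < q ∧ c = (q : Cusp)}
    {c | ∃ q : ℚ, q < 0 ∧ c = (q : Cusp)}
  refine Monoid.CoprodI.lift_injective_of_ping_pong (facHom (permHom S) (permHom U) hs hu)
    ?_ X ?_ ?_ ?_
  · right
    refine ⟨true, ?_⟩
    change 3 ≤ Cardinal.mk (Multiplicative (ZMod 3))
    have : Cardinal.mk (Multiplicative (ZMod 3)) = 3 := by
      rw [Cardinal.mk_fintype]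
      simp [ZMod.card]
    rw [this]
  · intro b
    cases b
    · exact ⟨((-1 : ℚ) : Cusp), -1, by norm_num, rfl⟩
    · exact ⟨((1 : ℚ) : Cusp), 1, by norm_num, rfl⟩
  · have key : Disjoint (X false) (X true) := by
      rw [Set.disjoint_left]
      rintro c ⟨q, hq, rfl⟩ ⟨r, hr, h⟩
      have : q = r := OnePoint.coe_injective h
      linarith
    intro i j hij
    cases i <;> cases j
    · exact absurd rfl hij
    · exact key
    · exact key.symm
    · exact absurd rfl hij
  · have key1 : ∀ c ∈ X true, permHom S c ∈ X false := by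
      rintro c ⟨q, hq, rfl⟩
      refine ⟨-q⁻¹, by simpa using hq, ?_⟩
      rw [permHom_apply, toQ_S_smul q hq.ne']
    have key2 : ∀ c ∈ X false, permHom U c ∈ X true := by
      rintro c ⟨q, hq, rfl⟩
      refine ⟨1 / (1 - q), by apply one_div_pos.mpr; linarith, ?_⟩
      rw [permHom_apply, toQ_U_smul q (by linarith)]
    have key3 : ∀ c ∈ X false, (permHom U ^ 2) c ∈ X true := by
      rintro c ⟨q, hq, rfl⟩
      refine ⟨1 - 1 / q, ?_, ?_⟩
      · have : 1 / q < 0 := one_div_neg.mpr hq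
        linarith
      · rw [← map_pow, permHom_apply, toQ_U_sq_smul q hq.ne]
    intro i j hij h hh
    cases i <;> cases j
    · exact absurd rfl hij
    · have h2 : ∀ h : ZMod 2, h ≠ 0 → h = ((1 : ℤ) : ZMod 2) := by decide
      have : h = Multiplicative.ofAdd ((1 : ℤ) : ZMod 2) :=
        congrArg Multiplicative.ofAdd (h2 (Multiplicative.toAdd h) hh)
      rw [this]
      rintro _ ⟨c, hc, rfl⟩
      change (zmodHom 2 (permHom S) hs (Multiplicative.ofAdd ((1 : ℤ) : ZMod 2))) c ∈ X false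
      rw [zmodHom_ofAdd_intCast, zpow_one]
      exact key1 c hc
    · have h3 : ∀ h : ZMod 3, h ≠ 0 → h = ((1 : ℤ) : ZMod 3) ∨ h = ((2 : ℤ) : ZMod 3) := by decide
      rcases h3 (Multiplicative.toAdd h) hh with h4 | h4
      · have : h = Multiplicative.ofAdd ((1 : ℤ) : ZMod 3) := congrArg Multiplicative.ofAdd h4
        rw [this]
        rintro _ ⟨c, hc, rfl⟩
        change (zmodHom 3 (permHom U) hu (Multiplicative.ofAdd ((1 : ℤ) : ZMod 3))) c ∈ X true
        rw [zmodHom_ofAdd_intCast, zpow_one]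
        exact key2 c hc
      · have : h = Multiplicative.ofAdd ((2 : ℤ) : ZMod 3) := congrArg Multiplicative.ofAdd h4
        rw [this]
        rintro _ ⟨c, hc, rfl⟩
        change (zmodHom 3 (permHom U) hu (Multiplicative.ofAdd ((2 : ℤ) : ZMod 3))) c ∈ X true
        rw [zmodHom_ofAdd_intCast]
        exact key3 c hc
    · exact absurd rfl hij

theorem permHom_S_sq : permHom S ^ 2 = 1 := by
  rw [← map_pow, S_sq, permHom_neg_one]

theorem permHom_U_pow_three : permHom U ^ 3 = 1 := by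
  rw [← map_pow, U_pow_three, permHom_neg_one]

/-- **`PSL(2,ℤ) = C₂ * C₃`**, as a universal property. -/
theorem exists_hom_of_relations {H : Type*} [Group H] (s u : H) (hs : s ^ 2 = 1) (hu : u ^ 3 = 1) :
    ∃ φ : SL(2, ℤ) →* H, φ S = s ∧ φ U = u := by
  set F := Monoid.CoprodI.lift (facHom (permHom S) (permHom U) permHom_S_sq permHom_U_pow_three)
    with hF
  have hinj : Function.Injective F := lift_perm_injective _ _
  have hrange : ∀ g, permHom g ∈ F.range := by
    intro g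
    have hg : g ∈ Subgroup.closure {S, U} := closure_S_U ▸ Subgroup.mem_top g
    have : Subgroup.closure {S, U} ≤ F.range.comap permHom := by
      rw [Subgroup.closure_le]
      rintro x (rfl | rfl)
      · exact ⟨gen false, lift_gen_false _ _ _ _⟩
      · exact ⟨gen true, lift_gen_true _ _ _ _⟩
    exact this hg
  let e : Monoid.CoprodI Fac ≃* F.range := MonoidHom.ofInjective hinj
  let ψ : SL(2, ℤ) →* Monoid.CoprodI Fac :=
    e.symm.toMonoidHom.comp (permHom.codRestrict F.range hrange)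
  have hψ : ∀ g w, F w = permHom g → ψ g = w := by
    intro g w hw
    change e.symm _ = w
    rw [MulEquiv.symm_apply_eq]
    apply Subtype.ext
    exact hw.symm
  refine ⟨(Monoid.CoprodI.lift (facHom s u hs hu)).comp ψ, ?_, ?_⟩
  · rw [MonoidHom.comp_apply, hψ S (gen false) (lift_gen_false _ _ _ _), lift_gen_false]
  · rw [MonoidHom.comp_apply, hψ U (gen true) (lift_gen_true _ _ _ _), lift_gen_true]

section Primitive

variable {A : Type*} [AddCommGroup A]

/-- Even functions on `SL(2,ℤ)`. -/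
abbrev EvenFun (A : Type*) : Type _ := {f : SL(2, ℤ) → A // ∀ g, f (-g) = f g}

/-- The affine permutation `f ↦ (g ↦ f (g x) - m g)` of even functions. -/
def affPerm (x : SL(2, ℤ)) (m : SL(2, ℤ) → A) (hm : ∀ g, m (-g) = m g) :
    Equiv.Perm (EvenFun A) where
  toFun f := ⟨fun g => f.1 (g * x) - m g, fun g => by
    change f.1 (-g * x) - m (-g) = f.1 (g * x) - m g
    rw [neg_mul, f.2, hm]⟩
  invFun f := ⟨fun g => f.1 (g * x⁻¹) + m (g * x⁻¹), fun g => by
    change f.1 (-g * x⁻¹) + m (-g * x⁻¹) = f.1 (g * x⁻¹) + m (g * x⁻¹)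
    rw [neg_mul, f.2, hm]⟩
  left_inv f := by
    apply Subtype.ext; funext g
    simp
  right_inv f := by
    apply Subtype.ext; funext g
    simp

theorem affPerm_apply (x : SL(2, ℤ)) (m : SL(2, ℤ) → A) (hm : ∀ g, m (-g) = m g) (f : EvenFun A)
    (g : SL(2, ℤ)) : (affPerm x m hm f).1 g = f.1 (g * x) - m g := rfl

/-- Vanishing of `H¹` obstruction for `C₂ * C₃`: every pair of functions satisfying the `S`- and
`U`- relations has a primitive. -/
theorem exists_primitive (mS mU : SL(2, ℤ) → A) (hSe : ∀ g, mS (-g) = mS g)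
    (hUe : ∀ g, mU (-g) = mU g) (hS : ∀ g, mS g + mS (g * S) = 0)
    (hU : ∀ g, mU g + mU (g * U) + mU (g * U ^ 2) = 0) :
    ∃ k : SL(2, ℤ) → A, (∀ g, k (g * S) = k g + mS g) ∧ (∀ g, k (g * U) = k g + mU g) := by
  have hs : affPerm S mS hSe ^ 2 = 1 := by
    ext f g
    rw [pow_two, Equiv.Perm.mul_apply, affPerm_apply, affPerm_apply]
    rw [Equiv.Perm.one_apply, mul_assoc, ← pow_two, S_sq, mul_neg, mul_one, f.2]
    have := hS g
    rw [sub_sub, add_comm (mS (g * S)), this, sub_zero]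
  have hu : affPerm U mU hUe ^ 3 = 1 := by
    ext f g
    rw [pow_succ, pow_two, Equiv.Perm.mul_apply, Equiv.Perm.mul_apply, affPerm_apply,
      affPerm_apply, affPerm_apply, Equiv.Perm.one_apply]
    have h3 : g * U * U * U = -g := by
      rw [mul_assoc, mul_assoc, ← mul_assoc U U U, ← pow_two, ← pow_succ, U_pow_three]; simp
    have h2 : g * U * U = g * U ^ 2 := by rw [mul_assoc, ← pow_two]
    rw [h3, h2, f.2]
    have := hU g
    have h5 : mU (g * U ^ 2) + (mU (g * U) + mU g) = 0 := by rw [← this]; abel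
    rw [sub_sub, sub_sub, h5, sub_zero]
  obtain ⟨φ, hφS, hφU⟩ := exists_hom_of_relations _ _ hs hu
  have key : ∀ h : SL(2, ℤ), ∀ f f' : EvenFun A, ∀ γ : SL(2, ℤ),
      (φ h f).1 γ - (φ h f').1 γ = f.1 (γ * h) - f'.1 (γ * h) := by
    intro h
    have hh : h ∈ Subgroup.closure {S, U} := closure_S_U ▸ Subgroup.mem_top h
    induction hh using Subgroup.closure_induction with
    | mem x hx =>
      rcases hx with rfl | rfl
      · intro f f' γ; rw [hφS, affPerm_apply, affPerm_apply]; abel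
      · intro f f' γ; rw [hφU, affPerm_apply, affPerm_apply]; abel
    | one => intro f f' γ; rw [map_one, mul_one]; rfl
    | mul x y _ _ hx hy =>
      intro f f' γ
      rw [map_mul, Equiv.Perm.mul_apply, Equiv.Perm.mul_apply, hx, hy, mul_assoc]
    | inv x _ hx =>
      intro f f' γ
      have := hx (φ x⁻¹ f) (φ x⁻¹ f') (γ * x⁻¹)
      rw [← Equiv.Perm.mul_apply, ← Equiv.Perm.mul_apply, ← map_mul, mul_inv_cancel, map_one,
        inv_mul_cancel_right] at this
      exact this.symm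
  let z : EvenFun A := ⟨fun _ => 0, fun _ => rfl⟩
  refine ⟨fun γ => -(φ γ z).1 1, fun g => ?_, fun g => ?_⟩
  · have h1 := key g (φ S z) z 1
    rw [← Equiv.Perm.mul_apply, ← map_mul, hφS, affPerm_apply, one_mul] at h1
    have h2 : z.1 (g * S) = 0 := rfl
    rw [h2, sub_zero] at h1
    have h4 : (φ (g * S) z).1 1 = (φ g z).1 1 - mS g := by
      rw [sub_eq_iff_eq_add] at h1
      rw [h1]; abel
    change -(φ (g * S) z).1 1 = -(φ g z).1 1 + mS g
    rw [h4]; abel
  · have h1 := key g (φ U z) z 1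
    rw [← Equiv.Perm.mul_apply, ← map_mul, hφU, affPerm_apply, one_mul] at h1
    have h2 : z.1 (g * U) = 0 := rfl
    rw [h2, sub_zero] at h1
    have h4 : (φ (g * U) z).1 1 = (φ g z).1 1 - mU g := by
      rw [sub_eq_iff_eq_add] at h1
      rw [h1]; abel
    change -(φ (g * U) z).1 1 = -(φ g z).1 1 + mU g
    rw [h4]; abel

end Primitive

end Fermat.Agent.LR
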