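import Fermat.Agent.LR.GaloisInput
import Fermat.Agent.Lib.VariableChangePoint
import Fermat.Agent.EllTorsion.Torsion
import Fermat.Prelude.Def_EllipticCurve_FrobeniusTrace
import Fermat.Prelude.Def_FLTPrelim_ModularRep

/-!
# Galois input for level raising (S41): elliptic curves

`exists_prime_not_eisenstein`: if `E[p]` is irreducible (`p` odd), then for every `D > 0`, prime
`q'` and finite set `S'` there is a good prime `ℓ ∉ S'`, `ℓ ≡ 1 mod D`, such that `q'` is not a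
`p`-th power mod `ℓ` and `a_ℓ(W) ≢ 2 mod p`. (Modulo the trace of Frobenius formula.)
-/

set_option autoImplicit false

open WeierstrassCurve WeierstrassCurve.Affine WeierstrassCurve.Affine.Point
open scoped WeierstrassCurve.Affine

namespace Fermat.Agent.LR.GaloisInput

local notation "Qbar" => AlgebraicClosure ℚ
local notation "Γℚ" => (AlgebraicClosure ℚ ≃ₐ[ℚ] AlgebraicClosure ℚ)

/-- The trace of Frobenius formula on `W[p]` (FROBTRACE): trace `a_ℓ`, determinant `ℓ`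
for primes `ℓ ∤ p Δ`. -/
def FrobTraceInput (W : WeierstrassCurve ℤ) (p : ℕ) : Prop :=
  ∀ ℓ : ℕ, ℓ.Prime → W.IsGoodPrimeFor ℓ → ℓ ≠ p →
    ∀ A : ValuationSubring Qbar, A.LiesOverPrime ℓ → ∀ σ : Γℚ, A.IsFrobeniusAt σ ℓ →
      LinearMap.trace (ZMod p) _
        (galoisRepModuleEnd (S := ℚ) (K := Qbar) (W.map (Int.castRingHom ℚ)) p σ) =
          ((W.apOfModel ℓ : ℤ) : ZMod p) ∧
      LinearMap.det
        (galoisRepModuleEnd (S := ℚ) (K := Qbar) (W.map (Int.castRingHom ℚ)) p σ) =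
          (ℓ : ZMod p)

/-- **Galois input** for an integral Weierstrass curve with irreducible mod `p` representation. -/
theorem exists_prime_of_modRepIsIrreducible {W : WeierstrassCurve ℤ} (hΔ : W.Δ ≠ 0) {p : ℕ}
    (hp : p.Prime) (hp2 : p ≠ 2) (hFT : FrobTraceInput W p) (hirr : W.ModRepIsIrreducible p)
    {q' : ℕ} (hq' : q'.Prime) (D : ℕ) (hD : 0 < D) (S' : Finset ℕ) :
    ∃ ℓ : ℕ, ℓ.Prime ∧ ℓ ∉ S' ∧ ℓ ≡ 1 [MOD D] ∧ W.IsGoodPrimeFor ℓ ∧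
      (∀ x : ZMod ℓ, x ^ p ≠ (q' : ZMod ℓ)) ∧ ¬ (p : ℤ) ∣ (W.apOfModel ℓ - 2) := by
  have : Fact p.Prime := ⟨hp⟩
  have hell : (W.map (Int.castRingHom ℚ)).IsElliptic := by
    refine ⟨?_⟩
    rw [WeierstrassCurve.map_Δ]
    simpa using hΔ
  have hell' : WeierstrassCurve.IsElliptic ((W.map (Int.castRingHom ℚ))⁄Qbar) :=
    EllTorsion.isElliptic_baseChange (W.map (Int.castRingHom ℚ))
  have hp0 : (p : Qbar) ≠ 0 := by exact_mod_cast hp.ne_zero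
  have hfin := EllTorsion.moduleFinite_torsionBy (W' := W.map (Int.castRingHom ℚ)) (K := Qbar) hp0
  have h2 := EllTorsion.finrank_torsionBy (W' := W.map (Int.castRingHom ℚ)) (K := Qbar) hp0
    hp.ne_one
  obtain ⟨L, hLfin, hL⟩ := EllTorsion.galoisRepModuleEnd_factorsThroughFiniteLevel
    (W.map (Int.castRingHom ℚ)) hp.ne_zero
  obtain ⟨-, hirr'⟩ := hirr
  obtain ⟨ℓ, hℓ, hℓS, hℓD, hpow, ht⟩ := exists_prime_of_rep (p := p) hp2 h2
    (galoisRepModuleEnd (S := ℚ) (K := Qbar) (W.map (Int.castRingHom ℚ)) p)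
    (fun N hN => hirr' N hN) L hL
    (({p} : Finset ℕ) ∪ W.Δ.natAbs.primeFactors) (fun ℓ => ((W.apOfModel ℓ : ℤ) : ZMod p))
    (fun ℓ hℓ hℓS A hA σ hσ => by
      rw [Finset.mem_union, not_or, Finset.mem_singleton] at hℓS
      refine hFT ℓ hℓ (fun h => hℓS.2 ?_) hℓS.1 A hA σ hσ
      exact Nat.mem_primeFactors.mpr ⟨hℓ, Int.natCast_dvd.mp h, Int.natAbs_ne_zero.mpr hΔ⟩)
    hq' D hD (S' ∪ W.Δ.natAbs.primeFactors)
  rw [Finset.mem_union, not_or] at hℓS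
  refine ⟨ℓ, hℓ, hℓS.1, hℓD, fun h => hℓS.2 ?_, hpow, fun h => ht ?_⟩
  · exact Nat.mem_primeFactors.mpr ⟨hℓ, Int.natCast_dvd.mp h, Int.natAbs_ne_zero.mpr hΔ⟩
  · have h3 := (ZMod.intCast_zmod_eq_zero_iff_dvd (W.apOfModel ℓ - 2) p).mpr h
    push_cast at h3
    exact sub_eq_zero.mp h3

/-- **Galois input**, in the form used for S41. -/
theorem exists_prime_not_eisenstein (E : WeierstrassCurve ℚ) [E.IsElliptic]
    {W : WeierstrassCurve ℤ} (hW : W.IsIntegralModelOf E) {p : ℕ} (hp : p.Prime) (hp2 : p ≠ 2)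
    (hFT : FrobTraceInput W p)
    (hirr : GaloisRepIsIrreducible (K := AlgebraicClosure ℚ) ℚ E p)
    {q' : ℕ} (hq' : q'.Prime) (D : ℕ) (hD : 0 < D) (S' : Finset ℕ) :
    ∃ ℓ : ℕ, ℓ.Prime ∧ ℓ ∉ S' ∧ ℓ ≡ 1 [MOD D] ∧ W.IsGoodPrimeFor ℓ ∧
      (∀ x : ZMod ℓ, x ^ p ≠ (q' : ZMod ℓ)) ∧ ¬ (p : ℤ) ∣ (W.apOfModel ℓ - 2) := by
  have hΔ : W.Δ ≠ 0 := by
    intro h0
    obtain ⟨C, hC⟩ := hW
    have h1 : (C • E).Δ = 0 := by
      rw [hC, WeierstrassCurve.map_Δ, h0, _root_.map_zero]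
    rw [WeierstrassCurve.variableChange_Δ] at h1
    have h3 : E.Δ ≠ 0 := E.isUnit_Δ.ne_zero
    exact mul_ne_zero (pow_ne_zero _ (Units.ne_zero _)) h3 h1
  exact exists_prime_of_modRepIsIrreducible hΔ hp hp2 hFT
    ((VarChange.modRepIsIrreducible_iff_of_isIntegralModelOf hW p).mpr hirr) hq' D hD S'

end Fermat.Agent.LR.GaloisInput
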