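import Fermat.Agent.LR.Basic
import Fermat.Prelude.Sol.S_ModularForm_heckeT_slash_eq_self_of_mem_Gamma0

/-!
# Hecke operators on modular symbols: stability and basic relations (team LR)
-/

set_option autoImplicit false

open Matrix Matrix.SpecialLinearGroup CongruenceSubgroup
open scoped MatrixGroups OnePoint

namespace Fermat.Agent.LR

variable {R : Type*} [CommRing R]

/-! ### Matrices acting on cusps -/

theorem toQ_entry (γ : SL(2, ℤ)) (i j : Fin 2) :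
    (toQ γ : Matrix (Fin 2) (Fin 2) ℚ) i j = ((γ i j : ℤ) : ℚ) := by
  simp

theorem smul_eq_of_val_smul {g h : GL (Fin 2) ℚ} {c : ℚ} (hc : c ≠ 0)
    (hgh : (g : Matrix (Fin 2) (Fin 2) ℚ) = c • (h : Matrix (Fin 2) (Fin 2) ℚ)) (s : Cusp) :
    g • s = h • s := by
  have h00 : g 0 0 = c * h 0 0 := by rw [hgh]; simp
  have h01 : g 0 1 = c * h 0 1 := by rw [hgh]; simp
  have h10 : g 1 0 = c * h 1 0 := by rw [hgh]; simp
  have h11 : g 1 1 = c * h 1 1 := by rw [hgh]; simp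
  induction s using OnePoint.rec with
  | infty =>
    rw [OnePoint.smul_infty_eq_ite, OnePoint.smul_infty_eq_ite, h00, h10]
    by_cases h0 : h 1 0 = 0
    · simp [h0]
    · rw [if_neg (mul_ne_zero hc h0), if_neg h0, mul_div_mul_left _ _ hc]
  | coe k =>
    rw [OnePoint.smul_some_eq_ite, OnePoint.smul_some_eq_ite, h00, h01, h10, h11]
    have e1 : c * h 1 0 * k + c * h 1 1 = c * (h 1 0 * k + h 1 1) := by ring
    have e2 : c * h 0 0 * k + c * h 0 1 = c * (h 0 0 * k + h 0 1) := by ring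
    rw [e1, e2]
    by_cases h0 : h 1 0 * k + h 1 1 = 0
    · simp [h0]
    · rw [if_neg (mul_ne_zero hc h0), if_neg h0, mul_div_mul_left _ _ hc]

theorem slash_congr {g h : GL (Fin 2) ℚ} {c : ℚ} (hc : c ≠ 0)
    (hgh : (g : Matrix (Fin 2) (Fin 2) ℚ) = c • (h : Matrix (Fin 2) (Fin 2) ℚ)) (x : Pairs R) :
    slash g x = slash h x := by
  funext a b
  simp only [slash_apply, smul_eq_of_val_smul hc hgh]

theorem slash_toQ_of_mem {Γ : Subgroup SL(2, ℤ)} {x : Pairs R} (hx : x ∈ MS Γ R) {γ : SL(2, ℤ)}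
    (hγ : γ ∈ Γ) : slash (toQ γ) x = x := hx.2 γ hγ

theorem slash_toQ_mul_of_mem {Γ : Subgroup SL(2, ℤ)} {x : Pairs R} (hx : x ∈ MS Γ R)
    {γ : SL(2, ℤ)} (hγ : γ ∈ Γ) (g : GL (Fin 2) ℚ) : slash (toQ γ * g) x = slash g x := by
  rw [slash_mul, hx.2 γ hγ]

/-- if `g = γ h` up to a scalar with `γ ∈ Γ` then `x|g = x|h`. -/
theorem slash_eq_of_mul {Γ : Subgroup SL(2, ℤ)} {x : Pairs R} (hx : x ∈ MS Γ R)
    {γ : SL(2, ℤ)} (hγ : γ ∈ Γ) {g h : GL (Fin 2) ℚ} {c : ℚ} (hc : c ≠ 0)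
    (hgh : (g : Matrix (Fin 2) (Fin 2) ℚ) = c • ((toQ γ : Matrix (Fin 2) (Fin 2) ℚ) *
      (h : Matrix (Fin 2) (Fin 2) ℚ))) :
    slash g x = slash h x := by
  rw [← slash_toQ_mul_of_mem hx hγ h]
  exact slash_congr hc (by rw [hgh]; rfl) x

theorem slash_add_of_add {x : Pairs R} (hx : ∀ a b c, x a b + x b c = x a c)
    (g : GL (Fin 2) ℚ) : ∀ a b c, slash g x a b + slash g x b c = slash g x a c :=
  fun _ _ _ => hx _ _ _

/-! ### Representatives -/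

/-- coset representatives of `T_ℓ` indexed by `ℙ¹(𝔽_ℓ)`. -/
noncomputable def heckeRepQ (ℓ : ℕ) (s : OnePoint (ZMod ℓ)) : GL (Fin 2) ℚ :=
  s.elim (diagMat ℓ) (fun j => heckeMat ℓ (j.val : ℤ))

@[simp] theorem heckeRepQ_infty (ℓ : ℕ) : heckeRepQ ℓ ∞ = diagMat ℓ := rfl

@[simp] theorem heckeRepQ_coe (ℓ : ℕ) (j : ZMod ℓ) :
    heckeRepQ ℓ (j : OnePoint (ZMod ℓ)) = heckeMat ℓ (j.val : ℤ) := rfl

theorem val_heckeMat {ℓ : ℕ} (hℓ : ℓ ≠ 0) (j : ℤ) :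
    (heckeMat ℓ j : Matrix (Fin 2) (Fin 2) ℚ) = !![1, (j : ℚ); 0, (ℓ : ℚ)] := by
  rw [heckeMat, val_triMat j (by simpa using hℓ)]; simp

theorem val_diagMat {ℓ : ℕ} (hℓ : ℓ ≠ 0) :
    (diagMat ℓ : Matrix (Fin 2) (Fin 2) ℚ) = !![(ℓ : ℚ), 0; 0, 1] := by
  rw [diagMat, val_triMat 0 (by simpa using hℓ)]; simp

theorem sum_range_eq_sum_zmod {A : Type*} [AddCommMonoid A] (p : ℕ) [NeZero p] (F : ℕ → A) :
    ∑ j ∈ Finset.range p, F j = ∑ s : ZMod p, F s.val :=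
  P2MW.S_ModularForm_heckeT_slash_eq_self_of_mem_Gamma0.ModularForm.HeckeSlashInvariance.sum_range_eq_sum_zmod F

theorem heckeU_eq_sum_zmod (ℓ : ℕ) [NeZero ℓ] (x : Pairs R) :
    heckeU ℓ x = ∑ j : ZMod ℓ, slash (heckeMat ℓ (j.val : ℤ)) x := by
  rw [heckeU_apply, sum_range_eq_sum_zmod ℓ (fun j => slash (heckeMat ℓ (j : ℤ)) x)]

theorem heckeT_eq_sum (ℓ : ℕ) [NeZero ℓ] (x : Pairs R) :
    heckeT ℓ x = ∑ s : OnePoint (ZMod ℓ), slash (heckeRepQ ℓ s) x := by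
  rw [heckeT_apply, heckeU_eq_sum_zmod, add_comm, degen_apply]
  exact (Fintype.sum_option (fun s : OnePoint (ZMod ℓ) => slash (heckeRepQ ℓ s) x)).symm

section transfer

open P2MW.S_ModularForm_heckeT_slash_eq_self_of_mem_Gamma0

theorem map_real_injective :
    Function.Injective (GeneralLinearGroup.map (n := Fin 2) (algebraMap ℚ ℝ)) := by
  intro g h hgh
  ext i j
  have := congrArg (fun m : GL (Fin 2) ℝ => m i j) hgh
  simpa using this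

theorem map_real_toQ (γ : SL(2, ℤ)) :
    GeneralLinearGroup.map (algebraMap ℚ ℝ) (toQ γ) = mapGL ℝ γ :=
  map_mapGL γ

theorem map_real_heckeMat {ℓ : ℕ} (hℓ : ℓ ≠ 0) (j : ℕ) :
    GeneralLinearGroup.map (algebraMap ℚ ℝ) (heckeMat ℓ j) = ModularForm.heckeMatrix ℓ j := by
  ext i k
  rw [ModularForm.val_heckeMatrix hℓ]
  have h := val_heckeMat hℓ (j : ℤ)
  have : (GeneralLinearGroup.map (algebraMap ℚ ℝ) (heckeMat ℓ j) : Matrix (Fin 2) (Fin 2) ℝ) i k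
      = algebraMap ℚ ℝ ((heckeMat ℓ j : Matrix (Fin 2) (Fin 2) ℚ) i k) := rfl
  rw [this, h]
  fin_cases i <;> fin_cases k <;> simp

theorem map_real_diagMat {ℓ : ℕ} (hℓ : ℓ ≠ 0) :
    GeneralLinearGroup.map (algebraMap ℚ ℝ) (diagMat ℓ) = ModularForm.heckeDiagMatrix ℓ := by
  ext i k
  rw [ModularForm.val_heckeDiagMatrix hℓ]
  have h := val_diagMat hℓ
  have : (GeneralLinearGroup.map (algebraMap ℚ ℝ) (diagMat ℓ) : Matrix (Fin 2) (Fin 2) ℝ) i k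
      = algebraMap ℚ ℝ ((diagMat ℓ : Matrix (Fin 2) (Fin 2) ℚ) i k) := rfl
  rw [this, h]
  fin_cases i <;> fin_cases k <;> simp

theorem map_real_heckeRepQ {ℓ : ℕ} (hℓ : ℓ ≠ 0) (s : OnePoint (ZMod ℓ)) :
    GeneralLinearGroup.map (algebraMap ℚ ℝ) (heckeRepQ ℓ s) =
      ModularForm.HeckeSlashInvariance.heckeRep ℓ s := by
  induction s using OnePoint.rec with
  | infty => exact map_real_diagMat hℓ
  | coe j => exact map_real_heckeMat hℓ j.val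

/-- the permutation of `ℙ¹(𝔽_ℓ)` attached to `g`. -/
noncomputable def redMat (ℓ : ℕ) [Fact ℓ.Prime] (g : SL(2, ℤ)) : GL (Fin 2) (ZMod ℓ) :=
  ModularForm.HeckeSlashInvariance.redMatrix ℓ g

theorem heckeRepQ_mul {ℓ : ℕ} [Fact ℓ.Prime] {N : ℕ} (hN : ¬ ℓ ∣ N) (g : SL(2, ℤ))
    (hg : (N : ℤ) ∣ g 1 0) (s : OnePoint (ZMod ℓ)) :
    ∃ g' : SL(2, ℤ), (N : ℤ) ∣ g' 1 0 ∧
      heckeRepQ ℓ s * toQ g = toQ g' * heckeRepQ ℓ (redMat ℓ g • s) := by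
  have hℓ : ℓ ≠ 0 := (Fact.out : ℓ.Prime).ne_zero
  obtain ⟨g', h1, h2⟩ := ModularForm.HeckeSlashInvariance.heckeRep_mul hN g hg s
  refine ⟨g', h1, map_real_injective ?_⟩
  rw [map_mul, map_mul, map_real_toQ, map_real_toQ, map_real_heckeRepQ hℓ, map_real_heckeRepQ hℓ]
  exact h2

theorem heckeMat_mul_of_dvd {q : ℕ} [NeZero q] (g : SL(2, ℤ)) (hc : (q : ℤ) ∣ g 1 0) :
    ∃ π : Equiv.Perm (ZMod q), ∀ s : ZMod q, ∃ g' : SL(2, ℤ), g' 1 0 = q * g 1 0 ∧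
      heckeMat q (s.val : ℤ) * toQ g = toQ g' * heckeMat q ((π s).val : ℤ) := by
  have hq : q ≠ 0 := NeZero.ne q
  refine ⟨ModularForm.HeckeSlashInvariance.affinePerm g
    ((ZMod.intCast_zmod_eq_zero_iff_dvd _ _).mpr hc), fun s => ?_⟩
  obtain ⟨g', h1, h2⟩ := ModularForm.HeckeSlashInvariance.heckeMatrix_mul_of_dvd g hc s
  refine ⟨g', h1, map_real_injective ?_⟩
  rw [map_mul, map_mul, map_real_toQ, map_real_toQ, map_real_heckeMat hq, map_real_heckeMat hq]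
  exact h2

end transfer

theorem mem_Gamma0_iff {N : ℕ} {γ : SL(2, ℤ)} : γ ∈ Gamma0 N ↔ (N : ℤ) ∣ γ 1 0 := by
  rw [Gamma0_mem, ZMod.intCast_zmod_eq_zero_iff_dvd]

/-- `T_ℓ` preserves modular symbols of level `Γ₀(N)`, `ℓ ∤ N`. -/
theorem heckeT_mem_MS {N ℓ : ℕ} (hℓ : ℓ.Prime) (hN : ¬ ℓ ∣ N) {x : Pairs R}
    (hx : x ∈ MS (Gamma0 N) R) : heckeT ℓ x ∈ MS (Gamma0 N) R := by
  have : Fact ℓ.Prime := ⟨hℓ⟩
  refine ⟨fun a b c => ?_, fun γ hγ => ?_⟩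
  · rw [heckeT_eq_sum]
    simp only [Finset.sum_apply]
    rw [← Finset.sum_add_distrib]
    exact Finset.sum_congr rfl fun s _ => hx.1 _ _ _
  · rw [heckeT_eq_sum, map_sum]
    rw [← Equiv.sum_comp (MulAction.toPerm (redMat ℓ γ)) (fun s => slash (heckeRepQ ℓ s) x)]
    refine Finset.sum_congr rfl fun s _ => ?_
    obtain ⟨g', h1, h2⟩ := heckeRepQ_mul hN γ (mem_Gamma0_iff.mp hγ) s
    rw [← slash_mul, h2, slash_toQ_mul_of_mem hx (mem_Gamma0_iff.mpr h1)]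
    rfl

/-- `U_q` preserves modular symbols of level `Γ₀(N)`, `q ∣ N`. -/
theorem heckeU_mem_MS {N q : ℕ} [NeZero q] (hN : q ∣ N) {x : Pairs R}
    (hx : x ∈ MS (Gamma0 N) R) : heckeU q x ∈ MS (Gamma0 N) R := by
  refine ⟨fun a b c => ?_, fun γ hγ => ?_⟩
  · rw [heckeU_apply]
    simp only [Finset.sum_apply]
    rw [← Finset.sum_add_distrib]
    exact Finset.sum_congr rfl fun s _ => hx.1 _ _ _
  · have hγN := mem_Gamma0_iff.mp hγ
    obtain ⟨π, hπ⟩ := heckeMat_mul_of_dvd (q := q) γ ((Int.natCast_dvd_natCast.mpr hN).trans hγN)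
    rw [heckeU_eq_sum_zmod, map_sum]
    rw [← Equiv.sum_comp π (fun s : ZMod q => slash (heckeMat q (s.val : ℤ)) x)]
    refine Finset.sum_congr rfl fun s _ => ?_
    obtain ⟨g', h1, h2⟩ := hπ s
    rw [← slash_mul, h2, slash_toQ_mul_of_mem hx
      (mem_Gamma0_iff.mpr (h1 ▸ Dvd.dvd.mul_left hγN _))]

end Fermat.Agent.LR
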