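import Fermat.Agent.LR.Form

/-!
# The intersection form as a sum over cusps (team LR)

For `x y ∈ MS Γ ℚ` a *lift* is a cocycle `E : Γ → Fun(Cusp, ℚ)` with
`E γ b' - E γ b = 2 y(∞, γ∞) x(b, b')`.  Then for `L` with `g T^L g⁻¹ ∈ Γ` for all `g`

`Σ_{g ∈ Γ \ SL(2,ℤ)} E (g T^L g⁻¹) (g∞) = - (L/3) formSum Γ x y`.
-/

set_option autoImplicit false

open Matrix Matrix.SpecialLinearGroup CongruenceSubgroup
open scoped MatrixGroups OnePoint

namespace Fermat.Agent.LR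

local notation "S" => ModularGroup.S
local notation "T" => ModularGroup.T

/-! ### Sums over `Γ \ SL(2,ℤ)` -/

section CosetSum

variable {A : Type*} [AddCommMonoid A]

/-- left `Γ`-invariant functions. -/
def LInv (Γ : Subgroup SL(2, ℤ)) {A : Type*} (F : SL(2, ℤ) → A) : Prop :=
  ∀ γ ∈ Γ, ∀ g, F (γ * g) = F g

/-- the function on `SL(2,ℤ) ⧸ Γ` attached to a left invariant function. -/
noncomputable def cosetFun (Γ : Subgroup SL(2, ℤ)) {A : Type*} (F : SL(2, ℤ) → A) :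
    SL(2, ℤ) ⧸ Γ → A := fun c => F (Quotient.out c)⁻¹

theorem cosetFun_mk {Γ : Subgroup SL(2, ℤ)} {A : Type*} {F : SL(2, ℤ) → A} (hF : LInv Γ F)
    (g : SL(2, ℤ)) : cosetFun Γ F (g : SL(2, ℤ) ⧸ Γ) = F g⁻¹ := by
  obtain ⟨h, hh⟩ := QuotientGroup.mk_out_eq_mul Γ g
  change F (Quotient.out (g : SL(2, ℤ) ⧸ Γ))⁻¹ = F g⁻¹
  rw [hh, _root_.mul_inv_rev]
  exact hF _ (inv_mem h.2) _

theorem cosetFun_mk_inv {Γ : Subgroup SL(2, ℤ)} {A : Type*} {F : SL(2, ℤ) → A} (hF : LInv Γ F)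
    (g : SL(2, ℤ)) : cosetFun Γ F ((g⁻¹ : SL(2, ℤ)) : SL(2, ℤ) ⧸ Γ) = F g := by
  rw [cosetFun_mk hF, inv_inv]

variable (Γ : Subgroup SL(2, ℤ)) [Fintype (SL(2, ℤ) ⧸ Γ)]

/-- `Σ_{g ∈ Γ \ SL(2,ℤ)} F g`. -/
noncomputable def sumL (F : SL(2, ℤ) → A) : A := ∑ c : SL(2, ℤ) ⧸ Γ, cosetFun Γ F c

variable {Γ}

omit [Fintype (SL(2, ℤ) ⧸ Γ)] in
theorem LInv.mul_right {A : Type*} {F : SL(2, ℤ) → A} (hF : LInv Γ F) (k : SL(2, ℤ)) :
    LInv Γ (fun g => F (g * k)) := fun γ hγ g => by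
  change F (γ * g * k) = F (g * k)
  rw [mul_assoc]; exact hF γ hγ _

theorem sumL_congr {F F' : SL(2, ℤ) → A} (h : ∀ g, F g = F' g) : sumL Γ F = sumL Γ F' := by
  have : F = F' := funext h
  rw [this]

omit [Fintype (SL(2, ℤ) ⧸ Γ)] in
theorem cosetFun_mul_right {A : Type*} {F : SL(2, ℤ) → A} (hF : LInv Γ F) (k : SL(2, ℤ))
    (c : SL(2, ℤ) ⧸ Γ) : cosetFun Γ (fun g => F (g * k)) c = cosetFun Γ F (k⁻¹ • c) := by
  induction c using QuotientGroup.induction_on with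
  | H g =>
    rw [cosetFun_mk (hF.mul_right k), MulAction.Quotient.smul_coe, smul_eq_mul, cosetFun_mk hF,
      _root_.mul_inv_rev, inv_inv]

theorem sumL_mul_right {F : SL(2, ℤ) → A} (hF : LInv Γ F) (k : SL(2, ℤ)) :
    sumL Γ (fun g => F (g * k)) = sumL Γ F := by
  rw [sumL, sumL]
  simp only [cosetFun_mul_right hF]
  exact Equiv.sum_comp (MulAction.toPerm k⁻¹) (cosetFun Γ F)

theorem sumL_add (F F' : SL(2, ℤ) → A) :
    sumL Γ (fun g => F g + F' g) = sumL Γ F + sumL Γ F' := by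
  rw [sumL, sumL, sumL, ← Finset.sum_add_distrib]; rfl

theorem sumL_mul_left {R : Type*} [CommRing R] (r : R) (F : SL(2, ℤ) → R) :
    sumL Γ (fun g => r * F g) = r * sumL Γ F := by
  rw [sumL, sumL, Finset.mul_sum]; rfl

theorem sumL_zero : sumL Γ (fun _ => (0 : A)) = 0 := by
  rw [sumL]; exact Finset.sum_const_zero

end CosetSum

/-- the form as a sum over `Γ \ SL(2,ℤ)`. -/
theorem formSum_eq_sumL {R : Type*} [CommRing R] {Γ : Subgroup SL(2, ℤ)}
    [Fintype (SL(2, ℤ) ⧸ Γ)] {x y : Pairs R} (hx : x ∈ MS Γ R) (hy : y ∈ MS Γ R) :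
    formSum Γ x y = sumL Γ (fun g => maninFun x g * maninFun y (g * U) -
      maninFun x (g * U) * maninFun y g) := by
  have hinv : LInv Γ (fun g => maninFun x g * maninFun y (g * U) -
      maninFun x (g * U) * maninFun y g) := by
    intro γ hγ g
    simp only [mul_assoc γ g U, maninFun_of_mem hx hγ, maninFun_of_mem hy hγ]
  rw [formSum_eq_sum, sumL]
  refine Finset.sum_congr rfl fun c _ => ?_
  induction c using QuotientGroup.induction_on with
  | H g =>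
    rw [cosetFun_mk hinv, MulAction.Quotient.smul_coe, smul_eq_mul, manin_mk hx, manin_mk hy,
      manin_mk hx, manin_mk hy, _root_.mul_inv_rev, inv_inv]

/-! ### homomorphisms `Γ → ℚ` have vanishing transfer -/

section Transfer

variable {Γ : Subgroup SL(2, ℤ)} [Fintype (SL(2, ℤ) ⧸ Γ)]

theorem sumL_hom_eq_zero (hneg : (-1 : SL(2, ℤ)) ∈ Γ) {f : SL(2, ℤ) → ℚ}
    (hf : ∀ γ ∈ Γ, ∀ δ ∈ Γ, f (γ * δ) = f γ + f δ) {L : ℕ} (hL : ∀ g, g * T ^ L * g⁻¹ ∈ Γ) :
    sumL Γ (fun g => f (g * T ^ L * g⁻¹)) = 0 := by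
  -- the section
  set r : SL(2, ℤ) → SL(2, ℤ) := fun g => (Quotient.out ((g⁻¹ : SL(2, ℤ)) : SL(2, ℤ) ⧸ Γ))⁻¹
    with hr
  have hr1 : ∀ γ ∈ Γ, ∀ g, r (γ * g) = r g := by
    intro γ hγ g
    simp only [hr]
    rw [_root_.mul_inv_rev, QuotientGroup.mk_mul_of_mem _ (inv_mem hγ)]
  have hr2 : ∀ g, g * (r g)⁻¹ ∈ Γ := by
    intro g
    obtain ⟨h, hh⟩ := QuotientGroup.mk_out_eq_mul Γ g⁻¹
    simp only [hr]
    rw [hh, inv_inv, mul_inv_cancel_left]
    exact h.2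
  set k : SL(2, ℤ) → ℚ := fun g => f (g * (r g)⁻¹) with hk
  have hk1 : ∀ γ ∈ Γ, ∀ g, k (γ * g) = f γ + k g := by
    intro γ hγ g
    simp only [hk]
    rw [hr1 γ hγ, mul_assoc, hf γ hγ _ (hr2 g)]
  have hinv : ∀ z, LInv Γ (fun g => k (g * z) - k g) := by
    intro z γ hγ g
    simp only [mul_assoc γ g z, hk1 γ hγ]; ring
  set τ : SL(2, ℤ) → ℚ := fun z => sumL Γ (fun g => k (g * z) - k g) with hτ
  have hτmul : ∀ z z', τ (z * z') = τ z + τ z' := by
    intro z z'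
    have h1 : τ z' = sumL Γ (fun g => k (g * z * z') - k (g * z)) :=
      (sumL_mul_right (hinv z') z).symm
    rw [h1]
    simp only [hτ]
    rw [← sumL_add]
    refine sumL_congr fun g => ?_
    rw [mul_assoc]; ring
  have hτ1 : τ 1 = 0 := by
    have := hτmul 1 1
    rw [mul_one] at this
    linarith
  have hf1 : f 1 = 0 := by
    have := hf 1 (one_mem _) 1 (one_mem _)
    rw [mul_one] at this
    linarith
  have hfneg : f (-1) = 0 := by
    have := hf (-1) hneg (-1) hneg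
    rw [neg_mul_neg, mul_one, hf1] at this
    linarith
  have hτneg : τ (-1) = 0 := by
    simp only [hτ]
    have : ∀ g, k (g * -1) - k g = 0 := by
      intro g
      have : g * -1 = -1 * g := by simp
      rw [this, hk1 _ hneg, hfneg]; ring
    rw [sumL_congr this, sumL_zero]
  have hτS : τ S = 0 := by
    have h := hτmul S S
    rw [← pow_two, S_sq, hτneg] at h
    linarith
  have hτU : τ U = 0 := by
    have h := hτmul (U * U) U
    rw [hτmul U U, ← pow_two, ← pow_succ, U_pow_three, hτneg] at h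
    linarith
  have hτT : τ T = 0 := by
    have h := hτmul (S * U) T
    rw [S_mul_U, inv_mul_cancel, hτ1, ← S_mul_U, hτmul, hτS, hτU] at h
    linarith
  have hτL : τ (T ^ L) = 0 := by
    induction L with
    | zero => rw [pow_zero, hτ1]
    | succ n ih =>
      clear ih
      have : ∀ n : ℕ, τ (T ^ n) = 0 := by
        intro n
        induction n with
        | zero => rw [pow_zero, hτ1]
        | succ n ih => rw [pow_succ, hτmul, ih, hτT, add_zero]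
      exact this _
  rw [← hτL]
  simp only [hτ]
  refine sumL_congr fun g => ?_
  have h1 := hk1 _ (hL g) g
  rw [inv_mul_cancel_right] at h1
  rw [h1]; ring

end Transfer

/-! ### lifts -/

section Lift

/-- A lift: a cocycle `E : Γ → Fun(Cusp, ℚ)` with `dE γ = 2 y(∞, γ∞) x`. -/
structure IsLift (Γ : Subgroup SL(2, ℤ)) (x y : Pairs ℚ) (E : SL(2, ℤ) → Cusp → ℚ) : Prop where
  /-- the differential -/
  diff : ∀ γ ∈ Γ, ∀ b b' : Cusp, E γ b' - E γ b = 2 * y ∞ (toQ γ • ∞) * x b b'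
  /-- the cocycle relation -/
  cocycle : ∀ γ ∈ Γ, ∀ δ ∈ Γ, ∀ b : Cusp, E (γ * δ) b = E γ (toQ δ • b) + E δ b

variable {Γ : Subgroup SL(2, ℤ)} {x y : Pairs ℚ} {E : SL(2, ℤ) → Cusp → ℚ}

theorem IsLift.one (hE : IsLift Γ x y E) (b : Cusp) : E 1 b = 0 := by
  have h := hE.cocycle 1 (one_mem _) 1 (one_mem _) b
  have h1 : toQ (1 : SL(2, ℤ)) = 1 := map_one _
  rw [mul_one, h1, one_smul] at h
  linarith

/-- on the stabiliser of a cusp the lift is additive and conjugation invariant. -/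
theorem IsLift.conj (hE : IsLift Γ x y E) {γ a : SL(2, ℤ)} (hγ : γ ∈ Γ) (ha : a ∈ Γ) {s : Cusp}
    (has : toQ a • s = s) : E (γ * a * γ⁻¹) (toQ γ • s) = E a s := by
  have h1 : toQ γ⁻¹ • (toQ γ • s) = s := by
    rw [← toQ_mul_smul, inv_mul_cancel]
    have h1 : toQ (1 : SL(2, ℤ)) = 1 := map_one _
    rw [h1, one_smul]
  rw [hE.cocycle _ (mul_mem hγ ha) _ (inv_mem hγ), h1, hE.cocycle _ hγ _ ha, has]
  have h2 := hE.cocycle _ (inv_mem hγ) _ hγ s
  rw [inv_mul_cancel, hE.one] at h2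
  linarith

theorem IsLift.pow (hE : IsLift Γ x y E) {a : SL(2, ℤ)} (ha : a ∈ Γ) {s : Cusp}
    (has : toQ a • s = s) (n : ℕ) : E (a ^ n) s = n * E a s := by
  induction n with
  | zero => rw [pow_zero, hE.one]; simp
  | succ n ih =>
    rw [pow_succ, hE.cocycle _ (pow_mem ha n) _ ha, has, ih]; push_cast; ring

/-- The function `e(g) = E (g T^L g⁻¹) (g∞)`. -/
noncomputable def cuspFun (E : SL(2, ℤ) → Cusp → ℚ) (L : ℕ) (g : SL(2, ℤ)) : ℚ :=
  E (g * T ^ L * g⁻¹) (toQ g • ∞)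

theorem toQ_T_pow_infty (L : ℕ) : toQ (T ^ L) • (∞ : Cusp) = ∞ := by
  induction L with
  | zero =>
    have h1 : toQ (1 : SL(2, ℤ)) = 1 := map_one _
    rw [pow_zero, h1, one_smul]
  | succ n ih => rw [pow_succ, toQ_mul_smul, toQ_T_infty, ih]

theorem toQ_conj_fix (g : SL(2, ℤ)) (L : ℕ) :
    toQ (g * T ^ L * g⁻¹) • (toQ g • (∞ : Cusp)) = toQ g • ∞ := by
  rw [← toQ_mul_smul, inv_mul_cancel_right, toQ_mul_smul, toQ_T_pow_infty]

theorem IsLift.cuspFun_inv (hE : IsLift Γ x y E) {L : ℕ} (hL : ∀ g, g * T ^ L * g⁻¹ ∈ Γ) :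
    LInv Γ (cuspFun E L) := by
  intro γ hγ g
  rw [cuspFun, cuspFun, toQ_mul_smul]
  have : γ * g * T ^ L * (γ * g)⁻¹ = γ * (g * T ^ L * g⁻¹) * γ⁻¹ := by group
  rw [this, hE.conj hγ (hL g) (toQ_conj_fix g L)]

theorem cuspFun_mul_T (E : SL(2, ℤ) → Cusp → ℚ) (L : ℕ) (g : SL(2, ℤ)) :
    cuspFun E L (g * T) = cuspFun E L g := by
  rw [cuspFun, cuspFun, toQ_mul_smul, toQ_T_infty]
  congr 1
  rw [_root_.mul_inv_rev]
  have : T * T ^ L = T ^ L * T := (Commute.refl T).pow_right L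
  rw [mul_assoc g T, this]; group

/-- existence of a lift together with the evaluation of its cusp sum. -/
theorem exists_lift [Fintype (SL(2, ℤ) ⧸ Γ)] (hx : x ∈ MS Γ ℚ) (hy : y ∈ MS Γ ℚ) :
    ∃ E : SL(2, ℤ) → Cusp → ℚ, IsLift Γ x y E ∧ ∀ L : ℕ, (∀ g, g * T ^ L * g⁻¹ ∈ Γ) →
      sumL Γ (cuspFun E L) = -(L / 3) * formSum Γ x y := by
  set h : SL(2, ℤ) → ℚ := fun g => y ∞ (toQ g • ∞) + y ∞ (toQ g • ((0 : ℚ) : Cusp)) with hh
  set u : SL(2, ℤ) → ℚ := fun γ => 2 * y ∞ (toQ γ • ∞) with hu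
  set m : SL(2, ℤ) → ℚ := maninFun x with hm
  set n : SL(2, ℤ) → ℚ := maninFun y with hn
  have hyinv : ∀ γ ∈ Γ, ∀ a b, y (toQ γ • a) (toQ γ • b) = y a b := fun γ hγ a b =>
    congrFun (congrFun (hy.2 γ hγ) a) b
  have hxinv : ∀ γ ∈ Γ, ∀ a b, x (toQ γ • a) (toQ γ • b) = x a b := fun γ hγ a b =>
    congrFun (congrFun (hx.2 γ hγ) a) b
  have hhΓ : ∀ γ ∈ Γ, ∀ g, h (γ * g) = u γ + h g := by
    intro γ hγ g
    simp only [hh, hu]
    rw [toQ_mul_smul, toQ_mul_smul]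
    have h1 := hy.1 ∞ (toQ γ • ∞) (toQ γ • (toQ g • ∞))
    have h2 := hy.1 ∞ (toQ γ • ∞) (toQ γ • (toQ g • ((0 : ℚ) : Cusp)))
    rw [hyinv γ hγ] at h1 h2
    linear_combination -h1 - h2
  have hhS : ∀ g, h (g * S) = h g := by
    intro g
    simp only [hh]
    rw [toQ_mul_smul, toQ_mul_smul, toQ_S_infty, toQ_S_zero]; ring
  have hhneg : ∀ g, h (-g) = h g := by
    intro g
    simp only [hh]
    rw [toQ_neg_smul, toQ_neg_smul]
  have hhU : ∀ g, h (g * U) = h g + n g + n (g * U) := by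
    intro g
    simp only [hh, hn]
    rw [maninFun_mul_U, maninFun, toQ_mul_smul, toQ_mul_smul, toQ_U_infty, toQ_U_zero]
    have h1 := hy.1 ∞ (toQ g • ∞) (toQ g • ((0 : ℚ) : Cusp))
    have h2 := hy.1 ∞ (toQ g • ((0 : ℚ) : Cusp)) (toQ g • ((1 : ℚ) : Cusp))
    linear_combination -h1 - h2
  have hmneg : ∀ g, m (-g) = m g := maninFun_neg x
  have hnneg : ∀ g, n (-g) = n g := maninFun_neg y
  have hmS : ∀ g, m g + m (g * S) = 0 := maninFun_S hx.1
  have hmU : ∀ g, m g + m (g * U) + m (g * U ^ 2) = 0 := maninFun_U hx.1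
  have hnU : ∀ g, n g + n (g * U) + n (g * U ^ 2) = 0 := maninFun_U hy.1
  have hmΓ : ∀ γ ∈ Γ, ∀ g, m (γ * g) = m g := fun γ hγ g => maninFun_of_mem hx hγ g
  have hnΓ : ∀ γ ∈ Γ, ∀ g, n (γ * g) = n g := fun γ hγ g => maninFun_of_mem hy hγ g
  have hU3 : ∀ g : SL(2, ℤ), g * U ^ 2 * U = -g := by
    intro g
    rw [mul_assoc, ← pow_succ, U_pow_three]; simp
  have hU2 : ∀ g : SL(2, ℤ), g * U * U = g * U ^ 2 := by
    intro g
    rw [mul_assoc, ← pow_two]
  set Φ : SL(2, ℤ) → ℚ := fun g => h g * m g + h (g * U) * m (g * U) +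
    h (g * U ^ 2) * m (g * U ^ 2) with hΦ
  have hΦU : ∀ g, Φ (g * U) = Φ g := by
    intro g
    simp only [hΦ]
    have : g * U * U ^ 2 = -g := by rw [mul_assoc, ← pow_succ', U_pow_three]; simp
    rw [hU2, this, hhneg, hmneg]; ring
  have hΦeq : ∀ g, Φ g = -(m g * n (g * U) - m (g * U) * n g) := by
    intro g
    simp only [hΦ]
    have h1 := hhU g
    have h2 := hhU (g * U)
    rw [hU2] at h2
    have h3 := hmU g
    have h4 := hnU g
    rw [h2, h1]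
    linear_combination (h g + n g + n (g * U) + n (g * U) + n (g * U ^ 2)) * h3 -
      (m (g * U)) * h4 - (m g) * h4
  have hΦΓ : LInv Γ Φ := by
    intro γ hγ g
    rw [hΦeq, hΦeq, mul_assoc, hmΓ γ hγ, hmΓ γ hγ, hnΓ γ hγ, hnΓ γ hγ]
  obtain ⟨K, hKS, hKU⟩ := exists_primitive (A := ℚ) (fun g => h g * m g)
    (fun g => h g * m g - Φ g / 3)
    (fun g => by simp only [hhneg, hmneg])
    (fun g => by
      have : Φ (-g) = Φ g := by
        simp only [hΦ]
        rw [neg_mul, neg_mul, hhneg, hhneg, hhneg, hmneg, hmneg, hmneg]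
      simp only [hhneg, hmneg, this])
    (fun g => by
      simp only [hhS]
      linear_combination (h g) * hmS g)
    (fun g => by
      have e1 : Φ (g * U ^ 2) = Φ g := by rw [← hU2, hΦU, hΦU]
      simp only [hΦU, e1]
      simp only [hΦ]; ring)
  have hEg : ∀ γ ∈ Γ, ∀ g b, K (γ * g) - K g + u γ * x (toQ g • ∞) b =
      K γ - K 1 + u γ * x ∞ b := by
    intro γ hγ g b
    have h1 : toQ (1 : SL(2, ℤ)) = 1 := map_one _
    have := const_of_S_U (f := fun g => K (γ * g) - K g + u γ * x (toQ g • ∞) b) ?_ ?_ g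
    · simp only [mul_one, h1, one_smul] at this
      exact this
    · intro g
      rw [← mul_assoc, hKS, hKS, hhΓ γ hγ, hmΓ γ hγ, toQ_mul_smul, toQ_S_infty]
      have h2 := hx.1 (toQ g • ∞) (toQ g • ((0 : ℚ) : Cusp)) b
      have h3 : m g = x (toQ g • ∞) (toQ g • ((0 : ℚ) : Cusp)) := rfl
      rw [h3]
      linear_combination (u γ) * h2
    · intro g
      rw [← mul_assoc, hKU, hKU, hhΓ γ hγ, hmΓ γ hγ, hΦΓ γ hγ, toQ_mul_smul, toQ_U_infty]
      have h2 := hx.1 (toQ g • ∞) (toQ g • ((0 : ℚ) : Cusp)) b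
      have h3 : m g = x (toQ g • ∞) (toQ g • ((0 : ℚ) : Cusp)) := rfl
      rw [h3]
      linear_combination (u γ) * h2
  refine ⟨fun γ b => K γ - K 1 + u γ * x ∞ b, ⟨fun γ hγ b b' => ?_, fun γ hγ δ hδ b => ?_⟩,
    fun L hL => ?_⟩
  · have h2 := hx.1 ∞ b b'
    simp only [hu]
    linear_combination (-2 * y ∞ (toQ γ • ∞)) * h2
  · have h1 := hEg γ hγ δ (toQ δ • b)
    rw [hxinv δ hδ] at h1
    have h2 : u (γ * δ) = u γ + u δ := by
      have e1 := hhΓ (γ * δ) (mul_mem hγ hδ) 1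
      have e2 := hhΓ γ hγ (δ * 1)
      have e3 := hhΓ δ hδ 1
      rw [mul_assoc] at e1
      linarith
    rw [← h1, h2]; ring
  · have hT : ∀ g, K (g * T) = K g + Φ g / 3 := by
      intro g
      have e1 : g * T * S * U = g := by
        rw [mul_assoc, mul_assoc, S_mul_U, mul_inv_cancel, mul_one]
      have e2 := hKU (g * T * S)
      rw [e1, hKS, hhS] at e2
      have e3 := hmS (g * T)
      have e4 := hΦU (g * T * S)
      rw [e1] at e4
      linear_combination -e2 - (h (g * T)) * e3 - e4 / 3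
    have hind : ∀ L : ℕ, LInv Γ (fun g => K (g * T ^ L) - K g) ∧
        sumL Γ (fun g => K (g * T ^ L) - K g) = L * sumL Γ (fun g => Φ g / 3) := by
      intro L
      induction L with
      | zero =>
        refine ⟨fun γ hγ g => by simp, ?_⟩
        have : ∀ g, K (g * T ^ 0) - K g = 0 := fun g => by simp
        rw [sumL_congr this, sumL_zero]; simp
      | succ L ih =>
        have hΦ3 : LInv Γ (fun g => Φ g / 3) := fun γ hγ g => by
          simp only [hΦΓ γ hγ]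
        have e : ∀ g, K (g * T ^ (L + 1)) - K g = (K (g * T ^ L) - K g) + Φ (g * T ^ L) / 3 := by
          intro g
          rw [pow_succ, ← mul_assoc, hT]; ring
        refine ⟨fun γ hγ g => ?_, ?_⟩
        · have e1 := ih.1 γ hγ g
          have e2 := hΦΓ γ hγ (g * T ^ L)
          simp only at e1 ⊢
          rw [e, e, e1, mul_assoc γ g, e2]
        · rw [sumL_congr e, sumL_add, ih.2, sumL_mul_right hΦ3 (T ^ L)]
          push_cast; ring
    have e1 : ∀ g, cuspFun (fun γ b => K γ - K 1 + u γ * x ∞ b) L g = K (g * T ^ L) - K g := by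
      intro g
      rw [cuspFun]
      rw [← hEg _ (hL g) g, inv_mul_cancel_right, add_self_eq_zero hx.1]; ring
    rw [sumL_congr e1, (hind L).2, formSum_eq_sumL hx hy]
    have e2 : ∀ g, Φ g / 3 = (-(1 / 3)) * (maninFun x g * maninFun y (g * U) -
        maninFun x (g * U) * maninFun y g) := by
      intro g
      rw [hΦeq]; ring
    rw [sumL_congr e2, sumL_mul_left]; ring

/-- **Evaluation of any lift.** -/
theorem IsLift.sumL_cuspFun [Fintype (SL(2, ℤ) ⧸ Γ)] (hneg : (-1 : SL(2, ℤ)) ∈ Γ)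
    (hx : x ∈ MS Γ ℚ) (hy : y ∈ MS Γ ℚ) (hE : IsLift Γ x y E) {L : ℕ}
    (hL : ∀ g, g * T ^ L * g⁻¹ ∈ Γ) :
    sumL Γ (cuspFun E L) = -(L / 3) * formSum Γ x y := by
  obtain ⟨E', hE', h'⟩ := exists_lift hx hy
  rw [← h' L hL]
  -- the difference is a homomorphism
  have hconst : ∀ γ ∈ Γ, ∀ b, E γ b - E' γ b = E γ ∞ - E' γ ∞ := by
    intro γ hγ b
    have h1 := hE.diff γ hγ ∞ b
    have h2 := hE'.diff γ hγ ∞ b
    linarith
  have hf : ∀ γ ∈ Γ, ∀ δ ∈ Γ, (E (γ * δ) ∞ - E' (γ * δ) ∞) =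
      (E γ ∞ - E' γ ∞) + (E δ ∞ - E' δ ∞) := by
    intro γ hγ δ hδ
    rw [hE.cocycle γ hγ δ hδ, hE'.cocycle γ hγ δ hδ]
    have := hconst γ hγ (toQ δ • ∞)
    linarith
  have hzero := sumL_hom_eq_zero (f := fun γ => E γ ∞ - E' γ ∞) hneg hf hL
  have hsum : ∀ g, cuspFun E L g = cuspFun E' L g +
      (E (g * T ^ L * g⁻¹) ∞ - E' (g * T ^ L * g⁻¹) ∞) := by
    intro g
    rw [← hconst _ (hL g) (toQ g • ∞), cuspFun, cuspFun]; ring
  rw [sumL_congr hsum, sumL_add, hzero, add_zero]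

end Lift

end Fermat.Agent.LR
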